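/-
M1 (row 38, S44), chapter NRM, brick HK0 (helper88): **norm, trace and characteristic polynomial
versus reduction** (Mathlib only).

* `norm_quotient_mk`, `charpoly_quotient_mk` (+ Mathlib's `Algebra.trace_quotient_mk`): for a local
  ring `R` with maximal ideal `p` and a finite free `R`-algebra `S`, norm / characteristic
  polynomial of `x : S` reduce to norm / characteristic polynomial of `x mod pS` over `R ⧸ p`.
* `norm_fraction`, `trace_fraction`: `O` a Dedekind domain (e.g. a DVR) which is a PID, `F = Frac O`,
  `F'/F` finite separable, `O'` an integral closure of `O` in `F'`: `O'` is finite free over `O`,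
  and `N_{F'/F} (b) = N_{O'/O} (b)`, `Tr_{F'/F} (b) = Tr_{O'/O} (b)` for `b : O'`.
  Together: the residue of `N_{F'/F} b` is `N_{(O'/pO')/(O/p)} (b mod p)` (`norm_fraction_residue`),
  with NO hypothesis on `O'/pO'`; when `pO'` is maximal this is the norm of the residue field
  extension (degree `[F':F]`, `finrank_quotient`).
* `norm_of_pow_mem`, `trace_of_pow_mem`: the inseparable variant.  `k ⊆ k'` fields of characteristic
  `p`, `[k':k] = p`, `y ^ p = a ∈ k`: `N y = a` (`p` odd or `p = 2`: in general `N y = a`),
  `Tr y = 0`.
* first order: Mathlib's `Algebra.norm_one_add_smul` is restated in the form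
  `N (1 + π^n c) = 1 + π^n Tr c + π^(2n) r` (`norm_one_add_pow_smul`).
-/
import Mathlib

set_option autoImplicit false

open IsLocalRing Module Polynomial IntermediateField

namespace Fermat.Agent.M1.NRM.NormRed88

/-! ### 1. Reduction modulo the maximal ideal of a local base -/

section Quotient

variable {R S : Type*} [CommRing R] [CommRing S] [Algebra R S]
variable [Module.Free R S] [Module.Finite R S]

local notation "p" => maximalIdeal R
local notation "pS" => Ideal.map (algebraMap R S) p

attribute [local instance] Ideal.Quotient.field

/-- the matrix of multiplication by `x mod pS` in the reduced basis is the reduction of the matrix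
of multiplication by `x`. -/
theorem leftMulMatrix_quotient_mk [IsLocalRing R] {ι : Type*} [Fintype ι] [DecidableEq ι]
    (b : Module.Basis ι R S) (x : S) :
    Algebra.leftMulMatrix (basisQuotient b) (Ideal.Quotient.mk pS x) =
      (Ideal.Quotient.mk p).mapMatrix (Algebra.leftMulMatrix b x) := by
  ext i j
  simp only [Algebra.leftMulMatrix_apply, Algebra.coe_lmul_eq_mul, LinearMap.toMatrix_apply,
    basisQuotient_apply, LinearMap.mul_apply', RingHom.mapMatrix_apply, Matrix.map_apply,
    ← map_mul, basisQuotient_repr]

/-- **The norm commutes with reduction modulo the maximal ideal.** -/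
theorem norm_quotient_mk [IsLocalRing R] (x : S) :
    Algebra.norm (R ⧸ p) (Ideal.Quotient.mk pS x) =
      Ideal.Quotient.mk p (Algebra.norm R x) := by
  classical
  let ι := Module.Free.ChooseBasisIndex R S
  let b : Module.Basis ι R S := Module.Free.chooseBasis R S
  rw [Algebra.norm_eq_matrix_det b, Algebra.norm_eq_matrix_det (basisQuotient b),
    RingHom.map_det, leftMulMatrix_quotient_mk]

/-- **The trace commutes with reduction modulo the maximal ideal** (Mathlib). -/
theorem trace_quotient_mk [IsLocalRing R] (x : S) :
    Algebra.trace (R ⧸ p) (S ⧸ pS) (Ideal.Quotient.mk pS x) =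
      Ideal.Quotient.mk p (Algebra.trace R S x) :=
  Algebra.trace_quotient_mk x

omit [Module.Free R S] in
/-- the residue algebra is finite over the residue field. -/
theorem finite_quotient [IsLocalRing R] : Module.Finite (R ⧸ p) (S ⧸ pS) :=
  Module.Finite.of_restrictScalars_finite R _ _

/-- **The characteristic polynomial commutes with reduction modulo the maximal ideal.**
(The instance `Module.Finite (R ⧸ p) (S ⧸ pS)` is `finite_quotient`.) -/
theorem charpoly_quotient_mk [IsLocalRing R] [Module.Finite (R ⧸ p) (S ⧸ pS)] (x : S) :
    (Algebra.lmul (R ⧸ p) (S ⧸ pS) (Ideal.Quotient.mk pS x)).charpoly =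
      ((Algebra.lmul R S x).charpoly).map (Ideal.Quotient.mk p) := by
  classical
  let ι := Module.Free.ChooseBasisIndex R S
  let b : Module.Basis ι R S := Module.Free.chooseBasis R S
  rw [← LinearMap.charpoly_toMatrix (Algebra.lmul R S x) b,
    ← LinearMap.charpoly_toMatrix (Algebra.lmul (R ⧸ p) (S ⧸ pS) (Ideal.Quotient.mk pS x))
      (basisQuotient b), ← Matrix.charpoly_map]
  congr 1
  exact leftMulMatrix_quotient_mk b x

/-- the residue algebra has the same rank. -/
theorem finrank_quotient [IsLocalRing R] :
    finrank (R ⧸ p) (S ⧸ pS) = finrank R S :=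
  IsLocalRing.finrank_quotient_map

end Quotient

/-! ### 2. First order expansion of the norm -/

section FirstOrder

variable {A B : Type*} [CommRing A] [CommRing B] [Algebra A B] [Module.Free A B]
  [Module.Finite A B]

/-- `N (1 + π^n c) = 1 + π^n Tr c + π^(2n) r`. -/
theorem norm_one_add_pow_smul (π : A) (n : ℕ) (c : B) :
    ∃ r : A, Algebra.norm A (1 + π ^ n • c) =
      1 + π ^ n * Algebra.trace A B c + π ^ (2 * n) * r := by
  obtain ⟨r, hr⟩ := Algebra.norm_one_add_smul (π ^ n) c
  refine ⟨r, ?_⟩
  rw [hr]
  ring

end FirstOrder

/-! ### 3. Integral closures in finite separable extensions of the fraction field -/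

section Fraction

variable (O F F' O' : Type*) [CommRing O] [IsDomain O] [IsPrincipalIdealRing O]
  [Field F] [Algebra O F] [IsFractionRing O F]
  [Field F'] [Algebra F F'] [Algebra O F'] [IsScalarTower O F F']
  [FiniteDimensional F F'] [Algebra.IsSeparable F F']
  [CommRing O'] [Algebra O O'] [Algebra O' F'] [IsScalarTower O O' F']
  [IsIntegralClosure O' O F']

include F F' in
/-- the integral closure is finite over `O`. -/
theorem finite_integralClosure : Module.Finite O O' :=
  IsIntegralClosure.finite O F F' O'

include F F' in
/-- the integral closure is free over `O`. -/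
theorem free_integralClosure : Module.Free O O' := by
  have : Module.IsTorsionFree O F' := by
    rw [Module.isTorsionFree_iff_algebraMap_injective, IsScalarTower.algebraMap_eq O F F']
    exact (algebraMap F F').injective.comp (IsFractionRing.injective O F)
  exact IsIntegralClosure.module_free O F F' O'

omit [IsPrincipalIdealRing O] [FiniteDimensional F F'] in
include F in
/-- `N_{F'/F} (b) = N_{O'/O} (b)` for `b : O'`. -/
theorem norm_fraction [Module.Free O O'] [Module.Finite O O'] (b : O') :
    Algebra.norm F (algebraMap O' F' b) = algebraMap O F (Algebra.norm O b) := by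
  have : IsLocalization (Algebra.algebraMapSubmonoid O' (nonZeroDivisors O)) F' :=
    IsIntegralClosure.isLocalization O F F' O'
  exact Algebra.norm_localization O (nonZeroDivisors O) b

omit [IsPrincipalIdealRing O] [FiniteDimensional F F'] in
include F in
/-- `Tr_{F'/F} (b) = Tr_{O'/O} (b)` for `b : O'`. -/
theorem trace_fraction [Module.Free O O'] [Module.Finite O O'] (b : O') :
    Algebra.trace F F' (algebraMap O' F' b) = algebraMap O F (Algebra.trace O O' b) := by
  have : IsLocalization (Algebra.algebraMapSubmonoid O' (nonZeroDivisors O)) F' :=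
    IsIntegralClosure.isLocalization O F F' O'
  exact Algebra.trace_localization O (nonZeroDivisors O) b

end Fraction

/-! ### 4. The inseparable variant -/

section Insep

variable {k k' : Type*} [Field k] [Field k'] [Algebra k k'] (p : ℕ) [hp : Fact p.Prime]
  [CharP k p]

/-- the image of the minimal polynomial of a `p`-th root is a power of `X - y`. -/
theorem map_minpoly_of_pow_eq [FiniteDimensional k k'] {y : k'} {a : k}
    (hy : y ^ p = algebraMap k k' a) :
    (minpoly k y).map (algebraMap k k') = (X - C y) ^ (minpoly k y).natDegree := by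
  have hchar : CharP k' p := charP_of_injective_algebraMap (algebraMap k k').injective p
  have hchar' : CharP k'[X] p := inferInstance
  have hint : IsIntegral k y := IsIntegral.of_finite k y
  have hdvd : minpoly k y ∣ X ^ p - C a := minpoly.dvd k y (by simp [hy])
  have hdvd' : (minpoly k y).map (algebraMap k k') ∣ (X - C y) ^ p := by
    have h1 := Polynomial.map_dvd (algebraMap k k') hdvd
    have h2 : (X ^ p - C a : k[X]).map (algebraMap k k') = (X - C y) ^ p := by
      rw [sub_pow_char, ← C_pow, hy]
      simp
    rwa [h2] at h1
  have hprime : Prime (X - C y : k'[X]) := prime_X_sub_C y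
  obtain ⟨i, -, hi⟩ := (dvd_prime_pow hprime p).mp hdvd'
  have hmonic : ((minpoly k y).map (algebraMap k k')).Monic := (minpoly.monic hint).map _
  have heq : (minpoly k y).map (algebraMap k k') = (X - C y) ^ i :=
    eq_of_monic_of_associated hmonic ((monic_X_sub_C y).pow i) hi
  have hdeg : i = (minpoly k y).natDegree := by
    have := congrArg natDegree heq
    rw [natDegree_map, natDegree_pow, natDegree_X_sub_C, mul_one] at this
    exact this.symm
  rw [heq, hdeg]

/-- **Inseparable variant, norm**: in a purely inseparable extension of degree `p`, the norm of a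
`p`-th root of `a` is `a`. -/
theorem norm_of_pow_eq (hdeg : finrank k k' = p) {y : k'} {a : k}
    (hy : y ^ p = algebraMap k k' a) : Algebra.norm k y = a := by
  have hfin : FiniteDimensional k k' :=
    Module.finite_of_finrank_pos (by rw [hdeg]; exact hp.out.pos)
  have hint : IsIntegral k y := IsIntegral.of_finite k y
  have hmap := map_minpoly_of_pow_eq p hy
  have hsplit : ((minpoly k y).map (algebraMap k k')).Splits := by
    rw [hmap]; exact (Splits.X_sub_C y).pow _
  have h := Algebra.norm_eq_prod_roots (K := k) (L := k') k' hsplit
  have hroots : (minpoly k y).aroots k' = (minpoly k y).natDegree • {y} := by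
    rw [aroots_def, hmap, roots_pow, roots_X_sub_C]
  rw [hroots, Multiset.prod_nsmul, Multiset.prod_singleton, ← pow_mul] at h
  have hmul : (minpoly k y).natDegree * finrank k⟮y⟯ k' = p := by
    rw [← IntermediateField.adjoin.finrank hint, Module.finrank_mul_finrank, hdeg]
  rw [hmul, hy] at h
  exact (algebraMap k k').injective h

/-- **Inseparable variant, trace**: in a purely inseparable extension of degree `p`, the trace of a
`p`-th root of an element of the base is `0`. -/
theorem trace_of_pow_eq (hdeg : finrank k k' = p) {y : k'} {a : k}
    (hy : y ^ p = algebraMap k k' a) : Algebra.trace k k' y = 0 := by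
  have hfin : FiniteDimensional k k' :=
    Module.finite_of_finrank_pos (by rw [hdeg]; exact hp.out.pos)
  have hchar : CharP k' p := charP_of_injective_algebraMap (algebraMap k k').injective p
  have hint : IsIntegral k y := IsIntegral.of_finite k y
  have hmap := map_minpoly_of_pow_eq p hy
  have hsplit : ((minpoly k y).map (algebraMap k k')).Splits := by
    rw [hmap]; exact (Splits.X_sub_C y).pow _
  have h := trace_eq_sum_roots (K := k) (L := k') (F := k') hsplit
  have hroots : (minpoly k y).aroots k' = (minpoly k y).natDegree • {y} := by
    rw [aroots_def, hmap, roots_pow, roots_X_sub_C]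
  rw [hroots, Multiset.sum_nsmul, Multiset.sum_singleton, ← mul_nsmul] at h
  have hmul : (minpoly k y).natDegree * finrank k⟮y⟯ k' = p := by
    rw [← IntermediateField.adjoin.finrank hint, Module.finrank_mul_finrank, hdeg]
  rw [hmul] at h
  have h0 : p • y = 0 := by
    rw [nsmul_eq_mul, CharP.cast_eq_zero k' p, zero_mul]
  rw [h0] at h
  exact (algebraMap k k').injective (by rw [h, map_zero])

end Insep

/-! ### 5. Norm to a residue field with purely inseparable residue extension of degree `p` -/

section InsepQuotient

variable {R S : Type*} [CommRing R] [CommRing S] [Algebra R S]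
variable [Module.Free R S] [Module.Finite R S]

local notation "p" => maximalIdeal R
local notation "pS" => Ideal.map (algebraMap R S) p

attribute [local instance] Ideal.Quotient.field

/-- `R` local with residue field of characteristic `q`, `S` finite free of rank `q` with `pS`
maximal (so `S ⧸ pS` is a field extension of degree `q` of `R ⧸ p`).  If `x ^ q ≡ a` modulo `pS`
with `a : R`, then `N_{S/R} x ≡ a` modulo `p`.  (`e = 1`, `f = q` purely inseparable:
`red (N b) = (red b) ^ q`.) -/
theorem norm_quotient_of_pow_mem [IsLocalRing R] [hmax : (pS).IsMaximal] (q : ℕ) [Fact q.Prime]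
    [CharP (R ⧸ p) q] (hrank : finrank R S = q) (x : S) (a : R)
    (hx : x ^ q - algebraMap R S a ∈ pS) :
    Ideal.Quotient.mk p (Algebra.norm R x) = Ideal.Quotient.mk p a := by
  rw [← norm_quotient_mk]
  refine norm_of_pow_eq q ?_ ?_
  · rw [IsLocalRing.finrank_quotient_map, hrank]
  · rw [← map_pow, ← sub_eq_zero]
    have h : algebraMap (R ⧸ p) (S ⧸ pS) (Ideal.Quotient.mk p a) =
        Ideal.Quotient.mk pS (algebraMap R S a) := rfl
    rw [h, ← map_sub]
    exact Ideal.Quotient.eq_zero_iff_mem.mpr hx

/-- same hypotheses: the trace of every `x` whose `q`-th power is congruent to an element of `R`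
lies in `p`. -/
theorem trace_quotient_of_pow_mem [IsLocalRing R] [hmax : (pS).IsMaximal] (q : ℕ) [Fact q.Prime]
    [CharP (R ⧸ p) q] (hrank : finrank R S = q) (x : S) (a : R)
    (hx : x ^ q - algebraMap R S a ∈ pS) :
    Algebra.trace R S x ∈ p := by
  rw [← Ideal.Quotient.eq_zero_iff_mem, ← Algebra.trace_quotient_mk]
  refine trace_of_pow_eq q (a := Ideal.Quotient.mk p a) ?_ ?_
  · rw [IsLocalRing.finrank_quotient_map, hrank]
  · rw [← map_pow, ← sub_eq_zero]
    have h : algebraMap (R ⧸ p) (S ⧸ pS) (Ideal.Quotient.mk p a) =
        Ideal.Quotient.mk pS (algebraMap R S a) := rfl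
    rw [h, ← map_sub]
    exact Ideal.Quotient.eq_zero_iff_mem.mpr hx

end InsepQuotient

end Fermat.Agent.M1.NRM.NormRed88
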