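/-
M1 (S44), chapter NRM/HK, brick HK4-val (helper88): the trace/norm formulas of `TwoPrimes88` in
FIELD / VALUATION-SUBRING form (the vocabulary of `NodalCore13`, `Thick25`, `Car/Defs43`).
Mathlib + `Thick25` (`IsUnifOf`) + `NormRed88` + `TwoPrimes88`.

Setting: `F / E` finite separable (`E = F_L(M'')`, `F = F_L(M''p)` along `α` or `β`),
`O' ⊂ E` a discrete valuation subring with uniformiser `ϖ` (the Gauss ring of the good level),
`O₁ O₂ ⊂ F` the two Gauss rings over it (`O_j ∩ E = O'`, `ϖ` a uniformiser of both: `e = 1`), and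
`O₁ ⊓ O₂` integral over `O'` (no further valuation ring over `O'`).

* `IsDiscrete O ϖ`, `IsDiscrete.isPrincipalIdealRing`;
* `TwoOver O' O₁ O₂ ϖ` : the hypotheses above;
* `TwoOver.trace_mem`, `TwoOver.norm_mem` : `Tr`, `N` map `O₁ ⊓ O₂` into `O'`;
* `TwoOver.norm_one_add` : `N (1 + ϖ^n c) = 1 + ϖ^n Tr c + ϖ^(2n) r`, `r ∈ O'`;
* `TwoOver.norm_strict` : the norm of a unit `≡ 1 mod ϖ^n` of `O₁ ⊓ O₂` is a unit `≡ 1 mod ϖ^n`
  of `O'` (the `StrictOn` shape of `Car/Defs43`);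
* `TwoOver.trace_sub_mem` : **`Tr c ≡ c mod ϖ O₁`** when `κ(O₁) = κ(O')` and `κ(O₂) / κ(O')` is
  purely inseparable of exponent one and nontrivial (the `O₂`-summand has trace `0`);
* `TwoOver.norm_lead` : for `n ≥ 1`, `N (1 + ϖ^n c) = 1 + ϖ^n c'` with `c' ∈ O'`,
  `c' ≡ c mod ϖ O₁` : "`π_*` on `gr^n` is the restriction to the first branch".
-/
import Mathlib
import Fermat.Agent.M1.Node.Thick25
import Fermat.Agent.M1.NRM.NormRed88
import Fermat.Agent.M1.NRM.TwoPrimes88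

set_option autoImplicit false

namespace Fermat.Agent.M1.NRM.TraceGauss88

open Module IsLocalRing Fermat.Agent.M1.Node.Thick25

/-! ### Discrete valuation subrings in membership form -/

section Discrete

variable {E : Type*} [Field E]

/-- `O` is a discrete valuation subring of `E` with uniformiser `ϖ` (membership form: the fields
`pi_nonunit`, `unif`, `arch` of `NodalCore13.NodalTwoChartModel`). -/
structure IsDiscrete (O : ValuationSubring E) (ϖ : E) : Prop where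
  unif : IsUnifOf O ϖ
  arch : ∀ x : E, ∃ k : ℕ, ϖ ^ k * x ∈ O

namespace IsDiscrete

variable {O : ValuationSubring E} {ϖ : E}

theorem mem (h : IsDiscrete O ϖ) : ϖ ∈ O := by
  rcases O.mem_or_inv_mem ϖ with h1 | h1
  · exact h1
  · exact absurd h1 h.unif.nonunit

theorem ne_zero (h : IsDiscrete O ϖ) : ϖ ≠ 0 := h.unif.ne_zero

/-- every nonzero element of `O` is `ϖ ^ n * unit`. -/
theorem exists_pow_mul_unit (h : IsDiscrete O ϖ) {x : E} (hx : x ∈ O) (hx0 : x ≠ 0) :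
    ∃ n : ℕ, ∃ u : E, u ∈ O ∧ u⁻¹ ∈ O ∧ x = ϖ ^ n * u := by
  obtain ⟨k, hk⟩ := h.arch x⁻¹
  have h1 : O.valuation x ≤ 1 := (O.valuation_le_one_iff _).mpr hx
  have hxpos : 0 < O.valuation x := by
    rw [pos_iff_ne_zero, Valuation.ne_zero_iff]; exact hx0
  have h2 : O.valuation ϖ ^ k ≤ O.valuation x := by
    have h3 : O.valuation (ϖ ^ k * x⁻¹) ≤ 1 := (O.valuation_le_one_iff _).mpr hk
    rw [map_mul, map_pow, map_inv₀, ← div_eq_mul_inv, div_le_one₀ hxpos] at h3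
    exact h3
  obtain ⟨n, -, hn⟩ := h.unif.val_eq_pow_of_le k x h1 h2
  have hpn : ϖ ^ n ≠ 0 := pow_ne_zero n h.ne_zero
  have hu : O.valuation ((ϖ ^ n)⁻¹ * x) = 1 := by
    rw [map_mul, map_inv₀, map_pow, hn]
    exact inv_mul_cancel₀ (pow_ne_zero n h.unif.val_ne_zero)
  refine ⟨n, (ϖ ^ n)⁻¹ * x, ?_, ?_, ?_⟩
  · exact (O.valuation_le_one_iff _).mp hu.le
  · rw [← O.valuation_le_one_iff, map_inv₀, hu, inv_one]
  · rw [← mul_assoc, mul_inv_cancel₀ hpn, one_mul]

theorem mem_maximalIdeal_iff (h : IsDiscrete O ϖ) (x : O) :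
    x ∈ maximalIdeal O ↔ ∃ c ∈ O, (x : E) = ϖ * c := by
  rw [h.unif.mem_pi_iff, ← ValuationSubring.valuation_lt_one_iff]

theorem isDiscreteValuationRing (h : IsDiscrete O ϖ) : IsDiscreteValuationRing O := by
  apply IsDiscreteValuationRing.ofHasUnitMulPowIrreducibleFactorization
  refine ⟨⟨ϖ, h.mem⟩, ?_, ?_⟩
  · -- irreducible
    have hnu : ¬ IsUnit (⟨ϖ, h.mem⟩ : O) := by
      intro hu
      have : (⟨ϖ, h.mem⟩ : O) ∉ maximalIdeal O := by
        rw [IsLocalRing.mem_maximalIdeal, mem_nonunits_iff, not_not]; exact hu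
      exact this ((h.mem_maximalIdeal_iff _).mpr ⟨1, O.one_mem, by simp⟩)
    refine ⟨hnu, ?_⟩
    intro a b hab
    by_contra hcon
    rw [not_or] at hcon
    obtain ⟨ha, hb⟩ := hcon
    have ha' : a ∈ maximalIdeal O := by rwa [IsLocalRing.mem_maximalIdeal, mem_nonunits_iff]
    have hb' : b ∈ maximalIdeal O := by rwa [IsLocalRing.mem_maximalIdeal, mem_nonunits_iff]
    obtain ⟨ca, hca, hae⟩ := (h.mem_maximalIdeal_iff a).mp ha'
    obtain ⟨cb, hcb, hbe⟩ := (h.mem_maximalIdeal_iff b).mp hb'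
    have h1 : ϖ = (a : E) * (b : E) := by
      have := congrArg (Subtype.val) hab
      simpa using this
    rw [hae, hbe] at h1
    have h2 : ϖ * 1 = ϖ * (ϖ * (ca * cb)) := by rw [mul_one]; nth_rewrite 1 [h1]; ring
    have h3 : 1 = ϖ * (ca * cb) := mul_left_cancel₀ h.ne_zero h2
    apply h.unif.nonunit
    have : ϖ⁻¹ = ca * cb := by
      exact inv_eq_of_mul_eq_one_right h3.symm
    rw [this]
    exact O.mul_mem _ _ hca hcb
  · intro x hx
    have hx0 : (x : E) ≠ 0 := fun h0 => hx (Subtype.ext h0)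
    obtain ⟨n, u, hu, hui, hxu⟩ := h.exists_pow_mul_unit x.2 hx0
    refine ⟨n, ?_⟩
    have hu0 : u ≠ 0 := by
      rintro rfl; rw [mul_zero] at hxu; exact hx0 hxu
    refine ⟨⟨⟨u, hu⟩, ⟨u⁻¹, hui⟩, Subtype.ext (mul_inv_cancel₀ hu0),
      Subtype.ext (inv_mul_cancel₀ hu0)⟩, ?_⟩
    apply Subtype.ext
    simp [hxu]

theorem isPrincipalIdealRing (h : IsDiscrete O ϖ) : IsPrincipalIdealRing O :=
  have := h.isDiscreteValuationRing
  inferInstance

end IsDiscrete

end Discrete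

/-! ### Two valuation rings over a discrete one -/

section Main

variable {E F : Type*} [Field E] [Field F] [Algebra E F]

/-- for `y ≠ 0`: `v(y) < 1 ↔ y⁻¹ ∉ O`. -/
theorem val_lt_one_iff_inv_not_mem (O : ValuationSubring F) {y : F} (hy : y ≠ 0) :
    O.valuation y < 1 ↔ y⁻¹ ∉ O := by
  have hpos : 0 < O.valuation y := by
    rw [pos_iff_ne_zero, Valuation.ne_zero_iff]; exact hy
  rw [← O.valuation_le_one_iff, map_inv₀, not_le, one_lt_inv₀ hpos]

/-- restriction of the valuation: nonunits correspond. -/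
theorem val_lt_one_iff_of_comap {O' : ValuationSubring E} {O : ValuationSubring F}
    (hcomap : ∀ x : E, algebraMap E F x ∈ O ↔ x ∈ O') (x : E) :
    O.valuation (algebraMap E F x) < 1 ↔ O'.valuation x < 1 := by
  by_cases hx : x = 0
  · subst hx; simp
  have hxF : algebraMap E F x ≠ 0 := fun h0 =>
    hx ((map_eq_zero_iff _ (algebraMap E F).injective).mp h0)
  rw [val_lt_one_iff_inv_not_mem O hxF, val_lt_one_iff_inv_not_mem O' hx, ← map_inv₀, hcomap]

/-- The standing hypotheses: `O'` discrete with uniformiser `ϖ`; `O₁`, `O₂` lie over `O'`, are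
unramified over it, and `O₁ ⊓ O₂` is integral over `O'`. -/
structure TwoOver (O' : ValuationSubring E) (O₁ O₂ : ValuationSubring F) (ϖ : E) : Prop where
  disc : IsDiscrete O' ϖ
  comap1 : ∀ x : E, algebraMap E F x ∈ O₁ ↔ x ∈ O'
  comap2 : ∀ x : E, algebraMap E F x ∈ O₂ ↔ x ∈ O'
  unif1 : IsUnifOf O₁ (algebraMap E F ϖ)
  unif2 : IsUnifOf O₂ (algebraMap E F ϖ)
  int : ∀ x : F, x ∈ O₁ → x ∈ O₂ → IsIntegral O' x

omit [Field E] [Algebra E F] in
/-- an element of `F` integral along `f : A → F` lies in every valuation subring containing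
`f A`. -/
theorem mem_of_isIntegralElem {A : Type*} [CommRing A] (f : A →+* F) {O : ValuationSubring F}
    (hle : ∀ a : A, f a ∈ O) {x : F} (hx : f.IsIntegralElem x) : x ∈ O := by
  let φ : A →+* O :=
    { toFun := fun r => ⟨f r, hle r⟩
      map_one' := Subtype.ext (by simp)
      map_mul' := fun a b => Subtype.ext (by simp)
      map_zero' := Subtype.ext (by simp)
      map_add' := fun a b => Subtype.ext (by simp) }
  have hcomp : f = (algebraMap O F).comp φ := by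
    ext r; rfl
  have h1 : (algebraMap O F).IsIntegralElem x := by
    apply RingHom.IsIntegralElem.of_comp (f := φ)
    rw [← hcomp]; exact hx
  obtain ⟨y, hy⟩ := (IsIntegrallyClosed.isIntegral_iff (R := O) (K := F)).mp h1
  rw [← hy]; exact y.2

/-- an element of `F` integral over `O'` lies in every valuation subring over `O'`. -/
theorem mem_of_isIntegral {O' : ValuationSubring E} {O : ValuationSubring F}
    (hle : ∀ x : E, x ∈ O' → algebraMap E F x ∈ O) {x : F} (hx : IsIntegral O' x) : x ∈ O :=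
  mem_of_isIntegralElem (algebraMap O' F) (fun a => hle _ a.2) hx

namespace TwoOver

variable {O' : ValuationSubring E} {O₁ O₂ : ValuationSubring F} {ϖ : E}

theorem mem_integralClosure_iff (hT : TwoOver O' O₁ O₂ ϖ) (x : F) :
    x ∈ integralClosure O' F ↔ x ∈ O₁ ∧ x ∈ O₂ :=
  ⟨fun hx => ⟨mem_of_isIntegral (fun y hy => (hT.comap1 y).mpr hy) hx,
    mem_of_isIntegral (fun y hy => (hT.comap2 y).mpr hy) hx⟩, fun hx => hT.int x hx.1 hx.2⟩

theorem le1 (hT : TwoOver O' O₁ O₂ ϖ) (s : integralClosure O' F) : (s : F) ∈ O₁ :=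
  ((hT.mem_integralClosure_iff _).mp s.2).1

theorem le2 (hT : TwoOver O' O₁ O₂ ϖ) (s : integralClosure O' F) : (s : F) ∈ O₂ :=
  ((hT.mem_integralClosure_iff _).mp s.2).2

end TwoOver

/-- the inclusion of `S` (the integral closure of `O'`) into a valuation subring over `O'`. -/
def toVal {O' : ValuationSubring E} (O : ValuationSubring F)
    (hle : ∀ s : integralClosure O' F, (s : F) ∈ O) : integralClosure O' F →+* O where
  toFun s := ⟨(s : F), hle s⟩
  map_one' := rfl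
  map_mul' _ _ := rfl
  map_zero' := rfl
  map_add' _ _ := rfl

/-- the prime of `S` cut out by the maximal ideal of `O`. -/
def cut {O' : ValuationSubring E} (O : ValuationSubring F)
    (hle : ∀ s : integralClosure O' F, (s : F) ∈ O) : Ideal (integralClosure O' F) :=
  (maximalIdeal O).comap (toVal O hle)

theorem mem_cut_iff {O' : ValuationSubring E} (O : ValuationSubring F)
    (hle : ∀ s : integralClosure O' F, (s : F) ∈ O) (s : integralClosure O' F) :
    s ∈ cut O hle ↔ O.valuation (s : F) < 1 := by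
  rw [cut, Ideal.mem_comap, ValuationSubring.valuation_lt_one_iff]
  rfl

instance cut_isPrime {O' : ValuationSubring E} (O : ValuationSubring F)
    (hle : ∀ s : integralClosure O' F, (s : F) ∈ O) : (cut O hle).IsPrime := by
  unfold cut; infer_instance

theorem cut_ne_top {O' : ValuationSubring E} (O : ValuationSubring F)
    (hle : ∀ s : integralClosure O' F, (s : F) ∈ O) : cut O hle ≠ ⊤ :=
  (cut_isPrime O hle).ne_top

/-- `cut O ∩ O' = 𝔪_{O'}`. -/
theorem comap_cut {O' : ValuationSubring E} (O : ValuationSubring F)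
    (hle : ∀ s : integralClosure O' F, (s : F) ∈ O)
    (hcomap : ∀ x : E, algebraMap E F x ∈ O ↔ x ∈ O') :
    (cut O hle).comap (algebraMap O' (integralClosure O' F)) = maximalIdeal O' := by
  ext r
  rw [Ideal.mem_comap, mem_cut_iff, ValuationSubring.valuation_lt_one_iff,
    ← val_lt_one_iff_of_comap hcomap]
  rfl

theorem cut_isMaximal {O' : ValuationSubring E} (O : ValuationSubring F)
    (hle : ∀ s : integralClosure O' F, (s : F) ∈ O)
    (hcomap : ∀ x : E, algebraMap E F x ∈ O ↔ x ∈ O') : (cut O hle).IsMaximal := by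
  apply Ideal.isMaximal_of_isIntegral_of_isMaximal_comap (R := O')
  rw [comap_cut O hle hcomap]
  exact maximalIdeal.isMaximal _

namespace TwoOver

variable {O' : ValuationSubring E} {O₁ O₂ : ValuationSubring F} {ϖ : E}

/-- `s ∈ P_j ↔ s ∈ ϖ O_j`. -/
theorem mem_cut1_iff (hT : TwoOver O' O₁ O₂ ϖ) (s : integralClosure O' F) :
    s ∈ cut O₁ hT.le1 ↔ ∃ d ∈ O₁, (s : F) = algebraMap E F ϖ * d := by
  rw [mem_cut_iff, hT.unif1.mem_pi_iff]

theorem mem_cut2_iff (hT : TwoOver O' O₁ O₂ ϖ) (s : integralClosure O' F) :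
    s ∈ cut O₂ hT.le2 ↔ ∃ d ∈ O₂, (s : F) = algebraMap E F ϖ * d := by
  rw [mem_cut_iff, hT.unif2.mem_pi_iff]

/-- `P₁ ∩ P₂ = ϖ S`. -/
theorem cut_inf_cut (hT : TwoOver O' O₁ O₂ ϖ) :
    cut O₁ hT.le1 ⊓ cut O₂ hT.le2 =
      (maximalIdeal O').map (algebraMap O' (integralClosure O' F)) := by
  apply le_antisymm
  · intro s hs
    obtain ⟨hs1, hs2⟩ := Ideal.mem_inf.mp hs
    obtain ⟨d1, hd1, e1⟩ := (hT.mem_cut1_iff s).mp hs1
    obtain ⟨d2, hd2, e2⟩ := (hT.mem_cut2_iff s).mp hs2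
    have hϖF : algebraMap E F ϖ ≠ 0 := hT.unif1.ne_zero
    have hd : d1 = d2 := mul_left_cancel₀ hϖF (e1.symm.trans e2)
    subst hd
    have hdS : d1 ∈ integralClosure O' F := (hT.mem_integralClosure_iff d1).mpr ⟨hd1, hd2⟩
    have hϖm : (⟨ϖ, hT.disc.mem⟩ : O') ∈ maximalIdeal O' :=
      (hT.disc.mem_maximalIdeal_iff _).mpr ⟨1, O'.one_mem, by simp⟩
    have : s = algebraMap O' (integralClosure O' F) ⟨ϖ, hT.disc.mem⟩ * ⟨d1, hdS⟩ := by
      apply Subtype.ext
      rw [e1]; rfl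
    rw [this]
    exact Ideal.mul_mem_right _ _ (Ideal.mem_map_of_mem _ hϖm)
  · rw [Ideal.map_le_iff_le_comap]
    intro r hr
    rw [Ideal.mem_comap, Ideal.mem_inf]
    constructor
    · have := comap_cut O₁ hT.le1 hT.comap1
      rw [← this] at hr; exact hr
    · have := comap_cut O₂ hT.le2 hT.comap2
      rw [← this] at hr; exact hr

end TwoOver

end Main

/-! ### Trace and norm -/

section Formulas

variable {E F : Type*} [Field E] [Field F] [Algebra E F] [FiniteDimensional E F]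
  [Algebra.IsSeparable E F]
variable {O' : ValuationSubring E} {O₁ O₂ : ValuationSubring F} {ϖ : E}

namespace TwoOver

theorem finite (hT : TwoOver O' O₁ O₂ ϖ) : Module.Finite O' (integralClosure O' F) :=
  have := hT.disc.isPrincipalIdealRing
  NormRed88.finite_integralClosure O' E F (integralClosure O' F)

theorem free (hT : TwoOver O' O₁ O₂ ϖ) : Module.Free O' (integralClosure O' F) :=
  have := hT.disc.isPrincipalIdealRing
  NormRed88.free_integralClosure O' E F (integralClosure O' F)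

theorem trace_eq (hT : TwoOver O' O₁ O₂ ϖ) (s : integralClosure O' F) :
    Algebra.trace E F (s : F) = ((Algebra.trace O' (integralClosure O' F) s : O') : E) :=
  have := hT.finite
  have := hT.free
  NormRed88.trace_fraction O' E F (integralClosure O' F) s

theorem norm_eq (hT : TwoOver O' O₁ O₂ ϖ) (s : integralClosure O' F) :
    Algebra.norm E (s : F) = ((Algebra.norm O' s : O') : E) :=
  have := hT.finite
  have := hT.free
  NormRed88.norm_fraction O' E F (integralClosure O' F) s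

/-- `Tr_{F/E}` maps `O₁ ⊓ O₂` into `O'`. -/
theorem trace_mem (hT : TwoOver O' O₁ O₂ ϖ) {c : F} (hc1 : c ∈ O₁) (hc2 : c ∈ O₂) :
    Algebra.trace E F c ∈ O' := by
  have hcS : c ∈ integralClosure O' F := (hT.mem_integralClosure_iff c).mpr ⟨hc1, hc2⟩
  have := hT.trace_eq ⟨c, hcS⟩
  simp only at this
  rw [this]
  exact Subtype.mem _

/-- `N_{F/E}` maps `O₁ ⊓ O₂` into `O'`. -/
theorem norm_mem (hT : TwoOver O' O₁ O₂ ϖ) {c : F} (hc1 : c ∈ O₁) (hc2 : c ∈ O₂) :
    Algebra.norm E c ∈ O' := by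
  have hcS : c ∈ integralClosure O' F := (hT.mem_integralClosure_iff c).mpr ⟨hc1, hc2⟩
  have := hT.norm_eq ⟨c, hcS⟩
  simp only at this
  rw [this]
  exact Subtype.mem _

/-- **First order expansion of the norm**:
`N (1 + ϖ^n c) = 1 + ϖ^n Tr c + ϖ^(2n) r` with `r ∈ O'`, for `c ∈ O₁ ⊓ O₂`. -/
theorem norm_one_add (hT : TwoOver O' O₁ O₂ ϖ) {c : F} (hc1 : c ∈ O₁) (hc2 : c ∈ O₂) (n : ℕ) :
    ∃ r ∈ O', Algebra.norm E (1 + algebraMap E F ϖ ^ n * c) =
      1 + ϖ ^ n * Algebra.trace E F c + ϖ ^ (2 * n) * r := by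
  have hcS : c ∈ integralClosure O' F := (hT.mem_integralClosure_iff c).mpr ⟨hc1, hc2⟩
  have := hT.finite
  have := hT.free
  obtain ⟨r, hr⟩ := NormRed88.norm_one_add_pow_smul (A := O') (B := integralClosure O' F)
    ⟨ϖ, hT.disc.mem⟩ n ⟨c, hcS⟩
  refine ⟨(r : E), r.2, ?_⟩
  have h1 : (((1 + (⟨ϖ, hT.disc.mem⟩ : O') ^ n • (⟨c, hcS⟩ : integralClosure O' F) :
      integralClosure O' F)) : F) = 1 + algebraMap E F ϖ ^ n * c := by
    rw [Algebra.smul_def]
    simp only [Subalgebra.coe_add, Subalgebra.coe_one, Subalgebra.coe_mul, map_pow,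
      Subalgebra.coe_pow]
    rfl
  rw [← h1, hT.norm_eq, hr, hT.trace_eq ⟨c, hcS⟩]
  simp

/-- the norm of a unit of `O₁ ⊓ O₂` is a unit of `O'`. -/
theorem norm_inv_mem (hT : TwoOver O' O₁ O₂ ϖ) {h : F} (h1 : h⁻¹ ∈ O₁) (h2 : h⁻¹ ∈ O₂) :
    (Algebra.norm E h)⁻¹ ∈ O' := by
  have hinv : (Algebra.norm E h)⁻¹ = Algebra.norm E h⁻¹ := by
    by_cases h0 : h = 0
    · subst h0; simp [Algebra.norm_zero]
    · apply inv_eq_of_mul_eq_one_right
      rw [← map_mul, mul_inv_cancel₀ h0, map_one]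
  rw [hinv]
  exact hT.norm_mem h1 h2

/-- **Norms preserve the level** (`StrictOn` shape of `Car/Defs43`): if `h` is a unit of `O₁` and of
`O₂`, congruent to `1` modulo `ϖ ^ n (O₁ ⊓ O₂)`, then `N h` is a unit of `O'` congruent to `1` modulo
`ϖ ^ n O'`. -/
theorem norm_strict (hT : TwoOver O' O₁ O₂ ϖ) {h : F} (h0 : h ≠ 0) (hi1 : h⁻¹ ∈ O₁)
    (hi2 : h⁻¹ ∈ O₂) (n : ℕ) {c : F} (hc1 : c ∈ O₁) (hc2 : c ∈ O₂)
    (hc : h - 1 = algebraMap E F ϖ ^ n * c) :
    Algebra.norm E h ≠ 0 ∧ (Algebra.norm E h)⁻¹ ∈ O' ∧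
      ∃ c' ∈ O', Algebra.norm E h - 1 = ϖ ^ n * c' := by
  refine ⟨(Algebra.norm_ne_zero_iff).mpr h0, hT.norm_inv_mem hi1 hi2, ?_⟩
  obtain ⟨r, hr, hN⟩ := hT.norm_one_add hc1 hc2 n
  have hh : h = 1 + algebraMap E F ϖ ^ n * c := by rw [← hc]; ring
  refine ⟨Algebra.trace E F c + ϖ ^ n * r, O'.add_mem _ _ (hT.trace_mem hc1 hc2)
    (O'.mul_mem _ _ (pow_mem hT.disc.mem n) hr), ?_⟩
  rw [hh, hN]; ring

omit [FiniteDimensional E F] [Algebra.IsSeparable E F] in
/-- the residue characteristic. -/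
theorem charP_residue (hT : TwoOver O' O₁ O₂ ϖ) (q : ℕ) [hq : Fact q.Prime]
    (hqϖ : ∃ d ∈ O', (q : E) = ϖ * d) : CharP (O' ⧸ maximalIdeal O') q := by
  rw [CharP.charP_iff_prime_eq_zero hq.out]
  have h1 : ((q : O') : O' ⧸ maximalIdeal O') = 0 := by
    rw [Ideal.Quotient.eq_zero_iff_mem, hT.disc.mem_maximalIdeal_iff]
    obtain ⟨d, hd, hqd⟩ := hqϖ
    exact ⟨d, hd, by simpa using hqd⟩
  simpa using h1

/-- **The trace is the restriction to the first branch**: `Tr_{F/E} c ≡ c mod ϖ O₁` for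
`c ∈ O₁ ⊓ O₂`, when `κ(O₁) = κ(O')` (`h1`), `κ(O₂) ^ q ⊆ κ(O')` (`h2`) and `κ(O₂) ≠ κ(O')` (`hne`),
`q` the residue characteristic. -/
theorem trace_sub_mem (hT : TwoOver O' O₁ O₂ ϖ) (q : ℕ) [Fact q.Prime]
    (hqϖ : ∃ d ∈ O', (q : E) = ϖ * d)
    (h1 : ∀ x : F, x ∈ O₁ → x ∈ O₂ → ∃ a ∈ O', ∃ d ∈ O₁,
      x - algebraMap E F a = algebraMap E F ϖ * d)
    (h2 : ∀ x : F, x ∈ O₁ → x ∈ O₂ → ∃ a ∈ O', ∃ d ∈ O₂,
      x ^ q - algebraMap E F a = algebraMap E F ϖ * d)
    (hne : ∃ x : F, x ∈ O₁ ∧ x ∈ O₂ ∧ ∀ a ∈ O', ∀ d ∈ O₂,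
      x - algebraMap E F a ≠ algebraMap E F ϖ * d)
    {c : F} (hc1 : c ∈ O₁) (hc2 : c ∈ O₂) :
    ∃ d ∈ O₁, algebraMap E F (Algebra.trace E F c) - c = algebraMap E F ϖ * d := by
  have hcS : c ∈ integralClosure O' F := (hT.mem_integralClosure_iff c).mpr ⟨hc1, hc2⟩
  have := hT.finite
  have := hT.free
  have := hT.charP_residue q hqϖ
  have hmax2 : (cut O₂ hT.le2).IsMaximal := cut_isMaximal O₂ hT.le2 hT.comap2
  have hmax1 : (cut O₁ hT.le1).IsMaximal := cut_isMaximal O₁ hT.le1 hT.comap1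
  -- the hypotheses in ring form
  have h1' : ∀ x : integralClosure O' F, ∃ a : O',
      x - algebraMap O' (integralClosure O' F) a ∈ cut O₁ hT.le1 := by
    intro x
    obtain ⟨a, ha, d, hd, hxa⟩ := h1 x (hT.le1 x) (hT.le2 x)
    exact ⟨⟨a, ha⟩, (hT.mem_cut1_iff _).mpr ⟨d, hd, hxa⟩⟩
  have h2' : ∀ x : integralClosure O' F, ∃ a : O',
      x ^ q - algebraMap O' (integralClosure O' F) a ∈ cut O₂ hT.le2 := by
    intro x
    obtain ⟨a, ha, d, hd, hxa⟩ := h2 x (hT.le1 x) (hT.le2 x)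
    exact ⟨⟨a, ha⟩, (hT.mem_cut2_iff _).mpr ⟨d, hd, hxa⟩⟩
  have hne' : ∃ x : integralClosure O' F, ∀ a : O',
      x - algebraMap O' (integralClosure O' F) a ∉ cut O₂ hT.le2 := by
    obtain ⟨x, hx1, hx2, hx⟩ := hne
    refine ⟨⟨x, (hT.mem_integralClosure_iff x).mpr ⟨hx1, hx2⟩⟩, fun a hmem => ?_⟩
    obtain ⟨d, hd, hxa⟩ := (hT.mem_cut2_iff _).mp hmem
    exact hx a a.2 d hd hxa
  -- the two primes are distinct, hence coprime
  have hneq : cut O₁ hT.le1 ≠ cut O₂ hT.le2 := by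
    obtain ⟨x, hx⟩ := hne'
    obtain ⟨a, ha⟩ := h1' x
    intro heq
    rw [heq] at ha
    exact hx a ha
  have hcop : IsCoprime (cut O₁ hT.le1) (cut O₂ hT.le2) :=
    Ideal.isCoprime_iff_sup_eq.mpr (Ideal.IsMaximal.coprime_of_ne hmax1 hmax2 hneq)
  obtain ⟨a, hca⟩ := h1' ⟨c, hcS⟩
  have key := TwoPrimes88.trace_sub_mem_of_two_primes (R := O') (S := integralClosure O' F)
    (cut O₁ hT.le1) (cut O₂ hT.le2) (cut_ne_top O₁ hT.le1) hcop hT.cut_inf_cut q h1' h2' hne' hca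
  obtain ⟨d0, hd0, hkey⟩ := (hT.disc.mem_maximalIdeal_iff _).mp key
  obtain ⟨d1, hd1, hca'⟩ := (hT.mem_cut1_iff _).mp hca
  refine ⟨algebraMap E F d0 - d1, sub_mem ((hT.comap1 d0).mpr hd0) hd1, ?_⟩
  have htr := hT.trace_eq ⟨c, hcS⟩
  simp only at htr
  have e1 : Algebra.trace E F c - (a : E) = ϖ * d0 := by
    rw [htr]; simpa using hkey
  have e2 : c - algebraMap E F (a : E) = algebraMap E F ϖ * d1 := hca'
  have e3 : algebraMap E F (Algebra.trace E F c) - algebraMap E F (a : E) =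
      algebraMap E F ϖ * algebraMap E F d0 := by
    rw [← map_sub, e1, map_mul]
  calc algebraMap E F (Algebra.trace E F c) - c
      = (algebraMap E F (Algebra.trace E F c) - algebraMap E F (a : E))
        - (c - algebraMap E F (a : E)) := by ring
    _ = algebraMap E F ϖ * (algebraMap E F d0 - d1) := by rw [e3, e2]; ring

/-- **`π_*` on `gr^n` is the restriction to the first branch**: for `n ≥ 1` and `c ∈ O₁ ⊓ O₂`,
`N (1 + ϖ^n c) = 1 + ϖ^n c'` with `c' ∈ O'` and `c' ≡ c mod ϖ O₁`. -/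
theorem norm_lead (hT : TwoOver O' O₁ O₂ ϖ) (q : ℕ) [Fact q.Prime]
    (hqϖ : ∃ d ∈ O', (q : E) = ϖ * d)
    (h1 : ∀ x : F, x ∈ O₁ → x ∈ O₂ → ∃ a ∈ O', ∃ d ∈ O₁,
      x - algebraMap E F a = algebraMap E F ϖ * d)
    (h2 : ∀ x : F, x ∈ O₁ → x ∈ O₂ → ∃ a ∈ O', ∃ d ∈ O₂,
      x ^ q - algebraMap E F a = algebraMap E F ϖ * d)
    (hne : ∃ x : F, x ∈ O₁ ∧ x ∈ O₂ ∧ ∀ a ∈ O', ∀ d ∈ O₂,
      x - algebraMap E F a ≠ algebraMap E F ϖ * d)
    {n : ℕ} (hn : 1 ≤ n) {c : F} (hc1 : c ∈ O₁) (hc2 : c ∈ O₂) :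
    ∃ c' ∈ O', Algebra.norm E (1 + algebraMap E F ϖ ^ n * c) = 1 + ϖ ^ n * c' ∧
      ∃ d ∈ O₁, algebraMap E F c' - c = algebraMap E F ϖ * d := by
  obtain ⟨r, hr, hN⟩ := hT.norm_one_add hc1 hc2 n
  obtain ⟨d, hd, htr⟩ := hT.trace_sub_mem q hqϖ h1 h2 hne hc1 hc2
  obtain ⟨m, rfl⟩ := Nat.exists_eq_add_of_le hn
  refine ⟨Algebra.trace E F c + ϖ ^ (1 + m) * r, O'.add_mem _ _ (hT.trace_mem hc1 hc2)
    (O'.mul_mem _ _ (pow_mem hT.disc.mem _) hr), ?_, ?_⟩
  · rw [hN]; ring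
  · refine ⟨d + algebraMap E F (ϖ ^ m * r), O₁.add_mem _ _ hd
      ((hT.comap1 _).mpr (O'.mul_mem _ _ (pow_mem hT.disc.mem _) hr)), ?_⟩
    rw [map_add, add_sub_right_comm, htr]
    simp only [map_mul, map_pow]
    ring

end TwoOver

end Formulas

/-! ### `int` from "no third valuation ring" -/

section Only

variable {E F : Type*} [Field E] [Field F] [Algebra E F] [Algebra.IsIntegral E F]

/-- A valuation subring of `E` containing a discrete one is the discrete one or everything. -/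
theorem IsDiscrete.eq_or_eq_top {O' : ValuationSubring E} {ϖ : E} (hd : IsDiscrete O' ϖ)
    {W : ValuationSubring E} (hle : O' ≤ W) : W = O' ∨ W = ⊤ := by
  by_cases hϖ : ϖ⁻¹ ∈ W
  · right
    rw [eq_top_iff]
    intro x _
    obtain ⟨k, hk⟩ := hd.arch x
    have : x = (ϖ⁻¹) ^ k * (ϖ ^ k * x) := by
      rw [← mul_assoc, ← mul_pow, inv_mul_cancel₀ hd.ne_zero, one_pow, one_mul]
    rw [this]
    exact W.mul_mem _ _ (pow_mem hϖ k) (hle hk)
  · left
    apply le_antisymm _ hle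
    intro x hx
    by_contra hxO
    have hxi : x⁻¹ ∈ O' := (O'.mem_or_inv_mem x).resolve_left hxO
    have hxii : (x⁻¹)⁻¹ ∉ O' := by rwa [inv_inv]
    obtain ⟨c, hc, hxc⟩ := hd.unif.unif _ hxi hxii
    apply hϖ
    have hx0 : x ≠ 0 := by
      rintro rfl; exact hxO O'.zero_mem
    have : ϖ⁻¹ = x * c := by
      apply inv_eq_of_mul_eq_one_right
      rw [← mul_assoc, mul_comm ϖ x, mul_assoc, ← hxc, mul_inv_cancel₀ hx0]
    rw [this]
    exact W.mul_mem _ _ hx (hle hc)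

/-- If `O₁`, `O₂` are the only valuation subrings of `F` lying over the discrete `O'`, then
`O₁ ⊓ O₂` is integral over `O'` (field `int` of `TwoOver`). -/
theorem isIntegral_of_forall_valuationSubring {O' : ValuationSubring E}
    {O₁ O₂ : ValuationSubring F} {ϖ : E} (hd : IsDiscrete O' ϖ)
    (hall : ∀ V : ValuationSubring F, V.comap (algebraMap E F) = O' → V = O₁ ∨ V = O₂)
    {x : F} (h1 : x ∈ O₁) (h2 : x ∈ O₂) : IsIntegral O' x := by
  by_contra hx
  have hxR : x ∉ (integralClosure O' F).toSubring := hx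
  obtain ⟨V, hRV, hxV⟩ :=
    Subring.exists_le_valuationSubring_of_isIntegrallyClosedIn hxR
  have hO'V : O' ≤ V.comap (algebraMap E F) := by
    intro y hy
    show algebraMap E F y ∈ V
    apply hRV
    show algebraMap E F y ∈ integralClosure O' F
    exact (integralClosure O' F).algebraMap_mem (⟨y, hy⟩ : O')
  rcases hd.eq_or_eq_top hO'V with hW | hW
  · rcases hall V hW with rfl | rfl
    · exact hxV h1
    · exact hxV h2
  · apply hxV
    apply mem_of_isIntegralElem (algebraMap E F) _ (Algebra.IsIntegral.isIntegral x)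
    intro a
    have : a ∈ V.comap (algebraMap E F) := by rw [hW]; trivial
    exact this

end Only

end Fermat.Agent.M1.NRM.TraceGauss88
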