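/-
Programme M1 (S44), chapter NRM, brick HK0 (helper18): **norm and trace versus reduction**.

Pure algebra, Mathlib only.

* `norm_quotient_mk` : for a finite free algebra `S` over a local ring `R` with maximal ideal `p`,
  `N_{(S/pS)/(R/p)} (x mod pS) = N_{S/R}(x) mod p`  (twin of Mathlib's `Algebra.trace_quotient_mk`);
* `norm_prod_apply` : `N_{(S × T)/R} (s, t) = N_{S/R} s * N_{T/R} t`;
* `algebraMap_norm_of_isPurelyInseparable` : for a finite purely inseparable field extension `L/K`,
  `N_{L/K} x = x ^ [L : K]`;  `trace_eq_zero_of_isPurelyInseparable` : `Tr_{L/K} = 0` if `L ≠ K`.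

Use in M1: on the nodal model of `X₀(pM)` the special fibre of the degeneracy map `α` is
(isomorphism on `C_∞`) ⊔ (Frobenius on `C_0`); so the reduction of `N_α f` is `f̄₁ · f̄₂ ^ p` and the
reduction of `Tr_α c` is `c̄₁`.
-/
import Mathlib

set_option autoImplicit false

namespace Fermat.Agent.M1.NRM.NormRed18

open IsLocalRing Module IntermediateField

section Quotient

variable {R S : Type*} [CommRing R] [CommRing S] [Algebra R S] [IsLocalRing R]
  [Module.Free R S] [Module.Finite R S]

attribute [local instance] Ideal.Quotient.field

/-- **Norm commutes with reduction modulo the maximal ideal** (finite free algebra over a local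
ring). -/
theorem norm_quotient_mk (x : S) :
    Algebra.norm (R ⧸ maximalIdeal R)
        (Ideal.Quotient.mk (Ideal.map (algebraMap R S) (maximalIdeal R)) x) =
      Ideal.Quotient.mk (maximalIdeal R) (Algebra.norm R x) := by
  classical
  let ι := Module.Free.ChooseBasisIndex R S
  let b : Module.Basis ι R S := Module.Free.chooseBasis R S
  rw [Algebra.norm_eq_matrix_det b, Algebra.norm_eq_matrix_det (basisQuotient b), RingHom.map_det]
  congr 1
  ext i j
  simp only [Algebra.leftMulMatrix_apply, Algebra.coe_lmul_eq_mul, LinearMap.toMatrix_apply,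
    basisQuotient_apply, LinearMap.mul_apply', RingHom.mapMatrix_apply, Matrix.map_apply, ← map_mul,
    basisQuotient_repr]

end Quotient

section Prod

variable {R S T : Type*} [CommRing R] [CommRing S] [CommRing T] [Algebra R S] [Algebra R T]
  [Module.Free R S] [Module.Free R T] [Module.Finite R S] [Module.Finite R T]

/-- **The norm of a product algebra** is the product of the norms. -/
theorem norm_prod_apply (x : S × T) :
    Algebra.norm R x = Algebra.norm R x.1 * Algebra.norm R x.2 := by
  have h : (Algebra.lmul R (S × T) x : (S × T) →ₗ[R] (S × T)) =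
      (Algebra.lmul R S x.1 : S →ₗ[R] S).prodMap (Algebra.lmul R T x.2 : T →ₗ[R] T) := by
    apply LinearMap.ext
    rintro ⟨s, t⟩
    rfl
  rw [Algebra.norm_apply, h, LinearMap.det_prodMap, Algebra.norm_apply, Algebra.norm_apply]

end Prod

section PurelyInseparable

variable (K L : Type*) [Field K] [Field L] [Algebra K L] [FiniteDimensional K L]
  [IsPurelyInseparable K L]

/-- **The norm of a finite purely inseparable extension** is the `[L : K]`-th power. -/
theorem algebraMap_norm_of_isPurelyInseparable (x : L) :
    algebraMap K L (Algebra.norm K x) = x ^ finrank K L := by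
  obtain ⟨n, hn⟩ := IsPurelyInseparable.minpoly_eq_X_sub_C_pow K (ringExpChar K) x
  have hsplit : ((minpoly K x).map (algebraMap K L)).Splits := by
    rw [hn]
    exact (Polynomial.Splits.X_sub_C x).pow _
  have h := Algebra.norm_eq_prod_roots (K := K) (L := L) (F := L) hsplit
  have hroots : (minpoly K x).aroots L = Multiset.replicate (ringExpChar K ^ n) x := by
    rw [Polynomial.aroots_def, hn, Polynomial.roots_pow, Polynomial.roots_X_sub_C,
      Multiset.nsmul_singleton]
  have hdeg : (minpoly K x).natDegree = ringExpChar K ^ n := by
    have := congrArg Polynomial.natDegree hn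
    rwa [Polynomial.natDegree_map, Polynomial.natDegree_pow, Polynomial.natDegree_X_sub_C,
      mul_one] at this
  have hx : IsIntegral K x := Algebra.IsIntegral.isIntegral x
  have hfin : finrank K K⟮x⟯ * finrank K⟮x⟯ L = finrank K L := Module.finrank_mul_finrank K K⟮x⟯ L
  rw [IntermediateField.adjoin.finrank hx, hdeg] at hfin
  rw [h, hroots, Multiset.prod_replicate, ← pow_mul, hfin]

omit [FiniteDimensional K L] in
/-- **The trace of a nontrivial finite purely inseparable extension vanishes.** -/
theorem trace_eq_zero_of_isPurelyInseparable (h : finrank K L ≠ 1) :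
    Algebra.trace K L = 0 := by
  apply Algebra.trace_eq_zero_of_not_isSeparable
  intro hsep
  apply h
  have hbij : Function.Surjective (algebraMap K L) :=
    IsPurelyInseparable.surjective_algebraMap_of_isSeparable K L
  have e : K ≃ₗ[K] L :=
    LinearEquiv.ofBijective (Algebra.linearMap K L) ⟨(algebraMap K L).injective, hbij⟩
  rw [← e.finrank_eq, Module.finrank_self]

end PurelyInseparable

end Fermat.Agent.M1.NRM.NormRed18
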