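/-
M1 (row 38, S44), chapter NRM, brick HK4-abs (helper88): **trace and norm of a finite free algebra
over a local ring whose special fibre has two points** (Mathlib only + NormRed18/NormRed88).

`R` local with maximal ideal `p` and residue field `k`, `S` a finite free `R`-algebra,
`P₁, P₂` coprime ideals of `S` with `P₁ ⊓ P₂ = pS`.  Then `S/pS ≃ S/P₁ × S/P₂` as `k`-algebras and

* `trace_mk_eq_add` : `Tr_{S/R} c mod p = Tr_{(S/P₁)/k} (c mod P₁) + Tr_{(S/P₂)/k} (c mod P₂)`;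
* `norm_mk_eq_mul`  : `N_{S/R} c mod p = N_{(S/P₁)/k} (c mod P₁) * N_{(S/P₂)/k} (c mod P₂)`.

The case used in M1 (`S` = integral closure of the Gauss ring `O(M'')` in `F(M''p)` along the
degeneracy map `α`; `P₁, P₂` = the two Gauss primes; residue degree `1` at `P₁`, purely inseparable
residue extension of degree `q = p` at `P₂`):

* `trace_sub_mem_of_two_primes` : `c ≡ a mod P₁` (`a : R`) `⟹ Tr_{S/R} c ≡ a mod p`
  ("the reduction of `Tr_α c` is `c̄₁`": the trace of a purely inseparable extension vanishes);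
* `norm_sub_mem_of_two_primes`  : `c ≡ a₁ mod P₁`, `c ^ q ≡ a₂ mod P₂`, `rank S = q + 1`
  `⟹ N_{S/R} c ≡ a₁ a₂ mod p`   ("the reduction of `N_α f` is `f̄₁ · f̄₂ ^ p`").
-/
import Mathlib
import Fermat.Agent.M1.NRM.NormRed18
import Fermat.Agent.M1.NRM.NormRed88

set_option autoImplicit false
set_option linter.unusedSectionVars false

open IsLocalRing Module

namespace Fermat.Agent.M1.NRM.TwoPrimes88

variable {R S : Type*} [CommRing R] [CommRing S] [Algebra R S] [IsLocalRing R]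

local notation "p" => maximalIdeal R
local notation "pS" => Ideal.map (algebraMap R S) p

attribute [local instance] Ideal.Quotient.field

/-- the `R ⧸ p`-algebra structure on `S ⧸ P` for an ideal `P ⊇ pS`. -/
noncomputable abbrev quotAlgebra {P : Ideal S} (hP : pS ≤ P) : Algebra (R ⧸ p) (S ⧸ P) :=
  Ideal.Quotient.algebraQuotientOfLEComap (Ideal.map_le_iff_le_comap.mp hP)

theorem quotAlgebra_algebraMap_mk {P : Ideal S} (hP : pS ≤ P) (r : R) :
    letI := quotAlgebra hP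
    algebraMap (R ⧸ p) (S ⧸ P) (Ideal.Quotient.mk p r) =
      Ideal.Quotient.mk P (algebraMap R S r) := rfl

theorem quotAlgebra_isScalarTower {P : Ideal S} (hP : pS ≤ P) :
    letI := quotAlgebra hP
    IsScalarTower R (R ⧸ p) (S ⧸ P) := by
  let _ := quotAlgebra hP
  exact IsScalarTower.of_algebraMap_eq' rfl

theorem quotAlgebra_finite [Module.Finite R S] {P : Ideal S} (hP : pS ≤ P) :
    letI := quotAlgebra hP
    Module.Finite (R ⧸ p) (S ⧸ P) := by
  let _ := quotAlgebra hP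
  have := quotAlgebra_isScalarTower hP
  have : Module.Finite R (S ⧸ P) :=
    Module.Finite.of_surjective (Ideal.Quotient.mkₐ R P).toLinearMap
      (Ideal.Quotient.mkₐ_surjective R P)
  exact Module.Finite.of_restrictScalars_finite R _ _

section CRT

/-- **Chinese remainder theorem for the special fibre** (ring isomorphism). -/
noncomputable def crtRingEquiv (P₁ P₂ : Ideal S) (hcop : IsCoprime P₁ P₂)
    (hinf : P₁ ⊓ P₂ = pS) : (S ⧸ pS) ≃+* (S ⧸ P₁) × (S ⧸ P₂) :=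
  (Ideal.quotEquivOfEq hinf.symm).trans (Ideal.quotientInfEquivQuotientProd P₁ P₂ hcop)

theorem crtRingEquiv_mk (P₁ P₂ : Ideal S) (hcop : IsCoprime P₁ P₂) (hinf : P₁ ⊓ P₂ = pS)
    (x : S) :
    crtRingEquiv P₁ P₂ hcop hinf (Ideal.Quotient.mk pS x) =
      (Ideal.Quotient.mk P₁ x, Ideal.Quotient.mk P₂ x) := rfl

/-- **Chinese remainder theorem for the special fibre**, as an isomorphism of algebras over the
residue field. -/
noncomputable def crtEquiv (P₁ P₂ : Ideal S) (hcop : IsCoprime P₁ P₂) (hinf : P₁ ⊓ P₂ = pS)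
    (h₁ : pS ≤ P₁) (h₂ : pS ≤ P₂) :
    letI := quotAlgebra h₁
    letI := quotAlgebra h₂
    (S ⧸ pS) ≃ₐ[R ⧸ p] (S ⧸ P₁) × (S ⧸ P₂) :=
  letI := quotAlgebra h₁
  letI := quotAlgebra h₂
  AlgEquiv.ofRingEquiv (f := crtRingEquiv P₁ P₂ hcop hinf)
    (by
      intro x
      obtain ⟨r, rfl⟩ := Ideal.Quotient.mk_surjective x
      rfl)

theorem crtEquiv_mk (P₁ P₂ : Ideal S) (hcop : IsCoprime P₁ P₂) (hinf : P₁ ⊓ P₂ = pS)
    (h₁ : pS ≤ P₁) (h₂ : pS ≤ P₂) (x : S) :
    crtEquiv P₁ P₂ hcop hinf h₁ h₂ (Ideal.Quotient.mk pS x) =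
      (Ideal.Quotient.mk P₁ x, Ideal.Quotient.mk P₂ x) := rfl

variable [Module.Free R S] [Module.Finite R S]

/-- **The trace modulo `p` is the sum of the traces of the two residue algebras.** -/
theorem trace_mk_eq_add (P₁ P₂ : Ideal S) (hcop : IsCoprime P₁ P₂) (hinf : P₁ ⊓ P₂ = pS)
    (h₁ : pS ≤ P₁) (h₂ : pS ≤ P₂) (c : S) :
    letI := quotAlgebra h₁
    letI := quotAlgebra h₂
    Ideal.Quotient.mk p (Algebra.trace R S c) =
      Algebra.trace (R ⧸ p) (S ⧸ P₁) (Ideal.Quotient.mk P₁ c) +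
        Algebra.trace (R ⧸ p) (S ⧸ P₂) (Ideal.Quotient.mk P₂ c) := by
  let _ := quotAlgebra h₁
  let _ := quotAlgebra h₂
  have := quotAlgebra_finite h₁
  have := quotAlgebra_finite h₂
  rw [← Algebra.trace_quotient_mk, ← Algebra.trace_eq_of_algEquiv (crtEquiv P₁ P₂ hcop hinf h₁ h₂),
    crtEquiv_mk, Algebra.trace_prod_apply]

/-- **The norm modulo `p` is the product of the norms of the two residue algebras.** -/
theorem norm_mk_eq_mul (P₁ P₂ : Ideal S) (hcop : IsCoprime P₁ P₂) (hinf : P₁ ⊓ P₂ = pS)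
    (h₁ : pS ≤ P₁) (h₂ : pS ≤ P₂) (c : S) :
    letI := quotAlgebra h₁
    letI := quotAlgebra h₂
    Ideal.Quotient.mk p (Algebra.norm R c) =
      Algebra.norm (R ⧸ p) (Ideal.Quotient.mk P₁ c) *
        Algebra.norm (R ⧸ p) (Ideal.Quotient.mk P₂ c) := by
  let _ := quotAlgebra h₁
  let _ := quotAlgebra h₂
  have := quotAlgebra_finite h₁
  have := quotAlgebra_finite h₂
  rw [← NormRed88.norm_quotient_mk, ← Algebra.norm_eq_of_algEquiv (crtEquiv P₁ P₂ hcop hinf h₁ h₂),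
    crtEquiv_mk, NormRed18.norm_prod_apply]

end CRT

/-! ### Residue degree one -/

section DegreeOne

variable [Module.Finite R S]

/-- if every element of `S` is congruent to an element of `R` modulo the proper ideal `P ⊇ pS`,
then `S ⧸ P` has rank one over the residue field. -/
theorem finrank_quot_eq_one {P : Ideal S} (hP : pS ≤ P) (hP1 : P ≠ ⊤)
    (h1 : ∀ x : S, ∃ a : R, x - algebraMap R S a ∈ P) :
    letI := quotAlgebra hP
    finrank (R ⧸ p) (S ⧸ P) = 1 := by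
  let _ := quotAlgebra hP
  have : Nontrivial (S ⧸ P) := Ideal.Quotient.nontrivial_iff.mpr hP1
  have hinj : Function.Injective (algebraMap (R ⧸ p) (S ⧸ P)) :=
    (algebraMap (R ⧸ p) (S ⧸ P)).injective
  have hsurj : Function.Surjective (algebraMap (R ⧸ p) (S ⧸ P)) := by
    intro y
    obtain ⟨x, rfl⟩ := Ideal.Quotient.mk_surjective y
    obtain ⟨a, ha⟩ := h1 x
    refine ⟨Ideal.Quotient.mk p a, ?_⟩
    rw [quotAlgebra_algebraMap_mk]
    exact (Ideal.Quotient.eq.mpr ha).symm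
  let e : (R ⧸ p) ≃ₗ[R ⧸ p] (S ⧸ P) :=
    LinearEquiv.ofBijective (Algebra.linearMap (R ⧸ p) (S ⧸ P)) ⟨hinj, hsurj⟩
  rw [← e.finrank_eq, Module.finrank_self]

/-- residue degree one: the trace of `c mod P` is the residue of `c`. -/
theorem trace_quot_of_degree_one {P : Ideal S} (hP : pS ≤ P) (hP1 : P ≠ ⊤)
    (h1 : ∀ x : S, ∃ a : R, x - algebraMap R S a ∈ P) {c : S} {a : R}
    (hc : c - algebraMap R S a ∈ P) :
    letI := quotAlgebra hP
    Algebra.trace (R ⧸ p) (S ⧸ P) (Ideal.Quotient.mk P c) = Ideal.Quotient.mk p a := by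
  let _ := quotAlgebra hP
  have h : Ideal.Quotient.mk P c = algebraMap (R ⧸ p) (S ⧸ P) (Ideal.Quotient.mk p a) := by
    rw [quotAlgebra_algebraMap_mk]
    exact Ideal.Quotient.eq.mpr hc
  rw [h, Algebra.trace_algebraMap, finrank_quot_eq_one hP hP1 h1, one_smul]

/-- residue degree one: the norm of `c mod P` is the residue of `c`. -/
theorem norm_quot_of_degree_one {P : Ideal S} (hP : pS ≤ P) (hP1 : P ≠ ⊤)
    (h1 : ∀ x : S, ∃ a : R, x - algebraMap R S a ∈ P) {c : S} {a : R}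
    (hc : c - algebraMap R S a ∈ P) :
    letI := quotAlgebra hP
    Algebra.norm (R ⧸ p) (Ideal.Quotient.mk P c) = Ideal.Quotient.mk p a := by
  let _ := quotAlgebra hP
  have h : Ideal.Quotient.mk P c = algebraMap (R ⧸ p) (S ⧸ P) (Ideal.Quotient.mk p a) := by
    rw [quotAlgebra_algebraMap_mk]
    exact Ideal.Quotient.eq.mpr hc
  rw [h, Algebra.norm_algebraMap, finrank_quot_eq_one hP hP1 h1, pow_one]

end DegreeOne

/-! ### Purely inseparable residue extension -/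

section Insep

variable [Module.Finite R S]

/-- the residue extension at a maximal ideal `P ⊇ pS` is purely inseparable as soon as every `q`-th
power is congruent to an element of `R`. -/
theorem isPurelyInseparable_quot {P : Ideal S} [P.IsMaximal] (hP : pS ≤ P) (q : ℕ)
    [Fact q.Prime] [CharP (R ⧸ p) q]
    (h2 : ∀ x : S, ∃ a : R, x ^ q - algebraMap R S a ∈ P) :
    letI := quotAlgebra hP
    IsPurelyInseparable (R ⧸ p) (S ⧸ P) := by
  let _ := quotAlgebra hP
  rw [isPurelyInseparable_iff_pow_mem (R ⧸ p) q]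
  intro y
  obtain ⟨x, rfl⟩ := Ideal.Quotient.mk_surjective y
  obtain ⟨a, ha⟩ := h2 x
  refine ⟨1, Ideal.Quotient.mk p a, ?_⟩
  rw [quotAlgebra_algebraMap_mk, pow_one, ← map_pow]
  exact (Ideal.Quotient.eq.mpr ha).symm

/-- a nontrivial residue extension has rank `≠ 1`. -/
theorem finrank_quot_ne_one {P : Ideal S} [P.IsMaximal] (hP : pS ≤ P)
    (hne : ∃ x : S, ∀ a : R, x - algebraMap R S a ∉ P) :
    letI := quotAlgebra hP
    finrank (R ⧸ p) (S ⧸ P) ≠ 1 := by
  let _ := quotAlgebra hP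
  intro h
  obtain ⟨x, hx⟩ := hne
  have htop : (⊥ : Subalgebra (R ⧸ p) (S ⧸ P)) = ⊤ := Subalgebra.bot_eq_top_of_finrank_eq_one h
  have hmem : Ideal.Quotient.mk P x ∈ (⊥ : Subalgebra (R ⧸ p) (S ⧸ P)) := by
    rw [htop]; exact Algebra.mem_top
  obtain ⟨y, hy⟩ := Algebra.mem_bot.mp hmem
  obtain ⟨a, rfl⟩ := Ideal.Quotient.mk_surjective y
  rw [quotAlgebra_algebraMap_mk] at hy
  exact hx a (Ideal.Quotient.eq.mp hy.symm)

/-- purely inseparable nontrivial residue extension: the trace vanishes. -/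
theorem trace_quot_of_insep {P : Ideal S} [P.IsMaximal] (hP : pS ≤ P) (q : ℕ)
    [Fact q.Prime] [CharP (R ⧸ p) q]
    (h2 : ∀ x : S, ∃ a : R, x ^ q - algebraMap R S a ∈ P)
    (hne : ∃ x : S, ∀ a : R, x - algebraMap R S a ∉ P) (c : S) :
    letI := quotAlgebra hP
    Algebra.trace (R ⧸ p) (S ⧸ P) (Ideal.Quotient.mk P c) = 0 := by
  let _ := quotAlgebra hP
  have := isPurelyInseparable_quot hP q h2
  rw [NormRed18.trace_eq_zero_of_isPurelyInseparable (R ⧸ p) (S ⧸ P) (finrank_quot_ne_one hP hne)]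
  rfl

/-- purely inseparable residue extension of degree `q`: the norm is the `q`-th power. -/
theorem norm_quot_of_insep {P : Ideal S} [P.IsMaximal] (hP : pS ≤ P) (q : ℕ)
    [Fact q.Prime] [CharP (R ⧸ p) q]
    (h2 : ∀ x : S, ∃ a : R, x ^ q - algebraMap R S a ∈ P)
    (hrank : letI := quotAlgebra hP; finrank (R ⧸ p) (S ⧸ P) = q) {c : S} {a : R}
    (hc : c ^ q - algebraMap R S a ∈ P) :
    letI := quotAlgebra hP
    Algebra.norm (R ⧸ p) (Ideal.Quotient.mk P c) = Ideal.Quotient.mk p a := by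
  let _ := quotAlgebra hP
  have := isPurelyInseparable_quot hP q h2
  have := quotAlgebra_finite hP
  apply (algebraMap (R ⧸ p) (S ⧸ P)).injective
  rw [NormRed18.algebraMap_norm_of_isPurelyInseparable, hrank, quotAlgebra_algebraMap_mk,
    ← map_pow]
  exact Ideal.Quotient.eq.mpr hc

end Insep

/-! ### The two-point case of M1 -/

section Main

variable [Module.Free R S] [Module.Finite R S]

/-- **Trace formula** (`Tr_α c ≡ c̄₁`).  `P₁` of residue degree one, `P₂` maximal with purely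
inseparable nontrivial residue extension: if `c ≡ a` modulo `P₁` with `a : R`, then
`Tr_{S/R} c ≡ a` modulo `p`. -/
theorem trace_sub_mem_of_two_primes (P₁ P₂ : Ideal S) [P₂.IsMaximal] (hP₁ : P₁ ≠ ⊤)
    (hcop : IsCoprime P₁ P₂) (hinf : P₁ ⊓ P₂ = pS) (q : ℕ) [Fact q.Prime] [CharP (R ⧸ p) q]
    (h1 : ∀ x : S, ∃ a : R, x - algebraMap R S a ∈ P₁)
    (h2 : ∀ x : S, ∃ a : R, x ^ q - algebraMap R S a ∈ P₂)
    (hne : ∃ x : S, ∀ a : R, x - algebraMap R S a ∉ P₂)
    {c : S} {a : R} (hc : c - algebraMap R S a ∈ P₁) :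
    Algebra.trace R S c - a ∈ p := by
  have hle₁ : pS ≤ P₁ := by rw [← hinf]; exact inf_le_left
  have hle₂ : pS ≤ P₂ := by rw [← hinf]; exact inf_le_right
  rw [← Ideal.Quotient.eq, trace_mk_eq_add P₁ P₂ hcop hinf hle₁ hle₂,
    trace_quot_of_degree_one hle₁ hP₁ h1 hc, trace_quot_of_insep hle₂ q h2 hne, add_zero]

/-- the rank of the second residue algebra, from the total rank. -/
theorem finrank_quot_second (P₁ P₂ : Ideal S) (hP₁ : P₁ ≠ ⊤)
    (hcop : IsCoprime P₁ P₂) (hinf : P₁ ⊓ P₂ = pS) (hle₁ : pS ≤ P₁) (hle₂ : pS ≤ P₂)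
    (h1 : ∀ x : S, ∃ a : R, x - algebraMap R S a ∈ P₁) {q : ℕ} (hrank : finrank R S = q + 1) :
    letI := quotAlgebra hle₂
    finrank (R ⧸ p) (S ⧸ P₂) = q := by
  let _ := quotAlgebra hle₁
  let _ := quotAlgebra hle₂
  have := quotAlgebra_finite hle₁
  have := quotAlgebra_finite hle₂
  have h := (crtEquiv P₁ P₂ hcop hinf hle₁ hle₂).toLinearEquiv.finrank_eq
  rw [IsLocalRing.finrank_quotient_map, hrank, Module.finrank_prod,
    finrank_quot_eq_one hle₁ hP₁ h1] at h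
  omega

/-- **Norm formula** (`N_α f ≡ f̄₁ · f̄₂ ^ q`).  Same setting, `rank S = q + 1`: if `c ≡ a₁` modulo
`P₁` and `c ^ q ≡ a₂` modulo `P₂` (`a₁ a₂ : R`), then `N_{S/R} c ≡ a₁ a₂` modulo `p`. -/
theorem norm_sub_mem_of_two_primes (P₁ P₂ : Ideal S) [P₂.IsMaximal] (hP₁ : P₁ ≠ ⊤)
    (hcop : IsCoprime P₁ P₂) (hinf : P₁ ⊓ P₂ = pS) (q : ℕ) [Fact q.Prime] [CharP (R ⧸ p) q]
    (hrank : finrank R S = q + 1)
    (h1 : ∀ x : S, ∃ a : R, x - algebraMap R S a ∈ P₁)
    (h2 : ∀ x : S, ∃ a : R, x ^ q - algebraMap R S a ∈ P₂)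
    {c : S} {a₁ a₂ : R} (hc₁ : c - algebraMap R S a₁ ∈ P₁)
    (hc₂ : c ^ q - algebraMap R S a₂ ∈ P₂) :
    Algebra.norm R c - a₁ * a₂ ∈ p := by
  have hle₁ : pS ≤ P₁ := by rw [← hinf]; exact inf_le_left
  have hle₂ : pS ≤ P₂ := by rw [← hinf]; exact inf_le_right
  rw [← Ideal.Quotient.eq, norm_mk_eq_mul P₁ P₂ hcop hinf hle₁ hle₂,
    norm_quot_of_degree_one hle₁ hP₁ h1 hc₁,
    norm_quot_of_insep hle₂ q h2 (finrank_quot_second P₁ P₂ hP₁ hcop hinf hle₁ hle₂ h1 hrank) hc₂,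
    map_mul]

end Main

end Fermat.Agent.M1.NRM.TwoPrimes88
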