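/-
M1 (S44), chapter NRM/HK, brick HK4-Čech (helper88): **the push-forward on `gr^n` in Čech form.**
Mathlib + `Pic2/{Defs60, Lead60}` (helper60's Čech calculus) + `TraceGauss88`.

Setting: `F / E` finite separable (`E = F_L(M'')` via `α` or `β`, `F = F_L(M''p)`); the LOWER model
`(C0, C1, C01)` of `E` is a `TwoChart` (good reduction), with Gauss ring `O'`; the UPPER model
`(B0, B1, B01)` of `F` has the two Gauss rings `O₁`, `O₂` over `O'` (`TwoOver`).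

`P` an upper `LinePair` of level `n ≥ 1` with leading coefficient `c`, whose push-forward is
principal, `= div f`: this enters ONLY through

  `hreg0 : ∀ g, Gen B0 P.I0 ϖ g → N g / f ∈ C0 ∧ (N g / f)⁻¹ ∈ O'`,
  `hreg1 : ∀ g, Gen B1 P.I1 ϖ g → N g / f ∈ C1`

("`N g_i / f` is regular on the chart `C_i`", i.e. `div (N g_i) ≥ N_* D = div f` over `C_i`, and `f`
is normalised to be a Gauss unit).  Then

  `trace_lead_mem_Bdry : Tr_{F/E} c ∈ Bdry ϖ C0 C1 C01`,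

i.e. the class of `Tr c` in `H¹(Y_k, O) = C01 / (C0 + C1 + ϖ C01)` vanishes.  Together with
`TraceGauss88.TwoOver.trace_sub_mem` (`Tr c ≡ c mod ϖ O₁`) this is "(h4) kills the abelian part of
the leading coefficient on the first branch".
-/
import Mathlib
import Fermat.Agent.M1.Pic2.Defs60
import Fermat.Agent.M1.Pic2.Lead60
import Fermat.Agent.M1.NRM.TraceGauss88

set_option autoImplicit false

namespace Fermat.Agent.M1.NRM.TraceCech88

open Fermat.Agent.M1.Pic2.Defs60 Fermat.Agent.M1.Pic2.Lead60 Fermat.Agent.M1.NRM.TraceGauss88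
  Fermat.Agent.M1.Node.Thick25

/-! ### Saturation to any order -/

section Sat

variable {R E : Type*} [CommRing R] [Field E] [Algebra R E]

/-- `n`-fold saturation of a subalgebra in a valuation subring. -/
theorem mem_of_pow_mul_mem {C : Subalgebra R E} {O' : ValuationSubring E} {ϖ : E}
    (hϖO : ϖ ∈ O') (hsat : ∀ y ∈ O', ϖ * y ∈ C → y ∈ C) :
    ∀ (n : ℕ) (y : E), y ∈ O' → ϖ ^ n * y ∈ C → y ∈ C := by
  intro n
  induction n with
  | zero => intro y _ h; simpa using h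
  | succ n ih =>
    intro y hy h
    apply hsat y hy
    apply ih (ϖ * y) (O'.mul_mem _ _ hϖO hy)
    rw [← mul_assoc, ← pow_succ]; exact h

end Sat

/-! ### From a leading coefficient to a multiplicative relation with Gauss-integral error -/

section Upper

variable {R F : Type*} [CommRing R] [Field F] [Algebra R F]
variable {B0 B1 B01 : Subalgebra R F} {ϖ : F}

/-- `1 + ϖ b` is a unit of a valuation subring in which `ϖ` is a non-unit. -/
theorem one_add_mul_inv_mem {O : ValuationSubring F} (hϖ : IsUnifOf O ϖ) {b : F} (hb : b ∈ O) :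
    (1 + ϖ * b)⁻¹ ∈ O := by
  have hlt : O.valuation (ϖ * b) < 1 := (hϖ.mem_pi_iff _).mp ⟨b, hb, rfl⟩
  have h1 : O.valuation (1 + ϖ * b) = 1 := by
    have := Valuation.map_one_add_of_lt (v := O.valuation) hlt
    exact this
  rw [← O.valuation_le_one_iff, map_inv₀, h1, inv_one]

/-- In a trivialisation with leading coefficient `c`, `g1 = (1 + ϖ^n c + ϖ^(n+1) y) g0` with `y`
in the two Gauss rings (`B01 ⊆ O₁ ⊓ O₂`, `ϖ` a uniformiser of both). -/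
theorem exists_mul_relation (h0 : B0 ≤ B01) {O₁ O₂ : ValuationSubring F}
    (hB1 : ∀ x ∈ B01, x ∈ O₁) (hB2 : ∀ x ∈ B01, x ∈ O₂) (hϖ1 : IsUnifOf O₁ ϖ)
    (hϖ2 : IsUnifOf O₂ ϖ) {P : LinePair B0 B1 B01} {n : ℕ} {g0 g1 c : F}
    (hG0 : Gen B0 P.I0 ϖ g0) (hL : IsLead ϖ n P g0 g1 c) :
    ∃ y : F, y ∈ O₁ ∧ y ∈ O₂ ∧ g1 = (1 + ϖ ^ n * c + ϖ ^ (n + 1) * y) * g0 ∧ g0 ≠ 0 := by
  obtain ⟨hg0I, w, hw, b, hb, hgw⟩ := hG0
  obtain ⟨hc, hrel⟩ := hL
  obtain ⟨z, hz, hzr⟩ := mem_scale.mp hrel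
  have hwz : w * z ∈ B01 := dual_I01_0 h0 hw hz
  have hbB01 : b ∈ B01 := h0 hb
  have hgw' : g0 * w = 1 + ϖ * b := by rw [← hgw]; ring
  have hu1 : (1 + ϖ * b)⁻¹ ∈ O₁ := one_add_mul_inv_mem hϖ1 (hB1 b hbB01)
  have hu2 : (1 + ϖ * b)⁻¹ ∈ O₂ := one_add_mul_inv_mem hϖ2 (hB2 b hbB01)
  have hne : (1 + ϖ * b) ≠ 0 := by
    intro h0'
    have hlt : O₁.valuation (ϖ * b) < 1 := (hϖ1.mem_pi_iff _).mp ⟨b, hB1 b hbB01, rfl⟩
    have h1 : O₁.valuation (1 + ϖ * b) = 1 := Valuation.map_one_add_of_lt (v := O₁.valuation) hlt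
    rw [h0', map_zero] at h1
    exact zero_ne_one h1
  have hg0 : g0 ≠ 0 := by
    rintro rfl
    rw [zero_mul] at hgw'
    exact hne hgw'.symm
  refine ⟨(w * z) * (1 + ϖ * b)⁻¹, O₁.mul_mem _ _ (hB1 _ hwz) hu1, O₂.mul_mem _ _ (hB2 _ hwz) hu2,
    ?_, hg0⟩
  have hw0 : w ≠ 0 := by
    rintro rfl
    rw [mul_zero] at hgw'
    exact hne hgw'.symm
  have key : (w * z) * (1 + ϖ * b)⁻¹ * g0 = z := by
    rw [← hgw']
    field_simp
  have : g1 = (1 + ϖ ^ n * c) * g0 + ϖ ^ (n + 1) * z := by rw [hzr]; ring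
  linear_combination this - ϖ ^ (n + 1) * key

end Upper

/-! ### The trace of the leading coefficient is a coboundary downstairs -/

section Main

variable {R E F : Type*} [CommRing R] [Field E] [Field F] [Algebra R E] [Algebra R F]
  [Algebra E F] [IsScalarTower R E F] [FiniteDimensional E F] [Algebra.IsSeparable E F]
variable {C0 C1 C01 : Subalgebra R E} {ϖ : E}
variable {O' : ValuationSubring E} {O₁ O₂ : ValuationSubring F}

omit [Algebra R F] [IsScalarTower R E F] in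
/-- **Core (elementwise).**  If `g1 = (1 + ϖ^n c + ϖ^(n+1) y) g0` upstairs (`c, y ∈ O₁ ⊓ O₂`,
`n ≥ 1`) and `N g0 / f ∈ C0` (a Gauss unit), `N g1 / f ∈ C1` downstairs, then
`Tr c ∈ C0 + C1 + ϖ C01`. -/
theorem trace_mem_Bdry_of_relation (hC : TwoChart ϖ C0 C1 C01) (hT : TwoOver O' O₁ O₂ ϖ)
    (hC01O : ∀ x ∈ C01, x ∈ O') (hsat : ∀ y ∈ O', ϖ * y ∈ C01 → y ∈ C01)
    (hR : ∀ r : R, algebraMap R E r ≠ 0 → (algebraMap R E r)⁻¹ ∈ O' →
      ∃ r' : R, algebraMap R E r' * algebraMap R E r = 1)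
    {n : ℕ} (hn : 1 ≤ n) {c y g0 g1 : F} (hc1 : c ∈ O₁) (hc2 : c ∈ O₂) (hy1 : y ∈ O₁)
    (hy2 : y ∈ O₂) (hTrc : Algebra.trace E F c ∈ C01)
    (hg : g1 = (1 + algebraMap E F ϖ ^ n * c + algebraMap E F ϖ ^ (n + 1) * y) * g0)
    (hg0 : g0 ≠ 0) {f : E} (hf : f ≠ 0) (ha0 : Algebra.norm E g0 / f ∈ C0)
    (ha1 : Algebra.norm E g1 / f ∈ C1) (hunit : (Algebra.norm E g0 / f)⁻¹ ∈ O') :
    Algebra.trace E F c ∈ Bdry ϖ C0 C1 C01 := by
  obtain ⟨m, rfl⟩ := Nat.exists_eq_add_of_le hn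
  have ha0ne : Algebra.norm E g0 / f ≠ 0 :=
    div_ne_zero ((Algebra.norm_ne_zero_iff).mpr hg0) hf
  have hϖO : ϖ ∈ O' := hT.disc.mem
  have hϖ1 : algebraMap E F ϖ ∈ O₁ := (hT.comap1 ϖ).mpr hϖO
  have hϖ2 : algebraMap E F ϖ ∈ O₂ := (hT.comap2 ϖ).mpr hϖO
  have hϖ0 : ϖ ≠ 0 := hT.disc.ne_zero
  -- `c' = c + ϖ y`
  set c' : F := c + algebraMap E F ϖ * y with hc'
  have hc'1 : c' ∈ O₁ := O₁.add_mem _ _ hc1 (O₁.mul_mem _ _ hϖ1 hy1)
  have hc'2 : c' ∈ O₂ := O₂.add_mem _ _ hc2 (O₂.mul_mem _ _ hϖ2 hy2)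
  have hg' : g1 = (1 + algebraMap E F ϖ ^ (1 + m) * c') * g0 := by rw [hg, hc']; ring
  obtain ⟨r0, hr0, hN⟩ := hT.norm_one_add hc'1 hc'2 (1 + m)
  have hTr' : Algebra.trace E F c' = Algebra.trace E F c + ϖ * Algebra.trace E F y := by
    rw [hc', map_add, ← Algebra.smul_def, map_smul, smul_eq_mul]
  have hTry : Algebra.trace E F y ∈ O' := hT.trace_mem hy1 hy2
  set a0 : E := Algebra.norm E g0 / f with ha0def
  set a1 : E := Algebra.norm E g1 / f with ha1def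
  have ha1a0 : a1 = a0 * (1 + ϖ ^ (1 + m) * Algebra.trace E F c' + ϖ ^ (2 * (1 + m)) * r0) := by
    rw [ha1def, ha0def, hg', map_mul, hN]; ring
  -- `s`, `u`
  set s : E := Algebra.trace E F y + ϖ ^ m * r0 with hs
  have hsO : s ∈ O' := O'.add_mem _ _ hTry (O'.mul_mem _ _ (pow_mem hϖO m) hr0)
  set u : E := a0 * (Algebra.trace E F c + ϖ * s) with hu
  have ha0O : a0 ∈ O' := hC01O _ (hC.le0 ha0)
  have hTrcO : Algebra.trace E F c ∈ O' := hC01O _ hTrc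
  have huO : u ∈ O' :=
    O'.mul_mem _ _ ha0O (O'.add_mem _ _ hTrcO (O'.mul_mem _ _ hϖO hsO))
  have hdiff : a1 - a0 = ϖ ^ (1 + m) * u := by
    rw [ha1a0, hu, hs, hTr']; ring
  have huC : u ∈ C01 := by
    apply mem_of_pow_mul_mem hϖO hsat (1 + m) u huO
    rw [← hdiff]
    exact C01.sub_mem (hC.le1 ha1) (hC.le0 ha0)
  obtain ⟨r, ⟨β0, hβ0, hrβ0⟩, ⟨β1, hβ1, hrβ1⟩⟩ :=
    h0n hC (1 + m) ha0 ha1 ⟨-u, C01.neg_mem huC, by
      have : a0 - a1 = -(a1 - a0) := by ring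
      rw [this, hdiff]; ring⟩
  have hpow : ϖ ^ (1 + m) ≠ 0 := pow_ne_zero _ hϖ0
  have huβ : u = β1 - β0 := by
    apply mul_left_cancel₀ hpow
    rw [← hdiff]
    have : a1 - a0 = (a1 - algebraMap R E r) - (a0 - algebraMap R E r) := by ring
    rw [this, hrβ0, hrβ1]; ring
  -- `a0 s ∈ C01`
  have ha0s : a0 * s ∈ C01 := by
    apply hsat _ (O'.mul_mem _ _ ha0O hsO)
    have : ϖ * (a0 * s) = u - a0 * Algebra.trace E F c := by rw [hu]; ring
    rw [this]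
    exact C01.sub_mem huC (C01.mul_mem (hC.le0 ha0) hTrc)
  -- `r Tr c ∈ Bdry`
  have hrTr : algebraMap R E r * Algebra.trace E F c ∈ Bdry ϖ C0 C1 C01 := by
    rw [mem_Bdry]
    refine ⟨-β0, C0.neg_mem hβ0, β1, hβ1,
      -(a0 * s) - ϖ ^ m * (β0 * Algebra.trace E F c),
      C01.sub_mem (C01.neg_mem ha0s)
        (C01.mul_mem (C01.pow_mem (pi_mem_of_range C01 hC.pi_mem) m)
          (C01.mul_mem (hC.le0 hβ0) hTrc)), ?_⟩
    have h1 : algebraMap R E r = a0 - ϖ ^ (1 + m) * β0 := by rw [← hrβ0]; ring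
    have h2 : a0 * Algebra.trace E F c = u - ϖ * (a0 * s) := by rw [hu]; ring
    rw [h1, sub_mul, h2, huβ]; ring
  -- `r` is a unit
  have hva0 : O'.valuation a0 = 1 := by
    apply le_antisymm ((O'.valuation_le_one_iff _).mpr ha0O)
    have h1 : O'.valuation a0⁻¹ ≤ 1 := (O'.valuation_le_one_iff _).mpr hunit
    rw [map_inv₀] at h1
    have h0 : O'.valuation a0 ≠ 0 := (Valuation.ne_zero_iff _).mpr ha0ne
    exact (inv_le_one₀ (pos_iff_ne_zero.mpr h0)).mp h1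
  have hvsmall : O'.valuation (ϖ ^ (1 + m) * β0) < 1 := by
    have hβ0O : β0 ∈ O' := hC01O _ (hC.le0 hβ0)
    have : ϖ ^ (1 + m) * β0 = ϖ * (ϖ ^ m * β0) := by ring
    rw [this]
    exact (hT.disc.unif.mem_pi_iff _).mp ⟨ϖ ^ m * β0, O'.mul_mem _ _ (pow_mem hϖO m) hβ0O, rfl⟩
  have hvr : O'.valuation (algebraMap R E r) = 1 := by
    have h1 : algebraMap R E r = a0 - ϖ ^ (1 + m) * β0 := by rw [← hrβ0]; ring
    rw [h1, Valuation.map_sub_eq_of_lt_left _ (by rw [hva0]; exact hvsmall), hva0]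
  have hr0' : algebraMap R E r ≠ 0 := by
    intro h0
    rw [h0, map_zero] at hvr
    exact zero_ne_one hvr
  have hrinv : (algebraMap R E r)⁻¹ ∈ O' := by
    rw [← O'.valuation_le_one_iff, map_inv₀, hvr, inv_one]
  obtain ⟨r', hr'⟩ := hR r hr0' hrinv
  have : Algebra.trace E F c = r' • (algebraMap R E r * Algebra.trace E F c) := by
    rw [Algebra.smul_def, ← mul_assoc, hr', one_mul]
  rw [this]
  exact Submodule.smul_mem _ _ hrTr

omit [IsScalarTower R E F] in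
/-- **HK4 in Čech form.**  `P` an upper pair with leading coefficient `c` at level `n ≥ 1`; `f ≠ 0`
downstairs such that `N g / f` is regular on `C_i` for every generator `g` of `I_i` modulo `ϖ`
(`i = 0, 1`; a Gauss unit for `i = 0`): "the push-forward of `P` is `div f`".  Then the trace of the
leading coefficient is a Čech coboundary downstairs. -/
theorem trace_lead_mem_Bdry (hC : TwoChart ϖ C0 C1 C01) (hT : TwoOver O' O₁ O₂ ϖ)
    (hC01O : ∀ x ∈ C01, x ∈ O') (hsat : ∀ y ∈ O', ϖ * y ∈ C01 → y ∈ C01)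
    (hR : ∀ r : R, algebraMap R E r ≠ 0 → (algebraMap R E r)⁻¹ ∈ O' →
      ∃ r' : R, algebraMap R E r' * algebraMap R E r = 1)
    {B0 B1 B01 : Subalgebra R F} (h0 : B0 ≤ B01) (hB1 : ∀ x ∈ B01, x ∈ O₁)
    (hB2 : ∀ x ∈ B01, x ∈ O₂) (hTrB : ∀ x ∈ B01, Algebra.trace E F x ∈ C01)
    {P : LinePair B0 B1 B01} {n : ℕ} (hn : 1 ≤ n) {c : F}
    (hc : HasLead (algebraMap E F ϖ) n P c) {f : E} (hf : f ≠ 0)
    (hreg0 : ∀ g, Gen B0 P.I0 (algebraMap E F ϖ) g →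
      Algebra.norm E g / f ∈ C0 ∧ (Algebra.norm E g / f)⁻¹ ∈ O')
    (hreg1 : ∀ g, Gen B1 P.I1 (algebraMap E F ϖ) g → Algebra.norm E g / f ∈ C1) :
    Algebra.trace E F c ∈ Bdry ϖ C0 C1 C01 := by
  obtain ⟨g0, g1, ⟨hG0, hG1, -⟩, hL⟩ := hc
  obtain ⟨y, hy1, hy2, hg, hg0⟩ := exists_mul_relation h0 hB1 hB2 hT.unif1 hT.unif2 hG0 hL
  exact trace_mem_Bdry_of_relation hC hT hC01O hsat hR hn (hB1 c hL.1) (hB2 c hL.1) hy1 hy2
    (hTrB c hL.1) hg hg0 hf (hreg0 g0 hG0).1 (hreg1 g1 hG1) (hreg0 g0 hG0).2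

omit [IsScalarTower R E F] in
/-- **HK4, final form**: under the hypotheses of `trace_lead_mem_Bdry` and the residue-field
hypotheses of `TraceGauss88.TwoOver.trace_sub_mem` (`κ(O₁) = κ(O')`, `κ(O₂)/κ(O')` purely
inseparable of exponent one and nontrivial), the restriction of the leading coefficient to the FIRST
branch is a Čech coboundary of the lower special fibre: `c ≡ t mod ϖ O₁` with
`t ∈ C0 + C1 + ϖ C01`. -/
theorem lead_first_branch_mem_Bdry (hC : TwoChart ϖ C0 C1 C01) (hT : TwoOver O' O₁ O₂ ϖ)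
    (hC01O : ∀ x ∈ C01, x ∈ O') (hsat : ∀ y ∈ O', ϖ * y ∈ C01 → y ∈ C01)
    (hR : ∀ r : R, algebraMap R E r ≠ 0 → (algebraMap R E r)⁻¹ ∈ O' →
      ∃ r' : R, algebraMap R E r' * algebraMap R E r = 1)
    (q : ℕ) [Fact q.Prime] (hqϖ : ∃ d ∈ O', (q : E) = ϖ * d)
    (h1 : ∀ x : F, x ∈ O₁ → x ∈ O₂ → ∃ a ∈ O', ∃ d ∈ O₁,
      x - algebraMap E F a = algebraMap E F ϖ * d)
    (h2 : ∀ x : F, x ∈ O₁ → x ∈ O₂ → ∃ a ∈ O', ∃ d ∈ O₂,
      x ^ q - algebraMap E F a = algebraMap E F ϖ * d)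
    (hne : ∃ x : F, x ∈ O₁ ∧ x ∈ O₂ ∧ ∀ a ∈ O', ∀ d ∈ O₂,
      x - algebraMap E F a ≠ algebraMap E F ϖ * d)
    {B0 B1 B01 : Subalgebra R F} (h0 : B0 ≤ B01) (hB1 : ∀ x ∈ B01, x ∈ O₁)
    (hB2 : ∀ x ∈ B01, x ∈ O₂) (hTrB : ∀ x ∈ B01, Algebra.trace E F x ∈ C01)
    {P : LinePair B0 B1 B01} {n : ℕ} (hn : 1 ≤ n) {c : F}
    (hc : HasLead (algebraMap E F ϖ) n P c) {f : E} (hf : f ≠ 0)
    (hreg0 : ∀ g, Gen B0 P.I0 (algebraMap E F ϖ) g →
      Algebra.norm E g / f ∈ C0 ∧ (Algebra.norm E g / f)⁻¹ ∈ O')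
    (hreg1 : ∀ g, Gen B1 P.I1 (algebraMap E F ϖ) g → Algebra.norm E g / f ∈ C1) :
    ∃ t ∈ Bdry ϖ C0 C1 C01, ∃ d ∈ O₁, algebraMap E F t - c = algebraMap E F ϖ * d := by
  have hcB : c ∈ B01 := by
    obtain ⟨g0, g1, -, hL⟩ := hc
    exact hL.1
  exact ⟨Algebra.trace E F c,
    trace_lead_mem_Bdry hC hT hC01O hsat hR h0 hB1 hB2 hTrB hn hc hf hreg0 hreg1,
    hT.trace_sub_mem q hqϖ h1 h2 hne (hB1 c hcB) (hB2 c hcB)⟩

omit [Algebra R F] [IsScalarTower R E F] [Algebra.IsSeparable E F] in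
/-- The trace maps elements integral over an integrally closed chart into the chart. -/
theorem trace_mem_of_isIntegral {C : Subalgebra R E} (hcl : ∀ x : E, IsIntegral C x → x ∈ C)
    {x : F} (hx : IsIntegral C x) : Algebra.trace E F x ∈ C :=
  hcl _ (Algebra.isIntegral_trace hx)

end Main

end Fermat.Agent.M1.NRM.TraceCech88
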