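/-
M1 (S44), chapter NRM/HK, brick HK4 → (T5) ADAPTER (helper88).

`TraceCech88.lead_first_branch_mem_Bdry` ("the trace along a degeneracy map kills the abelian part
of the leading coefficient on the branch where the map is an isomorphism") is turned into the
hypothesis `ToricPic15.IsToric` of helper15's Frobenius-injectivity theorem, and combined with
helper60's `Final60.Level.succ_of_pow_lt` into the complete pair-level (T5).

* `Branch π q C0 C1 C01 O' O₁ O₂ B0 B1 B01` : the hypotheses for ONE degeneracy map `E → F`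
  (`E = F_L(M'')`, `F = F_L(M''p)`; the map is the `Algebra E F` structure): the lower model
  `(C0, C1, C01)` is a `TwoChart` with Gauss ring `O'`; `O₁`, `O₂` are the two Gauss rings of `F`
  over `O'` (`TwoOver`), `κ(O₁) = κ(O')`, `κ(O₂)/κ(O')` purely inseparable of exponent one and
  nontrivial; traces of the upper overlap ring lie in the lower one; charts go to charts.
* `Branch.half` : the abelian part of a leading coefficient on the branch `O₁` vanishes.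
* `isToric_lead` : with both degeneracy maps (two lower fields `E₁`, `E₂`, the roles of `O₁`, `O₂`
  swapped), the leading coefficient is TORIC.
* `level_succ_of_push` : **pair-level (T5)**: `1 ≤ n`, `p n < n + e`, `P` of level `n` whose two
  push-forwards are principal and whose `p`-th power has level `p n + 1` ⟹ `P` has level `n + 1`.
-/
import Mathlib
import Fermat.Agent.M1.NRM.TraceCech88
import Fermat.Agent.M1.Pic2.ToricPic15
import Fermat.Agent.M1.Pic2.Final60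

set_option autoImplicit false

namespace Fermat.Agent.M1.NRM.ToricLead88

open Fermat.Agent.M1.Pic2.Defs60 Fermat.Agent.M1.Pic2.Lead60 Fermat.Agent.M1.NRM.TraceGauss88
  Fermat.Agent.M1.NRM.TraceCech88 Fermat.Agent.M1.Node.Thick25 Fermat.Agent.M1.Pic2.ToricPic15
  Fermat.Agent.M1.Pic2.Toric15 Fermat.Agent.M1.Pic2.ToricField15

section Half

variable {R E F : Type*} [CommRing R] [Field E] [Field F] [Algebra R E] [Algebra R F]
  [Algebra E F] [IsScalarTower R E F]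
variable {C0 C1 C01 : Subalgebra R E} {B0 B1 : Subalgebra R F} {O₁ : ValuationSubring F}

/-- From "`c ≡ t mod ϖ O₁` with `t` a lower coboundary" to one half of `IsToric`. -/
theorem half_of_mem_Bdry (π : R)
    (hC0 : ∀ x ∈ C0, algebraMap E F x ∈ B0) (hC1 : ∀ x ∈ C1, algebraMap E F x ∈ B1)
    (hC01 : ∀ x ∈ C01, algebraMap E F x ∈ O₁) {c : F}
    (h : ∃ t ∈ Bdry (algebraMap R E π) C0 C1 C01, ∃ d ∈ O₁,
      algebraMap E F t - c = algebraMap E F (algebraMap R E π) * d) :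
    ∃ a ∈ B0, ∃ b ∈ B1, ∃ o ∈ O₁, c - a - b = algebraMap R F π * o := by
  obtain ⟨t, ht, d, hd, e⟩ := h
  obtain ⟨a, ha, b, hb, z, hz, rfl⟩ := mem_Bdry.mp ht
  refine ⟨algebraMap E F a, hC0 a ha, algebraMap E F b, hC1 b hb, algebraMap E F z - d,
    O₁.sub_mem (hC01 z hz) hd, ?_⟩
  rw [IsScalarTower.algebraMap_apply R E F π]
  rw [map_add, map_add, map_mul] at e
  linear_combination (-1 : F) * e

end Half

section BranchDef

variable {R E F : Type*} [CommRing R] [Field E] [Field F] [Algebra R E] [Algebra R F]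
  [Algebra E F] [IsScalarTower R E F] [FiniteDimensional E F] [Algebra.IsSeparable E F]

/-- The hypotheses of `TraceCech88.lead_first_branch_mem_Bdry` for one degeneracy map `E → F`
(given by the `Algebra E F` structure), plus "charts go to charts". -/
structure Branch (π : R) (q : ℕ) (C0 C1 C01 : Subalgebra R E) (O' : ValuationSubring E)
    (O₁ O₂ : ValuationSubring F) (B0 B1 B01 : Subalgebra R F) : Prop where
  chart : TwoChart (algebraMap R E π) C0 C1 C01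
  two : TwoOver O' O₁ O₂ (algebraMap R E π)
  C01_le : ∀ x ∈ C01, x ∈ O'
  sat : ∀ y ∈ O', algebraMap R E π * y ∈ C01 → y ∈ C01
  units : ∀ r : R, algebraMap R E r ≠ 0 → (algebraMap R E r)⁻¹ ∈ O' →
    ∃ r' : R, algebraMap R E r' * algebraMap R E r = 1
  resChar : ∃ d ∈ O', (q : E) = algebraMap R E π * d
  /-- `κ(O₁) = κ(O')` -/
  res1 : ∀ x : F, x ∈ O₁ → x ∈ O₂ → ∃ a ∈ O', ∃ d ∈ O₁,
    x - algebraMap E F a = algebraMap E F (algebraMap R E π) * d
  /-- `κ(O₂) ^ q ⊆ κ(O')` -/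
  res2 : ∀ x : F, x ∈ O₁ → x ∈ O₂ → ∃ a ∈ O', ∃ d ∈ O₂,
    x ^ q - algebraMap E F a = algebraMap E F (algebraMap R E π) * d
  /-- `κ(O₂) ≠ κ(O')` -/
  ne : ∃ x : F, x ∈ O₁ ∧ x ∈ O₂ ∧ ∀ a ∈ O', ∀ d ∈ O₂,
    x - algebraMap E F a ≠ algebraMap E F (algebraMap R E π) * d
  trace_mem : ∀ x ∈ B01, Algebra.trace E F x ∈ C01
  map0 : ∀ x ∈ C0, algebraMap E F x ∈ B0
  map1 : ∀ x ∈ C1, algebraMap E F x ∈ B1

variable {π : R} {q : ℕ} {C0 C1 C01 : Subalgebra R E} {O' : ValuationSubring E}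
  {O₁ O₂ : ValuationSubring F} {B0 B1 B01 : Subalgebra R F}

/-- **HK4 in `IsToric` form, one branch.**  If the push-forward of the pair `P` (level `n ≥ 1`,
leading coefficient `c`) along the degeneracy map is principal (`hreg0`, `hreg1`), the abelian
part of `c` on the branch `O₁` vanishes. -/
theorem Branch.half (hB : Branch π q C0 C1 C01 O' O₁ O₂ B0 B1 B01) [Fact q.Prime]
    (h0 : B0 ≤ B01) (hB1 : ∀ x ∈ B01, x ∈ O₁) (hB2 : ∀ x ∈ B01, x ∈ O₂)
    {P : LinePair B0 B1 B01} {n : ℕ} (hn : 1 ≤ n) {c : F}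
    (hc : HasLead (algebraMap R F π) n P c) {f : E} (hf : f ≠ 0)
    (hreg0 : ∀ g, Gen B0 P.I0 (algebraMap R F π) g →
      Algebra.norm E g / f ∈ C0 ∧ (Algebra.norm E g / f)⁻¹ ∈ O')
    (hreg1 : ∀ g, Gen B1 P.I1 (algebraMap R F π) g → Algebra.norm E g / f ∈ C1) :
    ∃ a ∈ B0, ∃ b ∈ B1, ∃ o ∈ O₁, c - a - b = algebraMap R F π * o := by
  have e : algebraMap R F π = algebraMap E F (algebraMap R E π) :=
    IsScalarTower.algebraMap_apply R E F π
  rw [e] at hc hreg0 hreg1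
  refine half_of_mem_Bdry π hB.map0 hB.map1
    (fun x hx => (hB.two.comap1 x).mpr (hB.C01_le x hx)) ?_
  exact lead_first_branch_mem_Bdry hB.chart hB.two hB.C01_le hB.sat hB.units q hB.resChar hB.res1
    hB.res2 hB.ne h0 hB1 hB2 hB.trace_mem hn hc hf hreg0 hreg1

end BranchDef

section Main

variable {R E₁ E₂ F : Type*} [CommRing R] [Field E₁] [Field E₂] [Field F]
  [Algebra R E₁] [Algebra R E₂] [Algebra R F]
  [Algebra E₁ F] [IsScalarTower R E₁ F] [FiniteDimensional E₁ F] [Algebra.IsSeparable E₁ F]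
  [Algebra E₂ F] [IsScalarTower R E₂ F] [FiniteDimensional E₂ F] [Algebra.IsSeparable E₂ F]
variable {π : R} {q : ℕ}
  {C0 C1 C01 : Subalgebra R E₁} {O' : ValuationSubring E₁}
  {D0 D1 D01 : Subalgebra R E₂} {O'' : ValuationSubring E₂}
  {O₁ O₂ : ValuationSubring F} {B0 B1 B01 : Subalgebra R F}

/-- **HK4 ⟹ toric.**  If both push-forwards (along `α : E₁ → F`, for which `O₁` is the étale
branch, and along `β : E₂ → F`, for which `O₂` is) of a pair of level `n ≥ 1` are principal, its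
leading coefficient is toric. -/
theorem isToric_lead [Fact q.Prime]
    (hα : Branch π q C0 C1 C01 O' O₁ O₂ B0 B1 B01)
    (hβ : Branch π q D0 D1 D01 O'' O₂ O₁ B0 B1 B01)
    (h0 : B0 ≤ B01) (hB1 : ∀ x ∈ B01, x ∈ O₁) (hB2 : ∀ x ∈ B01, x ∈ O₂)
    {P : LinePair B0 B1 B01} {n : ℕ} (hn : 1 ≤ n) {c : F}
    (hc : HasLead (algebraMap R F π) n P c)
    {f₁ : E₁} (hf₁ : f₁ ≠ 0)
    (hα0 : ∀ g, Gen B0 P.I0 (algebraMap R F π) g →
      Algebra.norm E₁ g / f₁ ∈ C0 ∧ (Algebra.norm E₁ g / f₁)⁻¹ ∈ O')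
    (hα1 : ∀ g, Gen B1 P.I1 (algebraMap R F π) g → Algebra.norm E₁ g / f₁ ∈ C1)
    {f₂ : E₂} (hf₂ : f₂ ≠ 0)
    (hβ0 : ∀ g, Gen B0 P.I0 (algebraMap R F π) g →
      Algebra.norm E₂ g / f₂ ∈ D0 ∧ (Algebra.norm E₂ g / f₂)⁻¹ ∈ O'')
    (hβ1 : ∀ g, Gen B1 P.I1 (algebraMap R F π) g → Algebra.norm E₂ g / f₂ ∈ D1) :
    IsToric π B0 B1 O₁ O₂ c :=
  ⟨hα.half h0 hB1 hB2 hn hc hf₁ hα0 hα1, hβ.half h0 hB2 hB1 hn hc hf₂ hβ0 hβ1⟩

/-- **Pair-level (T5), complete.**  Below the critical level (`p n < n + e`), a pair `P` of level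
`n ≥ 1` whose two degeneracy push-forwards are principal and whose `p`-th power has level
`p n + 1` has level `n + 1`. -/
theorem level_succ_of_push [Fact q.Prime] {p e : ℕ} {υ : F}
    (h : TwoChart (algebraMap R F π) B0 B1 B01)
    (T : ToricSetup p B0.toSubring B1.toSubring B01.toSubring (algebraMap R F).range
      (mulSub (algebraMap R F π) B01.toSubring.toAddSubgroup)
      (mulSub (algebraMap R F π) O₁.toAddSubgroup)
      (mulSub (algebraMap R F π) O₂.toAddSubgroup))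
    (hp : p.Prime) (hpe : (p : F) = algebraMap R F π ^ e * υ) (hυ : υ ∈ B01)
    (hα : Branch π q C0 C1 C01 O' O₁ O₂ B0 B1 B01)
    (hβ : Branch π q D0 D1 D01 O'' O₂ O₁ B0 B1 B01)
    (hB1 : ∀ x ∈ B01, x ∈ O₁) (hB2 : ∀ x ∈ B01, x ∈ O₂)
    {P : LinePair B0 B1 B01} {n : ℕ} (hn : 1 ≤ n) (hlt : p * n < n + e) {c : F}
    (hc : HasLead (algebraMap R F π) n P c)
    (hpow : Level (algebraMap R F π) (p * n + 1) (LinePair.npow h.le0 h.le1 P p))
    {f₁ : E₁} (hf₁ : f₁ ≠ 0)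
    (hα0 : ∀ g, Gen B0 P.I0 (algebraMap R F π) g →
      Algebra.norm E₁ g / f₁ ∈ C0 ∧ (Algebra.norm E₁ g / f₁)⁻¹ ∈ O')
    (hα1 : ∀ g, Gen B1 P.I1 (algebraMap R F π) g → Algebra.norm E₁ g / f₁ ∈ C1)
    {f₂ : E₂} (hf₂ : f₂ ≠ 0)
    (hβ0 : ∀ g, Gen B0 P.I0 (algebraMap R F π) g →
      Algebra.norm E₂ g / f₂ ∈ D0 ∧ (Algebra.norm E₂ g / f₂)⁻¹ ∈ O'')
    (hβ1 : ∀ g, Gen B1 P.I1 (algebraMap R F π) g → Algebra.norm E₂ g / f₂ ∈ D1) :
    Level (algebraMap R F π) (n + 1) P := by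
  have hcB : c ∈ B01 := by
    obtain ⟨g0, g1, -, hL⟩ := hc
    exact hL.1
  have htor : IsToric π B0 B1 O₁ O₂ c :=
    isToric_lead hα hβ h.le0 hB1 hB2 hn hc hf₁ hα0 hα1 hf₂ hβ0 hβ1
  exact Fermat.Agent.M1.Pic2.Final60.Level.succ_of_pow_lt h hp hpe hυ hn hlt hc hpow
    (fun hcp => pow_mem_Bdry_imp T hcB htor hcp)

end Main

end Fermat.Agent.M1.NRM.ToricLead88
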