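/-
M1 (S44), chapter NRM/HK, brick HK4-(b) (helper88): **the regularity hypotheses `hreg0`, `hreg1` of
`TraceCech88` / `ToricLead88` from divisor-level data.**

`E ⊆ F` function fields over `K` (`F = F_L(M''p)` over `E = F_L(M'')` via a degeneracy map), `C` a
chart of the lower model, `B` the chart of the upper model over it, `O'` the lower Gauss ring,
`O₁`, `O₂` the two upper Gauss rings (`TwoOver`).  Let `D` be a divisor of `F` whose push-forward is
principal: `N_* D = - div f` with `f` a unit of `O'`.  Then for every section `g ≠ 0` of `O(D)` over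
the chart `B` (`AdelicToCech43.secs`):

  `N g / f ∈ C`            (`norm_div_mem`: norm formula + Hartogs on the lower chart),

and for every generator `g` modulo `ϖ` (`Defs60.Gen`) also `(N g / f)⁻¹ ∈ O'` (`hreg_of_push`):
these are literally `hreg0`, `hreg1` for the canonical pair `AdelicToCech43.pairOf … D`.

`level_succ_of_push_divisor` : pair-level (T5) for the canonical pair of a divisor `D` whose two
push-forwards are principal.
-/
import Mathlib
import Fermat.Prelude.Def_AlgebraicCurve_DivisorPushPull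
import Fermat.Agent.M1.NRM.ToricLead88
import Fermat.Agent.M1.Car.AdelicToCech43

set_option autoImplicit false
set_option linter.unusedSectionVars false

namespace Fermat.Agent.M1.NRM.PushReg88

open AlgebraicCurve Fermat.Agent.X0.FF
open Fermat.Agent.M1.Pic2.Defs60 Fermat.Agent.M1.Pic2.Lead60 Fermat.Agent.M1.NRM.TraceGauss88
  Fermat.Agent.M1.NRM.TraceCech88 Fermat.Agent.M1.Node.Thick25
  Fermat.Agent.M1.Car.AdelicToCech43 Fermat.Agent.M1.NRM.ToricLead88

section Push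

variable {K E F : Type*} [Field K] [Field E] [Field F] [Algebra K E] [Algebra K F]
  [Algebra E F] [IsScalarTower K E F] [FiniteDimensional E F]

/-- The push-forward of a divisor which is effective on the fibre over `v'` is nonnegative at
`v'`. -/
theorem pushforward_nonneg_at (D' : Divisor K F) (v' : Place K E)
    (h : ∀ w : Place K F, w.restrict E = v' → 0 ≤ D' w) :
    0 ≤ Divisor.pushforward E D' v' := by
  classical
  rw [Divisor.pushforward_apply]
  refine Finset.sum_nonneg fun w _ => ?_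
  split_ifs with hw
  · exact mul_nonneg (h w hw) (Int.natCast_nonneg _)
  · exact le_rfl

/-- `ord_{v'} (N g) ≥ - (N_* D)(v')` when `ord_w g ≥ - D(w)` for all `w ∣ v'`. -/
theorem ord_norm_add_pushforward_nonneg [HasPrincipalDivisors K F]
    (H : Divisor.PushforwardNormFormula K E F) {g : F} (hg : g ≠ 0) (D : Divisor K F)
    (v' : Place K E) (h : ∀ w : Place K F, w.restrict E = v' → -D w ≤ w.ord g) :
    0 ≤ v'.ord (Algebra.norm E g) + Divisor.pushforward E D v' := by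
  obtain ⟨Dg, hDg, -⟩ := HasPrincipalDivisors.exists_divisor (K := K) g hg
  rw [← H g hg Dg hDg v', ← Finsupp.add_apply, ← map_add]
  refine pushforward_nonneg_at _ v' fun w hw => ?_
  rw [Finsupp.add_apply, hDg w]
  have := h w hw
  omega

end Push

section Chart

variable {R K E F : Type*} [CommRing R] [Field K] [Field E] [Field F] [Algebra K E] [Algebra K F]
  [Algebra E F] [IsScalarTower K E F] [FiniteDimensional E F] [Algebra.IsSeparable E F]
  [Algebra R E] [Algebra R F]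
variable {ϖ : E} {O' : ValuationSubring E} {O₁ O₂ : ValuationSubring F}
  {C : Subalgebra R E} {B : Subalgebra R F}

/-- Places over the lower chart lift to places over the upper chart when the upper chart is
integral over the lower one. -/
theorem over_of_isIntegralElem
    (hint : ∀ b ∈ B, ((algebraMap E F).comp (C.val : C →+* E)).IsIntegralElem b)
    (w : Place K F) (hw : Over C (w.restrict E)) : Over B w := by
  intro b hb
  refine mem_of_isIntegralElem ((algebraMap E F).comp (C.val : C →+* E)) (fun a => ?_) (hint b hb)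
  have := hw (a : E) a.2
  rwa [Place.mem_restrict_iff] at this

/-- **Regularity of the norm on the lower chart.** -/
theorem norm_div_mem [HasPrincipalDivisors K F] (H : Divisor.PushforwardNormFormula K E F)
    (hT : TwoOver O' O₁ O₂ ϖ)
    (hover : ∀ w : Place K F, Over C (w.restrict E) → Over B w)
    (hglob : ∀ x : E, x ∈ O' → (∀ v' : Place K E, Over C v' → x ≠ 0 → 0 ≤ v'.ord x) → x ∈ C)
    {D : Divisor K F} {f : E} (hf0 : f ≠ 0) (hfO : f⁻¹ ∈ O')
    (hpush : ∀ v' : Place K E, Divisor.pushforward E D v' = -v'.ord f)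
    {g : F} (hg : g ∈ secs B O₁ O₂ D) (hg0 : g ≠ 0) :
    Algebra.norm E g / f ∈ C := by
  have hN0 : Algebra.norm E g ≠ 0 := Algebra.norm_ne_zero_iff.mpr hg0
  apply hglob
  · rw [div_eq_mul_inv]
    exact O'.mul_mem _ _ (hT.norm_mem (secs_mem1 hg) (secs_mem2 hg)) hfO
  · intro v' hv' _
    rw [div_eq_mul_inv, v'.ord_mul hN0 (inv_ne_zero hf0), v'.ord_inv, ← hpush v']
    refine ord_norm_add_pushforward_nonneg H hg0 D v' fun w hw => ?_
    exact hg.2.2 w (hover w (hw ▸ hv')) hg0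

omit [FiniteDimensional E F] [Algebra.IsSeparable E F] [Algebra K E] [Algebra K F]
  [IsScalarTower K E F] [Algebra R E] in
/-- A generator modulo `ϖ` of a module containing a Gauss unit is a Gauss unit. -/
theorem Gen.inv_mem {ϖF : F} {I : Submodule R F} {Oj : ValuationSubring F}
    (hu : IsUnifOf Oj ϖF) (hB : ∀ b ∈ B, b ∈ Oj)
    (hunit : ∃ z ∈ I, z ≠ 0 ∧ z⁻¹ ∈ Oj) {g : F} (hG : Gen B I ϖF g) : g ≠ 0 ∧ g⁻¹ ∈ Oj := by
  obtain ⟨-, w, hw, b, hb, hgw⟩ := hG
  obtain ⟨z, hz, hz0, hzi⟩ := hunit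
  have hgw' : g * w = 1 + ϖF * b := by linear_combination hgw
  have hinv : (1 + ϖF * b)⁻¹ ∈ Oj := one_add_mul_inv_mem hu (hB b hb)
  have hne : (1 : F) + ϖF * b ≠ 0 := by
    intro h0
    apply hu.nonunit
    have h2 : ϖF * (-b) = 1 := by linear_combination -h0
    have : ϖF⁻¹ = -b := (eq_inv_of_mul_eq_one_right h2).symm
    rw [this]
    exact Oj.neg_mem _ (hB b hb)
  have hg0 : g ≠ 0 := by
    rintro rfl
    rw [zero_mul] at hgw'
    exact hne hgw'.symm
  have hw0 : w ≠ 0 := by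
    rintro rfl
    rw [mul_zero] at hgw'
    exact hne hgw'.symm
  refine ⟨hg0, ?_⟩
  -- `w = (w z) z⁻¹ ∈ O_j`, `g⁻¹ = w (1 + ϖ b)⁻¹`
  have hwO : w ∈ Oj := by
    have h1 : w = (w * z) * z⁻¹ := by field_simp
    rw [h1]
    exact Oj.mul_mem _ _ (hB _ (hw z hz)) hzi
  have h2 : g⁻¹ = w * (1 + ϖF * b)⁻¹ := by
    rw [← hgw']
    field_simp
  rw [h2]
  exact Oj.mul_mem _ _ hwO hinv

/-- **`hreg0` / `hreg1`** for the sections of `O(D)` over the chart `B`: if `N_* D = - div f` with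
`f` a unit of the lower Gauss ring, every generator `g` modulo `ϖ` of `secs B O₁ O₂ D` has
`N g / f ∈ C`, a unit of `O'`. -/
theorem hreg_of_push [HasPrincipalDivisors K F] (H : Divisor.PushforwardNormFormula K E F)
    (hT : TwoOver O' O₁ O₂ ϖ)
    (hover : ∀ w : Place K F, Over C (w.restrict E) → Over B w)
    (hglob : ∀ x : E, x ∈ O' → (∀ v' : Place K E, Over C v' → x ≠ 0 → 0 ≤ v'.ord x) → x ∈ C)
    (le1 : ∀ b ∈ B, b ∈ O₁) (le2 : ∀ b ∈ B, b ∈ O₂)
    {D : Divisor K F} {f : E} (hf0 : f ≠ 0) (hfO : f ∈ O') (hfO' : f⁻¹ ∈ O')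
    (hpush : ∀ v' : Place K E, Divisor.pushforward E D v' = -v'.ord f)
    (hunit : ∃ z ∈ secs B O₁ O₂ D, z ≠ 0 ∧ z⁻¹ ∈ O₁ ∧ z⁻¹ ∈ O₂) :
    ∀ g, Gen B (secs B O₁ O₂ D) (algebraMap E F ϖ) g →
      Algebra.norm E g / f ∈ C ∧ (Algebra.norm E g / f)⁻¹ ∈ O' := by
  intro g hG
  obtain ⟨z, hz, hz0, hz1, hz2⟩ := hunit
  obtain ⟨hg0, hg1⟩ := Gen.inv_mem hT.unif1 le1 ⟨z, hz, hz0, hz1⟩ hG
  obtain ⟨-, hg2⟩ := Gen.inv_mem hT.unif2 le2 ⟨z, hz, hz0, hz2⟩ hG
  refine ⟨norm_div_mem H hT hover hglob hf0 hfO' hpush hG.1 hg0, ?_⟩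
  rw [inv_div, div_eq_mul_inv]
  exact O'.mul_mem _ _ hfO (hT.norm_inv_mem hg1 hg2)

end Chart

/-! ### Pair-level (T5) for the canonical pair of a divisor -/

section Final

variable {R K E F : Type*} [CommRing R] [Field K] [Field E] [Field F] [Algebra K E] [Algebra K F]
  [Algebra E F] [IsScalarTower K E F] [FiniteDimensional E F] [Algebra.IsSeparable E F]
  [Algebra R E] [Algebra R F] [IsScalarTower R E F]

/-- The divisor-level data for one degeneracy map `E → F`: norm formula, charts over charts,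
Hartogs on the lower charts, and `N_* D = - div f` with `f` a unit of the lower Gauss ring. -/
structure PushData (C0 C1 : Subalgebra R E) (O' : ValuationSubring E)
    (B0 B1 : Subalgebra R F) (D : Divisor K F) (f : E) : Prop where
  normFormula : Divisor.PushforwardNormFormula K E F
  over0 : ∀ w : Place K F, Over C0 (w.restrict E) → Over B0 w
  over1 : ∀ w : Place K F, Over C1 (w.restrict E) → Over B1 w
  glob0 : ∀ x : E, x ∈ O' → (∀ v' : Place K E, Over C0 v' → x ≠ 0 → 0 ≤ v'.ord x) → x ∈ C0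
  glob1 : ∀ x : E, x ∈ O' → (∀ v' : Place K E, Over C1 v' → x ≠ 0 → 0 ≤ v'.ord x) → x ∈ C1
  f_ne : f ≠ 0
  f_mem : f ∈ O'
  f_inv_mem : f⁻¹ ∈ O'
  push : ∀ v' : Place K E, Divisor.pushforward E D v' = -v'.ord f

variable {π : R} {q : ℕ} {C0 C1 C01 : Subalgebra R E} {O' : ValuationSubring E}
  {O₁ O₂ : ValuationSubring F} {B0 B1 B01 : Subalgebra R F}

/-- **HK4 in `IsToric` form, one branch, divisor level.** -/
theorem half_of_pushData [HasPrincipalDivisors K F] [Fact q.Prime]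
    (hB : Branch π q C0 C1 C01 O' O₁ O₂ B0 B1 B01)
    (h0 : B0 ≤ B01) (h1 : B1 ≤ B01) (hB1 : ∀ x ∈ B01, x ∈ O₁) (hB2 : ∀ x ∈ B01, x ∈ O₂)
    {D : Divisor K F} {f : E} (hD : PushData C0 C1 O' B0 B1 D f)
    (hunit0 : ∃ z ∈ secs B0 O₁ O₂ D, z ≠ 0 ∧ z⁻¹ ∈ O₁ ∧ z⁻¹ ∈ O₂)
    (hunit1 : ∃ z ∈ secs B1 O₁ O₂ D, z ≠ 0 ∧ z⁻¹ ∈ O₁ ∧ z⁻¹ ∈ O₂)
    {P : LinePair B0 B1 B01} (hI0 : P.I0 = secs B0 O₁ O₂ D) (hI1 : P.I1 = secs B1 O₁ O₂ D)
    {n : ℕ} (hn : 1 ≤ n) {c : F} (hc : HasLead (algebraMap R F π) n P c) :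
    ∃ a ∈ B0, ∃ b ∈ B1, ∃ o ∈ O₁, c - a - b = algebraMap R F π * o := by
  have e : algebraMap R F π = algebraMap E F (algebraMap R E π) :=
    IsScalarTower.algebraMap_apply R E F π
  refine hB.half h0 hB1 hB2 hn hc hD.f_ne ?_ ?_
  · intro g hG
    rw [hI0, e] at hG
    exact hreg_of_push hD.normFormula hB.two hD.over0 hD.glob0
      (fun b hb => hB1 b (h0 hb)) (fun b hb => hB2 b (h0 hb)) hD.f_ne hD.f_mem hD.f_inv_mem
      hD.push hunit0 g hG
  · intro g hG
    rw [hI1, e] at hG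
    exact (hreg_of_push hD.normFormula hB.two hD.over1 hD.glob1
      (fun b hb => hB1 b (h1 hb)) (fun b hb => hB2 b (h1 hb)) hD.f_ne hD.f_mem hD.f_inv_mem
      hD.push hunit1 g hG).1

end Final

section FinalTwo

open Fermat.Agent.M1.Pic2.ToricPic15 Fermat.Agent.M1.Pic2.Toric15 Fermat.Agent.M1.Pic2.ToricField15

variable {R K E₁ E₂ F : Type*} [CommRing R] [Field K] [Field E₁] [Field E₂] [Field F]
  [Algebra K E₁] [Algebra K E₂] [Algebra K F] [Algebra R E₁] [Algebra R E₂] [Algebra R F]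
  [Algebra E₁ F] [IsScalarTower K E₁ F] [IsScalarTower R E₁ F] [FiniteDimensional E₁ F]
  [Algebra.IsSeparable E₁ F]
  [Algebra E₂ F] [IsScalarTower K E₂ F] [IsScalarTower R E₂ F] [FiniteDimensional E₂ F]
  [Algebra.IsSeparable E₂ F]
variable {π : R} {q : ℕ}
  {C0 C1 C01 : Subalgebra R E₁} {O' : ValuationSubring E₁}
  {D0 D1 D01 : Subalgebra R E₂} {O'' : ValuationSubring E₂}
  {O₁ O₂ : ValuationSubring F} {B0 B1 B01 : Subalgebra R F}

/-- **Pair-level (T5) for the canonical pair of a divisor.**  Below the critical level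
(`p n < n + e`), if `P = (secs B0 D, secs B1 D)` has level `n ≥ 1`, both push-forwards `α_* D`,
`β_* D` are principal and `P ^ p` has level `p n + 1`, then `P` has level `n + 1`. -/
theorem level_succ_of_push_divisor [HasPrincipalDivisors K F] [Fact q.Prime] {p e : ℕ} {υ : F}
    (h : TwoChart (algebraMap R F π) B0 B1 B01)
    (T : ToricSetup p B0.toSubring B1.toSubring B01.toSubring (algebraMap R F).range
      (mulSub (algebraMap R F π) B01.toSubring.toAddSubgroup)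
      (mulSub (algebraMap R F π) O₁.toAddSubgroup)
      (mulSub (algebraMap R F π) O₂.toAddSubgroup))
    (hp : p.Prime) (hpe : (p : F) = algebraMap R F π ^ e * υ) (hυ : υ ∈ B01)
    (hα : Branch π q C0 C1 C01 O' O₁ O₂ B0 B1 B01)
    (hβ : Branch π q D0 D1 D01 O'' O₂ O₁ B0 B1 B01)
    (hB1 : ∀ x ∈ B01, x ∈ O₁) (hB2 : ∀ x ∈ B01, x ∈ O₂)
    {D : Divisor K F} {f₁ : E₁} {f₂ : E₂}
    (hDα : PushData C0 C1 O' B0 B1 D f₁) (hDβ : PushData D0 D1 O'' B0 B1 D f₂)
    (hunit0 : ∃ z ∈ secs B0 O₁ O₂ D, z ≠ 0 ∧ z⁻¹ ∈ O₁ ∧ z⁻¹ ∈ O₂)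
    (hunit1 : ∃ z ∈ secs B1 O₁ O₂ D, z ≠ 0 ∧ z⁻¹ ∈ O₁ ∧ z⁻¹ ∈ O₂)
    {P : LinePair B0 B1 B01} (hI0 : P.I0 = secs B0 O₁ O₂ D) (hI1 : P.I1 = secs B1 O₁ O₂ D)
    {n : ℕ} (hn : 1 ≤ n) (hlt : p * n < n + e) {c : F}
    (hc : HasLead (algebraMap R F π) n P c)
    (hpow : Level (algebraMap R F π) (p * n + 1) (LinePair.npow h.le0 h.le1 P p)) :
    Level (algebraMap R F π) (n + 1) P := by
  have hcB : c ∈ B01 := by
    obtain ⟨g0, g1, -, hL⟩ := hc
    exact hL.1
  have hsecs : ∀ B : Subalgebra R F, secs B O₂ O₁ D = secs B O₁ O₂ D := by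
    intro B
    ext z
    simp only [mem_secs]
    tauto
  have hunit0' : ∃ z ∈ secs B0 O₂ O₁ D, z ≠ 0 ∧ z⁻¹ ∈ O₂ ∧ z⁻¹ ∈ O₁ := by
    obtain ⟨z, hz, hz0, h1, h2⟩ := hunit0
    exact ⟨z, by rw [hsecs]; exact hz, hz0, h2, h1⟩
  have hunit1' : ∃ z ∈ secs B1 O₂ O₁ D, z ≠ 0 ∧ z⁻¹ ∈ O₂ ∧ z⁻¹ ∈ O₁ := by
    obtain ⟨z, hz, hz0, h1, h2⟩ := hunit1
    exact ⟨z, by rw [hsecs]; exact hz, hz0, h2, h1⟩
  have htor : IsToric π B0 B1 O₁ O₂ c :=
    ⟨half_of_pushData hα h.le0 h.le1 hB1 hB2 hDα hunit0 hunit1 hI0 hI1 hn hc,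
      half_of_pushData hβ h.le0 h.le1 hB2 hB1 hDβ hunit0' hunit1'
        (by rw [hsecs]; exact hI0) (by rw [hsecs]; exact hI1) hn hc⟩
  exact Fermat.Agent.M1.Pic2.Final60.Level.succ_of_pow_lt h hp hpe hυ hn hlt hc hpow
    (fun hcp => pow_mem_Bdry_imp T hcB htor hcp)

end FinalTwo

end Fermat.Agent.M1.NRM.PushReg88
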