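/-
Program M1 (S44), chapter NRM / HK3 (helper18): **the residue field of the `∞`-branch**.

`q` prime, `q ∤ M'`, `A ≤ ℚ̄` a valuation subring over `q`, `k = ResidueField A`.  For `Y ∈ A((𝐪))` whose
`ℚ̄`-series lies in the function field `Fbar (M' * q)` of the BAD level `M' q`, the coefficientwise
reduction of `Y` lies in the special-fibre function field of the GOOD level `M'`:

  `coeffMap (residue A) Y ∈ modularFunctionFieldFullC k M'`

(`κ(O1) = κ(M')`: the Gauss valuation of the expansion at `∞` has residue degree one over the image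
of `alpha`.)  Proof: descend `Y` to `(A ∩ K)((𝐪))` for a large number field `K`
(`RedMem16.exists_series_descent`), apply `hcomb` at `(O1, alpha)` — `O1 = alpha(Ov_{M'}) + π O1`
(`CombA26.hcombAt_of`) — and reduce: `Y₀ ≡ z mod π`, `z ∈ gaussRing ∩ FK M' K`, whose residue lies in
`κ_K·F̃_{M'}` by `GaussUnit25.resField_FK_eq` (good level `M'`).

* `HcombInf q M' A K` : `hcomb` at `(O1, alpha)` at `K`, with no reference to a Hauptmodul;
* `coeffMap_residue_mem_of_hcomb` : the statement from `HcombInf` at all large `K`;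
* `coeffMap_residue_mem_four` (`4 ∣ M'`), `coeffMap_residue_mem_nine` (`9 ∣ M'`) : unconditional.
-/
import Mathlib
import Fermat.Agent.ES.N34.CombA26
import Fermat.Agent.ES.RED.RedMem16
import Fermat.Agent.ES.P36.CoeffField4

set_option autoImplicit false
set_option synthInstance.maxHeartbeats 400000
set_option linter.unusedSectionVars false
set_option linter.style.haveILetI false

noncomputable section

open HahnSeries ModularCurve IntermediateField

namespace Fermat.Agent.M1.NRM.ResInf18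

open Fermat.Agent.RED.Interface4 Fermat.Agent.RED.DESC Fermat.Agent.RED.DESC.NumberFieldDVR27
open Fermat.Agent.RED.PUR.GaussGen8 Fermat.Agent.RED.PUR.GaussBridge10
open Fermat.Agent.ES.N34.ModelDefs9 Fermat.Agent.ES.N34 Fermat.Agent.RED.BASE.EtaQuot12

variable (q M' : ℕ) [NeZero M'] [NeZero q] (A : ValuationSubring Qbar)

/-- `hcomb` at `(O1, alpha)` at `K`: `O1 = alpha(Ov_{M'}) + π O1`, with no reference to a Hauptmodul. -/
def HcombInf (K : IntermediateField ℚ Qbar) : Prop :=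
  ∀ (hE : FK (M' * q) K ≤ fracField (AK A K)) (π : ↥(AK A K)) (hπ : IsUnif (AK A K) π),
    ∀ x ∈ O1 M' q hπ hE, ∃ z : FK M' K, (z : LaurentSeries ↥K) ∈ gaussRing (AK A K) ∧
      ∃ c ∈ O1 M' q hπ hE,
        x - alpha K M' q z = algebraMap ↥(AK A K) ↥(FK (M' * q) K) π * c

variable {q M' A}

/-- `HcombAt` (with a Hauptmodul available) gives `HcombInf`. -/
theorem hcombInf_of_hcombAt {n e : ℕ} [NeZero n] {K : IntermediateField ℚ Qbar}
    (ht : tq (↥K) n e ∈ FK M' K) (h : CombA26.HcombAt n e q M' A K) : HcombInf q M' A K :=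
  fun hE π hπ => h ht hE π hπ

/-- **The residue field of the `∞`-branch is the good-level field**, from `hcomb` at all large
number fields. -/
theorem coeffMap_residue_mem_of_hcomb (hq : q.Prime) (hqM : ¬ q ∣ M') (hA : A.LiesOverPrime q)
    (hC : ∃ K₀ : IntermediateField ℚ Qbar, FiniteDimensional ℚ K₀ ∧
      ∀ K : IntermediateField ℚ Qbar, FiniteDimensional ℚ K → K₀ ≤ K → HcombInf q M' A K)
    (Y : LaurentSeries ↥A) (hY : coeffMap A.subtype Y ∈ Fbar (M' * q)) :
    coeffMap (IsLocalRing.residue ↥A) Y ∈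
      modularFunctionFieldFullC (IsLocalRing.ResidueField ↥A) M' := by
  obtain ⟨K₀, hK₀, hC⟩ := hC
  obtain ⟨K, hfin, hle, H⟩ := ES.RED.RedMem16.exists_series_descent A (M' * q) K₀ Y hY
  haveI := hfin
  obtain ⟨Y₀, hmem, rfl⟩ := H K le_rfl
  rw [ES.RED.GaussUnit25.coeffMap_residue_incl]
  apply ES.RED.ResidueUnion1.coeffMap_resMap_mem_fullC
  haveI : Fact q.Prime := ⟨hq⟩
  rw [← ES.RED.GaussUnit25.resField_FK_eq A K q hA M' hqM]
  haveI hdvr : IsDiscreteValuationRing ↥(AK A K) :=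
    isDiscreteValuationRing_AK A K hq.ne_zero hA
  obtain ⟨π, hπirr⟩ := IsDiscreteValuationRing.exists_irreducible ↥(AK A K)
  have hπ : IsUnif (AK A K) π := isUnif_of_irreducible (AK A K) hπirr
  have hE : FK (M' * q) K ≤ fracField (AK A K) := FK_le_fracField A K (M' * q)
  have hx : (⟨embK (AK A K) Y₀, hmem⟩ : FK (M' * q) K) ∈ O1 M' q hπ hE := embK_mem _ Y₀
  obtain ⟨z, hz, c, hc, h⟩ := hC K hfin hle hE π hπ _ hx
  refine ⟨(z : LaurentSeries K), hz, z.2, ?_⟩
  have hc' : ((c : FK (M' * q) K) : LaurentSeries K) ∈ gaussRing (AK A K) := hc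
  have h1 : embK (AK A K) Y₀ - (z : LaurentSeries K) =
      HahnSeries.C ((π : ↥(AK A K)) : ↥K) * ((c : FK (M' * q) K) : LaurentSeries K) := by
    have h2 := congrArg (fun w : FK (M' * q) K => (w : LaurentSeries K)) h
    simp only [AddSubgroupClass.coe_sub, MulMemClass.coe_mul, coe_alpha,
      Fermat.Agent.RED.NumInst4.coe_algebraMap_OE] at h2
    exact h2
  have h3 : (⟨embK (AK A K) Y₀, embK_mem _ Y₀⟩ : ↥(gaussRing (AK A K))) =
      ⟨(z : LaurentSeries K), hz⟩ + constG (AK A K) π * ⟨_, hc'⟩ := by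
    apply Subtype.ext
    show embK (AK A K) Y₀ = (z : LaurentSeries K) +
      HahnSeries.C ((π : ↥(AK A K)) : ↥K) * ((c : FK (M' * q) K) : LaurentSeries K)
    rw [← h1]; ring
  have h4 := congrArg (gaussRed (AK A K)) h3
  rw [map_add, map_mul, gaussRed_unif hπ, zero_mul, add_zero, gaussRed_embK] at h4
  exact h4.symm

/-- `q` odd: `4 ∣ M'`. -/
theorem coeffMap_residue_mem_four (hq : q.Prime) (hqM : ¬ q ∣ M') (hM : 4 ∣ M')
    (hA : A.LiesOverPrime q) (Y : LaurentSeries ↥A) (hY : coeffMap A.subtype Y ∈ Fbar (M' * q)) :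
    coeffMap (IsLocalRing.residue ↥A) Y ∈
      modularFunctionFieldFullC (IsLocalRing.ResidueField ↥A) M' := by
  have hb := (Fermat.Agent.RED.BASE.MainCusp12.base_four M' hM).1
  refine coeffMap_residue_mem_of_hcomb hq hqM hA ⟨⊥, inferInstance, fun K hfd _ => ?_⟩ Y hY
  haveI := hfd
  exact hcombInf_of_hcombAt (ES.P36.CoeffField4.tq_mem_FK 4 8 M' hb.mem K)
    (CombA26.hcombAt_of hq hqM hA K (ES.P36.CoeffField4.j_mem_adjoin 4 8 hb.genBase K))

/-- `q = 2` (or any `q`): `9 ∣ M'`. -/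
theorem coeffMap_residue_mem_nine (hq : q.Prime) (hqM : ¬ q ∣ M') (hM : 9 ∣ M')
    (hA : A.LiesOverPrime q) (Y : LaurentSeries ↥A) (hY : coeffMap A.subtype Y ∈ Fbar (M' * q)) :
    coeffMap (IsLocalRing.residue ↥A) Y ∈
      modularFunctionFieldFullC (IsLocalRing.ResidueField ↥A) M' := by
  have hb := (Fermat.Agent.RED.BASE.MainCusp12.base_nine M' hM).1
  refine coeffMap_residue_mem_of_hcomb hq hqM hA ⟨⊥, inferInstance, fun K hfd _ => ?_⟩ Y hY
  haveI := hfd
  exact hcombInf_of_hcombAt (ES.P36.CoeffField4.tq_mem_FK 9 3 M' hb.mem K)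
    (CombA26.hcombAt_of hq hqM hA K (ES.P36.CoeffField4.j_mem_adjoin 9 3 hb.genBase K))

end Fermat.Agent.M1.NRM.ResInf18
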