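/-
Program M1 (S44), chapter NRM / HK3 (helper18): **`hcomb` at `(O1, alpha)` for EVERY good level `M'`**
(no `4 ∣ M'` / `9 ∣ M'`), by running helper26's `CombOne26.hcomb_one` with the parameter `t := j`
instead of a Hauptmodul.

* `v2_export_j` : helper25's `GaussVTwoInst25.v2_export` with `tM ht` replaced by `jN K M'` (`j` as an
  element of `FK M' K`): `iota2Alg (alpha j)` lies in the Gauss ring with transcendental residue, and
  `q · ψ'` elements of `O2` have residues independent over `κ((iota2Alg (alpha j))~)`,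
  `ψ' = [FK M' K : K(j)]`;
* `hcombInf_of` : `ResInf18.HcombInf q M' A K` for every number field `K`;
* `coeffMap_residue_mem` : **`κ(O1) = κ(M')`** — for `Y ∈ A((𝐪))` with `coeffMap A.subtype Y ∈ Fbar (M' q)`,
  `coeffMap (residue A) Y ∈ modularFunctionFieldFullC (ResidueField A) M'`.
-/
import Mathlib
import Fermat.Agent.M1.NRM.ResInf18

set_option autoImplicit false
set_option linter.unusedSectionVars false
set_option linter.style.haveILetI false

noncomputable section

open HahnSeries ModularCurve IntermediateField Polynomial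

namespace Fermat.Agent.M1.NRM.HcombJ18

open Fermat.Agent.RED.Interface4 Fermat.Agent.RED.PUR.GaussGen8 Fermat.Agent.RED.PUR.KtGauss8
open Fermat.Agent.RED.PUR.G1Package8 Fermat.Agent.RED.PUR.GaussBridge10
open Fermat.Agent.ES.N34 Fermat.Agent.ES.N34.GaussEmb22 Fermat.Agent.ES.N34.FrickeFK8
open Fermat.Agent.ES.N34.ModelDefs9
open Fermat.Agent.ES.N34.ModelGlue22 Fermat.Agent.ES.N34.IsoM25
open Fermat.Agent.RED.DESC.NumberFieldDVR27

set_option synthInstance.maxHeartbeats 400000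
set_option maxHeartbeats 1000000

section Export

variable {A : ValuationSubring Qbar} {K : IntermediateField ℚ Qbar} (M' q : ℕ) [NeZero M']
  [NeZero q] [hq : Fact q.Prime] [IsDiscreteValuationRing ↥(AK A K)] [CharP (Res (AK A K)) q]
  {π : ↥(AK A K)}

/-- `j ∈ K(j)`. -/
theorem j_mem_Kt_j :
    jqModC (↥K) ∈ Kt (AK A K) ⟨qExpand K 1 (jqModC K), jqd_mem_gaussRing (AK A K) 1⟩ := by
  show jqModC (↥K) ∈ (↥K)⟮qExpand K 1 (jqModC K)⟯
  rw [qExpand_one_apply]
  exact mem_adjoin_simple_self _ _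

/-- **(V2) export with `t := j`**. -/
theorem v2_export_j (hπ : Irreducible π) (hE : FK (M' * q) K ≤ fracField (AK A K))
    (hqM : ¬ q ∣ M') :
    ∃ (ht₂ : iota2Alg K M' q (alpha K M' q (jN K M')) ∈ gaussRing (AK A K))
      (_ : Transcendental (Res (AK A K))
        (gaussRed (AK A K) ⟨iota2Alg K M' q (alpha K M' q (jN K M')), ht₂⟩))
      (b₂ : Fin (q * IntermediateField.relfinrank
        (Kt (AK A K) ⟨qExpand K 1 (jqModC K), jqd_mem_gaussRing (AK A K) 1⟩) (FK M' K)) →
          FK (M' * q) K)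
      (hb₂ : ∀ i, b₂ i ∈ O2 M' q (isUnif_of_irreducible (AK A K) hπ) hE),
      LinearIndependent ↥(kt (AK A K) ⟨iota2Alg K M' q (alpha K M' q (jN K M')), ht₂⟩)
        (fun i => redOf (isGaussPullback_O2 M' q (isUnif_of_irreducible (AK A K) hπ) hE)
          ⟨b₂ i, hb₂ i⟩) := by
  classical
  have hπu := isUnif_of_irreducible (AK A K) hπ
  have hEM := FK_le_fracField A K M'
  -- the two Gauss pull-backs of the good level
  have hV₁ : IsGaussPullback (AK A K) (FK M' K).val (OvE (AK A K) hπ (FK M' K) hEM) :=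
    G2Out22.isGaussPullback_OvE hπ hEM
  have hV₂ := isGaussPullback_O2N M' K A hπu
  -- `j`-data of the good level
  have ht₁ : (FK M' K).val (jN K M') ∈ gaussRing (AK A K) := jqd_mem_gaussRing (AK A K) 1
  have htr₁ : Transcendental (Res (AK A K))
      (gaussRed (AK A K) ⟨(FK M' K).val (jN K M'), ht₁⟩) :=
    transcendental_gaussRed_jqd (AK A K) 1
  have ht₂M : iotaAlg M' K (jN K M') ∈ gaussRing (AK A K) := by
    rw [iotaAlg_jN]; exact jqd_mem_gaussRing (AK A K) M'
  have htr₂M : Transcendental (Res (AK A K))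
      (gaussRed (AK A K) ⟨iotaAlg M' K (jN K M'), ht₂M⟩) := by
    have h1 : (⟨iotaAlg M' K (jN K M'), ht₂M⟩ : ↥(gaussRing (AK A K))) =
        ⟨qExpand K M' (jqModC K), jqd_mem_gaussRing (AK A K) M'⟩ :=
      Subtype.ext (iotaAlg_jN K M')
    rw [h1]
    exact transcendental_gaussRed_jqd (AK A K) M'
  obtain ⟨hn0, -, hirrt⟩ := Fermat.Agent.RED.PUR.GaussInstN25.degLe_irr_laurentBaseChange
    (AK A K) hπ q M' hqM ⟨qExpand K 1 (jqModC K), jqd_mem_gaussRing (AK A K) 1⟩ (jN K M').2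
    (j_mem_Kt_j (A := A) (K := K))
  have := finite_of_relfinrank (jN K M') ht₁ hn0
  have hn := (finrank_eq_relfinrank (O := AK A K) (jN K M') ht₁).le
  obtain ⟨b, hb, hli⟩ := exists_family_of_irr hπ hEM (jN K M') ht₁ hirrt
  -- the bad level
  have hV := isGaussPullback_O2 (A := A) (K := K) M' q hπu hE
  have hα : ∀ x : FK M' K,
      iota2Alg K M' q (alpha K M' q x) = qExpand (↥K) q (iotaAlg M' K x) := fun x =>
    FrickeV11.iota2_alpha K M' q x
  have htN : iota2Alg K M' q (alpha K M' q (jN K M')) ∈ gaussRing (AK A K) := by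
    rw [hα]; exact GaussVTwoFam25.qExpand_mem_gaussRing q ht₂M
  have htrN : Transcendental (Res (AK A K))
      (gaussRed (AK A K) ⟨iota2Alg K M' q (alpha K M' q (jN K M')), htN⟩) := by
    have h1 : (⟨iota2Alg K M' q (alpha K M' q (jN K M')), htN⟩ : ↥(gaussRing (AK A K))) =
        ⟨qExpand (↥K) q ((⟨iotaAlg M' K (jN K M'), ht₂M⟩ : ↥(gaussRing (AK A K))) :
            LaurentSeries K),
          GaussVTwoFam25.qExpand_mem_gaussRing q ht₂M⟩ := Subtype.ext (hα (jN K M'))
    rw [h1, GaussVTwoFam25.gaussRed_qExpand]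
    exact GaussVTwoFam25.transcendental_qExpand q htr₂M
  have hw : iota2Alg K M' q (jTop K (M' * q)) ∈ gaussRing (AK A K) := by
    show iotaAlg (M' * q) K (jTop K (M' * q)) ∈ gaussRing (AK A K)
    rw [iotaAlg_jTop]; exact jqd_mem_gaussRing (AK A K) 1
  have hwe : (⟨iota2Alg K M' q (jTop K (M' * q)), hw⟩ : ↥(gaussRing (AK A K))) =
      ⟨qExpand K 1 (jqModC K), jqd_mem_gaussRing (AK A K) 1⟩ :=
    Subtype.ext (iotaAlg_jTop K (M' * q))
  have hJ0 : gaussRed (AK A K) ⟨iota2Alg K M' q (jTop K (M' * q)), hw⟩ ≠ 0 := by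
    rw [hwe]; exact gaussRed_jqd_ne_zero (AK A K) 1
  have hJ : IsCoprime
      (gaussRed (AK A K) ⟨iota2Alg K M' q (jTop K (M' * q)), hw⟩).order (q : ℤ) := by
    rw [hwe, order_gaussRed_jqd]
    simp only [Nat.cast_one]
    exact (isCoprime_one_left (x := (q : ℤ))).neg_left
  obtain ⟨hb₂, hli₂⟩ := GaussVTwoFam25.family_two_level q hπ hV₁ hV₂ ht₁ htr₁ ht₂M htr₂M hn b hb
    hli hV (alpha K M' q) hα htN hw hJ0 hJ
  exact ⟨htN, htrN, _, hb₂, hli₂⟩

end Export

section Hcomb

variable {q M' : ℕ} [NeZero M'] [NeZero q] {A : ValuationSubring Qbar}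

set_option maxHeartbeats 4000000 in
/-- **`hcomb` at `(O1, alpha)` at every number field `K`, every good level `M'`.** -/
theorem hcombInf_of (hq : q.Prime) (hqM : ¬ q ∣ M') (hA : A.LiesOverPrime q)
    (K : IntermediateField ℚ Qbar) [FiniteDimensional ℚ K] :
    ResInf18.HcombInf q M' A K := by
  intro hE π hπ
  have hdvr : IsDiscreteValuationRing ↥(AK A K) :=
    isDiscreteValuationRing_AK A K hq.ne_zero hA
  have hirr : Irreducible π := (IsDiscreteValuationRing.irreducible_iff_uniformizer π).mpr hπ.max_eq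
  have : Fact q.Prime := ⟨hq⟩
  have : CharP (Res (AK A K)) q := charP_residueField_AK A K hq hA
  -- V2
  obtain ⟨ht₂, htr₂, b₂, hb₂, hli₂⟩ := v2_export_j (A := A) (K := K) M' q hirr hE hqM
  have h12 : O1 M' q hπ hE ≠ O2 M' q hπ hE := OneNeTwo3.o1_ne_o2 M' q hπ hE
  -- V1
  have hFKM : FK M' K = modularFunctionFieldFullC (↥K) M' :=
    Fermat.Agent.RED.PUR.DegBaseChange25.laurentBaseChange_full_eq (L := ↥K) M'
  have hFKN : FK (M' * q) K = modularFunctionFieldFullC (↥K) (M' * q) :=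
    Fermat.Agent.RED.PUR.DegBaseChange25.laurentBaseChange_full_eq (L := ↥K) (M' * q)
  have htM : ((jN K M' : ↥(FK M' K)) : LaurentSeries K) ∈ gaussRing (AK A K) :=
    jqd_mem_gaussRing (AK A K) 1
  have htE : ((⟨((jN K M' : ↥(FK M' K)) : LaurentSeries K), htM⟩ : ↥(gaussRing (AK A K))) :
      LaurentSeries K) ∈ modularFunctionFieldFullC (↥K) M' := by
    rw [← hFKM]; exact (jN K M').2
  obtain ⟨hdeg, hn0, -, -, hirrM⟩ :=
    GaussVOne25.g2_v1 (AK A K) hirr q M' hqM ⟨((jN K M' : ↥(FK M' K)) : LaurentSeries K), htM⟩ htE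
      (j_mem_Kt_j (A := A) (K := K))
  rw [← hFKN, ← hFKM] at hdeg
  rw [← hFKM] at hirrM hn0
  have hEM : FK M' K ≤ fracField (AK A K) := FK_le_fracField A K M'
  have htrM : Transcendental (Res (AK A K))
      (gaussRed (AK A K) ⟨((jN K M' : ↥(FK M' K)) : LaurentSeries K), htM⟩) :=
    transcendental_gaussRed_jqd (AK A K) 1
  have hdeg' : relfinrank (Kt (AK A K) ⟨((jN K M' : ↥(FK M' K)) : LaurentSeries K), htM⟩)
      (FK (M' * q) K) =
      relfinrank (Kt (AK A K) ⟨((jN K M' : ↥(FK M' K)) : LaurentSeries K), htM⟩) (FK M' K) +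
        q * relfinrank (Kt (AK A K) ⟨((jN K M' : ↥(FK M' K)) : LaurentSeries K), htM⟩)
          (FK M' K) := by
    rw [hdeg]
    ring
  have hn : relfinrank (Kt (AK A K) ⟨((jN K M' : ↥(FK M' K)) : LaurentSeries K), htM⟩) (FK M' K) +
      q * relfinrank (Kt (AK A K) ⟨((jN K M' : ↥(FK M' K)) : LaurentSeries K), htM⟩)
        (FK M' K) ≠ 0 :=
    fun h => hn0 (by omega)
  have key := CombOne26.hcomb_one hirr hEM hE (alpha K M' q) (coe_alpha K M' q) (jN K M') htM htrM
    hirrM hdeg' hn (isGaussPullback_O2 M' q hπ hE) h12 ht₂ htr₂ b₂ hb₂ hli₂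
  intro x hx
  obtain ⟨z, hz, c, hc, h⟩ := key x hx
  exact ⟨z, (mem_OvE_iff (AK A K) hirr (FK M' K) hEM z).mp hz, c, hc, h⟩

/-- **The residue field of the `∞`-branch of the bad level `M' q` is the good-level field `κ(M')`**:
no divisibility hypothesis on `M'`. -/
theorem coeffMap_residue_mem (hq : q.Prime) (hqM : ¬ q ∣ M') (hA : A.LiesOverPrime q)
    (Y : LaurentSeries ↥A) (hY : coeffMap A.subtype Y ∈ Fbar (M' * q)) :
    coeffMap (IsLocalRing.residue ↥A) Y ∈
      modularFunctionFieldFullC (IsLocalRing.ResidueField ↥A) M' :=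
  ResInf18.coeffMap_residue_mem_of_hcomb hq hqM hA
    ⟨⊥, inferInstance, fun K hfd _ => by haveI := hfd; exact hcombInf_of hq hqM hA K⟩ Y hY

end Hcomb

end Fermat.Agent.M1.NRM.HcombJ18
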