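/-
Program M1 (S44), chapter NRM / HK3 (helper18): consumer forms of `κ(O1) = κ(M')`.

`q` prime, `q ∤ M'`, `A ≤ ℚ̄` over `q`, `k = ResidueField A`.

* `resField_FK_mul_eq` : number-field level — for every number field `K`, the residue field of the Gauss
  valuation (expansion at `∞`) on the BAD-level field `FK (M' q) K` is the good-level special-fibre field:
  `resField (AK A K) (FK (M' * q) K) = modularFunctionFieldFullC (Res (AK A K)) M'`;
* `exists_gaussFrac` : **Gauss normalisation over `ℚ̄`** (any level `N`): every nonzero `g ∈ Fbar N` is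
  `lam · y₁ / y₂` with `lam ∈ ℚ̄ˣ` and `y₁, y₂ ∈ A((𝐪))` in `Fbar N` of NONZERO reduction;
* `exists_gaussFrac_mem` : at the bad level `N = M' q` moreover `red y₁, red y₂ ∈ κ(M')`, so the Gauss
  reduction `red y₁ / red y₂` of `g` along the `∞`-branch lies in `κ(M') = modularFunctionFieldFullC k M'`.
-/
import Mathlib
import Fermat.Agent.M1.NRM.HcombJ18

set_option autoImplicit false
set_option synthInstance.maxHeartbeats 400000
set_option linter.unusedSectionVars false
set_option linter.style.haveILetI false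

noncomputable section

open HahnSeries ModularCurve IntermediateField

namespace Fermat.Agent.M1.NRM.GaussFrac18

open Fermat.Agent.RED.Interface4 Fermat.Agent.RED.DESC Fermat.Agent.RED.DESC.NumberFieldDVR27
open Fermat.Agent.RED.DESC.PlaceExtend27
open Fermat.Agent.RED.PUR.GaussGen8 Fermat.Agent.RED.PUR.GaussBridge10
open Fermat.Agent.ES.N34.ModelDefs9 Fermat.Agent.ES.N34

variable {q M' : ℕ} [NeZero M'] [NeZero q] {A : ValuationSubring Qbar}

/-- **`κ(O1_K) = κ_K(M')`** at every number field `K`. -/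
theorem resField_FK_mul_eq (hq : q.Prime) (hqM : ¬ q ∣ M') (hA : A.LiesOverPrime q)
    (K : IntermediateField ℚ Qbar) [FiniteDimensional ℚ K] :
    resField (AK A K) (FK (M' * q) K) = modularFunctionFieldFullC (Res (AK A K)) M' := by
  haveI : Fact q.Prime := ⟨hq⟩
  have hgood := ES.RED.GaussUnit25.resField_FK_eq A K q hA M' hqM
  apply le_antisymm
  · rintro y ⟨f, hf, hfE, rfl⟩
    rw [← hgood]
    haveI hdvr : IsDiscreteValuationRing ↥(AK A K) :=
      isDiscreteValuationRing_AK A K hq.ne_zero hA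
    obtain ⟨π, hπirr⟩ := IsDiscreteValuationRing.exists_irreducible ↥(AK A K)
    have hπ : IsUnif (AK A K) π := isUnif_of_irreducible (AK A K) hπirr
    have hE : FK (M' * q) K ≤ fracField (AK A K) := FK_le_fracField A K (M' * q)
    have hx : (⟨f, hfE⟩ : FK (M' * q) K) ∈ O1 M' q hπ hE := hf
    obtain ⟨z, hz, c, hc, h⟩ := HcombJ18.hcombInf_of hq hqM hA K hE π hπ _ hx
    refine ⟨(z : LaurentSeries K), hz, z.2, ?_⟩
    have hc' : ((c : FK (M' * q) K) : LaurentSeries K) ∈ gaussRing (AK A K) := hc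
    have h1 : f - (z : LaurentSeries K) =
        HahnSeries.C ((π : ↥(AK A K)) : ↥K) * ((c : FK (M' * q) K) : LaurentSeries K) := by
      have h2 := congrArg (fun w : FK (M' * q) K => (w : LaurentSeries K)) h
      simp only [AddSubgroupClass.coe_sub, MulMemClass.coe_mul, coe_alpha,
        Fermat.Agent.RED.NumInst4.coe_algebraMap_OE] at h2
      exact h2
    have h3 : (⟨f, hf⟩ : ↥(gaussRing (AK A K))) =
        ⟨(z : LaurentSeries K), hz⟩ + constG (AK A K) π * ⟨_, hc'⟩ := by
      apply Subtype.ext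
      show f = (z : LaurentSeries K) +
        HahnSeries.C ((π : ↥(AK A K)) : ↥K) * ((c : FK (M' * q) K) : LaurentSeries K)
      rw [← h1]; ring
    have h4 := congrArg (gaussRed (AK A K)) h3
    rw [map_add, map_mul, gaussRed_unif hπ, zero_mul, add_zero] at h4
    exact h4.symm
  · rw [← hgood]
    apply resField_mono
    have h1 : FK M' K = modularFunctionFieldFullC (↥K) M' :=
      Fermat.Agent.RED.PUR.DegBaseChange25.laurentBaseChange_full_eq (L := ↥K) M'
    have h2 : FK (M' * q) K = modularFunctionFieldFullC (↥K) (M' * q) :=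
      Fermat.Agent.RED.PUR.DegBaseChange25.laurentBaseChange_full_eq (L := ↥K) (M' * q)
    rw [h1, h2]
    exact full_degeneracyC_le (↥K) (dvd_mul_right M' q)

/-- **Gauss normalisation over `ℚ̄`**: every nonzero element of `Fbar N` is `lam · y₁ / y₂` with
`y₁, y₂ ∈ A((𝐪)) ∩ Fbar N` of nonzero reduction. -/
theorem exists_gaussFrac (N : ℕ) [NeZero N] (hq : q.Prime) (hA : A.LiesOverPrime q)
    (g : LaurentSeries Qbar) (hg : g ∈ Fbar N) (hg0 : g ≠ 0) :
    ∃ (lam : Qbar) (y₁ y₂ : LaurentSeries ↥A), lam ≠ 0 ∧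
      coeffMap A.subtype y₁ ∈ Fbar N ∧ coeffMap A.subtype y₂ ∈ Fbar N ∧
      coeffMap (IsLocalRing.residue ↥A) y₁ ≠ 0 ∧ coeffMap (IsLocalRing.residue ↥A) y₂ ≠ 0 ∧
      g * coeffMap A.subtype y₂ = HahnSeries.C lam * coeffMap A.subtype y₁ := by
  obtain ⟨K, hfin, -, H⟩ := UnifDescent14.exists_descent_ge N ⊥ ⟨g, hg⟩
  haveI := hfin
  obtain ⟨x', hx'⟩ := H K le_rfl
  have hcoe : coeffMap (algebraMap K Qbar) (x' : LaurentSeries K) = g := by
    have := congrArg (fun z : ↥(Fbar N) => (z : LaurentSeries Qbar)) hx'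
    simpa only [coe_baseChangeHom] using this
  have hx0 : (x' : LaurentSeries K) ≠ 0 := by
    intro h0
    rw [h0, map_zero] at hcoe
    exact hg0 hcoe.symm
  haveI hdvr : IsDiscreteValuationRing ↥(AK A K) :=
    isDiscreteValuationRing_AK A K hq.ne_zero hA
  obtain ⟨π, hπirr⟩ := IsDiscreteValuationRing.exists_irreducible ↥(AK A K)
  have hπ : IsUnif (AK A K) π := isUnif_of_irreducible (AK A K) hπirr
  have hFK : FK N K = modularFunctionFieldFullC (↥K) N :=
    Fermat.Agent.RED.PUR.DegBaseChange25.laurentBaseChange_full_eq (L := ↥K) N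
  have hxmem : (x' : LaurentSeries K) ∈ modularFunctionFieldFullC (↥K) N := by
    rw [← hFK]; exact x'.2
  obtain ⟨c, a, b, hc0, haE, hbE, hared, hbred, heq⟩ :=
    ES.RED.GaussUnit25.exists_integral_fraction (O := AK A K) hπ N hxmem hx0
  rw [← hFK] at haE hbE
  have hinj := CoeffDescent1.coeffMap_injective_of_injective (resMap A K) (resMap_injective A K)
  refine ⟨algebraMap K Qbar c, coeffMap (incl A K) a, coeffMap (incl A K) b, ?_, ?_, ?_, ?_, ?_, ?_⟩
  · rw [Ne, map_eq_zero]; exact hc0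
  · rw [ES.RED.GaussUnit25.coeffMap_subtype_incl]
    exact (baseChangeHom N K ⟨embK (AK A K) a, haE⟩).2
  · rw [ES.RED.GaussUnit25.coeffMap_subtype_incl]
    exact (baseChangeHom N K ⟨embK (AK A K) b, hbE⟩).2
  · rw [ES.RED.GaussUnit25.coeffMap_residue_incl]
    intro h0
    exact hared (hinj (by rw [h0, map_zero]))
  · rw [ES.RED.GaussUnit25.coeffMap_residue_incl]
    intro h0
    exact hbred (hinj (by rw [h0, map_zero]))
  · rw [ES.RED.GaussUnit25.coeffMap_subtype_incl, ES.RED.GaussUnit25.coeffMap_subtype_incl,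
      ← hcoe, ← map_mul, heq, map_mul, Fermat.Agent.RED.PUR.GaussGen8.coeffMap_C]

/-- **The Gauss reduction along the `∞`-branch lands in `κ(M')`**: a Gauss normalisation of
`g ∈ Fbar (M' q)` whose numerator and denominator reduce into `modularFunctionFieldFullC k M'`. -/
theorem exists_gaussFrac_mem (hq : q.Prime) (hqM : ¬ q ∣ M') (hA : A.LiesOverPrime q)
    (g : LaurentSeries Qbar) (hg : g ∈ Fbar (M' * q)) (hg0 : g ≠ 0) :
    ∃ (lam : Qbar) (y₁ y₂ : LaurentSeries ↥A), lam ≠ 0 ∧
      coeffMap A.subtype y₁ ∈ Fbar (M' * q) ∧ coeffMap A.subtype y₂ ∈ Fbar (M' * q) ∧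
      coeffMap (IsLocalRing.residue ↥A) y₁ ≠ 0 ∧ coeffMap (IsLocalRing.residue ↥A) y₂ ≠ 0 ∧
      g * coeffMap A.subtype y₂ = HahnSeries.C lam * coeffMap A.subtype y₁ ∧
      coeffMap (IsLocalRing.residue ↥A) y₁ ∈
        modularFunctionFieldFullC (IsLocalRing.ResidueField ↥A) M' ∧
      coeffMap (IsLocalRing.residue ↥A) y₂ ∈
        modularFunctionFieldFullC (IsLocalRing.ResidueField ↥A) M' := by
  obtain ⟨lam, y₁, y₂, hlam, h1, h2, hr1, hr2, heq⟩ :=
    exists_gaussFrac (A := A) (M' * q) hq hA g hg hg0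
  exact ⟨lam, y₁, y₂, hlam, h1, h2, hr1, hr2, heq,
    HcombJ18.coeffMap_residue_mem hq hqM hA y₁ h1, HcombJ18.coeffMap_residue_mem hq hqM hA y₂ h2⟩

end Fermat.Agent.M1.NRM.GaussFrac18
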