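/-
M1 (S44) / ORD chapter G, brick HK4-INST, abstract half (helper88): the hypotheses of
`ToricLead88.Branch` split into a VALUATION half and a CHART half, each derived from the shapes in
which the model of record (`ES/N34`) delivers its facts.

Setting: `E → F` a finite extension of fields (`E = F_K(M'')`, `F = F_K(M''p)` along one degeneracy
map `a`), `b : E →+* F` the OTHER degeneracy map, `O' ⊂ E` the Gauss ring of the good level,
`O₁, O₂ ⊂ F` the two Gauss rings of the bad level; `a` is étale along `O₁` and purely inseparable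
of degree `q` along `O₂`; `b` the other way round.

* `ValInputs π q b O' O₁ O₂` : comaps, uniformiser, "no third valuation ring", the two residue
  statements `O₁ = a(O') + π O₁`, `O₂ = b(O') + π O₂` (`hcomb`), the Kronecker congruences
  `a z' ≡ (b z)^q mod π O₂` in both quantifier orders, and a non-`q`-th power modulo `π`;
* `ValInputs.twoOver`, `.units`, `.resChar'`, `.res1`, `.res2`, `.ne` : the valuation fields of
  `ToricLead88.Branch`;
* `twoChart_of_smoothModel` : helper60's `TwoChart` for a SMOOTH two-chart model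
  (`CoreIface24.TwoChartModel`) with overlap ring `C0[1/t]`;
* `residueAlgClosed_of_comap` : (AC) descends from the upper Gauss ring to the lower one;
* `trace_mem_overlap`, `overlap_le`, `sat_overlap` : the remaining chart fields;
* `branch_of_inputs` : `ToricLead88.Branch` from the two halves.
-/
import Mathlib
import Fermat.Agent.M1.NRM.ToricLead88
import Fermat.Agent.M1.Fib.Constants98
import Fermat.Agent.RED.PUR.ChartGeneric22

set_option autoImplicit false
set_option linter.unusedSectionVars false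

namespace Fermat.Agent.M1.NRM.BranchAbs88

open Fermat.Agent.M1.Node.Thick25 Fermat.Agent.M1.NRM.TraceGauss88
  Fermat.Agent.M1.NRM.ToricLead88 Fermat.Agent.M1.Pic2.Defs60
  Fermat.Agent.M1.Fib.Branch98 Fermat.Agent.M1.Fib.Constants98
  Fermat.Agent.RED.CORE.CoreIface24 Fermat.Agent.RED.PUR.ChartGeneric22

/-! ### The valuation half -/

section Val

variable {R E F : Type*} [CommRing R] [Field E] [Field F] [Algebra R E] [Algebra R F]
  [Algebra E F] [IsScalarTower R E F]

omit [Algebra R E] [Algebra R F] [IsScalarTower R E F] [CommRing R] in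
/-- Discreteness descends along a comap. -/
theorem isDiscrete_of_comap {O' : ValuationSubring E} {O : ValuationSubring F} {ϖ : E}
    (hcomap : ∀ x : E, algebraMap E F x ∈ O ↔ x ∈ O')
    (hunif : IsUnifOf O (algebraMap E F ϖ))
    (harch : ∀ x : F, ∃ k : ℕ, algebraMap E F ϖ ^ k * x ∈ O) : IsDiscrete O' ϖ := by
  have hϖ0 : ϖ ≠ 0 := by
    rintro rfl
    exact hunif.ne_zero (map_zero _)
  refine ⟨⟨?_, ?_⟩, ?_⟩
  · intro h
    apply hunif.nonunit
    rw [← map_inv₀]
    exact (hcomap _).mpr h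
  · intro z hz hzi
    have h1 : algebraMap E F z ∈ O := (hcomap z).mpr hz
    have h2 : (algebraMap E F z)⁻¹ ∉ O := by
      rw [← map_inv₀]
      exact fun h => hzi ((hcomap _).mp h)
    obtain ⟨c, hc, hzc⟩ := hunif.unif _ h1 h2
    refine ⟨z / ϖ, ?_, by field_simp⟩
    rw [← hcomap, map_div₀, hzc, mul_div_cancel_left₀ _ hunif.ne_zero]
    exact hc
  · intro x
    obtain ⟨k, hk⟩ := harch (algebraMap E F x)
    refine ⟨k, ?_⟩
    rw [← hcomap, map_mul, map_pow]
    exact hk

omit [Algebra R E] [Algebra R F] [IsScalarTower R E F] [CommRing R] [Field E] [Algebra E F] in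
/-- `x ≡ y mod ϖ O` implies `x^q ≡ y^q mod ϖ O`. -/
theorem pow_sub_pow_mem {O : ValuationSubring F} {x y ϖ c : F} (hx : x ∈ O) (hy : y ∈ O)
    (hc : c ∈ O) (hxy : x - y = ϖ * c) (q : ℕ) : ∃ c' ∈ O, x ^ q - y ^ q = ϖ * c' := by
  refine ⟨(∑ i ∈ Finset.range q, x ^ i * y ^ (q - 1 - i)) * c,
    O.mul_mem _ _ (sum_mem fun i _ => O.mul_mem _ _ (pow_mem hx _) (pow_mem hy _)) hc, ?_⟩
  have h := (Commute.all x y).geom_sum₂_mul q
  rw [← h, hxy]
  ring

/-- **The valuation inputs** of one branch, in the shapes delivered by the model of record. -/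
structure ValInputs (π : R) (q : ℕ) (b : E →+* F) (O' : ValuationSubring E)
    (O₁ O₂ : ValuationSubring F) : Prop where
  R_le : ∀ r : R, algebraMap R E r ∈ O'
  dvrR : ∀ r : R, r ≠ 0 → ∃ (k : ℕ) (v : Rˣ), r = π ^ k * v
  resChar : ∃ d : R, (q : R) = π * d
  comap1 : ∀ x : E, algebraMap E F x ∈ O₁ ↔ x ∈ O'
  comap2 : ∀ x : E, algebraMap E F x ∈ O₂ ↔ x ∈ O'
  bcomap1 : ∀ x : E, b x ∈ O₁ ↔ x ∈ O'
  bcomap2 : ∀ x : E, b x ∈ O₂ ↔ x ∈ O'
  b_pi : b (algebraMap R E π) = algebraMap R F π
  unif1 : IsUnifOf O₁ (algebraMap R F π)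
  unif2 : IsUnifOf O₂ (algebraMap R F π)
  arch1 : ∀ x : F, ∃ k : ℕ, algebraMap R F π ^ k * x ∈ O₁
  /-- no third valuation ring over `O'` -/
  only : ∀ V : ValuationSubring F, V.comap (algebraMap E F) = O' → V = O₁ ∨ V = O₂
  /-- `κ(O₁) = a κ(O')` -/
  hcomb1 : ∀ x ∈ O₁, ∃ z ∈ O', ∃ c ∈ O₁, x - algebraMap E F z = algebraMap R F π * c
  /-- `κ(O₂) = b κ(O')` -/
  hcomb2 : ∀ x ∈ O₂, ∃ z ∈ O', ∃ c ∈ O₂, x - b z = algebraMap R F π * c
  /-- Kronecker on `O₂`, every `z` is hit -/
  kron_surj : ∀ z ∈ O', ∃ z' ∈ O', ∃ c ∈ O₂,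
    algebraMap E F z' - (b z) ^ q = algebraMap R F π * c
  /-- Kronecker on `O₂` -/
  kron_fwd : ∀ z ∈ O', ∃ z' ∈ O', ∃ c ∈ O₂,
    algebraMap E F z - (b z') ^ q = algebraMap R F π * c
  /-- the residue field of `O'` is not perfect -/
  not_pow : ∃ t ∈ O', ∀ z ∈ O', ∀ c ∈ O', t - z ^ q ≠ algebraMap R E π * c

namespace ValInputs

variable {π : R} {q : ℕ} {b : E →+* F} {O' : ValuationSubring E} {O₁ O₂ : ValuationSubring F}

omit [Field E] [Field F] in
theorem map_pi {E F : Type*} [Field E] [Field F] [Algebra R E] [Algebra R F] [Algebra E F]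
    [IsScalarTower R E F] (π : R) : algebraMap E F (algebraMap R E π) = algebraMap R F π :=
  (IsScalarTower.algebraMap_apply R E F π).symm

theorem disc (h : ValInputs π q b O' O₁ O₂) : IsDiscrete O' (algebraMap R E π) :=
  isDiscrete_of_comap h.comap1 (by rw [map_pi]; exact h.unif1)
    (fun x => by rw [map_pi]; exact h.arch1 x)

theorem twoOver [Algebra.IsIntegral E F] (h : ValInputs π q b O' O₁ O₂) :
    TwoOver O' O₁ O₂ (algebraMap R E π) where
  disc := h.disc
  comap1 := h.comap1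
  comap2 := h.comap2
  unif1 := by rw [map_pi]; exact h.unif1
  unif2 := by rw [map_pi]; exact h.unif2
  int := fun _ h1 h2 => isIntegral_of_forall_valuationSubring h.disc h.only h1 h2

theorem units (h : ValInputs π q b O' O₁ O₂) :
    ∀ r : R, algebraMap R E r ≠ 0 → (algebraMap R E r)⁻¹ ∈ O' →
      ∃ r' : R, algebraMap R E r' * algebraMap R E r = 1 := by
  intro r hr0 hrinv
  have hr : r ≠ 0 := by
    rintro rfl
    exact hr0 (map_zero _)
  obtain ⟨k, v, hkv⟩ := h.dvrR r hr
  rcases Nat.eq_zero_or_pos k with hk | hk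
  · refine ⟨(↑v⁻¹ : R), ?_⟩
    rw [← map_mul, hkv, hk, pow_zero, one_mul, Units.inv_mul, map_one]
  · exfalso
    obtain ⟨j, rfl⟩ : ∃ j, k = j + 1 := ⟨k - 1, by omega⟩
    apply h.disc.unif.nonunit
    have hπ0 : algebraMap R E π ≠ 0 := h.disc.ne_zero
    have hv0 : algebraMap R E (v : R) ≠ 0 := by
      intro h0
      apply hr0
      rw [hkv, map_mul, h0, mul_zero]
    have : (algebraMap R E π)⁻¹ =
        algebraMap R E π ^ j * algebraMap R E (v : R) * (algebraMap R E r)⁻¹ := by
      rw [hkv, map_mul, map_pow]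
      field_simp
      ring
    rw [this]
    exact O'.mul_mem _ _ (O'.mul_mem _ _ (pow_mem h.disc.mem j) (h.R_le _)) hrinv

theorem resChar' (h : ValInputs π q b O' O₁ O₂) :
    ∃ d ∈ O', (q : E) = algebraMap R E π * d := by
  obtain ⟨d, hd⟩ := h.resChar
  refine ⟨algebraMap R E d, h.R_le d, ?_⟩
  rw [← map_mul, ← hd, map_natCast]

theorem res1 (h : ValInputs π q b O' O₁ O₂) :
    ∀ x : F, x ∈ O₁ → x ∈ O₂ → ∃ a ∈ O', ∃ d ∈ O₁,
      x - algebraMap E F a = algebraMap E F (algebraMap R E π) * d := by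
  intro x h1 _
  obtain ⟨z, hz, c, hc, hx⟩ := h.hcomb1 x h1
  exact ⟨z, hz, c, hc, by rw [map_pi]; exact hx⟩

theorem res2 (h : ValInputs π q b O' O₁ O₂) :
    ∀ x : F, x ∈ O₁ → x ∈ O₂ → ∃ a ∈ O', ∃ d ∈ O₂,
      x ^ q - algebraMap E F a = algebraMap E F (algebraMap R E π) * d := by
  intro x _ h2
  obtain ⟨z, hz, c, hc, hx⟩ := h.hcomb2 x h2
  obtain ⟨c', hc', hx'⟩ := pow_sub_pow_mem h2 ((h.bcomap2 z).mpr hz) hc hx q
  obtain ⟨z', hz', c'', hc'', hk⟩ := h.kron_surj z hz
  refine ⟨z', hz', c' - c'', sub_mem hc' hc'', ?_⟩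
  rw [map_pi]
  linear_combination hx' - hk

theorem ne (h : ValInputs π q b O' O₁ O₂) :
    ∃ x : F, x ∈ O₁ ∧ x ∈ O₂ ∧ ∀ a ∈ O', ∀ d ∈ O₂,
      x - algebraMap E F a ≠ algebraMap E F (algebraMap R E π) * d := by
  obtain ⟨t, ht, hnp⟩ := h.not_pow
  refine ⟨b t, (h.bcomap1 t).mpr ht, (h.bcomap2 t).mpr ht, ?_⟩
  intro a ha d hd hEq
  rw [map_pi] at hEq
  obtain ⟨a', ha', c, hc, hk⟩ := h.kron_fwd a ha
  have hπE : algebraMap R E π ≠ 0 := h.disc.ne_zero
  have hπF : algebraMap R F π ≠ 0 := h.unif1.ne_zero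
  set y : E := t - a' ^ q with hy
  have hby : b y = algebraMap R F π * (d + c) := by
    rw [hy, map_sub, map_pow]
    linear_combination hEq + hk
  have hmem : y / algebraMap R E π ∈ O' := by
    rw [← h.bcomap2, map_div₀, h.b_pi, hby, mul_div_cancel_left₀ _ hπF]
    exact O₂.add_mem _ _ hd hc
  apply hnp a' ha' (y / algebraMap R E π) hmem
  rw [mul_div_cancel₀ _ hπE]

end ValInputs

end Val

/-! ### The chart half: a smooth two-chart model gives helper60's `TwoChart` -/

section SmoothChart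

variable {R K E : Type*} [CommRing R] [Field K] [Field E] [Algebra R K] [Algebra K E]
  [Algebra R E] [IsScalarTower R K E]
variable {π : R} {t : E} {C0 C1 : Subalgebra R E} {O' : ValuationSubring E}

theorem isGauss_of_smoothModel (M : TwoChartModel R K E π t C0 C1 O')
    (harch : ∀ x : E, ∃ k : ℕ, algebraMap R E π ^ k * x ∈ O') : IsGauss π O' where
  pi_ne := M.pi_ne
  pi_mem := M.le_Ov0 _ (C0.algebraMap_mem π)
  pi_nonunit := M.pi_nonunit
  unif := M.unif
  arch := harch

/-- the overlap ring `C0[1/t]` lies in the Gauss ring. -/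
theorem overlap_le_of_smoothModel (M : TwoChartModel R K E π t C0 C1 O') :
    ∀ x ∈ overlap t C0 M.t_mem, x ∈ O' := by
  rintro x ⟨k, hk⟩
  have : x = t⁻¹ ^ k * (t ^ k * x) := by
    rw [← mul_assoc, ← mul_pow, inv_mul_cancel₀ M.t_ne, one_pow, one_mul]
  rw [this]
  exact O'.mul_mem _ _ (pow_mem M.tinv_mem_Ov k) (M.le_Ov0 _ hk)

/-- the overlap ring is `π`-saturated in the Gauss ring. -/
theorem sat_overlap_of_smoothModel (M : TwoChartModel R K E π t C0 C1 O') :
    ∀ y ∈ O', algebraMap R E π * y ∈ overlap t C0 M.t_mem → y ∈ overlap t C0 M.t_mem := by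
  rintro y hy ⟨k, hk⟩
  exact ⟨k, M.sat0 (t ^ k * (algebraMap R E π * y)) hk (t ^ k * y)
    (O'.mul_mem _ _ (pow_mem (M.le_Ov0 _ M.t_mem) k) hy) (by ring)⟩

/-- **helper60's `TwoChart` for a smooth two-chart model** (overlap ring `C0[1/t]`), given (AC) for
its Gauss ring. -/
theorem twoChart_of_smoothModel (M : TwoChartModel R K E π t C0 C1 O')
    (harch : ∀ x : E, ∃ k : ℕ, algebraMap R E π ^ k * x ∈ O')
    (hac : ResidueAlgClosed π O') :
    TwoChart (algebraMap R E π) C0 C1 (overlap t C0 M.t_mem) := by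
  have hG := isGauss_of_smoothModel M harch
  refine
    { le0 := le_overlap
      le1 := fun x hx => M.ov0 x hx
      pi_ne := M.pi_ne
      pi_mem := ⟨π, rfl⟩
      sat0 := fun x hx hπx => M.sat0 _ hπx x (overlap_le_of_smoothModel M x hx) rfl
      sat1 := fun x hx hπx => M.sat1 _ hπx x (overlap_le_of_smoothModel M x hx) rfl
      h0k := ?_
      hk := ?_ }
  · rintro x0 hx0 x1 hx1 ⟨z, hz, h01⟩
    have hfa : PiMem π O' (x0 - x0) := by rw [sub_self]; exact PiMem.zero
    have hfb : PiMem π O' (x0 - x1) := ⟨z, overlap_le_of_smoothModel M z hz, h01⟩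
    obtain ⟨r, c, hc, hrc⟩ := exists_const_of_mem_both hG hac M.t_ne M.le_Ov0 M.le_Ov1 M.t_mem
      M.tinv_mem M.int0 M.int1 hx0 hx1 hfa hfb
    have hc0 : c ∈ C0 := M.sat0 _ (C0.sub_mem hx0 (C0.algebraMap_mem r)) c hc hrc
    exact ⟨r, c, le_overlap hc0, hrc⟩
  · intro r hr
    by_cases hr0 : r = 0
    · exact ⟨0, by simp [hr0]⟩
    obtain ⟨k, v, hkv⟩ := M.dvrR r hr0
    rcases Nat.eq_zero_or_pos k with hk | hk
    · exfalso
      obtain ⟨z, hz, hrz⟩ := hr
      have hru : r = v := by rw [hkv, hk, pow_zero, one_mul]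
      have hvinv : algebraMap R E r * algebraMap R E (↑v⁻¹ : R) = 1 := by
        rw [← map_mul, hru, Units.mul_inv, map_one]
      apply hG.not_piMem_one
      refine ⟨z * algebraMap R E (↑v⁻¹ : R), O'.mul_mem _ _ (overlap_le_of_smoothModel M z hz)
        (M.le_Ov0 _ (C0.algebraMap_mem _)), ?_⟩
      rw [← mul_assoc, ← hrz, hvinv]
    · obtain ⟨j, rfl⟩ : ∃ j, k = j + 1 := ⟨k - 1, by omega⟩
      refine ⟨π ^ j * v, ?_⟩
      rw [← map_mul, hkv]
      congr 1
      ring

end SmoothChart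

/-! ### (AC) descends, traces of charts -/

section Trace

variable {R E F : Type*} [CommRing R] [Field E] [Field F] [Algebra R E] [Algebra R F]
  [Algebra E F] [IsScalarTower R E F]

/-- **(AC) descends** from a Gauss ring of `F` to its restriction to `E`. -/
theorem residueAlgClosed_of_comap {π : R} {O' : ValuationSubring E} {O : ValuationSubring F}
    (hcomap : ∀ x : E, algebraMap E F x ∈ O ↔ x ∈ O') (hπ : algebraMap R F π ≠ 0)
    (hac : ResidueAlgClosed π O) : ResidueAlgClosed π O' := by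
  rintro f hf ⟨P, hP, c, hc, hPc⟩
  have hπE : algebraMap R E π ≠ 0 := by
    intro h0
    apply hπ
    rw [IsScalarTower.algebraMap_apply R E F, h0, map_zero]
  obtain ⟨r, d, hd, hrd⟩ := hac _ ((hcomap f).mpr hf) ⟨P, hP, algebraMap E F c, (hcomap c).mpr hc, by
    rw [Polynomial.aeval_algebraMap_apply, hPc, map_mul, ← IsScalarTower.algebraMap_apply]⟩
  refine ⟨r, (f - algebraMap R E r) / algebraMap R E π, ?_, by field_simp⟩
  rw [← hcomap, map_div₀, map_sub, ← IsScalarTower.algebraMap_apply,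
    ← IsScalarTower.algebraMap_apply, hrd, mul_div_cancel_left₀ _ hπ]
  exact hd

/-- the trace of an element of the upper chart lies in the lower chart. -/
theorem trace_mem_chart [FiniteDimensional E F] {t : E} {y : F}
    (hy : y ∈ chart R (algebraMap E F t)) : Algebra.trace E F y ∈ chart R t := by
  rw [mem_chart_iff] at hy ⊢
  have hST : IsScalarTower ↥(Algebra.adjoin R {t}) E F :=
    IsScalarTower.of_algebraMap_eq fun x => rfl
  apply Algebra.isIntegral_trace
  -- `y` is integral over `R[t]` (acting through `E`)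
  obtain ⟨P, hP, hcoeff, hPy⟩ := (isIntegral_subalgebra_iff _ y).mp hy
  have hmap : Algebra.adjoin R {algebraMap E F t} =
      (Algebra.adjoin R {t}).map (IsScalarTower.toAlgHom R E F) := by
    rw [AlgHom.map_adjoin, Set.image_singleton]
    rfl
  have hl : P ∈ Polynomial.lifts (algebraMap ↥(Algebra.adjoin R {t}) F) := by
    rw [Polynomial.lifts_iff_coeff_lifts]
    intro n
    have h1 := hcoeff n
    rw [hmap] at h1
    obtain ⟨a, ha, hae⟩ := h1
    exact ⟨⟨a, ha⟩, hae⟩
  obtain ⟨p, hp, -, hpm⟩ := Polynomial.lifts_and_natDegree_eq_and_monic hl hP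
  refine ⟨p, hpm, ?_⟩
  rw [← Polynomial.eval_map, hp, hPy]

/-- the trace maps the upper overlap ring into the lower one. -/
theorem trace_mem_overlap [FiniteDimensional E F] {t : E} {x : F}
    (hx : x ∈ overlap (algebraMap E F t) (chart R (algebraMap E F t)) (self_mem_chart _)) :
    Algebra.trace E F x ∈ overlap t (chart R t) (self_mem_chart t) := by
  obtain ⟨k, hk⟩ := hx
  refine ⟨k, ?_⟩
  have : t ^ k * Algebra.trace E F x = Algebra.trace E F (algebraMap E F t ^ k * x) := by
    rw [← map_pow, ← Algebra.smul_def, map_smul, smul_eq_mul]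
  rw [this]
  exact trace_mem_chart hk

/-- the structure map sends the lower chart into the upper chart. -/
theorem map_mem_chart {t x : E} (hx : x ∈ chart R t) :
    algebraMap E F x ∈ chart R (algebraMap E F t) := by
  rw [mem_chart_iff, isIntegral_subalgebra_iff] at hx ⊢
  obtain ⟨P, hP, hcoeff, hPx⟩ := hx
  have hmap : Algebra.adjoin R {algebraMap E F t} =
      (Algebra.adjoin R {t}).map (IsScalarTower.toAlgHom R E F) := by
    rw [AlgHom.map_adjoin, Set.image_singleton]
    rfl
  refine ⟨P.map (algebraMap E F), hP.map _, fun i => ?_, ?_⟩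
  · rw [Polynomial.coeff_map, hmap]
    exact ⟨_, hcoeff i, rfl⟩
  · rw [Polynomial.eval_map_apply, hPx, map_zero]

end Trace

/-! ### Assembly -/

section Assembly

variable {R K E F : Type*} [CommRing R] [Field K] [Field E] [Field F] [Algebra R K] [Algebra K E]
  [Algebra R E] [IsScalarTower R K E] [Algebra R F] [Algebra E F] [IsScalarTower R E F]
  [FiniteDimensional E F] [Algebra.IsSeparable E F]
variable {π : R} {q : ℕ} {b : E →+* F} {t : E} {O' : ValuationSubring E}
  {O₁ O₂ : ValuationSubring F} {B0 B1 B01 : Subalgebra R F}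

/-- **`ToricLead88.Branch` from the valuation inputs, the smooth model of the good level, (AC) for
the étale branch, and "the upper charts are the charts of the image of `t`".** -/
theorem branch_of_inputs (hV : ValInputs π q b O' O₁ O₂)
    (M : TwoChartModel R K E π t (chart R t) (chart R t⁻¹) O')
    (hac : ResidueAlgClosed π O₁)
    (hB0 : B0 = chart R (algebraMap E F t)) (hB1 : B1 = chart R (algebraMap E F t)⁻¹)
    (hB01 : ∀ x ∈ B01, ∃ k : ℕ, algebraMap E F t ^ k * x ∈ B0) :
    Branch π q (chart R t) (chart R t⁻¹) (overlap t (chart R t) M.t_mem) O' O₁ O₂ B0 B1 B01 where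
  chart := twoChart_of_smoothModel M hV.disc.arch
    (residueAlgClosed_of_comap hV.comap1 hV.unif1.ne_zero hac)
  two := hV.twoOver
  C01_le := overlap_le_of_smoothModel M
  sat := sat_overlap_of_smoothModel M
  units := hV.units
  resChar := hV.resChar'
  res1 := hV.res1
  res2 := hV.res2
  ne := hV.ne
  trace_mem := by
    intro x hx
    obtain ⟨k, hk⟩ := hB01 x hx
    rw [hB0] at hk
    refine ⟨k, ?_⟩
    have : t ^ k * Algebra.trace E F x = Algebra.trace E F (algebraMap E F t ^ k * x) := by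
      rw [← map_pow, ← Algebra.smul_def, map_smul, smul_eq_mul]
    rw [this]
    exact trace_mem_chart hk
  map0 := fun x hx => hB0 ▸ map_mem_chart hx
  map1 := fun x hx => by
    rw [hB1, ← map_inv₀]
    exact map_mem_chart hx

end Assembly

end Fermat.Agent.M1.NRM.BranchAbs88
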