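/-
M1 (S44) / ORD (S33), chapter NRM/HK, CHART half of `ToricLead88.Branch` (helper70, declared backup
of helper88's claim): abstract part.

Setting: `R → K → E → F`, `E ⊆ F` finite, `tM : E` the lower coordinate, `s := algebraMap E F tM`
its image (`= tN` along `α`, `= yN` along `β`), `tN : F` the upper coordinate.  Lower charts
`C0 ∋ tM`, `C1 ∋ tM⁻¹` forming a SMOOTH two-chart model (`RED/CORE/CoreIface24.TwoChartModel`) with
Gauss ring `Ov`, lower overlap `C01 := overlap tM C0`; upper chart `B0 ∋ tN` integral over `R[tN]`,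
upper overlap `B01 := overlap tN B0`.

* `isGauss_of_model`, `le_overlap1`, `overlap_le_Ov`, `sat_overlap_Ov` : `C01 ⊆ Ov`, `C01` is
  `π`-saturated in `Ov` (fields `C01_le`, `sat` of `Branch`);
* `twoChart_of_model` : `Defs60.TwoChart (algebraMap R E π) C0 C1 C01` (field `chart` of `Branch`)
  from the smooth model, `arch` and `Constants98.ResidueAlgClosed π Ov`;
* `chartField_mono`, `isIntegral_lower_of_upper` : bookkeeping for integral closures over `K[s]`;
* `trace_mem_overlap` : `Tr_{F/E}` maps `B01` into `C01` (field `trace_mem` of `Branch`), from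
  `tN ∈ chart K s`, `tN⁻¹ ∈ chart K s⁻¹` (trivial along `α`; (I2), (I4) of `ModEq23` along `β`),
  `Tr (O₁ ⊓ O₂) ⊆ Ov` and the lower saturation `chart K tM ⊓ Ov ⊆ C0`;
* `lower_sat` : the lower saturation from the smooth model (`SatIntegral18.mem_of_isIntegral_field`).
-/
import Mathlib
import Fermat.Agent.RED.CORE.CoreIface24
import Fermat.Agent.RED.PUR.ChartGeneric22
import Fermat.Agent.ES.N34.SatIntegral18
import Fermat.Agent.M1.Fib.Constants98
import Fermat.Agent.M1.Pic2.Defs60

set_option autoImplicit false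
set_option linter.unusedSectionVars false

namespace Fermat.Agent.M1.NRM.BranchChart70

open Polynomial
open Fermat.Agent.RED.CORE.CoreIface24 Fermat.Agent.RED.PUR.ChartGeneric22
  Fermat.Agent.ES.N34.SatIntegral18 Fermat.Agent.M1.Fib.Branch98 Fermat.Agent.M1.Fib.Constants98
  Fermat.Agent.M1.Pic2.Defs60

/-! ### The smooth lower model -/

section Smooth

variable {R K E : Type*} [CommRing R] [Field K] [Field E] [Algebra R K] [Algebra K E]
  [Algebra R E] [IsScalarTower R K E]
variable {π : R} {t : E} {C0 C1 : Subalgebra R E} {Ov : ValuationSubring E}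

/-- The Gauss ring of a smooth two-chart model. -/
theorem isGauss_of_model (M : TwoChartModel R K E π t C0 C1 Ov)
    (harch : ∀ x : E, ∃ k : ℕ, algebraMap R E π ^ k * x ∈ Ov) : IsGauss π Ov :=
  ⟨M.pi_ne, M.le_Ov0 _ (C0.algebraMap_mem π), M.pi_nonunit, M.unif, harch⟩

/-- `C1 ⊆ C0[1/t]`. -/
theorem le_overlap1 (M : TwoChartModel R K E π t C0 C1 Ov) : C1 ≤ overlap t C0 M.t_mem :=
  fun x hx => M.ov0 x hx

/-- field `C01_le` of `Branch`. -/
theorem overlap_le_Ov (M : TwoChartModel R K E π t C0 C1 Ov) :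
    ∀ x ∈ overlap t C0 M.t_mem, x ∈ Ov :=
  fun _ hx => overlap_le M.le_Ov0 M.tinv_mem_Ov M.t_ne hx

/-- field `sat` of `Branch`. -/
theorem sat_overlap_Ov (M : TwoChartModel R K E π t C0 C1 Ov) :
    ∀ y ∈ Ov, algebraMap R E π * y ∈ overlap t C0 M.t_mem → y ∈ overlap t C0 M.t_mem :=
  fun y hy h => sat_overlap (O1 := Ov) (O2 := Ov) M.le_Ov0 M.le_Ov0
    (fun b hb c hc _ hbc => M.sat0 b hb c hc hbc) h hy hy rfl

/-- **The `TwoChart` structure of PIC for a smooth two-chart model** (field `chart` of `Branch`),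
with overlap ring `C01 = C0[1/t]`. -/
theorem twoChart_of_model (M : TwoChartModel R K E π t C0 C1 Ov)
    (harch : ∀ x : E, ∃ k : ℕ, algebraMap R E π ^ k * x ∈ Ov)
    (hac : ResidueAlgClosed π Ov) :
    TwoChart (algebraMap R E π) C0 C1 (overlap t C0 M.t_mem) := by
  have hG : IsGauss π Ov := isGauss_of_model M harch
  refine
    { le0 := le_overlap
      le1 := le_overlap1 M
      pi_ne := M.pi_ne
      pi_mem := ⟨π, rfl⟩
      sat0 := fun x hx hπx => M.sat0 _ hπx x (overlap_le_Ov M x hx) rfl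
      sat1 := fun x hx hπx => M.sat1 _ hπx x (overlap_le_Ov M x hx) rfl
      h0k := ?_
      hk := ?_ }
  · rintro x0 hx0 x1 hx1 ⟨z, hz, hxz⟩
    have hfa : PiMem π Ov (x0 - x0) := by rw [sub_self]; exact PiMem.zero
    have hfb : PiMem π Ov (x0 - x1) := ⟨z, overlap_le_Ov M z hz, hxz⟩
    obtain ⟨r, c, hc, hcr⟩ := exists_const_of_mem_both hG hac M.t_ne M.le_Ov0 M.le_Ov1 M.t_mem
      M.tinv_mem M.int0 M.int1 hx0 hx1 hfa hfb
    have hmem : x0 - algebraMap R E r ∈ C0 := C0.sub_mem hx0 (C0.algebraMap_mem r)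
    exact ⟨r, c, le_overlap (M.sat0 _ hmem c hc hcr), hcr⟩
  · intro r hr
    by_cases hr0 : r = 0
    · exact ⟨0, by simp [hr0]⟩
    obtain ⟨k, v, hkv⟩ := M.dvrR r hr0
    rcases Nat.eq_zero_or_pos k with hk | hk
    · exfalso
      obtain ⟨z, hz, hrz⟩ := hr
      have hru : r = v := by rw [hkv, hk, pow_zero, one_mul]
      have hvinv : algebraMap R E r * algebraMap R E (↑v⁻¹ : R) = 1 := by
        rw [← map_mul, hru, Units.mul_inv, map_one]
      apply hG.not_piMem_one
      refine ⟨z * algebraMap R E (↑v⁻¹ : R), Ov.mul_mem _ _ (overlap_le_Ov M z hz)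
        (M.le_Ov0 _ (C0.algebraMap_mem _)), ?_⟩
      rw [← mul_assoc, ← hrz, hvinv]
    · obtain ⟨j, rfl⟩ : ∃ j, k = j + 1 := ⟨k - 1, by omega⟩
      refine ⟨π ^ j * v, ?_⟩
      rw [← map_mul, hkv]
      congr 1
      ring

/-- **Lower saturation**: an element of `E` integral over `K[t]` and lying in the Gauss ring lies
in the chart `C0` (when `C0` contains the integral closure of `R[t]`). -/
theorem lower_sat [IsDomain R] [IsFractionRing R K] (M : TwoChartModel R K E π t C0 C1 Ov)
    (hC0 : ∀ x : E, IsIntegral (Algebra.adjoin R {t}) x → x ∈ C0) :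
    ∀ z : E, z ∈ chart K t → z ∈ Ov → z ∈ C0 := by
  intro z hz hzO
  have hπO : algebraMap R E π ∈ Ov := M.le_Ov0 _ (C0.algebraMap_mem π)
  exact mem_of_isIntegral_field (R := R) (K := K) (F := E) π M.dvrR t C0 hC0 Ov Ov hπO hπO
    (fun b hb c hc _ hbc => M.sat0 b hb c hc hbc) (mem_chart_iff.mp hz) hzO hzO

end Smooth

/-! ### Integral closures over `K[s]` -/

section ChartField

variable {K F : Type*} [Field K] [Field F] [Algebra K F]

/-- If `u` is integral over `K[s]`, the integral closure of `K[u]` is contained in that of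
`K[s]`. -/
theorem chartField_mono {s u : F} (hu : u ∈ chart K s) : chart K u ≤ chart K s := by
  intro x hx
  apply chart_intcl
  have hle : Algebra.adjoin K {u} ≤ chart K s :=
    Algebra.adjoin_le (by
      intro y hy
      rw [Set.mem_singleton_iff] at hy
      subst hy
      exact hu)
  let ρ : ↥(Algebra.adjoin K {u}) →+* ↥(chart K s) :=
    { toFun := fun y => ⟨(y : F), hle y.2⟩
      map_one' := rfl
      map_mul' := fun _ _ => rfl
      map_zero' := rfl
      map_add' := fun _ _ => rfl }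
  exact IsIntegral.map_of_comp_eq ρ (RingHom.id F) (by ext y; rfl) (mem_chart_iff.mp hx)

end ChartField

section Lower

variable {K E F : Type*} [Field K] [Field E] [Field F] [Algebra K E] [Algebra K F] [Algebra E F]
  [IsScalarTower K E F]

/-- Integrality over `K[s]` inside `F`, `s = algebraMap E F tM`, is integrality over the lower ring
`K[tM] ⊆ E` (acting on `F` through `E`). -/
theorem isIntegral_lower_of_upper {tM : E} {z : F}
    (hz : z ∈ chart K (algebraMap E F tM)) : IsIntegral (Algebra.adjoin K {tM}) z := by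
  have h1 : ((aeval (R := K) (algebraMap E F tM)).toRingHom).IsIntegralElem z :=
    (isIntegral_adjoin_iff (R := K) (algebraMap E F tM) z).mp (mem_chart_iff.mp hz)
  have h2 : (algebraMap (Algebra.adjoin K {tM}) F).comp (toAdjoin (R := K) tM)
      = (aeval (R := K) (algebraMap E F tM)).toRingHom := by
    ext P
    · show algebraMap E F ((toAdjoin (R := K) tM (C P) : Algebra.adjoin K {tM}) : E) = _
      rw [coe_toAdjoin]
      simp [IsScalarTower.algebraMap_apply K E F]
    · show algebraMap E F ((toAdjoin (R := K) tM X : Algebra.adjoin K {tM}) : E) = _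
      rw [coe_toAdjoin]
      simp
  rw [← h2] at h1
  exact RingHom.IsIntegralElem.of_comp h1

end Lower

/-! ### The trace maps the upper overlap into the lower overlap -/

section Trace

variable {R K E F : Type*} [CommRing R] [Field K] [Field E] [Field F] [Algebra R K]
  [Algebra K E] [Algebra K F] [Algebra R E] [Algebra R F] [Algebra E F]
  [IsScalarTower R K F] [IsScalarTower K E F] [FiniteDimensional E F]

/-- **Field `trace_mem` of `Branch`.**  `s := algebraMap E F tM`.  If `tN` is integral over `K[s]`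
and `tN⁻¹` over `K[s⁻¹]`, the upper chart `B0 ∋ tN` is integral over `R[tN]`, traces of elements
of the upper overlap lie in the lower Gauss ring, and the lower chart `C0 ∋ tM` contains every
element of the Gauss ring integral over `K[tM]`, then `Tr_{F/E}` maps `B0[1/tN]` into
`C0[1/tM]`. -/
theorem trace_mem_overlap {tM : E} {tN : F} {Ov : ValuationSubring E}
    {C0 : Subalgebra R E} (htM : tM ∈ C0) {B0 : Subalgebra R F} (htN : tN ∈ B0)
    (htM0 : tM ≠ 0) (htN0 : tN ≠ 0) (htMO : tM ∈ Ov)
    (hB0 : ∀ x ∈ B0, IsIntegral (Algebra.adjoin R {tN}) x)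
    (h2 : tN ∈ chart K (algebraMap E F tM)) (h4 : tN⁻¹ ∈ chart K (algebraMap E F tM)⁻¹)
    (htr : ∀ x ∈ overlap tN B0 htN, Algebra.trace E F x ∈ Ov)
    (hsat : ∀ z : E, z ∈ chart K tM → z ∈ Ov → z ∈ C0) :
    ∀ x ∈ overlap tN B0 htN, Algebra.trace E F x ∈ overlap tM C0 htM := by
  intro x hx
  obtain ⟨k, hk⟩ := hx
  set s : F := algebraMap E F tM with hs
  have hs0 : s ≠ 0 := by
    rw [hs]
    exact (map_ne_zero (algebraMap E F)).mpr htM0
  -- `x' := tN ^ k * x` is integral over `K[tN]`, hence over `K[s]`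
  have hx'K : tN ^ k * x ∈ chart K tN := by
    rw [mem_chart_iff]
    have hle : Algebra.adjoin R {tN} ≤ (Algebra.adjoin K {tN}).restrictScalars R :=
      Algebra.adjoin_le (by
        intro y hy
        exact Algebra.subset_adjoin hy)
    let ρ : ↥(Algebra.adjoin R {tN}) →+* ↥(Algebra.adjoin K {tN}) :=
      { toFun := fun y => ⟨(y : F), hle y.2⟩
        map_one' := rfl
        map_mul' := fun _ _ => rfl
        map_zero' := rfl
        map_add' := fun _ _ => rfl }
    exact IsIntegral.map_of_comp_eq ρ (RingHom.id F) (by ext y; rfl) (hB0 _ hk)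
  have hx's : tN ^ k * x ∈ chart K s := chartField_mono h2 hx'K
  -- `(tN⁻¹) ^ k` is integral over `K[s⁻¹]`: clear the denominators
  have hinv : tN⁻¹ ^ k ∈ chart K s⁻¹ := (chart K s⁻¹).pow_mem h4 k
  obtain ⟨j, hj⟩ := exists_pow_mul_mem_chart (R := K) hs0 hinv
  -- `s ^ j * x` is integral over `K[s]`
  have hsx : s ^ j * x ∈ chart K s := by
    have e : s ^ j * x = (s ^ j * tN⁻¹ ^ k) * (tN ^ k * x) := by
      have h1 : tN⁻¹ ^ k * tN ^ k = 1 := by rw [← mul_pow, inv_mul_cancel₀ htN0, one_pow]
      calc s ^ j * x = s ^ j * (tN⁻¹ ^ k * tN ^ k) * x := by rw [h1, mul_one]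
        _ = (s ^ j * tN⁻¹ ^ k) * (tN ^ k * x) := by ring
    rw [e]
    exact (chart K s).mul_mem hj hx's
  -- its trace is `tM ^ j * Tr x`, integral over `K[tM]`
  have htrace : Algebra.trace E F (s ^ j * x) = tM ^ j * Algebra.trace E F x := by
    rw [hs, ← map_pow, ← Algebra.smul_def, map_smul, smul_eq_mul]
  have hint : IsIntegral (Algebra.adjoin K {tM}) (Algebra.trace E F (s ^ j * x)) :=
    Algebra.isIntegral_trace (isIntegral_lower_of_upper hsx)
  have hmemK : tM ^ j * Algebra.trace E F x ∈ chart K tM := by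
    rw [← htrace]
    exact mem_chart_iff.mpr hint
  exact ⟨j, hsat _ hmemK (Ov.mul_mem _ _ (pow_mem htMO j) (htr x ⟨k, hk⟩))⟩

end Trace

end Fermat.Agent.M1.NRM.BranchChart70
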