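/-
M1 (S44) / ORD chapter G, brick HK4-INST, concrete half (helper88): the valuation inputs
`BranchAbs88.ValInputs` of the two branches for the model of record (`ES/N34/ModelDefs9`), over
EVERY finite normal number field `K ⊂ ℚ̄` with `j ∈ K(t)` — no hypothesis on the ramification of
`K` at `q`.

`R = AK A K`, `E = FK M' K` (good level), `F = FK (M' q) K` (bad level), `O' = OvK A K M' hπ` (the
Gauss ring of the good level), `O1`, `O2` the two Gauss rings of `ModelDefs9`.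

This file: the fields one by one (`only_alpha`, `only_beta`, `hcomb_beta`, `kron_one_fwd/surj`,
`kron_two_fwd/surj`, `not_pow_tM`, ...).  The assembly `valInputs_alpha`, `valInputs_beta` is in
`M1/NRM/BranchVal88`.
-/
import Mathlib
import Fermat.Agent.M1.NRM.BranchAbs88
import Fermat.Agent.ES.N35.PiMaps26
import Fermat.Agent.ES.N34.GaussVTwoInst25
import Fermat.Agent.ES.N34.CombA26
import Fermat.Agent.ES.N34.KronChart15
import Fermat.Agent.ES.HECKE.AlongDegree25
import Fermat.Agent.RED.PUR.TqOrder26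

set_option autoImplicit false
set_option linter.unusedSectionVars false
set_option synthInstance.maxHeartbeats 400000
set_option maxHeartbeats 1000000

noncomputable section

open HahnSeries ModularCurve AlgebraicCurve

namespace Fermat.Agent.M1.NRM.BranchInst88

open Fermat.Agent.RED.Interface4 Fermat.Agent.RED.PUR.GaussGen8 Fermat.Agent.RED.PUR.GaussBridge10
  Fermat.Agent.RED.BASE.EtaQuot12 Fermat.Agent.RED.BASE
  Fermat.Agent.ES.N34.ModelDefs9 Fermat.Agent.ES.N34.FrickeFK8 Fermat.Agent.ES.N34.KronN14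
  Fermat.Agent.M1.Node.Thick25 Fermat.Agent.M1.NRM.TraceGauss88 Fermat.Agent.M1.NRM.BranchAbs88

variable {A : ValuationSubring Qbar} {K : IntermediateField ℚ Qbar} (M' q : ℕ) [NeZero M'] [NeZero q]

/-! ### Generic facts about the base -/

section Base

variable {π : ↥(AK A K)}

/-- `q ∈ π R`. -/
theorem exists_natCast_eq (hπ : IsUnif (AK A K) π) (hA : A.LiesOverPrime q) :
    ∃ d : ↥(AK A K), (q : ↥(AK A K)) = π * d := by
  have h1 := Fermat.Agent.RED.DESC.NumberFieldDVR27.natCast_mem_maximalIdeal A K hA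
  rw [hπ.max_eq, Ideal.mem_span_singleton'] at h1
  obtain ⟨d, hd⟩ := h1
  exact ⟨d, by rw [← hd, mul_comm]⟩

/-- the inverse of a ring automorphism of finite order preserving `A ∩ K` preserves `A ∩ K`. -/
theorem symm_mem_AK [FiniteDimensional ℚ K] (ψ : K ≃ₐ[ℚ] K)
    (hψO : ∀ x ∈ AK A K, ((ψ : K ≃ₐ[ℚ] K) : K →+* K) x ∈ AK A K) :
    ∀ x ∈ AK A K, ((ψ.symm : K ≃ₐ[ℚ] K) : K →+* K) x ∈ AK A K := by
  have hpow : ∀ (k : ℕ), ∀ x ∈ AK A K, (ψ ^ k) x ∈ AK A K := by
    intro k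
    induction k with
    | zero => intro x hx; simpa using hx
    | succ k ih =>
      intro x hx
      rw [pow_succ', AlgEquiv.mul_apply]
      exact hψO _ (ih x hx)
  have hord : 0 < orderOf ψ := orderOf_pos ψ
  have hinv : ψ.symm = ψ ^ (orderOf ψ - 1) := by
    have h1 : ψ ^ (orderOf ψ - 1) * ψ = 1 := by
      rw [← pow_succ, Nat.sub_add_cancel hord, pow_orderOf_eq_one]
    have h2 : ψ⁻¹ = ψ ^ (orderOf ψ - 1) := (eq_inv_of_mul_eq_one_left h1).symm
    rw [← h2]
    rfl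
  intro x hx
  have := hpow (orderOf ψ - 1) x hx
  rw [← hinv] at this
  exact this

end Base

/-! ### Coefficientwise automorphisms preserve the Gauss ring -/

section Coeff

variable {L : Type*} [Field L] {O : ValuationSubring L}

/-- The coefficientwise action of a ring endomorphism of `L` preserving `O` preserves the Gauss
ring (no Frobenius hypothesis: ring endomorphisms of a local ring preserve units). -/
theorem coeffMap_mem_gaussRing' (ψ : L →+* L) (hψO : ∀ x ∈ O, ψ x ∈ O)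
    {f : LaurentSeries L} (hf : f ∈ gaussRing O) : ModularCurve.coeffMap ψ f ∈ gaussRing O := by
  obtain ⟨a, s, h1, h2⟩ := hf
  refine ⟨ModularCurve.coeffMap (restrictO O ψ hψO) a, ModularCurve.coeffMap (restrictO O ψ hψO) s,
    ?_, ?_⟩
  · intro h0
    apply h1
    ext k
    rw [redL_coeff, HahnSeries.coeff_zero]
    by_contra hne
    have hu : IsUnit (s.coeff k) := by
      by_contra hnu
      exact hne ((IsLocalRing.residue_eq_zero_iff _).mpr hnu)
    have hu' : IsUnit (restrictO O ψ hψO (s.coeff k)) := hu.map _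
    have h3 := congrArg (fun x => HahnSeries.coeff x k) h0
    simp only [redL_coeff, ModularCurve.coeffMap_coeff, HahnSeries.coeff_zero] at h3
    exact (IsLocalRing.residue_eq_zero_iff _).mp h3 hu'
  · rw [embK_coeffMap, embK_coeffMap, ← map_mul, h2]

end Coeff

/-! ### The fields of `ValInputs`, one by one, in `alpha`/`beta` vocabulary -/

section Fields

variable {π : ↥(AK A K)} {n e : ℕ} [NeZero n]
variable [hq : Fact q.Prime] [IsDiscreteValuationRing ↥(AK A K)] [CharP (Res (AK A K)) q]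

/-- the isometry hypothesis `hiso` of `BranchInt5` / `PiMaps26`. -/
theorem hiso (hπ : Irreducible π) (hqM : ¬ q ∣ M') :
    ∀ x : FK M' K, (x : LaurentSeries ↥K) ∈ gaussRing (AK A K) ↔
      ((frickeFK M' K x : FK M' K) : LaurentSeries ↥K) ∈ gaussRing (AK A K) :=
  Fermat.Agent.ES.N34.IsoM25.isoM A K M' q hπ hqM

/-- `W_N` fixes the constants of `R`. -/
theorem wN_algebraMap_AK (r : ↥(AK A K)) :
    wN K M' q (algebraMap ↥(AK A K) ↥(FK (M' * q) K) r)
      = algebraMap ↥(AK A K) ↥(FK (M' * q) K) r := by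
  have h' : algebraMap ↥(AK A K) ↥(FK (M' * q) K) r
      = algebraMap ↥K ↥(FK (M' * q) K) ((r : ↥(AK A K)) : ↥K) := rfl
  rw [h', AlgHom.commutes]

/-- **no third valuation ring over `O'` along `alpha`.** -/
theorem only_alpha (hu : IsUnif (AK A K) π) (hE : FK (M' * q) K ≤ fracField (AK A K))
    (ht : tq (↥K) n e ∈ FK M' K)
    (g : Fermat.Agent.ES.N34.TwoGlue20.GlueOut (↥K) π (tN q ht) (O1 M' q hu hE) (O2 M' q hu hE))
    (V : ValuationSubring ↥(FK (M' * q) K))
    (hV : ∀ x : FK M' K, alpha K M' q x ∈ V ↔ x ∈ OvK A K M' hu) :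
    V = O1 M' q hu hE ∨ V = O2 M' q hu hE := by
  apply g.two V
  ext ⟨y, hy⟩
  have hle : IntermediateField.adjoin (↥K) {tN q ht} ≤ (alpha K M' q).fieldRange := by
    rw [IntermediateField.adjoin_le_iff, Set.singleton_subset_iff]
    exact ⟨tM ht, rfl⟩
  obtain ⟨x, hx⟩ := hle hy
  rw [ValuationSubring.mem_comap, ValuationSubring.mem_comap]
  show y ∈ V ↔ y ∈ O1 M' q hu hE
  rw [← hx]
  have hx' : (alpha K M' q) x ∈ O1 M' q hu hE ↔ x ∈ OvK A K M' hu :=
    (Fermat.Agent.ES.N34.BranchInt5.alpha_mem_O1_iff M' q hu hE x).trans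
      (mem_OvK_iff A K M' hu x).symm
  exact (hV x).trans hx'.symm

/-- **no third valuation ring over `O'` along `beta`.** -/
theorem only_beta (hπ : Irreducible π) (hqM : ¬ q ∣ M')
    (hE : FK (M' * q) K ≤ fracField (AK A K)) (ht : tq (↥K) n e ∈ FK M' K)
    (g : Fermat.Agent.ES.N34.TwoGlue20.GlueOut (↥K) π (tN q ht)
      (O1 M' q (isUnif_of_irreducible (AK A K) hπ) hE)
      (O2 M' q (isUnif_of_irreducible (AK A K) hπ) hE))
    (V : ValuationSubring ↥(FK (M' * q) K))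
    (hV : ∀ x : FK M' K, beta K M' q x ∈ V ↔
      x ∈ OvK A K M' (isUnif_of_irreducible (AK A K) hπ)) :
    V = O2 M' q (isUnif_of_irreducible (AK A K) hπ) hE ∨
      V = O1 M' q (isUnif_of_irreducible (AK A K) hπ) hE := by
  have hu := isUnif_of_irreducible (AK A K) hπ
  -- transport along `W_N`: `V.comap W_N` lies over `O'` along `alpha`
  have h1 := only_alpha M' q hu hE ht g (V.comap (wN K M' q).toRingHom) (fun x => by
    rw [ValuationSubring.mem_comap]
    show wN K M' q (alpha K M' q x) ∈ V ↔ _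
    rw [Fermat.Agent.ES.N34.FrickeV11.wN_alpha, hV, mem_OvK_iff, mem_OvK_iff]
    exact (hiso M' q hπ hqM x).symm)
  have hcomap : ∀ W : ValuationSubring ↥(FK (M' * q) K),
      V.comap (wN K M' q).toRingHom = W → V = W.comap (wN K M' q).toRingHom := by
    intro W hW
    ext y
    rw [← hW, ValuationSubring.mem_comap, ValuationSubring.mem_comap]
    show y ∈ V ↔ wN K M' q (wN K M' q y) ∈ V
    rw [wN_wN]
  rcases h1 with h1 | h1
  · left
    exact hcomap _ h1
  · right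
    rw [hcomap _ h1]
    ext y
    rw [ValuationSubring.mem_comap]
    exact wN_mem_O2_iff M' q hu hE y

/-- **`hcomb` at `(O2, beta)`** from `hcomb` at `(O1, alpha)` by the Fricke involution. -/
theorem hcomb_beta (hπ : Irreducible π) (hqM : ¬ q ∣ M')
    (hE : FK (M' * q) K ≤ fracField (AK A K))
    (hcomb : ∀ x ∈ O1 M' q (isUnif_of_irreducible (AK A K) hπ) hE, ∃ z : FK M' K,
      (z : LaurentSeries ↥K) ∈ gaussRing (AK A K) ∧
      ∃ c ∈ O1 M' q (isUnif_of_irreducible (AK A K) hπ) hE,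
        x - alpha K M' q z = algebraMap ↥(AK A K) ↥(FK (M' * q) K) π * c) :
    ∀ x ∈ O2 M' q (isUnif_of_irreducible (AK A K) hπ) hE, ∃ z : FK M' K,
      (z : LaurentSeries ↥K) ∈ gaussRing (AK A K) ∧
      ∃ c ∈ O2 M' q (isUnif_of_irreducible (AK A K) hπ) hE,
        x - beta K M' q z = algebraMap ↥(AK A K) ↥(FK (M' * q) K) π * c := by
  have hu := isUnif_of_irreducible (AK A K) hπ
  intro x hx
  obtain ⟨z, hz, c, hc, h⟩ := hcomb (wN K M' q x) ((mem_O2_iff_wN_mem_O1 M' q hu hE x).mp hx)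
  refine ⟨frickeFK M' K z, (hiso M' q hπ hqM z).mp hz, wN K M' q c,
    (wN_mem_O2_iff M' q hu hE c).mpr hc, ?_⟩
  have h2 := congrArg (wN K M' q) h
  rw [map_sub, map_mul, wN_wN, Fermat.Agent.ES.N34.FrickeV11.wN_alpha, wN_algebraMap_AK] at h2
  exact h2

variable [FiniteDimensional ℚ K]

/-- **Kronecker on `O2`, forward form**: `alpha z ≡ (beta z')^q mod π O2`. -/
theorem kron_two_fwd (hπ : Irreducible π) (hqM : ¬ q ∣ M')
    (hE : FK (M' * q) K ≤ fracField (AK A K))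
    (ψ : K ≃ₐ[ℚ] K) (hψO : ∀ x ∈ AK A K, ((ψ : K ≃ₐ[ℚ] K) : K →+* K) x ∈ AK A K)
    (hψ : ∀ x : ↥(AK A K),
      res0 (AK A K) (restrictO (AK A K) ((ψ : K ≃ₐ[ℚ] K) : K →+* K) hψO x) ^ q = res0 (AK A K) x)
    (z : FK M' K) (hz : (z : LaurentSeries ↥K) ∈ gaussRing (AK A K)) :
    ∃ z' : FK M' K, (z' : LaurentSeries ↥K) ∈ gaussRing (AK A K) ∧
      ∃ c ∈ O2 M' q (isUnif_of_irreducible (AK A K) hπ) hE,
        alpha K M' q z - (beta K M' q z') ^ q =
          algebraMap ↥(AK A K) ↥(FK (M' * q) K) π * c := by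
  have hu := isUnif_of_irreducible (AK A K) hπ
  obtain ⟨o, ho, h⟩ := Fermat.Agent.ES.N34.KronChart15.kron_two' M' q hu hE ψ hψO hψ z
    ((hiso M' q hπ hqM z).mp hz)
  refine ⟨arithmeticRingAut (modularFunctionFieldFull M') ψ z, ?_, o, ho, h⟩
  rw [Fermat.Agent.ES.N34.KronChart15.coe_gpsi]
  exact coeffMap_mem_gaussRing' _ hψO hz

/-- **Kronecker on `O2`, surjective form**: every `z` occurs as `z'`. -/
theorem kron_two_surj (hπ : Irreducible π) (hqM : ¬ q ∣ M')
    (hE : FK (M' * q) K ≤ fracField (AK A K))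
    (ψ : K ≃ₐ[ℚ] K) (hψO : ∀ x ∈ AK A K, ((ψ : K ≃ₐ[ℚ] K) : K →+* K) x ∈ AK A K)
    (hψ : ∀ x : ↥(AK A K),
      res0 (AK A K) (restrictO (AK A K) ((ψ : K ≃ₐ[ℚ] K) : K →+* K) hψO x) ^ q = res0 (AK A K) x)
    (z : FK M' K) (hz : (z : LaurentSeries ↥K) ∈ gaussRing (AK A K)) :
    ∃ z' : FK M' K, (z' : LaurentSeries ↥K) ∈ gaussRing (AK A K) ∧
      ∃ c ∈ O2 M' q (isUnif_of_irreducible (AK A K) hπ) hE,
        alpha K M' q z' - (beta K M' q z) ^ q =
          algebraMap ↥(AK A K) ↥(FK (M' * q) K) π * c := by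
  have hu := isUnif_of_irreducible (AK A K) hπ
  set z₀ : FK M' K := (arithmeticRingAut (modularFunctionFieldFull M') ψ).symm z with hz₀
  have hz₀G : (z₀ : LaurentSeries ↥K) ∈ gaussRing (AK A K) := by
    have h1 : (z₀ : LaurentSeries ↥K) =
        ModularCurve.coeffMap ((ψ.symm : K ≃ₐ[ℚ] K) : K →+* K) (z : LaurentSeries ↥K) := rfl
    rw [h1]
    exact coeffMap_mem_gaussRing' _ (symm_mem_AK ψ hψO) hz
  obtain ⟨o, ho, h⟩ := Fermat.Agent.ES.N34.KronChart15.kron_two' M' q hu hE ψ hψO hψ z₀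
    ((hiso M' q hπ hqM z₀).mp hz₀G)
  refine ⟨z₀, hz₀G, o, ho, ?_⟩
  rw [hz₀, RingEquiv.apply_symm_apply] at h
  exact h

/-- **Kronecker on `O1`, forward form**: `beta z ≡ (alpha z')^q mod π O1`. -/
theorem kron_one_fwd (hπ : Irreducible π) (hE : FK (M' * q) K ≤ fracField (AK A K))
    (ψ : K ≃ₐ[ℚ] K) (hψO : ∀ x ∈ AK A K, ((ψ : K ≃ₐ[ℚ] K) : K →+* K) x ∈ AK A K)
    (hψ : ∀ x : ↥(AK A K),
      res0 (AK A K) (restrictO (AK A K) ((ψ : K ≃ₐ[ℚ] K) : K →+* K) hψO x) ^ q = res0 (AK A K) x)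
    (z : FK M' K) (hz : (z : LaurentSeries ↥K) ∈ gaussRing (AK A K)) :
    ∃ z' : FK M' K, (z' : LaurentSeries ↥K) ∈ gaussRing (AK A K) ∧
      ∃ c ∈ O1 M' q (isUnif_of_irreducible (AK A K) hπ) hE,
        beta K M' q z - (alpha K M' q z') ^ q =
          algebraMap ↥(AK A K) ↥(FK (M' * q) K) π * c := by
  have hu := isUnif_of_irreducible (AK A K) hπ
  obtain ⟨o, ho, h⟩ := Fermat.Agent.ES.N34.KronChart15.kron_one M' q hu hE ψ hψO hψ z hz
  refine ⟨arithmeticRingAut (modularFunctionFieldFull M') ψ z, ?_, o, ho, h⟩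
  rw [Fermat.Agent.ES.N34.KronChart15.coe_gpsi]
  exact coeffMap_mem_gaussRing' _ hψO hz

/-- **Kronecker on `O1`, surjective form.** -/
theorem kron_one_surj (hπ : Irreducible π) (hE : FK (M' * q) K ≤ fracField (AK A K))
    (ψ : K ≃ₐ[ℚ] K) (hψO : ∀ x ∈ AK A K, ((ψ : K ≃ₐ[ℚ] K) : K →+* K) x ∈ AK A K)
    (hψ : ∀ x : ↥(AK A K),
      res0 (AK A K) (restrictO (AK A K) ((ψ : K ≃ₐ[ℚ] K) : K →+* K) hψO x) ^ q = res0 (AK A K) x)
    (z : FK M' K) (hz : (z : LaurentSeries ↥K) ∈ gaussRing (AK A K)) :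
    ∃ z' : FK M' K, (z' : LaurentSeries ↥K) ∈ gaussRing (AK A K) ∧
      ∃ c ∈ O1 M' q (isUnif_of_irreducible (AK A K) hπ) hE,
        beta K M' q z' - (alpha K M' q z) ^ q =
          algebraMap ↥(AK A K) ↥(FK (M' * q) K) π * c := by
  have hu := isUnif_of_irreducible (AK A K) hπ
  set z₀ : FK M' K := (arithmeticRingAut (modularFunctionFieldFull M') ψ).symm z with hz₀
  have hz₀G : (z₀ : LaurentSeries ↥K) ∈ gaussRing (AK A K) := by
    have h1 : (z₀ : LaurentSeries ↥K) =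
        ModularCurve.coeffMap ((ψ.symm : K ≃ₐ[ℚ] K) : K →+* K) (z : LaurentSeries ↥K) := rfl
    rw [h1]
    exact coeffMap_mem_gaussRing' _ (symm_mem_AK ψ hψO) hz
  obtain ⟨o, ho, h⟩ := Fermat.Agent.ES.N34.KronChart15.kron_one M' q hu hE ψ hψO hψ z₀ hz₀G
  refine ⟨z₀, hz₀G, o, ho, ?_⟩
  rw [hz₀, RingEquiv.apply_symm_apply] at h
  exact h

omit [FiniteDimensional ℚ K] in
/-- **`tM` is not a `q`-th power modulo `π`.** -/
theorem not_pow_tM (hu : IsUnif (AK A K) π) (ht : tq (↥K) n e ∈ FK M' K) :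
    ∀ z : FK M' K, (z : LaurentSeries ↥K) ∈ gaussRing (AK A K) →
      ∀ c : FK M' K, (c : LaurentSeries ↥K) ∈ gaussRing (AK A K) →
        tM ht - z ^ q ≠ algebraMap ↥(AK A K) ↥(FK M' K) π * c := by
  intro z hz c hc h
  have ht₁ : ((tM ht : FK M' K) : LaurentSeries ↥K) ∈ gaussRing (AK A K) :=
    TBridge15.tq_mem_gaussRing (AK A K) n e
  have h1 : (⟨((tM ht : FK M' K) : LaurentSeries ↥K), ht₁⟩ : ↥(gaussRing (AK A K))) - ⟨_, hz⟩ ^ q =
      constG (AK A K) π * ⟨_, hc⟩ := by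
    apply Subtype.ext
    have h0 := congrArg (fun x : FK M' K => (x : LaurentSeries ↥K)) h
    beta_reduce at h0
    push_cast at h0 ⊢
    rw [Fermat.Agent.ES.N34.KronChart15.coe_algebraMap_pi] at h0
    exact h0
  have h2 := congrArg (gaussRed (AK A K)) h1
  rw [map_sub, map_pow, map_mul, gaussRed_unif hu, zero_mul, sub_eq_zero] at h2
  have h3 := congrArg HahnSeries.order h2
  rw [Fermat.Agent.RED.PUR.TqOrder26.order_gaussRed (AK A K) n e _ rfl, HahnSeries.order_pow] at h3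
  have hq2 : (2 : ℤ) ≤ q := by exact_mod_cast hq.out.two_le
  have h4 : (q : ℤ) ∣ 1 := ⟨-(gaussRed (AK A K) ⟨_, hz⟩).order, by
    rw [nsmul_eq_mul] at h3
    linarith⟩
  have := Int.le_of_dvd one_pos h4
  linarith

end Fields

end Fermat.Agent.M1.NRM.BranchInst88
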