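/-
M1 (S44) / ORD chapter G, brick HK4-INST, concrete half, assembly (helper88): the valuation inputs
`BranchAbs88.ValInputs` of the two branches for the model of record (`ES/N34/ModelDefs9`), over
EVERY finite normal number field `K ⊂ ℚ̄` with `j ∈ K(t)` — no hypothesis on the ramification of
`K` at `q`.

`R = AK A K`, `E = FK M' K` (good level), `F = FK (M' q) K` (bad level), `O' = OvK A K M' hπ` (the
Gauss ring of the good level), `O1`, `O2` the two Gauss rings of `ModelDefs9`.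

* `valInputs_alpha` : `ValInputs π q beta O' O1 O2` for the algebra structure `algebraAlong alpha`;
* `valInputs_beta`  : `ValInputs π q alpha O' O2 O1` for the algebra structure `algebraAlong beta`;
* `finrank_alpha`, `finrank_beta` : `[F : E] = q + 1` along both maps; `finite_alpha`,
  `finite_beta`.
-/
import Mathlib
import Fermat.Agent.M1.NRM.BranchInst88

set_option autoImplicit false
set_option linter.unusedSectionVars false
set_option linter.style.haveILetI false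
set_option synthInstance.maxHeartbeats 400000
set_option maxHeartbeats 400000

noncomputable section

open HahnSeries ModularCurve AlgebraicCurve

namespace Fermat.Agent.M1.NRM.BranchVal88

open Fermat.Agent.RED.Interface4 Fermat.Agent.RED.PUR.GaussGen8 Fermat.Agent.RED.PUR.GaussBridge10
  Fermat.Agent.RED.BASE.EtaQuot12 Fermat.Agent.RED.BASE Fermat.Agent.RED.DESC
  Fermat.Agent.ES.N34.ModelDefs9 Fermat.Agent.ES.N34.FrickeFK8 Fermat.Agent.ES.N34.KronN14
  Fermat.Agent.M1.Node.Thick25 Fermat.Agent.M1.NRM.TraceGauss88 Fermat.Agent.M1.NRM.BranchAbs88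
  Fermat.Agent.M1.NRM.BranchInst88

/-! ### Instance shortcuts

Instance search for `Algebra ↥K ↥(FK M K)`, `Algebra ↥(AK A K) ↥(FK M K)` and the tower between them
walks through several slow failing candidates (20 s each in a statement); these shortcuts (the very
terms the search ends up with) make it immediate.  They are reducible, so statements elaborated
with them unify with statements elaborated without them.  Activate with
`open Fermat.Agent.M1.NRM.BranchVal88`. -/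

scoped instance (priority := 5000) algKFK {K : IntermediateField ℚ Qbar} (M : ℕ) [NeZero M] :
    Algebra ↥K ↥(FK M K) := SubalgebraClass.toAlgebra (FK M K)

scoped instance (priority := 5000) algAKFK {A : ValuationSubring Qbar}
    {K : IntermediateField ℚ Qbar} (M : ℕ) [NeZero M] : Algebra ↥(AK A K) ↥(FK M K) :=
  Algebra.ofSubsemiring (AK A K)

scoped instance (priority := 5000) towerAKFK {A : ValuationSubring Qbar}
    {K : IntermediateField ℚ Qbar} (M : ℕ) [NeZero M] : IsScalarTower ↥(AK A K) ↥K ↥(FK M K) :=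
  Submonoid.instIsScalarTowerSubtypeMem (AK A K)

/-! ### Abstract constructor: `ValInputs` for the algebra structure of a ring homomorphism -/

section Abstract

variable {R E F : Type*} [CommRing R] [Field E] [Field F] [Algebra R E] [Algebra R F]

/-- `ValInputs` for `Algebra E F := a.toAlgebra`, all hypotheses stated with `a x`. -/
theorem valInputs_of_ringHom (a b : E →+* F)
    (ha : ∀ r : R, a (algebraMap R E r) = algebraMap R F r)
    {π : R} {q : ℕ} {O' : ValuationSubring E} {O₁ O₂ : ValuationSubring F}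
    (R_le : ∀ r : R, algebraMap R E r ∈ O')
    (dvrR : ∀ r : R, r ≠ 0 → ∃ (k : ℕ) (v : Rˣ), r = π ^ k * v)
    (resChar : ∃ d : R, (q : R) = π * d)
    (comap1 : ∀ x : E, a x ∈ O₁ ↔ x ∈ O')
    (comap2 : ∀ x : E, a x ∈ O₂ ↔ x ∈ O')
    (bcomap1 : ∀ x : E, b x ∈ O₁ ↔ x ∈ O')
    (bcomap2 : ∀ x : E, b x ∈ O₂ ↔ x ∈ O')
    (b_pi : b (algebraMap R E π) = algebraMap R F π)
    (unif1 : IsUnifOf O₁ (algebraMap R F π))
    (unif2 : IsUnifOf O₂ (algebraMap R F π))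
    (arch1 : ∀ x : F, ∃ k : ℕ, algebraMap R F π ^ k * x ∈ O₁)
    (only : ∀ V : ValuationSubring F, (∀ x : E, a x ∈ V ↔ x ∈ O') → V = O₁ ∨ V = O₂)
    (hcomb1 : ∀ x ∈ O₁, ∃ z ∈ O', ∃ c ∈ O₁, x - a z = algebraMap R F π * c)
    (hcomb2 : ∀ x ∈ O₂, ∃ z ∈ O', ∃ c ∈ O₂, x - b z = algebraMap R F π * c)
    (kron_surj : ∀ z ∈ O', ∃ z' ∈ O', ∃ c ∈ O₂, a z' - (b z) ^ q = algebraMap R F π * c)
    (kron_fwd : ∀ z ∈ O', ∃ z' ∈ O', ∃ c ∈ O₂, a z - (b z') ^ q = algebraMap R F π * c)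
    (not_pow : ∃ t ∈ O', ∀ z ∈ O', ∀ c ∈ O', t - z ^ q ≠ algebraMap R E π * c) :
    letI := a.toAlgebra
    haveI : IsScalarTower R E F := IsScalarTower.of_algebraMap_eq fun r => (ha r).symm
    ValInputs π q b O' O₁ O₂ := by
  letI := a.toAlgebra
  haveI : IsScalarTower R E F := IsScalarTower.of_algebraMap_eq fun r => (ha r).symm
  exact
    { R_le := R_le
      dvrR := dvrR
      resChar := resChar
      comap1 := comap1
      comap2 := comap2
      bcomap1 := bcomap1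
      bcomap2 := bcomap2
      b_pi := b_pi
      unif1 := unif1
      unif2 := unif2
      arch1 := arch1
      only := fun V hV => only V (fun x => by rw [← hV]; rfl)
      hcomb1 := hcomb1
      hcomb2 := hcomb2
      kron_surj := kron_surj
      kron_fwd := kron_fwd
      not_pow := not_pow }

end Abstract


variable {A : ValuationSubring Qbar} {K : IntermediateField ℚ Qbar} (M' q : ℕ) [NeZero M'] [NeZero q]
  {n e : ℕ} [NeZero n]

/-! ### The fields in `O'`-vocabulary -/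

section Shared

variable {π : ↥(AK A K)}

/-- constants lie in `O'`. -/
theorem R_le [IsDiscreteValuationRing ↥(AK A K)] (hπ : IsUnif (AK A K) π) (r : ↥(AK A K)) :
    algebraMap ↥(AK A K) ↥(FK M' K) r ∈ OvK A K M' hπ :=
  (mem_OvK_iff A K M' hπ _).mpr (Fermat.Agent.RED.PUR.G1Package8.algebraMap_O_mem r)

theorem alpha_mem_O1 (hπ : IsUnif (AK A K) π) (hE : FK (M' * q) K ≤ fracField (AK A K))
    (x : FK M' K) : alpha K M' q x ∈ O1 M' q hπ hE ↔ x ∈ OvK A K M' hπ :=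
  (Fermat.Agent.ES.N34.BranchInt5.alpha_mem_O1_iff M' q hπ hE x).trans
    (mem_OvK_iff A K M' hπ x).symm

theorem beta_mem_O1 (hπ : IsUnif (AK A K) π) (hE : FK (M' * q) K ≤ fracField (AK A K))
    (x : FK M' K) : beta K M' q x ∈ O1 M' q hπ hE ↔ x ∈ OvK A K M' hπ :=
  (Fermat.Agent.ES.N35.PiMaps26.beta_mem_O1_iff M' q hπ hE x).trans
    (mem_OvK_iff A K M' hπ x).symm

variable [hq : Fact q.Prime] [IsDiscreteValuationRing ↥(AK A K)] [CharP (Res (AK A K)) q]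

theorem alpha_mem_O2 (hπ : IsUnif (AK A K) π) (hirr : Irreducible π) (hqM : ¬ q ∣ M')
    (hE : FK (M' * q) K ≤ fracField (AK A K))
    (x : FK M' K) : alpha K M' q x ∈ O2 M' q hπ hE ↔ x ∈ OvK A K M' hπ :=
  (Fermat.Agent.ES.N35.PiMaps26.alpha_mem_O2_iff M' q hπ hE (hiso M' q hirr hqM) x).trans
    (mem_OvK_iff A K M' hπ x).symm

theorem beta_mem_O2 (hπ : IsUnif (AK A K) π) (hirr : Irreducible π) (hqM : ¬ q ∣ M')
    (hE : FK (M' * q) K ≤ fracField (AK A K))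
    (x : FK M' K) : beta K M' q x ∈ O2 M' q hπ hE ↔ x ∈ OvK A K M' hπ :=
  (Fermat.Agent.ES.N34.BranchInt5.beta_mem_O2_iff M' q hπ hE (hiso M' q hirr hqM) x).trans
    (mem_OvK_iff A K M' hπ x).symm

/-- `hcomb` at `(O1, alpha)` in `O'`-vocabulary. -/
theorem hcomb_one (hπ : IsUnif (AK A K) π) (hE : FK (M' * q) K ≤ fracField (AK A K))
    (hcomb : ∀ x ∈ O1 M' q hπ hE, ∃ z : FK M' K,
      (z : LaurentSeries ↥K) ∈ gaussRing (AK A K) ∧
      ∃ c ∈ O1 M' q hπ hE,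
        x - alpha K M' q z = algebraMap ↥(AK A K) ↥(FK (M' * q) K) π * c) :
    ∀ x ∈ O1 M' q hπ hE, ∃ z ∈ OvK A K M' hπ, ∃ c ∈ O1 M' q hπ hE,
      x - alpha K M' q z = algebraMap ↥(AK A K) ↥(FK (M' * q) K) π * c := by
  intro x hx
  obtain ⟨z, hz, c, hc, h⟩ := hcomb x hx
  exact ⟨z, (mem_OvK_iff A K M' hπ z).mpr hz, c, hc, h⟩

/-- `hcomb` at `(O2, beta)` in `O'`-vocabulary. -/
theorem hcomb_two (hπ : IsUnif (AK A K) π) (hirr : Irreducible π) (hqM : ¬ q ∣ M')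
    (hE : FK (M' * q) K ≤ fracField (AK A K))
    (hcomb : ∀ x ∈ O1 M' q hπ hE, ∃ z : FK M' K,
      (z : LaurentSeries ↥K) ∈ gaussRing (AK A K) ∧
      ∃ c ∈ O1 M' q hπ hE,
        x - alpha K M' q z = algebraMap ↥(AK A K) ↥(FK (M' * q) K) π * c) :
    ∀ x ∈ O2 M' q hπ hE, ∃ z ∈ OvK A K M' hπ, ∃ c ∈ O2 M' q hπ hE,
      x - beta K M' q z = algebraMap ↥(AK A K) ↥(FK (M' * q) K) π * c := by
  intro x hx
  obtain ⟨z, hz, c, hc, h⟩ := hcomb_beta M' q hirr hqM hE hcomb x hx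
  exact ⟨z, (mem_OvK_iff A K M' hπ z).mpr hz, c, hc, h⟩

variable [FiniteDimensional ℚ K]

theorem kronTwo_surj (hπ : IsUnif (AK A K) π) (hirr : Irreducible π) (hqM : ¬ q ∣ M')
    (hE : FK (M' * q) K ≤ fracField (AK A K))
    (ψ : K ≃ₐ[ℚ] K) (hψO : ∀ x ∈ AK A K, ((ψ : K ≃ₐ[ℚ] K) : K →+* K) x ∈ AK A K)
    (hψ : ∀ x : ↥(AK A K),
      res0 (AK A K) (restrictO (AK A K) ((ψ : K ≃ₐ[ℚ] K) : K →+* K) hψO x) ^ q = res0 (AK A K) x) :
    ∀ z ∈ OvK A K M' hπ, ∃ z' ∈ OvK A K M' hπ, ∃ c ∈ O2 M' q hπ hE,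
      alpha K M' q z' - (beta K M' q z) ^ q =
        algebraMap ↥(AK A K) ↥(FK (M' * q) K) π * c := by
  intro z hz
  obtain ⟨z', hz', c, hc, h⟩ := kron_two_surj M' q hirr hqM hE ψ hψO hψ z
    ((mem_OvK_iff A K M' hπ z).mp hz)
  exact ⟨z', (mem_OvK_iff A K M' hπ z').mpr hz', c, hc, h⟩

theorem kronTwo_fwd (hπ : IsUnif (AK A K) π) (hirr : Irreducible π) (hqM : ¬ q ∣ M')
    (hE : FK (M' * q) K ≤ fracField (AK A K))
    (ψ : K ≃ₐ[ℚ] K) (hψO : ∀ x ∈ AK A K, ((ψ : K ≃ₐ[ℚ] K) : K →+* K) x ∈ AK A K)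
    (hψ : ∀ x : ↥(AK A K),
      res0 (AK A K) (restrictO (AK A K) ((ψ : K ≃ₐ[ℚ] K) : K →+* K) hψO x) ^ q = res0 (AK A K) x) :
    ∀ z ∈ OvK A K M' hπ, ∃ z' ∈ OvK A K M' hπ, ∃ c ∈ O2 M' q hπ hE,
      alpha K M' q z - (beta K M' q z') ^ q =
        algebraMap ↥(AK A K) ↥(FK (M' * q) K) π * c := by
  intro z hz
  obtain ⟨z', hz', c, hc, h⟩ := kron_two_fwd M' q hirr hqM hE ψ hψO hψ z
    ((mem_OvK_iff A K M' hπ z).mp hz)
  exact ⟨z', (mem_OvK_iff A K M' hπ z').mpr hz', c, hc, h⟩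

theorem kronOne_surj (hπ : IsUnif (AK A K) π) (hirr : Irreducible π)
    (hE : FK (M' * q) K ≤ fracField (AK A K))
    (ψ : K ≃ₐ[ℚ] K) (hψO : ∀ x ∈ AK A K, ((ψ : K ≃ₐ[ℚ] K) : K →+* K) x ∈ AK A K)
    (hψ : ∀ x : ↥(AK A K),
      res0 (AK A K) (restrictO (AK A K) ((ψ : K ≃ₐ[ℚ] K) : K →+* K) hψO x) ^ q = res0 (AK A K) x) :
    ∀ z ∈ OvK A K M' hπ, ∃ z' ∈ OvK A K M' hπ, ∃ c ∈ O1 M' q hπ hE,
      beta K M' q z' - (alpha K M' q z) ^ q =
        algebraMap ↥(AK A K) ↥(FK (M' * q) K) π * c := by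
  intro z hz
  obtain ⟨z', hz', c, hc, h⟩ := kron_one_surj M' q hirr hE ψ hψO hψ z
    ((mem_OvK_iff A K M' hπ z).mp hz)
  exact ⟨z', (mem_OvK_iff A K M' hπ z').mpr hz', c, hc, h⟩

theorem kronOne_fwd (hπ : IsUnif (AK A K) π) (hirr : Irreducible π)
    (hE : FK (M' * q) K ≤ fracField (AK A K))
    (ψ : K ≃ₐ[ℚ] K) (hψO : ∀ x ∈ AK A K, ((ψ : K ≃ₐ[ℚ] K) : K →+* K) x ∈ AK A K)
    (hψ : ∀ x : ↥(AK A K),
      res0 (AK A K) (restrictO (AK A K) ((ψ : K ≃ₐ[ℚ] K) : K →+* K) hψO x) ^ q = res0 (AK A K) x) :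
    ∀ z ∈ OvK A K M' hπ, ∃ z' ∈ OvK A K M' hπ, ∃ c ∈ O1 M' q hπ hE,
      beta K M' q z - (alpha K M' q z') ^ q =
        algebraMap ↥(AK A K) ↥(FK (M' * q) K) π * c := by
  intro z hz
  obtain ⟨z', hz', c, hc, h⟩ := kron_one_fwd M' q hirr hE ψ hψO hψ z
    ((mem_OvK_iff A K M' hπ z).mp hz)
  exact ⟨z', (mem_OvK_iff A K M' hπ z').mpr hz', c, hc, h⟩

omit [FiniteDimensional ℚ K] in
theorem not_pow (hπ : IsUnif (AK A K) π) (ht : tq (↥K) n e ∈ FK M' K) :
    ∃ t ∈ OvK A K M' hπ, ∀ z ∈ OvK A K M' hπ, ∀ c ∈ OvK A K M' hπ,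
      t - z ^ q ≠ algebraMap ↥(AK A K) ↥(FK M' K) π * c :=
  ⟨tM ht, (mem_OvK_iff A K M' hπ _).mpr (TBridge15.tq_mem_gaussRing (AK A K) n e),
    fun z hz c hc => not_pow_tM M' q hπ ht z ((mem_OvK_iff A K M' hπ z).mp hz) c
      ((mem_OvK_iff A K M' hπ c).mp hc)⟩

end Shared

/-! ### Assembly -/

section Assembly

/-- the tower `R → E → F` along `alpha`. -/
theorem towerAlpha : letI := algebraAlong (alpha K M' q)
    IsScalarTower ↥(AK A K) ↥(FK M' K) ↥(FK (M' * q) K) := by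
  letI := algebraAlong (alpha K M' q)
  exact IsScalarTower.of_algebraMap_eq fun r =>
    (Fermat.Agent.ES.N35.PiMaps26.alpha_algebraMap_AK M' q r).symm

/-- the tower `R → E → F` along `beta`. -/
theorem towerBeta : letI := algebraAlong (beta K M' q)
    IsScalarTower ↥(AK A K) ↥(FK M' K) ↥(FK (M' * q) K) := by
  letI := algebraAlong (beta K M' q)
  exact IsScalarTower.of_algebraMap_eq fun r =>
    (Fermat.Agent.ES.N35.PiMaps26.beta_algebraMap_AK M' q r).symm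

variable [FiniteDimensional ℚ K] [Normal ℚ K]

/-- **The valuation inputs of the `alpha`-branch** (`alpha` étale along `O1`, Frobenius along `O2`),
over every finite normal `K` with `j ∈ K(t)`. -/
theorem valInputs_alpha (hq : q.Prime) (hqM : ¬ q ∣ M') (hA : A.LiesOverPrime q)
    (hjt : jqModC (↥K) ∈ IntermediateField.adjoin (↥K) {tq (↥K) n e})
    (ht : tq (↥K) n e ∈ FK M' K) (hE : FK (M' * q) K ≤ fracField (AK A K))
    (π : ↥(AK A K)) (hπ : IsUnif (AK A K) π) :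
    letI := algebraAlong (alpha K M' q)
    haveI : IsScalarTower ↥(AK A K) ↥(FK M' K) ↥(FK (M' * q) K) := towerAlpha M' q
    ValInputs π q (beta K M' q).toRingHom
      (OvK A K M' hπ) (O1 M' q hπ hE) (O2 M' q hπ hE) := by
  haveI hdvr : IsDiscreteValuationRing ↥(AK A K) :=
    NumberFieldDVR27.isDiscreteValuationRing_AK A K hq.ne_zero hA
  have hirr : Irreducible π := (IsDiscreteValuationRing.irreducible_iff_uniformizer π).mpr hπ.max_eq
  haveI : Fact q.Prime := ⟨hq⟩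
  haveI : CharP (Res (AK A K)) q := NumberFieldDVR27.charP_residueField_AK A K hq hA
  obtain ⟨ψ, hψO, hψ⟩ := Fermat.Agent.ES.N34.KronChart15.exists_frobInv A K q hq hA
  have g : Fermat.Agent.ES.N34.TwoGlue20.GlueOut (↥K) π (tN q ht) (O1 M' q hπ hE)
      (O2 M' q hπ hE) := Fermat.Agent.ES.N34.GaussVTwoInst25.glueOut_tq M' q hirr hE hqM ht hjt
  have hcomb := Fermat.Agent.ES.N34.CombA26.hcombAt_of hq hqM hA K hjt ht hE π hπ
  exact valInputs_of_ringHom (alpha K M' q).toRingHom (beta K M' q).toRingHom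
    (Fermat.Agent.ES.N35.PiMaps26.alpha_algebraMap_AK M' q)
    (R_le M' hπ) (Fermat.Agent.RED.ModelAsm4.dvr_factor hirr) (exists_natCast_eq q hπ hA)
    (alpha_mem_O1 M' q hπ hE) (alpha_mem_O2 M' q hπ hirr hqM hE)
    (beta_mem_O1 M' q hπ hE) (beta_mem_O2 M' q hπ hirr hqM hE)
    (Fermat.Agent.ES.N35.PiMaps26.beta_algebraMap_AK M' q π)
    ⟨g.pi_nonunit1, g.unif1⟩ ⟨g.pi_nonunit2, g.unif2⟩ g.arch1
    (fun V hV => only_alpha M' q hπ hE ht g V hV)
    (hcomb_one M' q hπ hE hcomb) (hcomb_two M' q hπ hirr hqM hE hcomb)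
    (kronTwo_surj M' q hπ hirr hqM hE ψ hψO hψ) (kronTwo_fwd M' q hπ hirr hqM hE ψ hψO hψ)
    (not_pow M' q hπ ht)

/-- **The valuation inputs of the `beta`-branch** (`beta` étale along `O2`, Frobenius along `O1`),
over every finite normal `K` with `j ∈ K(t)`. -/
theorem valInputs_beta (hq : q.Prime) (hqM : ¬ q ∣ M') (hA : A.LiesOverPrime q)
    (hjt : jqModC (↥K) ∈ IntermediateField.adjoin (↥K) {tq (↥K) n e})
    (ht : tq (↥K) n e ∈ FK M' K) (hE : FK (M' * q) K ≤ fracField (AK A K))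
    (π : ↥(AK A K)) (hπ : IsUnif (AK A K) π) :
    letI := algebraAlong (beta K M' q)
    haveI : IsScalarTower ↥(AK A K) ↥(FK M' K) ↥(FK (M' * q) K) := towerBeta M' q
    ValInputs π q (alpha K M' q).toRingHom
      (OvK A K M' hπ) (O2 M' q hπ hE) (O1 M' q hπ hE) := by
  haveI hdvr : IsDiscreteValuationRing ↥(AK A K) :=
    NumberFieldDVR27.isDiscreteValuationRing_AK A K hq.ne_zero hA
  have hirr : Irreducible π := (IsDiscreteValuationRing.irreducible_iff_uniformizer π).mpr hπ.max_eq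
  haveI : Fact q.Prime := ⟨hq⟩
  haveI : CharP (Res (AK A K)) q := NumberFieldDVR27.charP_residueField_AK A K hq hA
  obtain ⟨ψ, hψO, hψ⟩ := Fermat.Agent.ES.N34.KronChart15.exists_frobInv A K q hq hA
  have g : Fermat.Agent.ES.N34.TwoGlue20.GlueOut (↥K) π (tN q ht) (O1 M' q hπ hE)
      (O2 M' q hπ hE) := Fermat.Agent.ES.N34.GaussVTwoInst25.glueOut_tq M' q hirr hE hqM ht hjt
  have hcomb := Fermat.Agent.ES.N34.CombA26.hcombAt_of hq hqM hA K hjt ht hE π hπ
  exact valInputs_of_ringHom (beta K M' q).toRingHom (alpha K M' q).toRingHom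
    (Fermat.Agent.ES.N35.PiMaps26.beta_algebraMap_AK M' q)
    (R_le M' hπ) (Fermat.Agent.RED.ModelAsm4.dvr_factor hirr) (exists_natCast_eq q hπ hA)
    (beta_mem_O2 M' q hπ hirr hqM hE) (beta_mem_O1 M' q hπ hE)
    (alpha_mem_O2 M' q hπ hirr hqM hE) (alpha_mem_O1 M' q hπ hE)
    (Fermat.Agent.ES.N35.PiMaps26.alpha_algebraMap_AK M' q π)
    ⟨g.pi_nonunit2, g.unif2⟩ ⟨g.pi_nonunit1, g.unif1⟩ g.arch2
    (fun V hV => only_beta M' q hirr hqM hE ht g V hV)
    (hcomb_two M' q hπ hirr hqM hE hcomb) (hcomb_one M' q hπ hE hcomb)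
    (kronOne_surj M' q hπ hirr hE ψ hψO hψ) (kronOne_fwd M' q hπ hirr hE ψ hψO hψ)
    (not_pow M' q hπ ht)

omit [FiniteDimensional ℚ K] [Normal ℚ K] in
/-- `[F_K(M'q) : alpha F_K(M')] = q + 1`. -/
theorem finrank_alpha (hq : q.Prime) (hqM : ¬ q ∣ M') :
    letI := algebraAlong (alpha K M' q)
    Module.finrank ↥(FK M' K) ↥(FK (M' * q) K) = q + 1 :=
  Fermat.Agent.ES.HECKE.AlongDegree25.finrankAlong_alpha (↥K) M' q hq hqM

omit [FiniteDimensional ℚ K] [Normal ℚ K] in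
/-- `[F_K(M'q) : beta F_K(M')] = q + 1`. -/
theorem finrank_beta (hq : q.Prime) (hqM : ¬ q ∣ M') :
    letI := algebraAlong (beta K M' q)
    Module.finrank ↥(FK M' K) ↥(FK (M' * q) K) = q + 1 :=
  Fermat.Agent.ES.HECKE.AlongDegree25.finrankAlong_beta (↥K) M' q hq hqM

omit [FiniteDimensional ℚ K] [Normal ℚ K] in
theorem finite_alpha (hq : q.Prime) (hqM : ¬ q ∣ M') :
    letI := algebraAlong (alpha K M' q)
    Module.Finite ↥(FK M' K) ↥(FK (M' * q) K) :=
  Fermat.Agent.ES.HECKE.AlongDegree25.finiteAlong_alpha (↥K) M' q hq hqM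

omit [FiniteDimensional ℚ K] [Normal ℚ K] in
theorem finite_beta (hq : q.Prime) (hqM : ¬ q ∣ M') :
    letI := algebraAlong (beta K M' q)
    Module.Finite ↥(FK M' K) ↥(FK (M' * q) K) :=
  Fermat.Agent.ES.HECKE.AlongDegree25.finiteAlong_beta (↥K) M' q hq hqM

end Assembly

end Fermat.Agent.M1.NRM.BranchVal88
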