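/-
M1 (S44) / ORD chapter G, brick HK4-INST, final half (helper88): **`ToricLead88.Branch` for the two
degeneracy maps of the model of record** (`ES/N34/ModelDefs9`), over EVERY finite normal number
field `K ⊂ ℚ̄` containing `ζ_{M'}` (no hypothesis on the ramification of `K` at `q`).

* `twoChartModel_of_levelM` : Program H's level-`M'` package `LevelM20.LevelM` (both charts) gives
  the smooth two-chart model `CoreIface24.TwoChartModel` at the explicit charts;
* `lowerModel_four` : the smooth model of the good level over every number field `K ∋ ζ_{M'}`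
  (`4 ∣ M'`, `q ∤ M'`), every uniformiser;
* `branch_alpha`, `branch_beta` : `Branch` along `alpha` (étale branch `O1`) and along `beta`
  (étale branch `O2`) from the lower smooth model, (AC) for the étale branch and (for `beta`) the
  two modular-equation memberships `yN ∈ B0`, `yN⁻¹ ∈ B1`;
* `branch_alpha_four`, `branch_beta_four` : the same with every model hypothesis discharged
  (`q` odd, `4 ∣ M'`, `ζ_{M'} ∈ K`, `K` finite normal); only (AC) remains.
-/
import Mathlib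
import Fermat.Agent.M1.NRM.BranchVal88
import Fermat.Agent.ES.P36.ModelQAt4
import Fermat.Agent.ES.P36.IntBeta23
import Fermat.Agent.ES.RED.ModelExplicit26

set_option autoImplicit false
set_option linter.unusedSectionVars false
set_option linter.style.haveILetI false
set_option synthInstance.maxHeartbeats 400000
set_option maxHeartbeats 400000

noncomputable section

open HahnSeries ModularCurve AlgebraicCurve

namespace Fermat.Agent.M1.NRM.BranchModel88

open Fermat.Agent.RED.Interface4 Fermat.Agent.RED.PUR.GaussGen8 Fermat.Agent.RED.PUR.GaussBridge10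
  Fermat.Agent.RED.PUR.KtGauss8 Fermat.Agent.RED.PUR.G1Package8
  Fermat.Agent.RED.BASE.EtaQuot12 Fermat.Agent.RED.BASE Fermat.Agent.X0
  Fermat.Agent.RED.CORE.CoreIface24 Fermat.Agent.RED.PUR.ChartGeneric22
  Fermat.Agent.ES.N34.ModelDefs9 Fermat.Agent.ES.N34.LevelM20
  Fermat.Agent.M1.Fib.Branch98 Fermat.Agent.M1.Fib.Constants98
  Fermat.Agent.M1.NRM.ToricLead88 Fermat.Agent.M1.NRM.BranchAbs88 Fermat.Agent.M1.NRM.BranchInst88
  Fermat.Agent.M1.NRM.BranchVal88

/-! ### The lower smooth model -/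

section Lower

variable {K : Type*} [Field K] {O : ValuationSubring K} [IsDiscreteValuationRing ↥O]
  {E : IntermediateField K (LaurentSeries K)}

/-- Program H's level package on both charts gives the smooth two-chart model at the explicit
charts. -/
theorem twoChartModel_of_levelM [CharZero K] {π : ↥O} {t : ↥E} (h0 : LevelM O E π t)
    (h1 : LevelM O E π t⁻¹) :
    TwoChartModel ↥O K ↥E π t (chart ↥O t) (chart ↥O t⁻¹)
      (OvE O h0.irr E h0.hEM) := by
  obtain ⟨n', hdeg, hirr⟩ := h0.deg_irr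
  exact Fermat.Agent.ES.RED.ModelExplicit26.twoChartModel_of_g1 h0.irr h0.hEM t h0.htM h0.htrM
    h0.hn' hdeg hirr h0.hsm h1.hsm

end Lower

variable {A : ValuationSubring Qbar} {K : IntermediateField ℚ Qbar} {M' q : ℕ} [NeZero M']
  [NeZero q] {n e : ℕ} [NeZero n]

/-- **The smooth model of the good level at one number field** from `PrinItems12.LevelItems`. -/
theorem lowerModel_of_levelItems (hq : q.Prime) (hA : A.LiesOverPrime q)
    [FiniteDimensional ℚ K]
    (hL : Fermat.Agent.ES.N34.PrinItems12.LevelItems n e M' A K)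
    (ht : tq (↥K) n e ∈ FK M' K) (π : ↥(AK A K)) (hπ : IsUnif (AK A K) π) :
    TwoChartModel ↥(AK A K) ↥K ↥(FK M' K) π (tM ht) (B0M A ht) (B1M A ht) (OvK A K M' hπ) := by
  haveI hdvr : IsDiscreteValuationRing ↥(AK A K) :=
    Fermat.Agent.RED.DESC.NumberFieldDVR27.isDiscreteValuationRing_AK A K hq.ne_zero hA
  have hirr : Irreducible π := (IsDiscreteValuationRing.irreducible_iff_uniformizer π).mpr hπ.max_eq
  obtain ⟨ht', -, hLM⟩ := hL
  obtain ⟨L0, L1⟩ := hLM π hirr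
  exact twoChartModel_of_levelM L0 L1

/-- **The smooth model of the good level**, `q ∤ M'`, `4 ∣ M'`, over every number field
`K ∋ ζ_{M'}`. -/
theorem lowerModel_four (hq : q.Prime) (hqM : ¬ q ∣ M') (hM : 4 ∣ M') (hA : A.LiesOverPrime q)
    [FiniteDimensional ℚ K] (hζ : zetaK M' ∈ K)
    (ht : tq (↥K) 4 8 ∈ FK M' K) (π : ↥(AK A K)) (hπ : IsUnif (AK A K) π) :
    TwoChartModel ↥(AK A K) ↥K ↥(FK M' K) π (tM ht) (B0M A ht) (B1M A ht) (OvK A K M' hπ) :=
  lowerModel_of_levelItems hq hA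
    (Fermat.Agent.ES.P36.LevelMAt4.levelItems_four_at hq hqM hM hA hζ) ht π hπ

/-! ### The two branches -/

section Branches

variable [FiniteDimensional ℚ K] [Normal ℚ K]

/-- **`Branch` along `alpha`** (étale branch `O1`). -/
theorem branch_alpha (hq : q.Prime) (hqM : ¬ q ∣ M') (hA : A.LiesOverPrime q)
    (hjt : jqModC (↥K) ∈ IntermediateField.adjoin (↥K) {tq (↥K) n e})
    (ht : tq (↥K) n e ∈ FK M' K) (hE : FK (M' * q) K ≤ fracField (AK A K))
    (π : ↥(AK A K)) (hπ : IsUnif (AK A K) π)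
    (M : TwoChartModel ↥(AK A K) ↥K ↥(FK M' K) π (tM ht) (B0M A ht) (B1M A ht) (OvK A K M' hπ))
    (hac : ResidueAlgClosed π (O1 M' q hπ hE))
    {B01 : Subalgebra ↥(AK A K) ↥(FK (M' * q) K)}
    (ov0 : ∀ x ∈ B01, ∃ k : ℕ, tN q ht ^ k * x ∈ B0 A q ht) :
    letI := algebraAlong (alpha K M' q)
    haveI : IsScalarTower ↥(AK A K) ↥(FK M' K) ↥(FK (M' * q) K) := towerAlpha M' q
    haveI : Module.Finite ↥(FK M' K) ↥(FK (M' * q) K) := finite_alpha M' q hq hqM
    Branch π q (B0M A ht) (B1M A ht) (overlap (tM ht) (B0M A ht) M.t_mem) (OvK A K M' hπ)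
      (O1 M' q hπ hE) (O2 M' q hπ hE) (B0 A q ht) (B1 A q ht) B01 := by
  have hV := valInputs_alpha M' q hq hqM hA hjt ht hE π hπ
  letI := algebraAlong (alpha K M' q)
  haveI : IsScalarTower ↥(AK A K) ↥(FK M' K) ↥(FK (M' * q) K) := towerAlpha M' q
  haveI : Module.Finite ↥(FK M' K) ↥(FK (M' * q) K) := finite_alpha M' q hq hqM
  exact branch_of_inputs hV M hac rfl rfl ov0

/-- **`Branch` along `beta`** (étale branch `O2`). -/
theorem branch_beta (hq : q.Prime) (hqM : ¬ q ∣ M') (hA : A.LiesOverPrime q)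
    (hjt : jqModC (↥K) ∈ IntermediateField.adjoin (↥K) {tq (↥K) n e})
    (ht : tq (↥K) n e ∈ FK M' K) (hE : FK (M' * q) K ≤ fracField (AK A K))
    (π : ↥(AK A K)) (hπ : IsUnif (AK A K) π)
    (M : TwoChartModel ↥(AK A K) ↥K ↥(FK M' K) π (tM ht) (B0M A ht) (B1M A ht) (OvK A K M' hπ))
    (hac : ResidueAlgClosed π (O2 M' q hπ hE))
    (hy0 : yN q ht ∈ B0 A q ht) (hy1 : (yN q ht)⁻¹ ∈ B1 A q ht)
    {B01 : Subalgebra ↥(AK A K) ↥(FK (M' * q) K)}
    (ov0 : ∀ x ∈ B01, ∃ k : ℕ, tN q ht ^ k * x ∈ B0 A q ht) :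
    letI := algebraAlong (beta K M' q)
    haveI : IsScalarTower ↥(AK A K) ↥(FK M' K) ↥(FK (M' * q) K) := towerBeta M' q
    haveI : Module.Finite ↥(FK M' K) ↥(FK (M' * q) K) := finite_beta M' q hq hqM
    Branch π q (B0M A ht) (B1M A ht) (overlap (tM ht) (B0M A ht) M.t_mem) (OvK A K M' hπ)
      (O2 M' q hπ hE) (O1 M' q hπ hE) (B0 A q ht) (B1 A q ht) B01 := by
  have hV := valInputs_beta M' q hq hqM hA hjt ht hE π hπ
  -- the charts of `yN` are the charts of `tN`
  have ht0 : tN q ht ∈ chart ↥(AK A K) (yN q ht) :=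
    Fermat.Agent.ES.P36.IntBeta23.tN_mem_chart_yN hq hqM ht hy0
  have ht1 : (tN q ht)⁻¹ ∈ chart ↥(AK A K) (yN q ht)⁻¹ :=
    Fermat.Agent.ES.P36.IntBeta23.tN_inv_mem_chart_yN_inv hq hqM ht hy1
  have hB0 : B0 A q ht = chart ↥(AK A K) (yN q ht) :=
    le_antisymm (Fermat.Agent.ES.P36.IntBeta23.chart_le_chart ht0)
      (Fermat.Agent.ES.P36.IntBeta23.chart_le_chart hy0)
  have hB1 : B1 A q ht = chart ↥(AK A K) (yN q ht)⁻¹ :=
    le_antisymm (Fermat.Agent.ES.P36.IntBeta23.chart_le_chart ht1)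
      (Fermat.Agent.ES.P36.IntBeta23.chart_le_chart hy1)
  have hy_ne : yN q ht ≠ 0 := by
    intro h0
    have : tM ht = 0 := (beta K M' q).toRingHom.injective (by rw [map_zero]; exact h0)
    exact M.t_ne this
  -- `tN⁻¹ ∈ B0[1/yN]`
  obtain ⟨m, hm⟩ := exists_pow_mul_mem_chart (R := ↥(AK A K)) hy_ne ht1
  have ov0' : ∀ x ∈ B01, ∃ k : ℕ, yN q ht ^ k * x ∈ B0 A q ht := by
    intro x hx
    obtain ⟨k, hk⟩ := ov0 x hx
    refine ⟨m * k, ?_⟩
    have htne : tN q ht ≠ 0 := by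
      intro h0
      have : tM ht = 0 := (alpha K M' q).toRingHom.injective (by rw [map_zero]; exact h0)
      exact M.t_ne this
    have e1 : yN q ht ^ (m * k) * x = (yN q ht ^ m * (tN q ht)⁻¹) ^ k * (tN q ht ^ k * x) := by
      rw [pow_mul, mul_pow, inv_pow]
      field_simp
    rw [e1]
    rw [← hB0] at hm
    exact mul_mem (pow_mem hm k) hk
  letI := algebraAlong (beta K M' q)
  haveI : IsScalarTower ↥(AK A K) ↥(FK M' K) ↥(FK (M' * q) K) := towerBeta M' q
  haveI : Module.Finite ↥(FK M' K) ↥(FK (M' * q) K) := finite_beta M' q hq hqM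
  exact branch_of_inputs hV M hac hB0 hB1 ov0'

/-! ### Every model hypothesis discharged (`q` odd, `4 ∣ M'`) -/

/-- **`Branch` along `alpha`, `q` odd, `4 ∣ M'`, `ζ_{M'} ∈ K`, `K` finite normal**: only (AC) for
`O1` is left. -/
theorem branch_alpha_four (hq : q.Prime) (hqM : ¬ q ∣ M') (hM : 4 ∣ M')
    (hA : A.LiesOverPrime q) (hζ : zetaK M' ∈ K)
    (ht : tq (↥K) 4 8 ∈ FK M' K) (hE : FK (M' * q) K ≤ fracField (AK A K))
    (π : ↥(AK A K)) (hπ : IsUnif (AK A K) π)
    (hac : ResidueAlgClosed π (O1 M' q hπ hE))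
    {B01 : Subalgebra ↥(AK A K) ↥(FK (M' * q) K)}
    (ov0 : ∀ x ∈ B01, ∃ k : ℕ, tN q ht ^ k * x ∈ B0 A q ht) :
    letI := algebraAlong (alpha K M' q)
    haveI : IsScalarTower ↥(AK A K) ↥(FK M' K) ↥(FK (M' * q) K) := towerAlpha M' q
    haveI : Module.Finite ↥(FK M' K) ↥(FK (M' * q) K) := finite_alpha M' q hq hqM
    Branch π q (B0M A ht) (B1M A ht)
      (overlap (tM ht) (B0M A ht) (lowerModel_four hq hqM hM hA hζ ht π hπ).t_mem)
      (OvK A K M' hπ) (O1 M' q hπ hE) (O2 M' q hπ hE) (B0 A q ht) (B1 A q ht) B01 := by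
  obtain ⟨-, hjt, -⟩ := Fermat.Agent.ES.P36.LevelMAt4.levelItems_four_at (A := A) (K := K)
    hq hqM hM hA hζ
  exact branch_alpha hq hqM hA hjt ht hE π hπ (lowerModel_four hq hqM hM hA hζ ht π hπ) hac ov0

/-- **`Branch` along `beta`, `q` odd, `4 ∣ M'`, `ζ_{M'} ∈ K`, `K` finite normal**: only (AC) for
`O2` is left. -/
theorem branch_beta_four (hq : q.Prime) (hq2 : q ≠ 2) (hqM : ¬ q ∣ M') (hM : 4 ∣ M')
    (hA : A.LiesOverPrime q) (hζ : zetaK M' ∈ K)
    (ht : tq (↥K) 4 8 ∈ FK M' K) (hE : FK (M' * q) K ≤ fracField (AK A K))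
    (π : ↥(AK A K)) (hπ : IsUnif (AK A K) π)
    (hac : ResidueAlgClosed π (O2 M' q hπ hE))
    {B01 : Subalgebra ↥(AK A K) ↥(FK (M' * q) K)}
    (ov0 : ∀ x ∈ B01, ∃ k : ℕ, tN q ht ^ k * x ∈ B0 A q ht) :
    letI := algebraAlong (beta K M' q)
    haveI : IsScalarTower ↥(AK A K) ↥(FK M' K) ↥(FK (M' * q) K) := towerBeta M' q
    haveI : Module.Finite ↥(FK M' K) ↥(FK (M' * q) K) := finite_beta M' q hq hqM
    Branch π q (B0M A ht) (B1M A ht)
      (overlap (tM ht) (B0M A ht) (lowerModel_four hq hqM hM hA hζ ht π hπ).t_mem)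
      (OvK A K M' hπ) (O2 M' q hπ hE) (O1 M' q hπ hE) (B0 A q ht) (B1 A q ht) B01 := by
  obtain ⟨-, hjt, -⟩ := Fermat.Agent.ES.P36.LevelMAt4.levelItems_four_at (A := A) (K := K)
    hq hqM hM hA hζ
  obtain ⟨-, -, hS2, -, -⟩ := Fermat.Agent.ES.P36.ModelQAt4.items_four_at (A := A) (K := K)
    hq hq2 hqM hM hA hζ (Fermat.Agent.ES.P36.ModelQAt4.frobInvAt_of_normal hq hA)
  obtain ⟨hy0, hy1⟩ := hS2 ht
  exact branch_beta hq hqM hA hjt ht hE π hπ (lowerModel_four hq hqM hM hA hζ ht π hπ) hac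
    hy0 hy1 ov0

end Branches

end Fermat.Agent.M1.NRM.BranchModel88
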