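/-
M1 (S44) / ORD chapter G, brick HK4-INST, the FRICKE SWAP (helper1, second seat on Branch α/β).

`BranchAbs88.ValInputs π q b O' O₁ O₂` are the valuation inputs of `ToricLead88.Branch` for ONE
degeneracy map `E → F` (the `Algebra E F` structure), `b` being the other one.  The inputs for the
second degeneracy map are obtained from those of the first by TRANSPORT OF STRUCTURE along the
Fricke involutions: `φ : E₁ ≃+* E₂` (`W_{M'}`; in the application `E₁ = E₂ = F_K(M')` as types,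
with the two different `Algebra · F` structures `α` and `β`) and `W : F ≃+* F` (`W_{M' q}`), which
intertwine `α ↔ β`, swap the two Gauss rings `O₁ ↔ O₂` of `F` and preserve the Gauss ring of the
good level.

* `ValInputs.transport` : the abstract statement (Mathlib + `BranchAbs88` only).
-/
import Mathlib
import Fermat.Agent.M1.NRM.BranchAbs88

set_option autoImplicit false
set_option linter.unusedSectionVars false

namespace Fermat.Agent.M1.NRM.BranchSwap1

open Fermat.Agent.M1.Node.Thick25 Fermat.Agent.M1.NRM.BranchAbs88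

variable {R E₁ E₂ F : Type*} [CommRing R] [Field E₁] [Field E₂] [Field F]
  [Algebra R E₁] [Algebra R E₂] [Algebra R F]
  [Algebra E₁ F] [IsScalarTower R E₁ F] [Algebra E₂ F] [IsScalarTower R E₂ F]

/-- **Transport of the valuation inputs along the Fricke involutions.**  `φ : E₁ ≃ E₂` and
`W : F ≃ F` intertwine the structure maps (`hWa`) and the second degeneracy maps (`hWb`), fix the
constants (`hWR`, `hφR`), `W` swaps `O₁` and `O₂` (`h12`, `h21`), `φ` matches the lower Gauss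
rings (`hφO`).  Then the inputs for `(E₁ → F, b₁, O'₁, O₁, O₂)` give those for
`(E₂ → F, b₂, O'₂, O₂, O₁)`.  (`ValInputs` only records the archimedean property of its first
Gauss ring, hence the extra hypothesis `harch2`.) -/
theorem ValInputs.transport {π : R} {q : ℕ} {b₁ : E₁ →+* F} {b₂ : E₂ →+* F}
    {O'₁ : ValuationSubring E₁} {O'₂ : ValuationSubring E₂} {O₁ O₂ : ValuationSubring F}
    (h : ValInputs π q b₁ O'₁ O₁ O₂)
    (φ : E₁ ≃+* E₂) (W : F ≃+* F)
    (hWa : ∀ x : E₁, W (algebraMap E₁ F x) = algebraMap E₂ F (φ x))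
    (hWb : ∀ x : E₁, W (b₁ x) = b₂ (φ x))
    (hWR : ∀ r : R, W (algebraMap R F r) = algebraMap R F r)
    (hφR : ∀ r : R, φ (algebraMap R E₁ r) = algebraMap R E₂ r)
    (h12 : ∀ x : F, x ∈ O₁ ↔ W x ∈ O₂) (h21 : ∀ x : F, x ∈ O₂ ↔ W x ∈ O₁)
    (hφO : ∀ x : E₁, x ∈ O'₁ ↔ φ x ∈ O'₂)
    (harch2 : ∀ x : F, ∃ k : ℕ, algebraMap R F π ^ k * x ∈ O₂) :
    ValInputs π q b₂ O'₂ O₂ O₁ := by
  have hWπ : W (algebraMap R F π) = algebraMap R F π := hWR π
  -- every element of `E₂` is `φ x`
  have hsurj : ∀ y : E₂, ∃ x : E₁, φ x = y := fun y => ⟨φ.symm y, φ.apply_symm_apply y⟩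
  have hWsurj : ∀ y : F, ∃ x : F, W x = y := fun y => ⟨W.symm y, W.apply_symm_apply y⟩
  refine
    { R_le := fun r => by rw [← hφR]; exact (hφO _).mp (h.R_le r)
      dvrR := h.dvrR
      resChar := h.resChar
      comap1 := fun y => by
        obtain ⟨x, rfl⟩ := hsurj y
        rw [← hWa, ← h12, h.comap1, hφO]
      comap2 := fun y => by
        obtain ⟨x, rfl⟩ := hsurj y
        rw [← hWa, ← h21, h.comap2, hφO]
      bcomap1 := fun y => by
        obtain ⟨x, rfl⟩ := hsurj y
        rw [← hWb, ← h12, h.bcomap1, hφO]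
      bcomap2 := fun y => by
        obtain ⟨x, rfl⟩ := hsurj y
        rw [← hWb, ← h21, h.bcomap2, hφO]
      b_pi := by rw [← hφR, ← hWb, h.b_pi, hWπ]
      unif1 := h.unif2
      unif2 := h.unif1
      arch1 := harch2
      only := ?_
      hcomb1 := ?_
      hcomb2 := ?_
      kron_surj := ?_
      kron_fwd := ?_
      not_pow := ?_ }
  · -- no third valuation ring
    intro V hV
    have hV' : (V.comap (W : F →+* F)).comap (algebraMap E₁ F) = O'₁ := by
      ext x
      rw [ValuationSubring.mem_comap, ValuationSubring.mem_comap, RingEquiv.coe_toRingHom, hWa,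
        hφO, ← hV, ValuationSubring.mem_comap]
    rcases h.only _ hV' with h1 | h2
    · left
      ext y
      obtain ⟨x, rfl⟩ := hWsurj y
      rw [← h12, ← h1, ValuationSubring.mem_comap, RingEquiv.coe_toRingHom]
    · right
      ext y
      obtain ⟨x, rfl⟩ := hWsurj y
      rw [← h21, ← h2, ValuationSubring.mem_comap, RingEquiv.coe_toRingHom]
  · -- `κ(O₂) = β κ(O')`
    intro y hy
    obtain ⟨x, rfl⟩ := hWsurj y
    obtain ⟨z, hz, c, hc, hx⟩ := h.hcomb1 x ((h12 x).mpr hy)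
    refine ⟨φ z, (hφO z).mp hz, W c, (h12 c).mp hc, ?_⟩
    rw [← hWa, ← map_sub, hx, map_mul, hWπ]
  · intro y hy
    obtain ⟨x, rfl⟩ := hWsurj y
    obtain ⟨z, hz, c, hc, hx⟩ := h.hcomb2 x ((h21 x).mpr hy)
    refine ⟨φ z, (hφO z).mp hz, W c, (h21 c).mp hc, ?_⟩
    rw [← hWb, ← map_sub, hx, map_mul, hWπ]
  · intro y hy
    obtain ⟨z, rfl⟩ := hsurj y
    obtain ⟨z', hz', c, hc, hk⟩ := h.kron_surj z ((hφO z).mpr hy)
    refine ⟨φ z', (hφO z').mp hz', W c, (h21 c).mp hc, ?_⟩
    rw [← hWa, ← hWb, ← map_pow, ← map_sub, hk, map_mul, hWπ]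
  · intro y hy
    obtain ⟨z, rfl⟩ := hsurj y
    obtain ⟨z', hz', c, hc, hk⟩ := h.kron_fwd z ((hφO z).mpr hy)
    refine ⟨φ z', (hφO z').mp hz', W c, (h21 c).mp hc, ?_⟩
    rw [← hWa, ← hWb, ← map_pow, ← map_sub, hk, map_mul, hWπ]
  · obtain ⟨t, ht, hnp⟩ := h.not_pow
    refine ⟨φ t, (hφO t).mp ht, ?_⟩
    intro y hy c hc hEq
    obtain ⟨z, rfl⟩ := hsurj y
    obtain ⟨d, rfl⟩ := hsurj c
    apply hnp z ((hφO z).mpr hy) d ((hφO d).mpr hc)
    apply φ.injective
    rw [map_sub, map_pow, hEq, map_mul, hφR]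

end Fermat.Agent.M1.NRM.BranchSwap1
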