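/-
M1 (S44), chapter NRM / SP (helper18): **the `S`-part of a divisor and its compatibility with
pull-back, push-forward and correspondences** (abstract side preservation, divisor level).

`K` a field, `F`, `F'` function fields over `K`, `S : Place K F → Prop` a predicate on places (a "side").

* `part S : Divisor K F →+ Divisor K F` : keep the places satisfying `S`;
* `part_add_part_not`, `degree_part_add` : `D = D_S + D_{¬S}`;
* `part_eq_self_iff`, `part_eq_zero_iff` : support characterisations;
* `pullback_part`, `pushforward_part` : if `S' w ↔ S (w.restrict F)` for all places `w` of `F'` then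
  `π^* (D_S) = (π^* D)_{S'}` and `π_* (D'_{S'}) = (π_* D')_S`;
* `pullbackAlong_part`, `pushforwardAlong_part`, `correspondence_part` : the same along `K`-algebra
  homomorphisms `φ ψ : F →ₐ[K] F'`; for a correspondence `ψ_* φ^*` the hypothesis is
  `S (w ∘ φ) ↔ S' w ↔ S (w ∘ ψ)`.

Prelude + Mathlib only.
-/
import Mathlib
import Fermat.Prelude.Def_AlgebraicCurve_Correspondence

set_option autoImplicit false
set_option linter.style.haveILetI false

noncomputable section

namespace Fermat.Agent.M1.NRM.SidePart18

open AlgebraicCurve

section Part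

variable {K F : Type*} [Field K] [Field F] [Algebra K F]

open Classical in
/-- **the `S`-part of a divisor**: keep the places satisfying `S`. -/
def part (S : Place K F → Prop) : Divisor K F →+ Divisor K F :=
  Finsupp.filterAddHom S

open Classical in
theorem part_apply (S : Place K F → Prop) (D : Divisor K F) (v : Place K F) :
    part S D v = if S v then D v else 0 := by
  show Finsupp.filter S D v = _
  rw [Finsupp.filter_apply]

theorem part_apply_of_pos {S : Place K F → Prop} (D : Divisor K F) {v : Place K F} (hv : S v) :
    part S D v = D v := by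
  classical
  rw [part_apply, if_pos hv]

theorem part_apply_of_neg {S : Place K F → Prop} (D : Divisor K F) {v : Place K F} (hv : ¬ S v) :
    part S D v = 0 := by
  classical
  rw [part_apply, if_neg hv]

theorem part_single_of_pos {S : Place K F → Prop} {v : Place K F} (hv : S v) (n : ℤ) :
    part S (Finsupp.single v n) = Finsupp.single v n := by
  classical
  ext w
  by_cases hw : S w
  · rw [part_apply_of_pos _ hw]
  · rw [part_apply_of_neg _ hw]
    have : v ≠ w := fun h => hw (h ▸ hv)
    rw [Finsupp.single_eq_of_ne' this]

theorem part_single_of_neg {S : Place K F → Prop} {v : Place K F} (hv : ¬ S v) (n : ℤ) :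
    part S (Finsupp.single v n) = 0 := by
  classical
  ext w
  by_cases hw : S w
  · rw [part_apply_of_pos _ hw, Finsupp.zero_apply]
    have : v ≠ w := fun h => hv (h ▸ hw)
    rw [Finsupp.single_eq_of_ne' this]
  · rw [part_apply_of_neg _ hw, Finsupp.zero_apply]

/-- `D = D_S + D_{¬ S}`. -/
theorem part_add_part_not (S : Place K F → Prop) (D : Divisor K F) :
    part S D + part (fun v => ¬ S v) D = D := by
  classical
  ext v
  rw [Finsupp.add_apply]
  by_cases hv : S v
  · rw [part_apply_of_pos _ hv, part_apply_of_neg _ (not_not.mpr hv), add_zero]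
  · rw [part_apply_of_neg _ hv, part_apply_of_pos (S := fun v => ¬ S v) _ hv, zero_add]

theorem degree_part_add (S : Place K F → Prop) (D : Divisor K F) :
    Divisor.degree (part S D) + Divisor.degree (part (fun v => ¬ S v) D) = Divisor.degree D := by
  rw [← map_add, part_add_part_not]

theorem part_eq_self_iff (S : Place K F → Prop) (D : Divisor K F) :
    part S D = D ↔ ∀ v ∈ D.support, S v := by
  classical
  constructor
  · intro h v hv
    by_contra hS
    rw [Finsupp.mem_support_iff, ← h, part_apply_of_neg _ hS] at hv
    exact hv rfl
  · intro h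
    ext v
    by_cases hS : S v
    · rw [part_apply_of_pos _ hS]
    · rw [part_apply_of_neg _ hS]
      by_contra hne
      exact hS (h v (Finsupp.mem_support_iff.mpr (Ne.symm hne)))

theorem part_eq_zero_iff (S : Place K F → Prop) (D : Divisor K F) :
    part S D = 0 ↔ ∀ v ∈ D.support, ¬ S v := by
  classical
  constructor
  · intro h v hv hS
    rw [Finsupp.mem_support_iff, ← part_apply_of_pos D hS, h] at hv
    exact hv rfl
  · intro h
    ext v
    rw [Finsupp.zero_apply]
    by_cases hS : S v
    · rw [part_apply_of_pos _ hS]
      by_contra hne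
      exact h v (Finsupp.mem_support_iff.mpr hne) hS
    · rw [part_apply_of_neg _ hS]

theorem part_congr {S T : Place K F → Prop} (h : ∀ v, S v ↔ T v) : part S = part T := by
  have : S = T := funext fun v => propext (h v)
  rw [this]

theorem part_part (S T : Place K F → Prop) (D : Divisor K F) :
    part S (part T D) = part (fun v => S v ∧ T v) D := by
  classical
  ext v
  by_cases hS : S v
  · by_cases hT : T v
    · rw [part_apply_of_pos _ hS, part_apply_of_pos _ hT,
        part_apply_of_pos (S := fun v => S v ∧ T v) _ ⟨hS, hT⟩]
    · rw [part_apply_of_pos _ hS, part_apply_of_neg _ hT,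
        part_apply_of_neg (S := fun v => S v ∧ T v) _ (fun h => hT h.2)]
  · rw [part_apply_of_neg _ hS, part_apply_of_neg (S := fun v => S v ∧ T v) _ (fun h => hS h.1)]

/-- two disjoint sides: the `S`-part of the `T`-part vanishes. -/
theorem part_part_of_disjoint {S T : Place K F → Prop} (h : ∀ v, S v → ¬ T v)
    (D : Divisor K F) : part S (part T D) = 0 := by
  rw [part_part, part_eq_zero_iff]
  intro v _ hv
  exact h v hv.1 hv.2

/-- a divisor supported in `S ∪ T` (`S`, `T` disjoint) is `D_S + D_T`. -/
theorem part_add_part_of_support {S T : Place K F → Prop} (hST : ∀ v, S v → ¬ T v)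
    (D : Divisor K F) (hD : ∀ v ∈ D.support, S v ∨ T v) : part S D + part T D = D := by
  classical
  ext v
  rw [Finsupp.add_apply]
  by_cases hS : S v
  · rw [part_apply_of_pos _ hS, part_apply_of_neg _ (hST v hS), add_zero]
  · rw [part_apply_of_neg _ hS, zero_add]
    by_cases hT : T v
    · rw [part_apply_of_pos _ hT]
    · rw [part_apply_of_neg _ hT]
      by_contra hne
      rcases hD v (Finsupp.mem_support_iff.mpr (Ne.symm hne)) with h | h
      · exact hS h
      · exact hT h

end Part

section PushPull

variable {K F F' : Type*} [Field K] [Field F] [Field F']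
  [Algebra K F] [Algebra K F'] [Algebra F F'] [IsScalarTower K F F'] [Algebra.IsIntegral F F']

/-- **push-forward commutes with parts** for compatible sides. -/
theorem pushforward_part (S : Place K F → Prop) (S' : Place K F' → Prop)
    (h : ∀ w : Place K F', S' w ↔ S (w.restrict F)) (D : Divisor K F') :
    Divisor.pushforward F (part S' D) = part S (Divisor.pushforward F D) := by
  classical
  induction D using Finsupp.induction_linear with
  | zero => simp
  | add D E hD hE => rw [map_add, map_add, map_add, map_add, hD, hE]
  | single w n =>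
    by_cases hw : S' w
    · rw [part_single_of_pos hw, Divisor.pushforward_single,
        part_single_of_pos ((h w).mp hw)]
    · rw [part_single_of_neg hw, map_zero, Divisor.pushforward_single,
        part_single_of_neg (fun hS => hw ((h w).mpr hS))]

variable [HasPrincipalDivisors K F']

/-- **pull-back commutes with parts** for compatible sides. -/
theorem pullback_part (S : Place K F → Prop) (S' : Place K F' → Prop)
    (h : ∀ w : Place K F', S' w ↔ S (w.restrict F)) (D : Divisor K F) :
    Divisor.pullback F' (part S D) = part S' (Divisor.pullback F' D) := by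
  classical
  ext w
  rw [Divisor.pullback_apply]
  by_cases hw : S' w
  · rw [part_apply_of_pos _ hw, part_apply_of_pos _ ((h w).mp hw), Divisor.pullback_apply]
  · rw [part_apply_of_neg _ hw, part_apply_of_neg _ (fun hS => hw ((h w).mpr hS)), mul_zero]

end PushPull

section Along

variable {K F F' : Type*} [Field K] [Field F] [Field F'] [Algebra K F] [Algebra K F']

/-- the restriction of a place of `F'` along `φ : F →ₐ[K] F'` (`φ` integral). -/
def restrictAlong (φ : F →ₐ[K] F') (hφ : φ.toRingHom.IsIntegral) (w : Place K F') : Place K F :=
  letI := algebraAlong φ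
  haveI := isScalarTower_along φ
  haveI := isIntegral_along φ hφ
  w.restrict F

theorem mem_restrictAlong_iff (φ : F →ₐ[K] F') (hφ : φ.toRingHom.IsIntegral) (w : Place K F')
    (f : F) : f ∈ (restrictAlong φ hφ w).toValuationSubring ↔ φ f ∈ w.toValuationSubring :=
  Iff.rfl

theorem pushforwardAlong_part (φ : F →ₐ[K] F') (hφ : φ.toRingHom.IsIntegral)
    (S : Place K F → Prop) (S' : Place K F' → Prop)
    (h : ∀ w : Place K F', S' w ↔ S (restrictAlong φ hφ w)) (D : Divisor K F') :
    Divisor.pushforwardAlong φ hφ (part S' D) = part S (Divisor.pushforwardAlong φ hφ D) := by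
  letI := algebraAlong φ
  haveI := isScalarTower_along φ
  haveI := isIntegral_along φ hφ
  exact pushforward_part S S' h D

variable [HasPrincipalDivisors K F']

theorem pullbackAlong_part (φ : F →ₐ[K] F') (hφ : φ.toRingHom.IsIntegral)
    (S : Place K F → Prop) (S' : Place K F' → Prop)
    (h : ∀ w : Place K F', S' w ↔ S (restrictAlong φ hφ w)) (D : Divisor K F) :
    Divisor.pullbackAlong φ hφ (part S D) = part S' (Divisor.pullbackAlong φ hφ D) := by
  letI := algebraAlong φ
  haveI := isScalarTower_along φ
  haveI := isIntegral_along φ hφ
  exact pullback_part S S' h D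

/-- **a correspondence `ψ_* φ^*` preserves the `S`-part** as soon as both legs respect the side:
`S (w ∘ φ) ↔ S (w ∘ ψ)` for every place `w` upstairs. -/
theorem correspondence_part (φ ψ : F →ₐ[K] F') (hφ : φ.toRingHom.IsIntegral)
    (hψ : ψ.toRingHom.IsIntegral) (S : Place K F → Prop)
    (h : ∀ w : Place K F', S (restrictAlong φ hφ w) ↔ S (restrictAlong ψ hψ w))
    (D : Divisor K F) :
    Divisor.correspondence φ ψ hφ hψ (part S D) = part S (Divisor.correspondence φ ψ hφ hψ D) := by
  rw [Divisor.correspondence_apply, Divisor.correspondence_apply,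
    pullbackAlong_part φ hφ S (fun w => S (restrictAlong φ hφ w)) (fun _ => Iff.rfl),
    pushforwardAlong_part ψ hψ S (fun w => S (restrictAlong φ hφ w)) h]

theorem restrictAlong_mem_support_of_mem_support_pullbackAlong (φ : F →ₐ[K] F')
    (hφ : φ.toRingHom.IsIntegral) {D : Divisor K F} {w : Place K F'}
    (hw : w ∈ (Divisor.pullbackAlong φ hφ D).support) : restrictAlong φ hφ w ∈ D.support := by
  letI := algebraAlong φ
  haveI := isScalarTower_along φ
  haveI := isIntegral_along φ hφ
  exact Divisor.restrict_mem_support_of_mem_support_pullback hw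

omit [HasPrincipalDivisors K F'] in
theorem exists_of_mem_support_pushforwardAlong (ψ : F →ₐ[K] F') (hψ : ψ.toRingHom.IsIntegral)
    {E : Divisor K F'} {v : Place K F} (hv : v ∈ (Divisor.pushforwardAlong ψ hψ E).support) :
    ∃ w ∈ E.support, restrictAlong ψ hψ w = v := by
  classical
  letI := algebraAlong ψ
  haveI := isScalarTower_along ψ
  haveI := isIntegral_along ψ hψ
  by_contra hcon
  push Not at hcon
  rw [Finsupp.mem_support_iff] at hv
  apply hv
  show Divisor.pushforward F E v = 0
  rw [Divisor.pushforward_apply]
  refine Finset.sum_eq_zero fun w hw => ?_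
  rw [if_neg]
  exact hcon w hw

/-- the support of `ψ_* φ^* D` consists of places `w ∘ ψ` with `w ∘ φ ∈ supp D`. -/
theorem exists_of_mem_support_correspondence (φ ψ : F →ₐ[K] F') (hφ : φ.toRingHom.IsIntegral)
    (hψ : ψ.toRingHom.IsIntegral) (D : Divisor K F) {v : Place K F}
    (hv : v ∈ (Divisor.correspondence φ ψ hφ hψ D).support) :
    ∃ w : Place K F', restrictAlong ψ hψ w = v ∧ restrictAlong φ hφ w ∈ D.support := by
  rw [Divisor.correspondence_apply] at hv
  obtain ⟨w, hw, hwv⟩ := exists_of_mem_support_pushforwardAlong ψ hψ hv
  exact ⟨w, hwv, restrictAlong_mem_support_of_mem_support_pullbackAlong φ hφ hw⟩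

end Along

end Fermat.Agent.M1.NRM.SidePart18
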