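/-
M1 (S44), chapter NRM / SP (helper18): **the composite ring of a place and a valuation ring of the
constant field.**

`K` algebraically closed, `F / K` a function field with a generator `x` (`X0.FF.IsGen K x`),
`v : Place K F`, `A : ValuationSubring K`.

* `compRing hx A v : Subring F` := `{f ∈ O_v | f(v) ∈ A}` (the rank-two valuation ring "`v` composed
  with `A`"; `f(v)` is `PlaceValue13.valueHom`);
* `mem_of_isIntegral` : `compRing` is integrally closed in `F`;
* `algebraMap_mem_iff` : a constant `c` lies in it iff `c ∈ A`;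
* `inv_mem_of_value_inv_mem` / `isUnitIn` : units;
* `mem_restrictAlong_iff` : for `φ : F →ₐ[K] F'` integral and `w : Place K F'`:
  `f ∈ compRing A (w ∘ φ) ↔ φ f ∈ compRing A w` (the value of `φ f` at `w` is the value of `f` at
  `w ∘ φ`): the composite ring is CHART-FREE and functorial, which is what makes side
  preservation along level maps and Hecke correspondences formal.
-/
import Mathlib
import Fermat.Agent.ES.RED.PlaceValue13
import Fermat.Agent.M1.NRM.SidePart18

set_option autoImplicit false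
set_option linter.unusedSectionVars false
set_option linter.style.haveILetI false

noncomputable section

namespace Fermat.Agent.M1.NRM.CompRing18

open AlgebraicCurve IsLocalRing
open Fermat.Agent.X0.FF Fermat.Agent.ES.RED.PlaceValue13 Fermat.Agent.M1.NRM.SidePart18

variable {K F : Type*} [Field K] [IsAlgClosed K] [Field F] [Algebra K F]

section Def

variable {x : F} (hx : IsGen K x) (A : ValuationSubring K) (v : Place K F)

/-- **the composite ring** `{f ∈ O_v | f(v) ∈ A}`. -/
def compRing : Subring F where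
  carrier := {f | ∃ hf : f ∈ v.toValuationSubring, valueHom hx v ⟨f, hf⟩ ∈ A}
  mul_mem' := by
    rintro a b ⟨ha, ha'⟩ ⟨hb, hb'⟩
    refine ⟨v.toValuationSubring.mul_mem _ _ ha hb, ?_⟩
    have : (⟨a * b, v.toValuationSubring.mul_mem _ _ ha hb⟩ : v.toValuationSubring) =
        ⟨a, ha⟩ * ⟨b, hb⟩ := rfl
    rw [this, map_mul]
    exact A.mul_mem _ _ ha' hb'
  one_mem' := by
    refine ⟨v.toValuationSubring.one_mem, ?_⟩
    have : (⟨1, v.toValuationSubring.one_mem⟩ : v.toValuationSubring) = 1 := rfl
    rw [this, map_one]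
    exact A.one_mem
  add_mem' := by
    rintro a b ⟨ha, ha'⟩ ⟨hb, hb'⟩
    refine ⟨v.toValuationSubring.add_mem _ _ ha hb, ?_⟩
    have : (⟨a + b, v.toValuationSubring.add_mem _ _ ha hb⟩ : v.toValuationSubring) =
        ⟨a, ha⟩ + ⟨b, hb⟩ := rfl
    rw [this, map_add]
    exact A.add_mem _ _ ha' hb'
  zero_mem' := by
    refine ⟨v.toValuationSubring.zero_mem, ?_⟩
    have : (⟨0, v.toValuationSubring.zero_mem⟩ : v.toValuationSubring) = 0 := rfl
    rw [this, map_zero]
    exact A.zero_mem
  neg_mem' := by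
    rintro a ⟨ha, ha'⟩
    refine ⟨v.toValuationSubring.neg_mem _ ha, ?_⟩
    have : (⟨-a, v.toValuationSubring.neg_mem _ ha⟩ : v.toValuationSubring) = -⟨a, ha⟩ := rfl
    rw [this, map_neg]
    exact A.neg_mem _ ha'

theorem mem_compRing_iff {f : F} :
    f ∈ compRing hx A v ↔ ∃ hf : f ∈ v.toValuationSubring, valueHom hx v ⟨f, hf⟩ ∈ A :=
  Iff.rfl

theorem mem_valuationSubring_of_mem {f : F} (h : f ∈ compRing hx A v) :
    f ∈ v.toValuationSubring := h.1

theorem value_mem_of_mem {f : F} (h : f ∈ compRing hx A v) :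
    valueHom hx v ⟨f, mem_valuationSubring_of_mem hx A v h⟩ ∈ A := h.2

/-- independence of the generator. -/
theorem compRing_congr {x' : F} (hx' : IsGen K x') : compRing hx A v = compRing hx' A v := by
  ext f
  rw [mem_compRing_iff, mem_compRing_iff, valueHom_congr hx v hx']

theorem algebraMap_mem_iff (c : K) : algebraMap K F c ∈ compRing hx A v ↔ c ∈ A := by
  have hmem : algebraMap K F c ∈ v.toValuationSubring := v.algebraMap_mem' c
  have hval : valueHom hx v ⟨algebraMap K F c, hmem⟩ = c :=
    (valueHom hx v).commutes c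
  constructor
  · rintro ⟨hf, h⟩
    rwa [hval] at h
  · intro h
    exact ⟨hmem, by rwa [hval]⟩

/-- the evaluation `compRing → A`. -/
def evalHom : compRing hx A v →+* A where
  toFun f := ⟨valueHom hx v ⟨f.1, f.2.1⟩, f.2.2⟩
  map_one' := Subtype.ext (by
    show valueHom hx v ⟨1, _⟩ = 1
    exact map_one (valueHom hx v))
  map_mul' a b := Subtype.ext (by
    show valueHom hx v ⟨a.1 * b.1, _⟩ = valueHom hx v ⟨a.1, _⟩ * valueHom hx v ⟨b.1, _⟩
    rw [← map_mul]; rfl)
  map_zero' := Subtype.ext (by
    show valueHom hx v ⟨0, _⟩ = 0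
    exact map_zero (valueHom hx v))
  map_add' a b := Subtype.ext (by
    show valueHom hx v ⟨a.1 + b.1, _⟩ = valueHom hx v ⟨a.1, _⟩ + valueHom hx v ⟨b.1, _⟩
    rw [← map_add]; rfl)

@[simp] theorem coe_evalHom (f : compRing hx A v) :
    ((evalHom hx A v f : A) : K) = valueHom hx v ⟨f.1, f.2.1⟩ := rfl

/-- the inclusion `compRing → O_v`. -/
def toOv : compRing hx A v →+* v.toValuationSubring where
  toFun f := ⟨f.1, f.2.1⟩
  map_one' := rfl
  map_mul' _ _ := rfl
  map_zero' := rfl
  map_add' _ _ := rfl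

theorem valueHom_comp_toOv :
    ((valueHom hx v : v.toValuationSubring →+* K)).comp (toOv hx A v) =
      A.subtype.comp (evalHom hx A v) := rfl

/-- **`compRing` is integrally closed in `F`.** -/
theorem mem_of_isIntegral {f : F} (hf : IsIntegral (compRing hx A v) f) :
    f ∈ compRing hx A v := by
  obtain ⟨p, hp, hpf⟩ := hf
  -- `f ∈ O_v`
  have hfO : f ∈ v.toValuationSubring := by
    have hint : IsIntegral v.toValuationSubring f := by
      refine ⟨p.map (toOv hx A v), hp.map _, ?_⟩
      rw [Polynomial.eval₂_map]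
      exact hpf
    obtain ⟨y, hy⟩ := IsIntegrallyClosed.isIntegral_iff.mp hint
    rw [← hy]
    exact y.2
  refine ⟨hfO, ?_⟩
  -- the value is integral over `A`
  have h1 : Polynomial.eval₂ (toOv hx A v) (⟨f, hfO⟩ : v.toValuationSubring) p = 0 := by
    apply Subtype.ext
    have := Polynomial.hom_eval₂ p (toOv hx A v) v.toValuationSubring.subtype
      (⟨f, hfO⟩ : v.toValuationSubring)
    rw [ZeroMemClass.coe_zero]
    show v.toValuationSubring.subtype (Polynomial.eval₂ (toOv hx A v) ⟨f, hfO⟩ p) = 0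
    rw [this]
    exact hpf
  have h2 := congrArg (valueHom hx v : v.toValuationSubring →+* K) h1
  rw [Polynomial.hom_eval₂, valueHom_comp_toOv, map_zero] at h2
  have hint : IsIntegral A (valueHom hx v ⟨f, hfO⟩) := by
    refine ⟨p.map (evalHom hx A v), hp.map _, ?_⟩
    rw [Polynomial.eval₂_map]
    exact h2
  obtain ⟨y, hy⟩ := IsIntegrallyClosed.isIntegral_iff.mp hint
  rw [← hy]
  exact y.2

/-- a nonzero `f ∈ compRing` whose value is a unit of `A` is a unit of `compRing`. -/
theorem inv_mem_of_value_inv_mem {f : F} (hf : f ∈ compRing hx A v)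
    (hinv : (valueHom hx v ⟨f, hf.1⟩)⁻¹ ∈ A) (hne : valueHom hx v ⟨f, hf.1⟩ ≠ 0) :
    f⁻¹ ∈ compRing hx A v := by
  have hunit : IsUnit (⟨f, hf.1⟩ : v.toValuationSubring) :=
    (valueHom_ne_zero_iff hx v _).mp hne
  have hfinv : f⁻¹ ∈ v.toValuationSubring := by
    obtain ⟨u, hu⟩ := hunit
    have h1 : ((u⁻¹ : (v.toValuationSubring)ˣ) : v.toValuationSubring).1 = f⁻¹ := by
      have h2 : (u : v.toValuationSubring).1 = f := congrArg Subtype.val hu
      have h3 : ((u : v.toValuationSubring) * (u⁻¹ : (v.toValuationSubring)ˣ)).1 = 1 := by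
        rw [Units.mul_inv]; rfl
      have h4 : f * ((u⁻¹ : (v.toValuationSubring)ˣ) : v.toValuationSubring).1 = 1 := by
        rw [← h2]; exact h3
      exact eq_inv_of_mul_eq_one_right h4
    rw [← h1]
    exact ((u⁻¹ : (v.toValuationSubring)ˣ) : v.toValuationSubring).2
  refine ⟨hfinv, ?_⟩
  have hmul : (⟨f, hf.1⟩ : v.toValuationSubring) * ⟨f⁻¹, hfinv⟩ = 1 := by
    apply Subtype.ext
    show f * f⁻¹ = 1
    have hf0 : f ≠ 0 := by
      rintro rfl
      apply hne
      have : (⟨0, hf.1⟩ : v.toValuationSubring) = 0 := rfl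
      rw [this, map_zero]
    exact mul_inv_cancel₀ hf0
  have := congrArg (valueHom hx v) hmul
  rw [map_mul, map_one] at this
  rw [eq_inv_of_mul_eq_one_right this]
  exact hinv

end Def

/-! ### functoriality along a field embedding -/

section Along

variable {F' : Type*} [Field F'] [Algebra K F']
variable {x : F} (hx : IsGen K x) {x' : F'} (hx' : IsGen K x') (A : ValuationSubring K)

/-- the value of `φ f` at `w` is the value of `f` at `w ∘ φ`. -/
theorem valueHom_restrictAlong (φ : F →ₐ[K] F') (hφ : φ.toRingHom.IsIntegral) (w : Place K F')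
    (f : F) (hf : φ f ∈ w.toValuationSubring) :
    valueHom hx (restrictAlong φ hφ w) ⟨f, (mem_restrictAlong_iff φ hφ w f).mpr hf⟩ =
      valueHom hx' w ⟨φ f, hf⟩ := by
  letI := algebraAlong φ
  haveI := isScalarTower_along φ
  haveI := isIntegral_along φ hφ
  symm
  rw [valueHom_eq_iff_sub_mem]
  set c : K := valueHom hx (restrictAlong φ hφ w) ⟨f, (mem_restrictAlong_iff φ hφ w f).mpr hf⟩
    with hc
  -- `f - c` is a non-unit downstairs, hence upstairs (local homomorphism)
  have h1 := sub_valueHom_mem hx (restrictAlong φ hφ w)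
    ⟨f, (mem_restrictAlong_iff φ hφ w f).mpr hf⟩
  rw [mem_maximalIdeal, mem_nonunits_iff] at h1 ⊢
  intro hunit
  apply h1
  have hloc : IsLocalHom (Place.restrictInclusion F w) := inferInstance
  apply hloc.map_nonunit
  convert hunit using 1
  apply Subtype.ext
  show algebraMap F F' (f - algebraMap K F c) = φ f - algebraMap K F' c
  rw [map_sub, ← IsScalarTower.algebraMap_apply]
  rfl

/-- **functoriality**: `f ∈ compRing A (w ∘ φ) ↔ φ f ∈ compRing A w`. -/
theorem mem_restrictAlong_iff' (φ : F →ₐ[K] F') (hφ : φ.toRingHom.IsIntegral) (w : Place K F')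
    (f : F) : f ∈ compRing hx A (restrictAlong φ hφ w) ↔ φ f ∈ compRing hx' A w := by
  constructor
  · rintro ⟨hf, h⟩
    have hf' : φ f ∈ w.toValuationSubring := (mem_restrictAlong_iff φ hφ w f).mp hf
    refine ⟨hf', ?_⟩
    rw [← valueHom_restrictAlong hx hx' φ hφ w f hf']
    exact h
  · rintro ⟨hf, h⟩
    refine ⟨(mem_restrictAlong_iff φ hφ w f).mpr hf, ?_⟩
    rw [valueHom_restrictAlong hx hx' φ hφ w f hf]
    exact h

end Along

end Fermat.Agent.M1.NRM.CompRing18
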