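/-
M1 (S44), chapter NRM, brick NODE-TERM, abstract skeleton (helper58).

**NODE-TERM in the literal `hnode` shape of `Old/FrameAssembly58`**, from the integer relation
produced by `NRM/NormVal18.gauss_int_relation` (helper18):

  `(a₂ - a₁) * k = (b₂ - b₁) * p`,   `k = l + 1 - a_l`,  `p ∤ k`,

where `v_j(f) = a_j`, `v_j(h) = b_j` are the two Gauss valuations of the function `f` with
`div f = p D` and of the function `h` of the Hecke norm relation `N_α (β f) = c f^a h^p`.

* `dvd_slope_of_avoids` : a function all of whose orders at the places through a node vanish has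
  slope `v₂ - v₁` divisible by the thickness `e` (`SlopeFrame.wd`);
* `dvd_of_rel` : the arithmetic (`e = 0` allowed): `e ∣ a₂ - a₁`, `e ∣ b₂ - b₁`,
  `(a₂ - a₁) k = (b₂ - b₁) p`, `p ∤ k` ⟹ `∃ b', a₂ - a₁ = e p b'`;
* `hnode_of_rel` : **the `hnode` hypothesis of `FrameAssembly58.mem_cart_one_of_pth_powers`**;
* `hnode_of_rel_one` : variant where the relation is only supplied for ONE function `f₀` with
  `div f₀ = p D` (all the others are constant multiples: hypothesis `hconst`, constants have equal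
  Gauss valuations);
* `const_vals` : constants (elements of `K = Frac R`) have equal Gauss valuations on `O₁`, `O₂`;
* `dvd_of_level_change` : the level-change arithmetic (thickness `e r` over `L' ⊇ L`,
  `v_j^{L'} = r v_j^L`).
-/
import Mathlib
import Fermat.Agent.M1.Car.Slope43

set_option autoImplicit false
set_option linter.unusedSectionVars false

namespace Fermat.Agent.M1.NRM.NodeTermAbs58

open AlgebraicCurve Fermat.Agent.ES.N34.NodalCore13 Fermat.Agent.M1.Car.Defs43
  Fermat.Agent.M1.Node.Thick25 Fermat.Agent.M1.Mon.WildPL43 Fermat.Agent.M1.Car.Slope43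

/-! ### Arithmetic -/

/-- The arithmetic of the node term, `e = 0` allowed. -/
theorem dvd_of_rel {e p : ℕ} (hp : p.Prime) {s t k : ℤ} (hs : (e : ℤ) ∣ s) (ht : (e : ℤ) ∣ t)
    (hk : ¬ (p : ℤ) ∣ k) (h : s * k = t * p) : ∃ b' : ℤ, s = (e : ℤ) * p * b' := by
  obtain ⟨x, rfl⟩ := hs
  obtain ⟨y, rfl⟩ := ht
  rcases Nat.eq_zero_or_pos e with rfl | he
  · exact ⟨0, by simp⟩
  have he0 : (e : ℤ) ≠ 0 := by exact_mod_cast he.ne'
  have h' : x * k = y * p := by
    apply mul_left_cancel₀ he0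
    linear_combination h
  have hpx : (p : ℤ) ∣ x * k := ⟨y, by rw [h']; ring⟩
  have hp' : Prime (p : ℤ) := Nat.prime_iff_prime_int.mp hp
  rcases hp'.dvd_or_dvd hpx with h1 | h1
  · obtain ⟨b', rfl⟩ := h1
    exact ⟨b', by ring⟩
  · exact absurd h1 hk

/-- Level change: over `L' ⊇ L` of ramification index `r` the thickness is `e r` and the valuations
are multiplied by `r`. -/
theorem dvd_of_level_change {e p r : ℕ} (hr : 0 < r) {m : ℤ}
    (h : ((e * r : ℕ) : ℤ) * p ∣ (r : ℤ) * m) : (e : ℤ) * p ∣ m := by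
  obtain ⟨c, hc⟩ := h
  have hr0 : (r : ℤ) ≠ 0 := by exact_mod_cast hr.ne'
  refine ⟨c, ?_⟩
  apply mul_left_cancel₀ hr0
  rw [hc]
  push_cast
  ring

section Frame

variable {R K F : Type*} [CommRing R] [Field K] [Field F] [Algebra K F] [Algebra R F]
  {π : R} {B0 B1 : Subalgebra R F} {O1 O2 : ValuationSubring F} {e : ℕ}

/-- A function whose orders at the places through a node all vanish has slope divisible by the
thickness. -/
theorem dvd_slope_of_avoids (SF : SlopeFrame (K := K) π B0 B1 O1 O2 e)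
    {B : Subalgebra R F} {𝔪 : Ideal B} (hs : IsNode π B0 B1 O1 O2 B 𝔪) {g : F} (hg : g ≠ 0)
    (hord : ∀ P : Place K F, Through B 𝔪 P → P.ord g = 0) {a1 a2 : ℤ}
    (hv1 : O1.valuation g = O1.valuation (algebraMap R F π) ^ a1)
    (hv2 : O2.valuation g = O2.valuation (algebraMap R F π) ^ a2) : (e : ℤ) ∣ a2 - a1 :=
  SF.wd B 𝔪 hs g a1 a2 ⟨hg, fun P hP => by rw [hord P hP]; rfl⟩ hv1 hv2

/-- A function with `div f = p D`, `D` avoiding the node, has vanishing orders at the places
through the node. -/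
theorem ord_eq_zero_of_avoids {B : Subalgebra R F} {𝔪 : Ideal B} {p : ℕ} {D : Divisor K F}
    (hD : ∀ P : Place K F, Through B 𝔪 P → D P = 0) {f : F}
    (hdiv : ∀ P : Place K F, (p • D) P = P.ord f) :
    ∀ P : Place K F, Through B 𝔪 P → P.ord f = 0 := by
  intro P hP
  rw [← hdiv P, Finsupp.smul_apply, hD P hP, smul_zero]

/-- **NODE-TERM, skeleton** (literal `hnode` of `FrameAssembly58`).  `D` avoids one node; for every
`f` with `div f = p D` there is a function `h` avoiding the node and an integer `k` prime to `p`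
with `(v₂ - v₁)(f) * k = (v₂ - v₁)(h) * p`. -/
theorem hnode_of_rel (SF : SlopeFrame (K := K) π B0 B1 O1 O2 e)
    {B : Subalgebra R F} {𝔪 : Ideal B} (hs : IsNode π B0 B1 O1 O2 B 𝔪)
    {p : ℕ} (hp : p.Prime) (D : Divisor K F)
    (hD : ∀ P : Place K F, Through B 𝔪 P → D P = 0)
    (hrel : ∀ f : F, f ≠ 0 → (∀ P : Place K F, (p • D) P = P.ord f) →
      ∃ (h : F) (k : ℤ), h ≠ 0 ∧ ¬ (p : ℤ) ∣ k ∧
        (∀ P : Place K F, Through B 𝔪 P → P.ord h = 0) ∧
        ∀ a1 a2 b1 b2 : ℤ,
          O1.valuation f = O1.valuation (algebraMap R F π) ^ a1 →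
          O2.valuation f = O2.valuation (algebraMap R F π) ^ a2 →
          O1.valuation h = O1.valuation (algebraMap R F π) ^ b1 →
          O2.valuation h = O2.valuation (algebraMap R F π) ^ b2 →
          (a2 - a1) * k = (b2 - b1) * p) :
    ∀ f : F, f ≠ 0 → (∀ P : Place K F, (p • D) P = P.ord f) →
      O1.valuation f = 1 →
      ∃ b' : ℤ, O2.valuation f = O2.valuation (algebraMap R F π) ^ ((e : ℤ) * p * b') := by
  intro f hf hdiv hv1
  obtain ⟨h, k, hh0, hk, hhord, hr⟩ := hrel f hf hdiv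
  obtain ⟨a2, ha2⟩ := SF.vals2 f hf
  obtain ⟨b1, hb1⟩ := SF.vals1 h hh0
  obtain ⟨b2, hb2⟩ := SF.vals2 h hh0
  have ha1 : O1.valuation f = O1.valuation (algebraMap R F π) ^ (0 : ℤ) := by rw [hv1, zpow_zero]
  have hford := ord_eq_zero_of_avoids hD hdiv
  have d1 := dvd_slope_of_avoids SF hs hf hford ha1 ha2
  have d2 := dvd_slope_of_avoids SF hs hh0 hhord hb1 hb2
  obtain ⟨b', hb'⟩ := dvd_of_rel hp d1 d2 hk (hr 0 a2 b1 b2 ha1 ha2 hb1 hb2)
  refine ⟨b', ?_⟩
  rw [ha2, ← hb', sub_zero]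

/-- Variant: the relation is supplied for ONE function `f₀` with `div f₀ = p D`; every other such
function is `c f₀` with `c` of equal Gauss valuations (a constant). -/
theorem hnode_of_rel_one (SF : SlopeFrame (K := K) π B0 B1 O1 O2 e)
    {B : Subalgebra R F} {𝔪 : Ideal B} (hs : IsNode π B0 B1 O1 O2 B 𝔪)
    {p : ℕ} (hp : p.Prime) (D : Divisor K F)
    (hD : ∀ P : Place K F, Through B 𝔪 P → D P = 0)
    (hconst : ∀ c : F, c ≠ 0 → (∀ P : Place K F, P.ord c = 0) → ∀ a1 a2 : ℤ,
      O1.valuation c = O1.valuation (algebraMap R F π) ^ a1 →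
      O2.valuation c = O2.valuation (algebraMap R F π) ^ a2 → a1 = a2)
    {f₀ h : F} {k : ℤ} (hf₀ : f₀ ≠ 0) (hdiv₀ : ∀ P : Place K F, (p • D) P = P.ord f₀)
    (hh0 : h ≠ 0) (hk : ¬ (p : ℤ) ∣ k)
    (hhord : ∀ P : Place K F, Through B 𝔪 P → P.ord h = 0)
    (hr : ∀ a1 a2 b1 b2 : ℤ,
      O1.valuation f₀ = O1.valuation (algebraMap R F π) ^ a1 →
      O2.valuation f₀ = O2.valuation (algebraMap R F π) ^ a2 →
      O1.valuation h = O1.valuation (algebraMap R F π) ^ b1 →
      O2.valuation h = O2.valuation (algebraMap R F π) ^ b2 →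
      (a2 - a1) * k = (b2 - b1) * p) :
    ∀ f : F, f ≠ 0 → (∀ P : Place K F, (p • D) P = P.ord f) →
      O1.valuation f = 1 →
      ∃ b' : ℤ, O2.valuation f = O2.valuation (algebraMap R F π) ^ ((e : ℤ) * p * b') := by
  intro f hf hdiv hv1
  -- `c = f / f₀` has trivial divisor
  have hc0 : f / f₀ ≠ 0 := div_ne_zero hf hf₀
  have hcord : ∀ P : Place K F, P.ord (f / f₀) = 0 := by
    intro P
    rw [div_eq_mul_inv, P.ord_mul hf (inv_ne_zero hf₀), P.ord_inv, ← hdiv P, ← hdiv₀ P, add_neg_cancel]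
  obtain ⟨α1, hα1⟩ := SF.vals1 f₀ hf₀
  obtain ⟨α2, hα2⟩ := SF.vals2 f₀ hf₀
  obtain ⟨a2, ha2⟩ := SF.vals2 f hf
  obtain ⟨b1, hb1⟩ := SF.vals1 h hh0
  obtain ⟨b2, hb2⟩ := SF.vals2 h hh0
  have hc1 : O1.valuation (f / f₀) = O1.valuation (algebraMap R F π) ^ (0 - α1) := by
    rw [map_div₀, hv1, hα1, zero_sub, zpow_neg, one_div]
  have hc2 : O2.valuation (f / f₀) = O2.valuation (algebraMap R F π) ^ (a2 - α2) := by
    rw [map_div₀, ha2, hα2, zpow_sub₀ SF.unif2.val_ne_zero]
  have hca := hconst _ hc0 hcord _ _ hc1 hc2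
  have hford₀ := ord_eq_zero_of_avoids hD hdiv₀
  have d1 := dvd_slope_of_avoids SF hs hf₀ hford₀ hα1 hα2
  have d2 := dvd_slope_of_avoids SF hs hh0 hhord hb1 hb2
  obtain ⟨b', hb'⟩ := dvd_of_rel hp d1 d2 hk (hr α1 α2 b1 b2 hα1 hα2 hb1 hb2)
  refine ⟨b', ?_⟩
  have : a2 = α2 - α1 := by linarith
  rw [ha2, this, hb']

end Frame

/-! ### Constants have equal Gauss valuations -/

section Const

variable {R K F : Type*} [CommRing R] [Field K] [Field F] [Algebra R K] [Algebra K F] [Algebra R F]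
  [IsScalarTower R K F] {π : R} {B0 B1 : Subalgebra R F} {O1 O2 : ValuationSubring F}

/-- The valuation of `π ^ k * unit` for a valuation ring containing the image of `R`. -/
theorem val_algebraMap_of_eq {O : ValuationSubring F} (hmem : ∀ r : R, algebraMap R F r ∈ O)
    {r : R} {k : ℕ} {v : Rˣ} (hr : r = π ^ k * v) :
    O.valuation (algebraMap R F r) = O.valuation (algebraMap R F π) ^ k := by
  have h1 : O.valuation (algebraMap R F (v : R)) ≤ 1 := (O.valuation_le_one_iff _).mpr (hmem _)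
  have h2 : O.valuation (algebraMap R F ((v⁻¹ : Rˣ) : R)) ≤ 1 :=
    (O.valuation_le_one_iff _).mpr (hmem _)
  have h3 : O.valuation (algebraMap R F (v : R)) * O.valuation (algebraMap R F ((v⁻¹ : Rˣ) : R)) = 1 := by
    rw [← map_mul, ← map_mul, Units.mul_inv, map_one, map_one]
  have h4 : O.valuation (algebraMap R F (v : R)) = 1 := by
    apply le_antisymm h1
    calc (1 : _) = O.valuation (algebraMap R F (v : R)) *
          O.valuation (algebraMap R F ((v⁻¹ : Rˣ) : R)) := h3.symm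
      _ ≤ O.valuation (algebraMap R F (v : R)) * 1 := mul_le_mul' le_rfl h2
      _ = _ := mul_one _
  rw [hr, map_mul, map_pow, map_mul, map_pow, h4, mul_one]

/-- **Constants have equal Gauss valuations** on the two components. -/
theorem const_vals [IsFractionRing R K] (M : Frame (K := K) π B0 B1 O1 O2) {c₀ : K} (hc₀ : c₀ ≠ 0)
    {a1 a2 : ℤ}
    (h1 : O1.valuation (algebraMap K F c₀) = O1.valuation (algebraMap R F π) ^ a1)
    (h2 : O2.valuation (algebraMap K F c₀) = O2.valuation (algebraMap R F π) ^ a2) : a1 = a2 := by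
  obtain ⟨r, s, hs, rfl⟩ := IsFractionRing.div_surjective (A := R) c₀
  have hs0 : algebraMap R K s ≠ 0 := by
    intro h
    rw [h, div_zero] at hc₀
    exact hc₀ rfl
  have hr0 : algebraMap R K r ≠ 0 := by
    intro h
    rw [h, zero_div] at hc₀
    exact hc₀ rfl
  have hr : r ≠ 0 := by
    rintro rfl
    exact hr0 (map_zero _)
  have hs' : s ≠ 0 := by
    rintro rfl
    exact hs0 (map_zero _)
  obtain ⟨k, v, hkv⟩ := M.dvrR r hr
  obtain ⟨k', v', hkv'⟩ := M.dvrR s hs'
  have hc : algebraMap K F (algebraMap R K r / algebraMap R K s) =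
      algebraMap R F r / algebraMap R F s := by
    rw [map_div₀, ← IsScalarTower.algebraMap_apply, ← IsScalarTower.algebraMap_apply]
  have key : ∀ {O : ValuationSubring F}, (∀ r : R, algebraMap R F r ∈ O) →
      O.valuation (algebraMap R F π) ≠ 0 →
      O.valuation (algebraMap K F (algebraMap R K r / algebraMap R K s)) =
        O.valuation (algebraMap R F π) ^ ((k : ℤ) - k') := by
    intro O hmem hne
    rw [hc, map_div₀, val_algebraMap_of_eq hmem hkv, val_algebraMap_of_eq hmem hkv',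
      zpow_sub₀ hne, zpow_natCast, zpow_natCast]
  have e1 := M.unif1.zpow_injective (h1.symm.trans (key M.algebraMap_mem1 M.unif1.val_ne_zero))
  have e2 := M.unif2.zpow_injective (h2.symm.trans (key M.algebraMap_mem2 M.unif2.val_ne_zero))
  rw [e1, e2]

end Const

end Fermat.Agent.M1.NRM.NodeTermAbs58
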