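/-
M1 (S44), chapter NRM, brick NODE-TERM, supplier of `hconst` (helper58).

For a `NodalNumData R K F π t B0 B1 O1 O2` (any base, also the ramified one):

* `mem_of_forall_place` : an element lying in the valuation ring of every place of `F / K` lies in
  every valuation subring of `F` containing `K` (every such ring `≠ ⊤` contains the local ring
  `B_𝔭` of a horizontal prime of one of the two charts, which is a place: `HorizPlace13`);
* `exists_const_of_forall_mem` / `exists_const_of_ord_eq_zero` : **a function with trivial divisor is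
  a constant** (`K` is algebraically closed in `F`: field `algClosed`);
* `const_vals_of` : constants have equal Gauss valuations on `O₁`, `O₂` (no `Frame` needed);
* `hconst_of_numData` : the literal `hconst` of `NodeTermAbs58.hnode_of_rel_one`;
* `hnode_of_rel_numData` : **NODE-TERM for a `NodalNumData` with thick nodes**, relation supplied
  for ONE function `f₀` with `div f₀ = p D`.
-/
import Mathlib
import Fermat.Agent.ES.N34.NumData13
import Fermat.Agent.ES.N34.HorizPlace13
import Fermat.Agent.RED.CORE.Constants18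
import Fermat.Agent.M1.Car.Centre99
import Fermat.Agent.M1.Car.NodeFrame58
import Fermat.Agent.M1.Fib.FrameInst98
import Fermat.Agent.M1.NRM.NodeTermAbs58

set_option autoImplicit false
set_option linter.unusedSectionVars false

namespace Fermat.Agent.M1.NRM.ConstNum58

open AlgebraicCurve Fermat.Agent.ES.N34.NodalCore13 Fermat.Agent.ES.N34.NumData13
  Fermat.Agent.ES.N34.HorizPlace13 Fermat.Agent.M1.Car.Defs43 Fermat.Agent.M1.Node.Thick25
  Fermat.Agent.M1.Mon.WildPL43 Fermat.Agent.M1.Car.Slope43 Fermat.Agent.M1.Car.NodeFrame58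
  Fermat.Agent.M1.NRM.NodeTermAbs58

variable {R K F : Type*} [CommRing R] [Field K] [Field F] [Algebra R K] [Algebra K F]
  [Algebra R F] [IsScalarTower R K F]

/-- One chart: a valuation subring `V ⊇ K`, `V ≠ ⊤`, containing the coordinate `t'` of the chart `B`
contains the valuation ring of some place of `F / K`. -/
theorem exists_place_le {π : R} {t' : F} {B : Subalgebra R F} (ht : t' ∈ B)
    (noethB : IsNoetherianRing B) (fracR : IsFractionRing R K)
    (dvrR : ∀ r : R, r ≠ 0 → ∃ (k : ℕ) (v : Rˣ), r = π ^ k * v)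
    (pi_ne : algebraMap R F π ≠ 0)
    (intcl : ∀ x : F, IsIntegral B x → x ∈ B)
    (int0 : ∀ x ∈ B, IsIntegral (Algebra.adjoin R {t'}) x)
    (frac : ∀ x : F, ∃ a ∈ B, ∃ b ∈ B, b ≠ 0 ∧ x * b = a)
    (V : ValuationSubring F) (hK : ∀ a : K, algebraMap K F a ∈ V) (hV : V ≠ ⊤) (htV : t' ∈ V) :
    ∃ P : Place K F, P.toValuationSubring ≤ V := by
  have hRV : ∀ r : R, algebraMap R F r ∈ V := by
    intro r
    rw [IsScalarTower.algebraMap_apply R K F]
    exact hK _
  have hBV : ∀ b ∈ B, b ∈ V := Fermat.Agent.M1.Car.Centre99.chart_le_of_mem int0 V hRV htV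
  -- the centre of `V` on `B`
  let φ : B →+* V := (B.subtype : B →+* F).codRestrict V.toSubring (fun b => hBV b b.2)
  let 𝔭 : Ideal B := Ideal.comap φ (IsLocalRing.maximalIdeal V)
  have h𝔭 : 𝔭.IsPrime := Ideal.comap_isPrime φ _
  have hmem : ∀ b : B, b ∈ 𝔭 ↔ φ b ∈ IsLocalRing.maximalIdeal V := fun b => Iff.rfl
  have hinv : ∀ b : B, b ∉ 𝔭 → ((b : F))⁻¹ ∈ V := by
    intro b hb
    rw [hmem, IsLocalRing.mem_maximalIdeal, mem_nonunits_iff, not_not] at hb
    obtain ⟨u, hu⟩ := hb.exists_right_inv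
    have h1 : (b : F) * (u : F) = 1 := congrArg Subtype.val hu
    have : ((b : F))⁻¹ = (u : F) := (eq_inv_of_mul_eq_one_right h1).symm
    rw [this]
    exact u.2
  have hπ𝔭 : algebraMap R B π ∉ 𝔭 := by
    intro hmemπ
    rw [hmem, IsLocalRing.mem_maximalIdeal, mem_nonunits_iff] at hmemπ
    apply hmemπ
    have hπinv : (algebraMap R F π)⁻¹ ∈ V := by
      have : (algebraMap R F π)⁻¹ = algebraMap K F (algebraMap R K π)⁻¹ := by
        rw [map_inv₀, ← IsScalarTower.algebraMap_apply]
      rw [this]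
      exact hK _
    refine isUnit_iff_exists_inv.mpr ⟨⟨(algebraMap R F π)⁻¹, hπinv⟩, ?_⟩
    apply Subtype.ext
    show algebraMap R F π * (algebraMap R F π)⁻¹ = 1
    exact mul_inv_cancel₀ pi_ne
  have hne : 𝔭 ≠ ⊥ := by
    intro hbot
    apply hV
    refine SetLike.ext fun x => ⟨fun _ => ValuationSubring.mem_top x, fun _ => ?_⟩
    obtain ⟨a, ha, b, hb, hb0, hab⟩ := frac x
    have hb𝔭 : (⟨b, hb⟩ : B) ∉ 𝔭 := by
      rw [hbot, Ideal.mem_bot]
      intro h0
      exact hb0 (congrArg Subtype.val h0)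
    have hbinv : b⁻¹ ∈ V := hinv ⟨b, hb⟩ hb𝔭
    have hx : x = a * b⁻¹ := by
      rw [← hab, mul_assoc, mul_inv_cancel₀ hb0, mul_one]
    rw [hx]
    exact V.mul_mem _ _ (hBV a ha) hbinv
  obtain ⟨P, hP⟩ := exists_place_of_horizontal (K := K) π t' B ht noethB fracR dvrR pi_ne intcl
    int0 frac 𝔭 hne hπ𝔭
  refine ⟨P, fun x hx => ?_⟩
  obtain ⟨a, s, hs, hxs⟩ := (hP x).mp hx
  have hs0 : (s : F) ≠ 0 := by
    intro h0
    apply hs
    have : s = 0 := Subtype.ext h0
    rw [this]
    exact 𝔭.zero_mem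
  have hx' : x = (a : F) * ((s : F))⁻¹ := by
    rw [← hxs, mul_assoc, mul_inv_cancel₀ hs0, mul_one]
  rw [hx']
  exact V.mul_mem _ _ (hBV a a.2) (hinv s hs)

variable {π : R} {t : F} {B0 B1 : Subalgebra R F} {O1 O2 : ValuationSubring F}

/-- Every valuation subring `V ⊇ K`, `V ≠ ⊤`, of `F` contains the valuation ring of a place. -/
theorem exists_place_le_of_numData (N : NodalNumData R K F π t B0 B1 O1 O2)
    (V : ValuationSubring F) (hK : ∀ a : K, algebraMap K F a ∈ V) (hV : V ≠ ⊤) :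
    ∃ P : Place K F, P.toValuationSubring ≤ V := by
  rcases V.mem_or_inv_mem t with ht | ht
  · exact exists_place_le N.model.t_mem N.noeth0 N.fracR N.dvrR N.model.pi_ne N.model.intcl0
      N.model.int0 N.frac0 V hK hV ht
  · exact exists_place_le N.model.tinv_mem N.noeth1 N.fracR N.dvrR N.model.pi_ne N.model.intcl1
      N.model.int1 N.frac1 V hK hV ht

/-- An element lying in the valuation ring of every place lies in every valuation subring
containing `K`. -/
theorem mem_of_forall_place (N : NodalNumData R K F π t B0 B1 O1 O2) {c : F}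
    (hc : ∀ P : Place K F, c ∈ P.toValuationSubring)
    (V : ValuationSubring F) (hK : ∀ a : K, algebraMap K F a ∈ V) : c ∈ V := by
  by_cases hV : V = ⊤
  · rw [hV]; exact ValuationSubring.mem_top c
  · obtain ⟨P, hP⟩ := exists_place_le_of_numData N V hK hV
    exact hP (hc P)

/-- **A function regular at every place is a constant.** -/
theorem exists_const_of_forall_mem (N : NodalNumData R K F π t B0 B1 O1 O2) {c : F}
    (hc : ∀ P : Place K F, c ∈ P.toValuationSubring) : ∃ c₀ : K, algebraMap K F c₀ = c :=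
  N.algClosed c (Fermat.Agent.RED.CORE.Constants18.isAlgebraic_of_forall_valuationSubring c
    (fun V hK => mem_of_forall_place N hc V hK))

/-- **A function with trivial divisor is a nonzero constant.** -/
theorem exists_const_of_ord_eq_zero (N : NodalNumData R K F π t B0 B1 O1 O2) {c : F}
    (hc0 : c ≠ 0) (hc : ∀ P : Place K F, P.ord c = 0) :
    ∃ c₀ : K, c₀ ≠ 0 ∧ algebraMap K F c₀ = c := by
  obtain ⟨c₀, hc₀⟩ := exists_const_of_forall_mem N (c := c) (fun P =>
    Fermat.Agent.M1.Fib.FrameInst98.mem_place_of_ord_nonneg P hc0 (hc P).ge)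
  refine ⟨c₀, ?_, hc₀⟩
  rintro rfl
  rw [map_zero] at hc₀
  exact hc0 hc₀.symm

/-- Constants have equal Gauss valuations (no `Frame` needed). -/
theorem const_vals_of [IsFractionRing R K] {ϖ : R}
    (hu1 : IsUnifOf O1 (algebraMap R F ϖ)) (hu2 : IsUnifOf O2 (algebraMap R F ϖ))
    (hmem1 : ∀ r : R, algebraMap R F r ∈ O1) (hmem2 : ∀ r : R, algebraMap R F r ∈ O2)
    (dvrR : ∀ r : R, r ≠ 0 → ∃ (k : ℕ) (v : Rˣ), r = ϖ ^ k * v) {c₀ : K} (hc₀ : c₀ ≠ 0)
    {a1 a2 : ℤ}
    (h1 : O1.valuation (algebraMap K F c₀) = O1.valuation (algebraMap R F ϖ) ^ a1)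
    (h2 : O2.valuation (algebraMap K F c₀) = O2.valuation (algebraMap R F ϖ) ^ a2) : a1 = a2 := by
  obtain ⟨r, s, hs, rfl⟩ := IsFractionRing.div_surjective (A := R) c₀
  have hs0 : algebraMap R K s ≠ 0 := by
    intro h
    rw [h, div_zero] at hc₀
    exact hc₀ rfl
  have hr0 : algebraMap R K r ≠ 0 := by
    intro h
    rw [h, zero_div] at hc₀
    exact hc₀ rfl
  have hr : r ≠ 0 := by
    rintro rfl
    exact hr0 (map_zero _)
  have hs' : s ≠ 0 := by
    rintro rfl
    exact hs0 (map_zero _)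
  obtain ⟨k, v, hkv⟩ := dvrR r hr
  obtain ⟨k', v', hkv'⟩ := dvrR s hs'
  have hc : algebraMap K F (algebraMap R K r / algebraMap R K s) =
      algebraMap R F r / algebraMap R F s := by
    rw [map_div₀, ← IsScalarTower.algebraMap_apply, ← IsScalarTower.algebraMap_apply]
  have key : ∀ {O : ValuationSubring F}, (∀ r : R, algebraMap R F r ∈ O) →
      O.valuation (algebraMap R F ϖ) ≠ 0 →
      O.valuation (algebraMap K F (algebraMap R K r / algebraMap R K s)) =
        O.valuation (algebraMap R F ϖ) ^ ((k : ℤ) - k') := by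
    intro O hmem hne
    rw [hc, map_div₀, val_algebraMap_of_eq hmem hkv, val_algebraMap_of_eq hmem hkv',
      zpow_sub₀ hne, zpow_natCast, zpow_natCast]
  have e1 := hu1.zpow_injective (h1.symm.trans (key hmem1 hu1.val_ne_zero))
  have e2 := hu2.zpow_injective (h2.symm.trans (key hmem2 hu2.val_ne_zero))
  rw [e1, e2]

/-- **The literal `hconst` of `NodeTermAbs58.hnode_of_rel_one`** for a `NodalNumData`. -/
theorem hconst_of_numData (N : NodalNumData R K F π t B0 B1 O1 O2) :
    ∀ c : F, c ≠ 0 → (∀ P : Place K F, P.ord c = 0) → ∀ a1 a2 : ℤ,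
      O1.valuation c = O1.valuation (algebraMap R F π) ^ a1 →
      O2.valuation c = O2.valuation (algebraMap R F π) ^ a2 → a1 = a2 := by
  intro c hc0 hc a1 a2 h1 h2
  obtain ⟨c₀, hc₀0, rfl⟩ := exists_const_of_ord_eq_zero N hc0 hc
  have : IsFractionRing R K := N.fracR
  exact const_vals_of (ϖ := π) ⟨N.model.pi_nonunit1, N.model.unif1⟩
    ⟨N.model.pi_nonunit2, N.model.unif2⟩
    (fun r => N.model.le_O1_0 _ (B0.algebraMap_mem r))
    (fun r => N.model.le_O2_0 _ (B0.algebraMap_mem r)) N.dvrR hc₀0 h1 h2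

/-- **NODE-TERM for a `NodalNumData` with thick nodes**: the relation
`(v₂ - v₁)(f₀) * k = (v₂ - v₁)(h) * p`, `p ∤ k`, for ONE function `f₀` with `div f₀ = p D`, where
`D` and `div h` avoid ONE node, gives the literal `hnode` of `FrameAssembly58`. -/
theorem hnode_of_rel_numData (N : NodalNumData R K F π t B0 B1 O1 O2) {e : ℕ}
    (hth : ThickNodes π B0 B1 O1 O2 e)
    {B : Subalgebra R F} {𝔪 : Ideal B} (hs : IsNode π B0 B1 O1 O2 B 𝔪)
    {p : ℕ} (hp : p.Prime) (D : Divisor K F)
    (hD : ∀ P : Place K F, Through B 𝔪 P → D P = 0)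
    {f₀ h : F} {k : ℤ} (hf₀ : f₀ ≠ 0) (hdiv₀ : ∀ P : Place K F, (p • D) P = P.ord f₀)
    (hh0 : h ≠ 0) (hk : ¬ (p : ℤ) ∣ k)
    (hhord : ∀ P : Place K F, Through B 𝔪 P → P.ord h = 0)
    (hr : ∀ a1 a2 b1 b2 : ℤ,
      O1.valuation f₀ = O1.valuation (algebraMap R F π) ^ a1 →
      O2.valuation f₀ = O2.valuation (algebraMap R F π) ^ a2 →
      O1.valuation h = O1.valuation (algebraMap R F π) ^ b1 →
      O2.valuation h = O2.valuation (algebraMap R F π) ^ b2 →
      (a2 - a1) * k = (b2 - b1) * p) :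
    ∀ f : F, f ≠ 0 → (∀ P : Place K F, (p • D) P = P.ord f) →
      O1.valuation f = 1 →
      ∃ b' : ℤ, O2.valuation f = O2.valuation (algebraMap R F π) ^ ((e : ℤ) * p * b') :=
  hnode_of_rel_one (slopeFrame_of_thickNodes N hth) hs hp D hD (hconst_of_numData N) hf₀ hdiv₀ hh0
    hk hhord hr

end Fermat.Agent.M1.NRM.ConstNum58
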