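/-
M1 (S44), chapter NRM, brick CuspSep (helper16): **generic algebra for the cusp separation.**

* `coeffRing A` : Laurent series with all coefficients in a subring `A`;
* `order_aeval_laurentOf`, `leadingCoeff_aeval_laurentOf` : for `τ = q⁻¹ U`, `U(0) = 1`, over a field,
  `P(τ)` has order `-deg P` and leading coefficient `lc P`;
* `leadingCoeff_C_add`, `leadingCoeff_tail`, `leadingCoeff_prod_mem` : leading coefficients of
  products `∏ (C (c - ρ) + y)`, `y` of positive order;
* `mem_of_monic_rel` : `j D(t) = N(t)`, `N` monic, `deg D < deg N`, coefficients in `A`, `j ∈ S`,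
  `S` integrally closed in `F` and containing `A` ⟹ `t ∈ S`;
* `inv_sub_mem_of_rel` : if moreover `D(c) = 0` and `N(c) ∈ Aˣ` then `(t - c)⁻¹ ∈ S`.
-/
import Mathlib
import Fermat.Agent.X0.LevelOneRational

set_option autoImplicit false
set_option linter.unusedSectionVars false
set_option linter.style.haveILetI false

open Polynomial

noncomputable section

namespace Fermat.Agent.M1.NRM.CuspSepAlg16

open Fermat.Agent.X0

/-! ### Laurent series with coefficients in a subring -/

section CoeffRing

variable {K : Type*} [CommRing K]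

/-- Laurent series all of whose coefficients lie in the subring `A`. -/
def coeffRing (A : Subring K) : Subring (LaurentSeries K) where
  carrier := {x | ∀ n, x.coeff n ∈ A}
  mul_mem' := by
    intro x y hx hy n
    rw [HahnSeries.coeff_mul]
    exact Subring.sum_mem _ fun ij _ => A.mul_mem (hx _) (hy _)
  one_mem' := by
    intro n
    rw [HahnSeries.coeff_one]
    split_ifs
    · exact A.one_mem
    · exact A.zero_mem
  add_mem' := by
    intro x y hx hy n
    rw [HahnSeries.coeff_add]
    exact A.add_mem (hx _) (hy _)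
  zero_mem' := fun n => by rw [HahnSeries.coeff_zero]; exact A.zero_mem
  neg_mem' := by
    intro x hx n
    rw [HahnSeries.coeff_neg]
    exact A.neg_mem (hx _)

theorem mem_coeffRing (A : Subring K) (x : LaurentSeries K) :
    x ∈ coeffRing A ↔ ∀ n, x.coeff n ∈ A := Iff.rfl

theorem algebraMap_mem_coeffRing (A : Subring K) {c : K} (hc : c ∈ A) :
    algebraMap K (LaurentSeries K) c ∈ coeffRing A := by
  intro n
  rw [lor_algebraMap_eq_single, HahnSeries.coeff_single]
  split_ifs
  · exact hc
  · exact A.zero_mem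

/-- a polynomial with coefficients in `A` evaluated at a series with coefficients in `A`. -/
theorem aeval_mem_coeffRing (A : Subring K) {x : LaurentSeries K} (hx : x ∈ coeffRing A)
    (P : K[X]) (hP : ∀ i, P.coeff i ∈ A) : aeval x P ∈ coeffRing A := by
  rw [aeval_eq_sum_range]
  refine Subring.sum_mem _ fun i _ => ?_
  rw [Algebra.smul_def]
  exact Subring.mul_mem _ (algebraMap_mem_coeffRing A (hP i)) (Subring.pow_mem _ hx i)

end CoeffRing

/-! ### order and leading coefficient of `P(q⁻¹ U)` -/

section OrderAeval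

variable {K : Type*} [Field K]

theorem coeff_aeval_laurentOf_natDegree (U : PowerSeries K)
    (hU0 : PowerSeries.constantCoeff U = 1) (P : K[X]) :
    (aeval (laurentOf 1 U) P).coeff (-(P.natDegree : ℤ)) = P.leadingCoeff := by
  have h := lor_coeff_aeval 1 one_pos U hU0 P P.natDegree le_rfl
  rw [one_mul] at h
  exact h

theorem coeff_aeval_laurentOf_of_lt (U : PowerSeries K)
    (hU0 : PowerSeries.constantCoeff U = 1) (P : K[X]) {k : ℤ} (hk : k < -(P.natDegree : ℤ)) :
    (aeval (laurentOf 1 U) P).coeff k = 0 := by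
  obtain ⟨m, hm⟩ : ∃ m : ℕ, k = -(m : ℤ) := ⟨(-k).toNat, by omega⟩
  have hlt : P.natDegree < m := by omega
  have h := lor_coeff_aeval 1 one_pos U hU0 P m hlt.le
  rw [one_mul] at h
  rw [hm, h]
  exact coeff_eq_zero_of_natDegree_lt hlt

theorem aeval_laurentOf_ne_zero (U : PowerSeries K)
    (hU0 : PowerSeries.constantCoeff U = 1) {P : K[X]} (hP : P ≠ 0) :
    aeval (laurentOf 1 U) P ≠ 0 := by
  intro h
  have h1 := coeff_aeval_laurentOf_natDegree U hU0 P
  rw [h, HahnSeries.coeff_zero] at h1
  exact hP (leadingCoeff_eq_zero.mp h1.symm)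

theorem order_aeval_laurentOf (U : PowerSeries K)
    (hU0 : PowerSeries.constantCoeff U = 1) {P : K[X]} (hP : P ≠ 0) :
    (aeval (laurentOf 1 U) P).order = -(P.natDegree : ℤ) := by
  have hne := aeval_laurentOf_ne_zero U hU0 hP
  apply le_antisymm
  · apply HahnSeries.order_le_of_coeff_ne_zero
    rw [coeff_aeval_laurentOf_natDegree U hU0 P]
    exact leadingCoeff_ne_zero.mpr hP
  · rw [HahnSeries.le_order_iff_forall hne]
    intro k hk
    exact coeff_aeval_laurentOf_of_lt U hU0 P hk

theorem leadingCoeff_aeval_laurentOf (U : PowerSeries K)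
    (hU0 : PowerSeries.constantCoeff U = 1) {P : K[X]} (hP : P ≠ 0) :
    (aeval (laurentOf 1 U) P).leadingCoeff = P.leadingCoeff := by
  rw [HahnSeries.leadingCoeff_eq, order_aeval_laurentOf U hU0 hP,
    coeff_aeval_laurentOf_natDegree U hU0 P]

/-- **degree and leading coefficient from the expansion at `∞`**: if `J · D(τ) = N(τ)` with
`J = q⁻¹ W`, `τ = q⁻¹ U`, `W(0) = U(0) = 1` and `D` monic, then `N` is monic of degree `deg D + 1`. -/
theorem monic_of_series_rel (U W : PowerSeries K) (hU0 : PowerSeries.constantCoeff U = 1)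
    (hW0 : PowerSeries.constantCoeff W = 1) (N D : K[X]) (hD : D.Monic)
    (hrel : laurentOf 1 W * aeval (laurentOf 1 U) D = aeval (laurentOf 1 U) N) :
    N.Monic ∧ N.natDegree = D.natDegree + 1 := by
  have hD0 : D ≠ 0 := hD.ne_zero
  have hX : aeval (laurentOf 1 W) (X : K[X]) = laurentOf 1 W := aeval_X _
  have hJne : laurentOf 1 W ≠ 0 := by
    rw [← hX]; exact aeval_laurentOf_ne_zero W hW0 X_ne_zero
  have hJord : (laurentOf 1 W).order = -1 := by
    have := order_aeval_laurentOf W hW0 (P := (X : K[X])) X_ne_zero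
    rwa [hX, natDegree_X, Nat.cast_one] at this
  have hJlc : (laurentOf 1 W).leadingCoeff = 1 := by
    have := leadingCoeff_aeval_laurentOf W hW0 (P := (X : K[X])) X_ne_zero
    rwa [hX, leadingCoeff_X] at this
  have hDne := aeval_laurentOf_ne_zero U hU0 hD0
  have hN0 : N ≠ 0 := by
    rintro rfl
    rw [map_zero] at hrel
    exact mul_ne_zero hJne hDne hrel
  have hord := congrArg HahnSeries.order hrel
  rw [HahnSeries.order_mul hJne hDne, hJord, order_aeval_laurentOf U hU0 hD0,
    order_aeval_laurentOf U hU0 hN0] at hord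
  have hlc := congrArg HahnSeries.leadingCoeff hrel
  rw [HahnSeries.leadingCoeff_mul, hJlc, leadingCoeff_aeval_laurentOf U hU0 hD0,
    leadingCoeff_aeval_laurentOf U hU0 hN0, hD.leadingCoeff, one_mul] at hlc
  exact ⟨hlc.symm, by omega⟩

end OrderAeval

/-! ### leading coefficients at a cusp -/

section Leading

variable {K : Type*} [Field K]

theorem orderTop_C_of_ne_zero {r : K} (hr : r ≠ 0) :
    (HahnSeries.C r : LaurentSeries K).orderTop = 0 := by
  have : (HahnSeries.C r : LaurentSeries K) = HahnSeries.single 0 r := rfl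
  rw [this, HahnSeries.orderTop_single hr]
  rfl

theorem leadingCoeff_C (r : K) : (HahnSeries.C r : LaurentSeries K).leadingCoeff = r := by
  have : (HahnSeries.C r : LaurentSeries K) = HahnSeries.single 0 r := rfl
  rw [this, HahnSeries.leadingCoeff_of_single]

/-- `lc (r + y) = r` for a nonzero constant `r` and `y` of positive order. -/
theorem leadingCoeff_C_add {r : K} (hr : r ≠ 0) {y : LaurentSeries K} (hy : 0 < y.orderTop) :
    (HahnSeries.C r + y).leadingCoeff = r := by
  rw [HahnSeries.leadingCoeff_add_eq_left (by rw [orderTop_C_of_ne_zero hr]; exact hy),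
    leadingCoeff_C]

theorem leadingCoeff_ofPowerSeries (V : PowerSeries K) (hV : PowerSeries.constantCoeff V = 1) :
    (HahnSeries.ofPowerSeries ℤ K V).leadingCoeff = 1 ∧
      (HahnSeries.ofPowerSeries ℤ K V).order = 0 := by
  have hc0 : (HahnSeries.ofPowerSeries ℤ K V).coeff 0 = 1 := by
    have := HahnSeries.ofPowerSeries_apply_coeff (Γ := ℤ) V 0
    rw [Nat.cast_zero] at this
    rw [this, PowerSeries.coeff_zero_eq_constantCoeff, hV]
  have h3 : HahnSeries.ofPowerSeries ℤ K V ≠ 0 := by
    intro h
    rw [h] at hc0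
    simp at hc0
  have h3o : (HahnSeries.ofPowerSeries ℤ K V).order = 0 := by
    apply le_antisymm
    · exact HahnSeries.order_le_of_coeff_ne_zero (by rw [hc0]; exact one_ne_zero)
    · by_contra hlt
      rw [not_le] at hlt
      exact h3 (HahnSeries.coeff_order_eq_zero.mp (ModularCurve.ofPowerSeries_coeff_of_neg V hlt))
  exact ⟨by rw [HahnSeries.leadingCoeff_eq, h3o, hc0], h3o⟩

/-- the tail `y = λ q^a V` of a cusp expansion: leading coefficient `λ`, positive order. -/
theorem leadingCoeff_tail (a : ℕ) (ha : 0 < a) (lam : K) (hl : lam ≠ 0) (V : PowerSeries K)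
    (hV : PowerSeries.constantCoeff V = 1) :
    (HahnSeries.C lam * HahnSeries.single (a : ℤ) 1 *
        HahnSeries.ofPowerSeries ℤ K V).leadingCoeff = lam ∧
      0 < (HahnSeries.C lam * HahnSeries.single (a : ℤ) 1 *
        HahnSeries.ofPowerSeries ℤ K V).orderTop := by
  obtain ⟨hlc, hord⟩ := leadingCoeff_ofPowerSeries V hV
  have hVne : HahnSeries.ofPowerSeries ℤ K V ≠ 0 := by
    intro h
    rw [h, HahnSeries.leadingCoeff_zero] at hlc
    exact zero_ne_one hlc
  constructor
  · rw [HahnSeries.leadingCoeff_mul, HahnSeries.leadingCoeff_mul, leadingCoeff_C,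
      HahnSeries.leadingCoeff_of_single, hlc, mul_one, mul_one]
  · rw [HahnSeries.orderTop_mul, HahnSeries.orderTop_mul, orderTop_C_of_ne_zero hl,
      HahnSeries.orderTop_single one_ne_zero, ← HahnSeries.order_eq_orderTop_of_ne_zero hVne, hord,
      zero_add]
    exact_mod_cast ha

/-- **leading coefficient of a product of linear factors at a cusp**: with `φ ρ` the leading
coefficient of `(c - ρ) + y`, the leading coefficient of `∏_ρ ((c - ρ) + y)` is `∏_ρ φ ρ`. -/
theorem leadingCoeff_multiset_prod (c : K) (y : LaurentSeries K) (s : Multiset K) :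
    ((s.map fun ρ => HahnSeries.C (c - ρ) + y).prod).leadingCoeff =
      (s.map fun ρ => (HahnSeries.C (c - ρ) + y).leadingCoeff).prod := by
  induction s using Multiset.induction_on with
  | empty => simp
  | cons a s ih =>
    rw [Multiset.map_cons, Multiset.prod_cons, Multiset.map_cons, Multiset.prod_cons,
      HahnSeries.leadingCoeff_mul, ih]

/-- if no `ρ ∈ s` equals `c`, the leading coefficient of `∏_ρ ((c - ρ) + y)` is `∏ (c - ρ)`. -/
theorem leadingCoeff_multiset_prod_of_ne (c : K) {y : LaurentSeries K} (hy : 0 < y.orderTop)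
    (s : Multiset K) (hs : ∀ ρ ∈ s, ρ ≠ c) :
    ((s.map fun ρ => HahnSeries.C (c - ρ) + y).prod).leadingCoeff = (s.map fun ρ => c - ρ).prod := by
  rw [leadingCoeff_multiset_prod]
  congr 1
  refine Multiset.map_congr rfl fun ρ hρ => ?_
  exact leadingCoeff_C_add (sub_ne_zero.mpr (hs ρ hρ).symm) hy

/-- membership of `∏ φ ρ` in a submonoid containing `lc y` and the `c - ρ`, `ρ ≠ c`. -/
theorem leadingCoeff_multiset_prod_mem (T : Submonoid K) (c : K) {y : LaurentSeries K}
    (hy : 0 < y.orderTop) (hyT : y.leadingCoeff ∈ T) (s : Multiset K)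
    (hs : ∀ ρ ∈ s, ρ ≠ c → c - ρ ∈ T) :
    ((s.map fun ρ => HahnSeries.C (c - ρ) + y).prod).leadingCoeff ∈ T := by
  rw [leadingCoeff_multiset_prod]
  refine Submonoid.multiset_prod_mem _ _ fun x hx => ?_
  obtain ⟨ρ, hρ, rfl⟩ := Multiset.mem_map.mp hx
  by_cases hρc : ρ = c
  · rw [hρc, sub_self, map_zero, zero_add]
    exact hyT
  · rw [leadingCoeff_C_add (sub_ne_zero.mpr (Ne.symm hρc)) hy]
    exact hs ρ hρ hρc

end Leading

/-! ### the final algebra -/

section Final

variable {K F : Type*} [Field K] [Field F] [Algebra K F]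

/-- a polynomial with coefficients in `A` evaluated at `t ∈ S ⊇ A`. -/
theorem aeval_mem_of_coeff_mem (A : Subring K) (S : Subring F)
    (hAS : ∀ c ∈ A, algebraMap K F c ∈ S) {t : F} (ht : t ∈ S) (P : K[X])
    (hP : ∀ i, P.coeff i ∈ A) : aeval t P ∈ S := by
  rw [aeval_eq_sum_range]
  refine S.sum_mem fun i _ => ?_
  rw [Algebra.smul_def]
  exact S.mul_mem (hAS _ (hP i)) (S.pow_mem ht i)

/-- **`t` is integral over `A[j]`**: `j D(t) = N(t)`, `N` monic, `deg D < deg N`. -/
theorem mem_of_monic_rel (A : Subring K) (S : Subring F)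
    (hcl : ∀ f : F, IsIntegral S f → f ∈ S) (hAS : ∀ c ∈ A, algebraMap K F c ∈ S)
    {j t : F} (hj : j ∈ S) (N D : K[X]) (hN : N.Monic) (hdeg : D.natDegree < N.natDegree)
    (hNA : ∀ i, N.coeff i ∈ A) (hDA : ∀ i, D.coeff i ∈ A)
    (hrel : j * aeval t D = aeval t N) : t ∈ S := by
  apply hcl
  set P : F[X] := N.map (algebraMap K F) - C j * D.map (algebraMap K F) with hP
  have hNm : (N.map (algebraMap K F)).Monic := hN.map _
  have hlt : (C j * D.map (algebraMap K F)).degree < (N.map (algebraMap K F)).degree := by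
    apply degree_lt_degree
    calc (C j * D.map (algebraMap K F)).natDegree
        ≤ (D.map (algebraMap K F)).natDegree := natDegree_C_mul_le _ _
      _ ≤ D.natDegree := natDegree_map_le
      _ < N.natDegree := hdeg
      _ = (N.map (algebraMap K F)).natDegree := (hN.natDegree_map _).symm
  have hPm : P.Monic := hNm.sub_of_left hlt
  have hPl : P ∈ lifts S.subtype := by
    rw [lifts_iff_coeff_lifts]
    intro i
    rw [hP, coeff_sub, coeff_C_mul, coeff_map, coeff_map]
    exact ⟨⟨_, S.sub_mem (hAS _ (hNA i)) (S.mul_mem hj (hAS _ (hDA i)))⟩, rfl⟩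
  obtain ⟨q, hq, -, hqm⟩ := lifts_and_natDegree_eq_and_monic hPl hPm
  refine ⟨q, hqm, ?_⟩
  have h1 : eval₂ (algebraMap S F) t q = eval t (q.map S.subtype) := by
    rw [eval_map]; rfl
  rw [h1, hq, hP, eval_sub, eval_mul, eval_C, eval_map, eval_map, ← aeval_def, ← aeval_def, hrel,
    sub_self]

/-- **`(t - c)⁻¹ ∈ S`** when `D(c) = 0` and `N(c)` is a unit of `A`. -/
theorem inv_sub_mem_of_rel (A : Subring K) (S : Subring F)
    (hAS : ∀ c ∈ A, algebraMap K F c ∈ S) {j t : F} (hj : j ∈ S) (ht : t ∈ S) (N D : K[X])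
    (hNA : ∀ i, N.coeff i ∈ A) (hDA : ∀ i, D.coeff i ∈ A)
    (hrel : j * aeval t D = aeval t N) {c : K} (hc : c ∈ A) (hDc : D.eval c = 0)
    {u : K} (hu : u ∈ A) (huN : u * N.eval c = 1) :
    (t - algebraMap K F c)⁻¹ ∈ S := by
  -- lift to `A[X]` and divide by `X - c`
  have hNs : (↑N.coeffs : Set K) ⊆ A := fun x hx => by
    obtain ⟨i, -, rfl⟩ := mem_coeffs_iff.mp hx
    exact hNA i
  have hDs : (↑D.coeffs : Set K) ⊆ A := fun x hx => by
    obtain ⟨i, -, rfl⟩ := mem_coeffs_iff.mp hx
    exact hDA i
  set NA : A[X] := N.toSubring A hNs with hNA'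
  set DA : A[X] := D.toSubring A hDs with hDA'
  have hNmap : NA.map A.subtype = N := map_toSubring N A hNs
  have hDmap : DA.map A.subtype = D := map_toSubring D A hDs
  set cA : A := ⟨c, hc⟩ with hcA
  obtain ⟨QA, hQA⟩ := X_sub_C_dvd_sub_C_eval (a := cA) (p := NA)
  obtain ⟨RA, hRA⟩ := X_sub_C_dvd_sub_C_eval (a := cA) (p := DA)
  have hevN : A.subtype (NA.eval cA) = N.eval c := by
    rw [← hNmap, eval_map]
    exact (eval₂_at_apply A.subtype cA).symm
  have hevD : A.subtype (DA.eval cA) = D.eval c := by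
    rw [← hDmap, eval_map]
    exact (eval₂_at_apply A.subtype cA).symm
  set Q : K[X] := QA.map A.subtype with hQ
  set R : K[X] := RA.map A.subtype with hR
  have hQc : ∀ i, Q.coeff i ∈ A := fun i => by rw [hQ, coeff_map]; exact (QA.coeff i).2
  have hRc : ∀ i, R.coeff i ∈ A := fun i => by rw [hR, coeff_map]; exact (RA.coeff i).2
  have hN1 : N - C (N.eval c) = (X - C c) * Q := by
    have := congrArg (Polynomial.map A.subtype) hQA
    rw [Polynomial.map_sub, Polynomial.map_mul, Polynomial.map_sub, map_X, map_C, map_C, hNmap,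
      hevN] at this
    exact this
  have hD1 : D = (X - C c) * R := by
    have := congrArg (Polynomial.map A.subtype) hRA
    rw [Polynomial.map_sub, Polynomial.map_mul, Polynomial.map_sub, map_X, map_C, map_C, hDmap,
      hevD, hDc, map_zero, sub_zero] at this
    exact this
  have hNt : aeval t N = algebraMap K F (N.eval c) + (t - algebraMap K F c) * aeval t Q := by
    have := congrArg (aeval t) hN1
    rw [map_sub, map_mul, map_sub, aeval_X, aeval_C, aeval_C] at this
    linear_combination this
  have hDt : aeval t D = (t - algebraMap K F c) * aeval t R := by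
    have := congrArg (aeval t) hD1
    rw [map_mul, map_sub, aeval_X, aeval_C] at this
    exact this
  have hQS : aeval t Q ∈ S := aeval_mem_of_coeff_mem A S hAS ht Q hQc
  have hRS : aeval t R ∈ S := aeval_mem_of_coeff_mem A S hAS ht R hRc
  have hu1 : algebraMap K F u * algebraMap K F (N.eval c) = 1 := by
    rw [← map_mul, huN, map_one]
  have hkey : (t - algebraMap K F c) *
      (algebraMap K F u * (j * aeval t R - aeval t Q)) = 1 := by
    rw [hNt, hDt] at hrel
    linear_combination (algebraMap K F u) * hrel + hu1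
  rw [inv_eq_of_mul_eq_one_right hkey]
  exact S.mul_mem (hAS _ hu) (S.sub_mem (S.mul_mem hj hRS) hQS)

end Final

end Fermat.Agent.M1.NRM.CuspSepAlg16
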