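/-
M1 (S44), chapter NRM / SP (helper18): **arithmetic integrality of the modular unit
`u_ℓ = Δ(q^ℓ)/Δ(q)` and of its inverse, over `ℤ[j]`, in every function field `Fbar_N`.**

* `unitPoly ℓ` : one monic `Φ ∈ ℤ[Y][X]` of degree `ℓ + 1` with
  `Φ(j(q) ; ℓ¹² u_ℓ) = 0` and `Φ(j(q^ℓ) ; 1/u_ℓ) = 0` in `ℤ((q))`
  (both outputs of `UnitPoly24.family_core`; `Interface20.P2` keeps only the first).
* `unitPoly_transport` : the same in `K((q))` after `q ↦ q^d`.
* `jdF_mem`, `mem_of_coe_eq_shift` : **closure statements**.  Let `S` be a subring of `Fbar_N` which is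
  integrally closed in `Fbar_N` and contains `j`.  Then `S` contains every `j_d`, `d ∣ N`; and if
  `d ℓ ∣ N`, `ℓ` prime, and `y ∈ Fbar_N` has `q`-expansion `u_ℓ(q^d) = Δ(q^{dℓ})/Δ(q^d)` then
  `ℓ¹² y ∈ S` and `y⁻¹ ∈ S` (so `y ∈ Sˣ` as soon as `ℓ ∈ Sˣ`).

These are the inputs of side preservation (SP b): for the composite valuation ring `S` of a
non-cuspidal place above `p ≠ ℓ` the units `u_ℓ(q)`, `u_ℓ(q^p)` are `S`-units.
-/
import Mathlib
import Fermat.Agent.IG.AN.UnitP2Final24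
import Fermat.Agent.IG.VAL.XdIntegral15
import Fermat.Agent.IG.AN.Main12
import Fermat.Agent.RED.BASE.DeltaMem19

set_option autoImplicit false
set_option linter.unusedSectionVars false
set_option linter.style.haveILetI false

noncomputable section

namespace Fermat.Agent.M1.NRM.UnitPoly18

open Polynomial ModularCurve UpperHalfPlane Fermat.Agent.X0 Fermat.Agent.X0.Analytic
  Fermat.Agent.IG.PR.Interface20 Fermat.Agent.IG.AN.DeltaQuot19 Fermat.Agent.IG.AN.UnitPoly24
  Fermat.Agent.IG.AN.UnitP2Final24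
open scoped MatrixGroups

/-- **the unit polynomial with both roots**: a monic `Φ ∈ ℤ[Y][X]` of degree `p + 1` with
`Φ(j ; p¹² Δ(q^p)/Δ(q)) = 0` and `Φ(j(q^p) ; Δ(q)/Δ(q^p)) = 0`. -/
theorem unitPoly (p : ℕ) [NeZero p] (hp : p.Prime) :
    ∃ Φ : Polynomial (Polynomial ℤ), Φ.Monic ∧ Φ.natDegree = p + 1 ∧
      Φ.eval₂ (evalAt ℤ (jqModC ℤ)) (HahnSeries.C ((p : ℤ) ^ 12) * uq ℤ p) = 0 ∧
      Φ.eval₂ (evalAt ℤ (qExpand ℤ p (jqModC ℤ))) (hq p) = 0 := by
  have hpK : (p : Kbar) ≠ 0 := by exact_mod_cast NeZero.ne p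
  set F0 : ℍ → ℂ := deltaQuot p with hF0def
  have hF0 : F0 ∈ HolH := deltaQuot_mem_HolH p
  have hinv : ∀ γ : SL(2, ℤ), γ ∈ CongruenceSubgroup.Gamma0 p → compSL F0 γ = F0 :=
    deltaQuot_invariant p
  have hexp : ∀ γ : SL(2, ℤ), ∃ T : LaurentSeries Kbar, IntgQN p (compSL F0 γ) (toC T) :=
    exists_expansion p
  have h1 := expansion_one p
  have hS := expansion_S p
  -- the scaled function
  set c : ℂ := (p : ℂ) ^ 12 with hc
  set F : ℍ → ℂ := fun z => c * F0 z with hFdef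
  have hcomp : ∀ γ : SL(2, ℤ), compSL F γ = (fun _ => c) * compSL F0 γ := fun γ => rfl
  have hF : F ∈ HolH := HolH.mul_mem (HolH.algebraMap_mem c) hF0
  have hinvF : ∀ γ ∈ CongruenceSubgroup.Gamma0 p, compSL F γ = F := by
    intro γ hγ
    rw [hcomp, hinv γ hγ]
    rfl
  have hCc : toC (HahnSeries.C ((p : Kbar) ^ 12)) = HahnSeries.C c := by
    rw [toC, HahnSeries.C_apply, coeffMap_single, HahnSeries.C_apply, map_pow, map_natCast]
  have hexpF : ∀ γ : SL(2, ℤ), ∃ T : LaurentSeries Kbar, IntgQN p (compSL F γ) (toC T) := by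
    intro γ
    obtain ⟨T, hT⟩ := hexp γ
    refine ⟨HahnSeries.C ((p : Kbar) ^ 12) * T, ?_⟩
    rw [hcomp, map_mul, hCc]
    exact intg_qn_mul p (intg_qn_const p c) hT
  -- the two series over `ℤ`
  set w : LaurentSeries ℤ := HahnSeries.C ((p : ℤ) ^ 12) * uq ℤ p with hw
  have hcKC : cK (HahnSeries.C ((p : ℤ) ^ 12)) = HahnSeries.C ((p : Kbar) ^ 12) := by
    rw [HahnSeries.C_apply, coeffMap_single, HahnSeries.C_apply]
    congr 1
    simp
  have h1F : IntgQN p F (toC (qExpand Kbar p (cK w))) := by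
    rw [hw, map_mul, map_mul, hcKC, qExpand_C, map_mul, hCc]
    exact intg_qn_mul p (intg_qn_const p c) h1
  have hSF : IntgQN p (compSL F ModularGroup.S) (toC (cK (hq p))) := by
    have := intg_qn_mul p (intg_qn_const p c) hS
    rw [← hCc, ← map_mul, ← mul_assoc, ← map_mul, ← mul_pow, mul_inv_cancel₀ hpK, one_pow,
      map_one, one_mul] at this
    exact this
  exact family_core p hp F hF hinvF hexpF w (hq p) h1F hSF (hq_ne_zero p) (hq_coprime p)
    (Fermat.Agent.IG.AN.SectionKit3.annPoly p _)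
    (Fermat.Agent.IG.AN.SectionKit3.annPoly_monic p _)
    (Fermat.Agent.IG.AN.SectionKit3.annPoly_natDegree p _)
    (Fermat.Agent.IG.AN.SectionKit3.eval_map_annPoly p _)

/-! ### transport to `K((q))`, `q ↦ q^d` -/

open Fermat.Agent.IG.VAL.XdIntegral15 in
/-- the unit polynomial in `K((q))` after `q ↦ q^d`. -/
theorem unitPoly_transport (K : Type*) [CommRing K] (d p : ℕ) [NeZero d] [NeZero p]
    [NeZero (d * p)] (hp : p.Prime) :
    ∃ Φ : Polynomial (Polynomial ℤ), Φ.Monic ∧ Φ.natDegree = p + 1 ∧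
      Φ.eval₂ (evalAt K (qExpand K d (jqModC K)))
        (shiftHom K d (HahnSeries.C ((p : ℤ) ^ 12) * uq ℤ p)) = 0 ∧
      Φ.eval₂ (evalAt K (qExpand K (d * p) (jqModC K))) (shiftHom K d (hq p)) = 0 := by
  obtain ⟨Φ, hm, hdeg, h1, h2⟩ := unitPoly p hp
  refine ⟨Φ, hm, hdeg, ?_, ?_⟩
  · have := congrArg (shiftHom K d) h1
    rwa [Polynomial.hom_eval₂, shiftHom_comp_evalAt, shiftHom_jqModC, map_zero] at this
  · have := congrArg (shiftHom K d) h2
    rwa [Polynomial.hom_eval₂, shiftHom_comp_evalAt, shiftHom_qExpand_jqModC, map_zero] at this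

/-! ### closure statements for integrally closed subrings of a subfield of `ℚbar((q))` -/

section Closure

open Fermat.Agent.IG.VAL.XdIntegral15 Fermat.Agent.RED.BASE.DeltaMem19

local notation "L" => LaurentSeries Kbar

variable {F : Type*} [Field F] [Algebra F L] (S : Subring F)

/-- integrality over `S` can be tested on `q`-expansions. -/
theorem isIntegral_coe_iff (f : F) : IsIntegral S (algebraMap F L f) ↔ IsIntegral S f :=
  isIntegral_algebraMap_iff (algebraMap F L).injective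

variable {S}

theorem isIntegral_of_mem {f : F} (hf : f ∈ S) : IsIntegral S (algebraMap F L f) :=
  (isIntegral_coe_iff S f).mpr (isIntegral_algebraMap (x := (⟨f, hf⟩ : S)))

variable (hS : ∀ f : F, IsIntegral S f → f ∈ S)
include hS

/-- an element of `F` whose `q`-expansion is integral over `S` lies in `S`. -/
theorem mem_of_isIntegral_coe {f : F} (hf : IsIntegral S (algebraMap F L f)) : f ∈ S :=
  hS f ((isIntegral_coe_iff S f).mp hf)

variable {j : F} (hjL : algebraMap F L j = jqModC Kbar) (hj : j ∈ S)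
include hjL hj

theorem isIntegral_jqModC : IsIntegral S (jqModC Kbar) := by
  have := isIntegral_of_mem (S := S) hj
  rwa [hjL] at this

/-- `j(q^d)` is integral over `S`. -/
theorem isIntegral_qExpand_j (d : ℕ) [NeZero d] :
    IsIntegral S (qExpand Kbar d (jqModC Kbar)) :=
  isIntegral_qExpand_jqModC Kbar (isIntegral_jqModC hS hjL hj) d
    (fun r hr _ _ => Fermat.Agent.IG.AN.Main12.p0 r hr) d ‹_› dvd_rfl

/-- **`S` contains every `j_d`**: any `y ∈ F` with `q`-expansion `j(q^d)`. -/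
theorem mem_of_coe_eq_qExpand_j (d : ℕ) [NeZero d] {y : F}
    (hy : algebraMap F L y = qExpand Kbar d (jqModC Kbar)) : y ∈ S :=
  mem_of_isIntegral_coe hS (hy ▸ isIntegral_qExpand_j hS hjL hj d)

/-- `ℓ¹² u_ℓ(q^d)` and `1/u_ℓ(q^d)` are integral over `S`. -/
theorem isIntegral_shift_unit (d ℓ : ℕ) [NeZero d] [NeZero ℓ] [NeZero (d * ℓ)] (hℓ : ℓ.Prime) :
    IsIntegral S (shiftHom Kbar d (HahnSeries.C ((ℓ : ℤ) ^ 12) * uq ℤ ℓ)) ∧
      IsIntegral S (shiftHom Kbar d (hq ℓ)) := by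
  obtain ⟨Φ, hm, -, h1, h2⟩ := unitPoly_transport Kbar d ℓ hℓ
  exact ⟨isIntegral_of_eval₂_eq_zero (isIntegral_qExpand_j hS hjL hj d) Φ hm h1,
    isIntegral_of_eval₂_eq_zero (isIntegral_qExpand_j hS hjL hj (d * ℓ)) Φ hm h2⟩

/-- **the unit `u_ℓ(q^d)`**: if `y ∈ F` has `q`-expansion `Δ(q^{dℓ})/Δ(q^d)` then
`ℓ¹² y ∈ S` and `y⁻¹ ∈ S`. -/
theorem unit_mem (d ℓ : ℕ) [NeZero d] [NeZero ℓ] [NeZero (d * ℓ)] (hℓ : ℓ.Prime)
    {y : F} (hy : algebraMap F L y = qExpand Kbar d (uq Kbar ℓ)) :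
    (ℓ : F) ^ 12 * y ∈ S ∧ y⁻¹ ∈ S := by
  obtain ⟨h1, h2⟩ := isIntegral_shift_unit hS hjL hj d ℓ hℓ
  have huq : shiftHom Kbar d (uq ℤ ℓ) = qExpand Kbar d (uq Kbar ℓ) := by
    rw [shiftHom, RingHom.comp_apply, Fermat.Agent.IG.AN.DeltaQuotExp19.coeffMap_uq]
  have hhq : shiftHom Kbar d (hq ℓ) = qExpand Kbar d (uqInv ℓ Kbar) := by
    have : hq ℓ = uqInv ℓ ℤ := rfl
    rw [this, shiftHom, RingHom.comp_apply, coeffMap_uqInv]
  constructor
  · apply mem_of_isIntegral_coe hS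
    have : algebraMap F L ((ℓ : F) ^ 12 * y) =
        shiftHom Kbar d (HahnSeries.C ((ℓ : ℤ) ^ 12) * uq ℤ ℓ) := by
      rw [map_mul, map_mul, huq, ← hy, map_pow, map_natCast]
      congr 1
      rw [shiftHom, RingHom.comp_apply, HahnSeries.C_apply, coeffMap_single, qExpand_single,
        mul_zero, ← HahnSeries.C_apply]
      simp only [map_pow, map_natCast]
    rw [this]
    exact h1
  · apply mem_of_isIntegral_coe hS
    have hmul : qExpand Kbar d (uqInv ℓ Kbar) * algebraMap F L y = 1 := by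
      rw [hy, ← map_mul, uqInv_mul_uq, map_one]
    have : algebraMap F L y⁻¹ = shiftHom Kbar d (hq ℓ) := by
      rw [hhq, map_inv₀]
      exact (eq_inv_of_mul_eq_one_left hmul).symm
    rw [this]
    exact h2

omit hjL hj in
/-- **symmetry of the modular equation**: if `S` contains an element with `q`-expansion `j(q^ℓ)`
(`ℓ` prime) then it contains every element with `q`-expansion `j`. -/
theorem j_mem_of_qExpand_j_mem (ℓ : ℕ) [NeZero ℓ] (hℓ : ℓ.Prime) {jl : F}
    (hjl : algebraMap F L jl = qExpand Kbar ℓ (jqModC Kbar)) (hjlS : jl ∈ S) {j : F}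
    (hjL : algebraMap F L j = jqModC Kbar) : j ∈ S := by
  apply mem_of_isIntegral_coe hS
  rw [hjL]
  obtain ⟨Φ, hm, -, -, h2⟩ := P0_transport Kbar 1 ℓ (Fermat.Agent.IG.AN.Main12.p0 ℓ hℓ)
  have hx : IsIntegral S (qExpand Kbar (1 * ℓ) (jqModC Kbar)) := by
    rw [qExpand_congr (R := Kbar) (one_mul ℓ), ← hjl]
    exact isIntegral_of_mem hjlS
  have := isIntegral_of_eval₂_eq_zero hx Φ hm h2
  rwa [qExpand_one_apply] at this

end Closure

end Fermat.Agent.M1.NRM.UnitPoly18
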