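/-
M1 (S44), chapter NRM / SP (helper18): **the two sides of a non-cuspidal place of `X₀(M)`, `p ∣ M`,
defined CHART-FREE, and side preservation (SP a), (SP b).**

`A` a valuation ring of `ℚbar` (above `p`), `P` a place of `Fbar_M / ℚbar`, `p ∣ M`,
`u_p = Δ(q^p)/Δ(q) ∈ Fbar_M`, `S_P = sideRing A M P = {f ∈ O_P | f(P) ∈ A}` (`CompRing18.compRing`).

* `NonCusp A M P`        : `j ∈ S_P`              (`j(P) ∈ A`: the point has potentially good reduction);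
* `OrdInf p A M hpM P`   : `j ∈ S_P ∧ u_p ∈ S_Pˣ`    (reduces to the component of the cusp `∞`, off the nodes);
* `OrdZero p A M hpM P`  : `j ∈ S_P ∧ p¹² u_p ∈ S_Pˣ` (the component of the cusp `0`);
* `not_ordInf_and_ordZero` : the sides are disjoint when `p ∈ 𝔪_A`;
* `mem_sideRing_restrictAlong_iff` : `f ∈ S_{Q ∘ φ} ↔ φ f ∈ S_Q` for `φ : Fbar_M →ₐ Fbar_M'`;
* **(SP a)** `nonCusp_levelIncl_iff`, `ordInf_levelIncl_iff`, `ordZero_levelIncl_iff` : along the level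
  inclusion `Fbar_M ⊆ Fbar_M'` (`M ∣ M'`) a place `Q` upstairs has the same side as `Q ∩ Fbar_M`
  (so all conjugates of a place over `Fbar_M` have the same side: sides descend);
* **(SP b)** `nonCusp_alpha_iff_beta`, `ordInf_alpha_iff_beta`, `ordZero_alpha_iff_beta` : for a prime
  `ℓ` with `ℓ ∈ Aˣ` and a place `Q` of `Fbar_{Mℓ}`, the two places `Q ∘ α_ℓ`, `Q ∘ β_ℓ` of `Fbar_M` have
  the same side.  Proof: `j(q^ℓ)` and `j` are integral over each other over `ℤ` (modular equation),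
  and `u_p(q^ℓ)/u_p(q) = u_ℓ(q^p)/u_ℓ(q)` is a quotient of two `S_Q`-units (`UnitPoly18.unit_mem`);
* `heckeDivBar_part_ordInf`, `heckeDivBar_part_ordZero` : hence `T_ℓ (D_∞) = (T_ℓ D)_∞`,
  `T_ℓ (D_0) = (T_ℓ D)_0` on divisors (`D_∞ := part (OrdInf ..) D`).
-/
import Mathlib
import Fermat.Agent.M1.NRM.CompRing18
import Fermat.Agent.M1.NRM.UnitPoly18
import Fermat.Agent.X0.Degree
import Fermat.Agent.X0.CuspExpand
import Fermat.Agent.ES.HECKE.LevelPullback12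

set_option autoImplicit false
set_option linter.unusedSectionVars false
set_option linter.style.haveILetI false
set_option synthInstance.maxHeartbeats 400000

noncomputable section

namespace Fermat.Agent.M1.NRM.Side18

open ModularCurve AlgebraicCurve
open Fermat.Agent.X0 Fermat.Agent.X0.Analytic Fermat.Agent.X0.FF
open Fermat.Agent.M1.NRM.SidePart18 Fermat.Agent.M1.NRM.CompRing18 Fermat.Agent.M1.NRM.UnitPoly18
open Fermat.Agent.IG.PR.Interface20 Fermat.Agent.RED.BASE.DeltaMem19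
open Fermat.Agent.ES.HECKE.LevelPullback12

local notation "L" => LaurentSeries Kbar

/-! ### definitions -/

/-- `j` generates `Fbar_M`. -/
theorem hgen (M : ℕ) [NeZero M] : IsGen Kbar (jF M) :=
  Degree.isGen_jF M (realizeData M) (cuspData M)

variable (A : ValuationSubring Kbar)

/-- **the composite ring of a place of `X₀(M)`**: `{f ∈ O_P | f(P) ∈ A}`. -/
def sideRing (M : ℕ) [NeZero M] (P : Place Kbar (FF M)) : Subring (FF M) :=
  compRing (hgen M) A P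

theorem mem_sideRing_of_isIntegral {M : ℕ} [NeZero M] {P : Place Kbar (FF M)} (f : FF M)
    (hf : IsIntegral (sideRing A M P) f) : f ∈ sideRing A M P :=
  mem_of_isIntegral (hgen M) A P hf

theorem algebraMap_mem_sideRing_iff {M : ℕ} [NeZero M] {P : Place Kbar (FF M)} (c : Kbar) :
    algebraMap Kbar (FF M) c ∈ sideRing A M P ↔ c ∈ A :=
  algebraMap_mem_iff (hgen M) A P c

/-- the modular unit `u_p = Δ(q^p)/Δ(q)` in `Fbar_M`, `p ∣ M`. -/
def uF (p : ℕ) [NeZero p] (M : ℕ) [NeZero M] (hpM : p ∣ M) : FF M :=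
  ⟨uq Kbar p, uq_mem p hpM⟩

@[simp] theorem coe_uF (p : ℕ) [NeZero p] (M : ℕ) [NeZero M] (hpM : p ∣ M) :
    ((uF p M hpM : FF M) : L) = uq Kbar p := rfl

theorem uF_ne_zero (p : ℕ) [NeZero p] (M : ℕ) [NeZero M] (hpM : p ∣ M) : uF p M hpM ≠ 0 := by
  intro h
  have h1 : uqInv p Kbar * uq Kbar p = 1 := uqInv_mul_uq p Kbar
  have h2 : uq Kbar p = 0 := by
    have := congrArg (fun f : FF M => (f : L)) h
    simpa using this
  rw [h2, mul_zero] at h1
  exact zero_ne_one h1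

/-- `j(P) ∈ A`: the place is non-cuspidal with potentially good reduction. -/
def NonCusp (M : ℕ) [NeZero M] (P : Place Kbar (FF M)) : Prop :=
  jF M ∈ sideRing A M P

variable (p : ℕ) [NeZero p]

/-- **side `∞`**: `j(P) ∈ A` and `u_p(P) ∈ Aˣ`. -/
def OrdInf (M : ℕ) [NeZero M] (hpM : p ∣ M) (P : Place Kbar (FF M)) : Prop :=
  jF M ∈ sideRing A M P ∧ uF p M hpM ∈ sideRing A M P ∧ (uF p M hpM)⁻¹ ∈ sideRing A M P

/-- **side `0`**: `j(P) ∈ A` and `(p¹² u_p)(P) ∈ Aˣ`. -/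
def OrdZero (M : ℕ) [NeZero M] (hpM : p ∣ M) (P : Place Kbar (FF M)) : Prop :=
  jF M ∈ sideRing A M P ∧ (p : FF M) ^ 12 * uF p M hpM ∈ sideRing A M P ∧
    ((p : FF M) ^ 12 * uF p M hpM)⁻¹ ∈ sideRing A M P

theorem OrdInf.nonCusp {M : ℕ} [NeZero M] {hpM : p ∣ M} {P : Place Kbar (FF M)}
    (h : OrdInf A p M hpM P) : NonCusp A M P := h.1

theorem OrdZero.nonCusp {M : ℕ} [NeZero M] {hpM : p ∣ M} {P : Place Kbar (FF M)}
    (h : OrdZero A p M hpM P) : NonCusp A M P := h.1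

/-- **the two sides are disjoint** when `p` is a non-unit of `A`. -/
theorem not_ordInf_and_ordZero (hpA : (p : Kbar) ∈ A.nonunits) {M : ℕ} [NeZero M] {hpM : p ∣ M}
    {P : Place Kbar (FF M)} (h1 : OrdInf A p M hpM P) (h2 : OrdZero A p M hpM P) : False := by
  obtain ⟨-, hu, -⟩ := h1
  obtain ⟨-, -, hpu⟩ := h2
  have hu0 := uF_ne_zero p M hpM
  have hp0 : (p : FF M) ≠ 0 := by exact_mod_cast NeZero.ne p
  have hmem : ((p : FF M) ^ 12)⁻¹ ∈ sideRing A M P := by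
    have : ((p : FF M) ^ 12)⁻¹ = ((p : FF M) ^ 12 * uF p M hpM)⁻¹ * uF p M hpM := by
      field_simp
    rw [this]
    exact Subring.mul_mem _ hpu hu
  have hc : ((p : FF M) ^ 12)⁻¹ = algebraMap Kbar (FF M) (((p : Kbar) ^ 12)⁻¹) := by
    rw [map_inv₀, map_pow, map_natCast]
  rw [hc, algebraMap_mem_sideRing_iff] at hmem
  -- `p^12` is a non-unit of `A` whose inverse lies in `A`: contradiction
  have hp12 : (p : Kbar) ^ 12 ∈ A.nonunits := by
    rw [ValuationSubring.mem_nonunits_iff] at hpA ⊢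
    rw [map_pow]
    exact pow_lt_one₀ zero_le hpA (by norm_num)
  rw [ValuationSubring.mem_nonunits_iff] at hp12
  have hge : A.valuation (((p : Kbar) ^ 12)⁻¹) ≤ 1 := (A.valuation_le_one_iff _).mpr hmem
  rw [map_inv₀] at hge
  have hne : A.valuation ((p : Kbar) ^ 12) ≠ 0 := by
    rw [Ne, map_eq_zero]
    exact pow_ne_zero _ (by exact_mod_cast NeZero.ne p)
  have : 1 ≤ A.valuation ((p : Kbar) ^ 12) := by
    rwa [inv_le_one₀ (zero_lt_iff.mpr hne)] at hge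
  exact absurd hp12 (not_lt.mpr this)

/-! ### functoriality -/

/-- `f ∈ S_{Q ∘ φ} ↔ φ f ∈ S_Q`. -/
theorem mem_sideRing_restrictAlong_iff {M M' : ℕ} [NeZero M] [NeZero M']
    (φ : FF M →ₐ[Kbar] FF M') (hφ : φ.toRingHom.IsIntegral) (Q : Place Kbar (FF M')) (f : FF M) :
    f ∈ sideRing A M (restrictAlong φ hφ Q) ↔ φ f ∈ sideRing A M' Q :=
  mem_restrictAlong_iff' (hgen M) (hgen M') A φ hφ Q f

/-! ### (SP a): level inclusions -/

section LevelIncl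

variable {M M' : ℕ} [NeZero M] [NeZero M'] (h : M ∣ M')

theorem levelIncl_jF : levelIncl h (jF M) = jF M' := by
  apply Subtype.ext
  rw [coe_levelIncl, coe_jF, coe_jF]

theorem levelIncl_uF (hpM : p ∣ M) : levelIncl h (uF p M hpM) = uF p M' (hpM.trans h) := by
  apply Subtype.ext
  rw [coe_levelIncl, coe_uF, coe_uF]

/-- **(SP a)** non-cuspidality descends along level inclusions. -/
theorem nonCusp_levelIncl_iff (Q : Place Kbar (FF M')) :
    NonCusp A M (restrictAlong (levelIncl h) (levelIncl_isIntegral h) Q) ↔ NonCusp A M' Q := by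
  unfold NonCusp
  rw [mem_sideRing_restrictAlong_iff, levelIncl_jF]

/-- **(SP a)** the side `∞` descends along level inclusions. -/
theorem ordInf_levelIncl_iff (hpM : p ∣ M) (Q : Place Kbar (FF M')) :
    OrdInf A p M hpM (restrictAlong (levelIncl h) (levelIncl_isIntegral h) Q) ↔
      OrdInf A p M' (hpM.trans h) Q := by
  unfold OrdInf
  rw [mem_sideRing_restrictAlong_iff, mem_sideRing_restrictAlong_iff,
    mem_sideRing_restrictAlong_iff, map_inv₀, levelIncl_jF, levelIncl_uF]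

/-- **(SP a)** the side `0` descends along level inclusions. -/
theorem ordZero_levelIncl_iff (hpM : p ∣ M) (Q : Place Kbar (FF M')) :
    OrdZero A p M hpM (restrictAlong (levelIncl h) (levelIncl_isIntegral h) Q) ↔
      OrdZero A p M' (hpM.trans h) Q := by
  unfold OrdZero
  rw [mem_sideRing_restrictAlong_iff, mem_sideRing_restrictAlong_iff,
    mem_sideRing_restrictAlong_iff, map_inv₀, map_mul, map_pow, map_natCast, levelIncl_jF,
    levelIncl_uF]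

end LevelIncl

/-! ### (SP b): the Hecke correspondence `T_ℓ` -/

section Hecke

variable {M : ℕ} [NeZero M] (ℓ : ℕ) [NeZero ℓ]

/-- the cross relation `u_p(q^ℓ) · u_ℓ(q) = u_ℓ(q^p) · u_p(q)` (both are `Δ(q^{pℓ})/Δ(q)`). -/
theorem uq_cross (R : Type*) [CommRing R] :
    qExpand R ℓ (uq R p) * uq R ℓ = qExpand R p (uq R ℓ) * uq R p := by
  have h1 : ∀ n : ℕ, ∀ _ : NeZero n, qExpand R n (deltaqInv R) * qExpand R n (deltaq R) = 1 := by
    intro n _
    rw [← map_mul, mul_comm, deltaq_mul_deltaqInv, map_one]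
  have hl := h1 ℓ inferInstance
  have hp := h1 p inferInstance
  unfold uq
  rw [map_mul, map_mul, qExpand_qExpand, qExpand_qExpand,
    qExpand_congr (R := R) (mul_comm p ℓ) (deltaq R)]
  calc qExpand R (ℓ * p) (deltaq R) * qExpand R ℓ (deltaqInv R) *
        (qExpand R ℓ (deltaq R) * deltaqInv R)
      = qExpand R (ℓ * p) (deltaq R) * deltaqInv R *
        (qExpand R ℓ (deltaqInv R) * qExpand R ℓ (deltaq R)) := by ring
    _ = qExpand R (ℓ * p) (deltaq R) * deltaqInv R *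
        (qExpand R p (deltaqInv R) * qExpand R p (deltaq R)) := by rw [hl, hp]
    _ = _ := by ring

variable (hα : (heckeAlphaBar Kbar M ℓ).toRingHom.IsIntegral)
  (hβ : (heckeBetaBar Kbar M ℓ).toRingHom.IsIntegral)

theorem coe_alpha_jF :
    algebraMap (FF (M * ℓ)) L (heckeAlphaBar Kbar M ℓ (jF M)) = jqModC Kbar := by
  show ((heckeAlphaBar Kbar M ℓ (jF M) : FF (M * ℓ)) : L) = jqModC Kbar
  rw [coe_heckeAlphaBar, coe_jF, jqK_eq_jqModC]

theorem coe_beta_jF :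
    algebraMap (FF (M * ℓ)) L (heckeBetaBar Kbar M ℓ (jF M)) = qExpand Kbar ℓ (jqModC Kbar) := by
  show ((heckeBetaBar Kbar M ℓ (jF M) : FF (M * ℓ)) : L) = qExpand Kbar ℓ (jqModC Kbar)
  rw [coe_heckeBetaBar, coe_jF, jqK_eq_jqModC]

/-- **(SP b)** for `j`: `Q ∘ α_ℓ` is non-cuspidal iff `Q ∘ β_ℓ` is (modular equation over `ℤ`). -/
theorem nonCusp_alpha_iff_beta (hℓ : ℓ.Prime) (Q : Place Kbar (FF (M * ℓ))) :
    NonCusp A M (restrictAlong (heckeAlphaBar Kbar M ℓ) hα Q) ↔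
      NonCusp A M (restrictAlong (heckeBetaBar Kbar M ℓ) hβ Q) := by
  unfold NonCusp
  rw [mem_sideRing_restrictAlong_iff, mem_sideRing_restrictAlong_iff]
  constructor
  · intro hj
    exact mem_of_coe_eq_qExpand_j (fun f hf => mem_sideRing_of_isIntegral A f hf)
      (coe_alpha_jF ℓ) hj ℓ (coe_beta_jF ℓ)
  · intro hjl
    exact j_mem_of_qExpand_j_mem (fun f hf => mem_sideRing_of_isIntegral A f hf) ℓ hℓ
      (coe_beta_jF ℓ) hjl (coe_alpha_jF ℓ)

/-- the element `u_ℓ ∈ Fbar_{Mℓ}`. -/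
def ulF : FF (M * ℓ) := uF ℓ (M * ℓ) (dvd_mul_left ℓ M)

/-- the element `u_ℓ(q^p) ∈ Fbar_{Mℓ}` (`p ∣ M`), as the quotient `u_p(q^ℓ) u_ℓ(q) / u_p(q)`. -/
def ulpF (hpM : p ∣ M) : FF (M * ℓ) :=
  heckeBetaBar Kbar M ℓ (uF p M hpM) * ulF (M := M) ℓ / heckeAlphaBar Kbar M ℓ (uF p M hpM)

theorem coe_ulpF (hpM : p ∣ M) :
    ((ulpF p ℓ hpM : FF (M * ℓ)) : L) = qExpand Kbar p (uq Kbar ℓ) := by
  have h0 : ((heckeAlphaBar Kbar M ℓ (uF p M hpM) : FF (M * ℓ)) : L) ≠ 0 := by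
    intro h
    have : heckeAlphaBar Kbar M ℓ (uF p M hpM) = 0 := Subtype.ext h
    rw [map_eq_zero] at this
    exact uF_ne_zero p M hpM this
  have : ((ulpF p ℓ hpM : FF (M * ℓ)) : L) =
      ((heckeBetaBar Kbar M ℓ (uF p M hpM) : FF (M * ℓ)) : L) * ((ulF (M := M) ℓ : FF (M * ℓ)) : L) /
        ((heckeAlphaBar Kbar M ℓ (uF p M hpM) : FF (M * ℓ)) : L) := rfl
  rw [this, div_eq_iff h0, coe_heckeBetaBar, coe_heckeAlphaBar, coe_uF]
  exact uq_cross p ℓ Kbar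

/-- **unit lemma**: if `j ∈ S_Q` and `ℓ ∈ Aˣ` then `u_p(q^ℓ)/u_p(q)` is a unit of `S_Q`. -/
theorem beta_div_alpha_unit (hℓ : ℓ.Prime) (hℓA : ((ℓ : Kbar))⁻¹ ∈ A) (hpM : p ∣ M)
    (Q : Place Kbar (FF (M * ℓ))) (hj : jF (M * ℓ) ∈ sideRing A (M * ℓ) Q) :
    heckeBetaBar Kbar M ℓ (uF p M hpM) / heckeAlphaBar Kbar M ℓ (uF p M hpM) ∈
        sideRing A (M * ℓ) Q ∧
      heckeAlphaBar Kbar M ℓ (uF p M hpM) / heckeBetaBar Kbar M ℓ (uF p M hpM) ∈
        sideRing A (M * ℓ) Q := by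
  set S := sideRing A (M * ℓ) Q with hS
  have hcl : ∀ f : FF (M * ℓ), IsIntegral S f → f ∈ S := fun f hf =>
    mem_sideRing_of_isIntegral A f hf
  have hjL : algebraMap (FF (M * ℓ)) L (jF (M * ℓ)) = jqModC Kbar := by
    show ((jF (M * ℓ) : FF (M * ℓ)) : L) = _
    rw [coe_jF, jqK_eq_jqModC]
  -- `ℓ⁻¹²  ∈ S`
  have hlinv : ((ℓ : FF (M * ℓ)) ^ 12)⁻¹ ∈ S := by
    have hc : ((ℓ : FF (M * ℓ)) ^ 12)⁻¹ = algebraMap Kbar (FF (M * ℓ)) (((ℓ : Kbar))⁻¹ ^ 12) := by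
      rw [map_pow, map_inv₀, map_natCast, inv_pow]
    rw [hc, hS, algebraMap_mem_sideRing_iff]
    exact pow_mem hℓA 12
  have hl0 : (ℓ : FF (M * ℓ)) ^ 12 ≠ 0 := pow_ne_zero _ (by exact_mod_cast NeZero.ne ℓ)
  -- `Y₁ = u_ℓ(q)`, `Y₂ = u_ℓ(q^p)`
  have hY1 : algebraMap (FF (M * ℓ)) L (ulF (M := M) ℓ) = qExpand Kbar 1 (uq Kbar ℓ) := by
    rw [qExpand_one_apply]; rfl
  obtain ⟨h1a, h1b⟩ := unit_mem hcl hjL hj 1 ℓ hℓ hY1
  have hY2 : algebraMap (FF (M * ℓ)) L (ulpF p ℓ hpM) = qExpand Kbar p (uq Kbar ℓ) :=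
    coe_ulpF p ℓ hpM
  obtain ⟨h2a, h2b⟩ := unit_mem hcl hjL hj p ℓ hℓ hY2
  have hY1S : ulF (M := M) ℓ ∈ S := by
    rw [← inv_mul_cancel_left₀ hl0 (ulF (M := M) ℓ)]
    exact Subring.mul_mem _ hlinv h1a
  have hY2S : ulpF p ℓ hpM ∈ S := by
    rw [← inv_mul_cancel_left₀ hl0 (ulpF p ℓ hpM)]
    exact Subring.mul_mem _ hlinv h2a
  have hu1 : ulF (M := M) ℓ ≠ 0 := uF_ne_zero ℓ (M * ℓ) _
  have ha0 : heckeAlphaBar Kbar M ℓ (uF p M hpM) ≠ 0 :=
    (map_ne_zero _).mpr (uF_ne_zero p M hpM)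
  have hb0 : heckeBetaBar Kbar M ℓ (uF p M hpM) ≠ 0 :=
    (map_ne_zero _).mpr (uF_ne_zero p M hpM)
  constructor
  · have : heckeBetaBar Kbar M ℓ (uF p M hpM) / heckeAlphaBar Kbar M ℓ (uF p M hpM) =
        ulpF p ℓ hpM * (ulF (M := M) ℓ)⁻¹ := by
      unfold ulpF; field_simp
    rw [this]; exact Subring.mul_mem _ hY2S h1b
  · have : heckeAlphaBar Kbar M ℓ (uF p M hpM) / heckeBetaBar Kbar M ℓ (uF p M hpM) =
        ulF (M := M) ℓ * (ulpF p ℓ hpM)⁻¹ := by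
      unfold ulpF; field_simp
    rw [this]; exact Subring.mul_mem _ hY1S h2b

/-- **(SP b)** side `∞`: the places `Q ∘ α_ℓ`, `Q ∘ β_ℓ` are on the side `∞` simultaneously. -/
theorem ordInf_alpha_iff_beta (hℓ : ℓ.Prime) (hℓA : ((ℓ : Kbar))⁻¹ ∈ A) (hpM : p ∣ M)
    (Q : Place Kbar (FF (M * ℓ))) :
    OrdInf A p M hpM (restrictAlong (heckeAlphaBar Kbar M ℓ) hα Q) ↔
      OrdInf A p M hpM (restrictAlong (heckeBetaBar Kbar M ℓ) hβ Q) := by
  have hnc := nonCusp_alpha_iff_beta A ℓ hα hβ hℓ Q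
  unfold NonCusp at hnc
  unfold OrdInf
  simp only [mem_sideRing_restrictAlong_iff, map_inv₀] at hnc ⊢
  set S := sideRing A (M * ℓ) Q
  set a := heckeAlphaBar Kbar M ℓ (uF p M hpM) with ha
  set b := heckeBetaBar Kbar M ℓ (uF p M hpM) with hb
  have ha0 : a ≠ 0 := (map_ne_zero _).mpr (uF_ne_zero p M hpM)
  have hb0 : b ≠ 0 := (map_ne_zero _).mpr (uF_ne_zero p M hpM)
  constructor
  · rintro ⟨hj, hu, hui⟩
    have hjS : jF (M * ℓ) ∈ S := by
      have : heckeAlphaBar Kbar M ℓ (jF M) = jF (M * ℓ) := by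
        apply Subtype.ext; rw [coe_heckeAlphaBar, coe_jF, coe_jF]
      rwa [this] at hj
    obtain ⟨h1, h2⟩ := beta_div_alpha_unit A p ℓ hℓ hℓA hpM Q hjS
    refine ⟨hnc.mp hj, ?_, ?_⟩
    · have : b = b / a * a := by field_simp
      rw [this]; exact Subring.mul_mem _ h1 hu
    · have : b⁻¹ = a / b * a⁻¹ := by field_simp
      rw [this]; exact Subring.mul_mem _ h2 hui
  · rintro ⟨hj, hu, hui⟩
    have hj' := hnc.mpr hj
    have hjS : jF (M * ℓ) ∈ S := by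
      have : heckeAlphaBar Kbar M ℓ (jF M) = jF (M * ℓ) := by
        apply Subtype.ext; rw [coe_heckeAlphaBar, coe_jF, coe_jF]
      rwa [this] at hj'
    obtain ⟨h1, h2⟩ := beta_div_alpha_unit A p ℓ hℓ hℓA hpM Q hjS
    refine ⟨hj', ?_, ?_⟩
    · have : a = a / b * b := by field_simp
      rw [this]; exact Subring.mul_mem _ h2 hu
    · have : a⁻¹ = b / a * b⁻¹ := by field_simp
      rw [this]; exact Subring.mul_mem _ h1 hui

/-- **(SP b)** side `0`. -/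
theorem ordZero_alpha_iff_beta (hℓ : ℓ.Prime) (hℓA : ((ℓ : Kbar))⁻¹ ∈ A) (hpM : p ∣ M)
    (Q : Place Kbar (FF (M * ℓ))) :
    OrdZero A p M hpM (restrictAlong (heckeAlphaBar Kbar M ℓ) hα Q) ↔
      OrdZero A p M hpM (restrictAlong (heckeBetaBar Kbar M ℓ) hβ Q) := by
  have hnc := nonCusp_alpha_iff_beta A ℓ hα hβ hℓ Q
  unfold NonCusp at hnc
  unfold OrdZero
  simp only [mem_sideRing_restrictAlong_iff, map_inv₀, map_mul, map_pow, map_natCast] at hnc ⊢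
  set S := sideRing A (M * ℓ) Q
  set a := heckeAlphaBar Kbar M ℓ (uF p M hpM) with ha
  set b := heckeBetaBar Kbar M ℓ (uF p M hpM) with hb
  set c : FF (M * ℓ) := (p : FF (M * ℓ)) ^ 12 with hc
  have ha0 : a ≠ 0 := (map_ne_zero _).mpr (uF_ne_zero p M hpM)
  have hb0 : b ≠ 0 := (map_ne_zero _).mpr (uF_ne_zero p M hpM)
  have hc0 : c ≠ 0 := pow_ne_zero _ (by exact_mod_cast NeZero.ne p)
  constructor
  · rintro ⟨hj, hu, hui⟩
    have hjS : jF (M * ℓ) ∈ S := by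
      have : heckeAlphaBar Kbar M ℓ (jF M) = jF (M * ℓ) := by
        apply Subtype.ext; rw [coe_heckeAlphaBar, coe_jF, coe_jF]
      rwa [this] at hj
    obtain ⟨h1, h2⟩ := beta_div_alpha_unit A p ℓ hℓ hℓA hpM Q hjS
    refine ⟨hnc.mp hj, ?_, ?_⟩
    · have : c * b = b / a * (c * a) := by field_simp
      rw [this]; exact Subring.mul_mem _ h1 hu
    · have : (c * b)⁻¹ = a / b * (c * a)⁻¹ := by field_simp
      rw [this]; exact Subring.mul_mem _ h2 hui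
  · rintro ⟨hj, hu, hui⟩
    have hj' := hnc.mpr hj
    have hjS : jF (M * ℓ) ∈ S := by
      have : heckeAlphaBar Kbar M ℓ (jF M) = jF (M * ℓ) := by
        apply Subtype.ext; rw [coe_heckeAlphaBar, coe_jF, coe_jF]
      rwa [this] at hj'
    obtain ⟨h1, h2⟩ := beta_div_alpha_unit A p ℓ hℓ hℓA hpM Q hjS
    refine ⟨hj', ?_, ?_⟩
    · have : c * a = a / b * (c * b) := by field_simp
      rw [this]; exact Subring.mul_mem _ h2 hu
    · have : (c * a)⁻¹ = b / a * (c * b)⁻¹ := by field_simp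
      rw [this]; exact Subring.mul_mem _ h1 hui

/-! ### divisor level: `T_ℓ` commutes with taking the `∞`-part and the `0`-part -/

variable [HasPrincipalDivisors Kbar (FF (M * ℓ))]

/-- **`T_ℓ (D_∞) = (T_ℓ D)_∞`.** -/
theorem heckeDivBar_part_ordInf (hℓ : ℓ.Prime) (hℓA : ((ℓ : Kbar))⁻¹ ∈ A) (hpM : p ∣ M)
    (D : Divisor Kbar (FF M)) :
    heckeDivBar (N := M) (ℓ := ℓ) hα hβ (part (OrdInf A p M hpM) D) =
      part (OrdInf A p M hpM) (heckeDivBar (N := M) (ℓ := ℓ) hα hβ D) :=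
  correspondence_part (heckeBetaBar Kbar M ℓ) (heckeAlphaBar Kbar M ℓ) hβ hα _
    (fun Q => (ordInf_alpha_iff_beta A p ℓ hα hβ hℓ hℓA hpM Q).symm) D

/-- **`T_ℓ (D_0) = (T_ℓ D)_0`.** -/
theorem heckeDivBar_part_ordZero (hℓ : ℓ.Prime) (hℓA : ((ℓ : Kbar))⁻¹ ∈ A) (hpM : p ∣ M)
    (D : Divisor Kbar (FF M)) :
    heckeDivBar (N := M) (ℓ := ℓ) hα hβ (part (OrdZero A p M hpM) D) =
      part (OrdZero A p M hpM) (heckeDivBar (N := M) (ℓ := ℓ) hα hβ D) :=
  correspondence_part (heckeBetaBar Kbar M ℓ) (heckeAlphaBar Kbar M ℓ) hβ hα _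
    (fun Q => (ordZero_alpha_iff_beta A p ℓ hα hβ hℓ hℓA hpM Q).symm) D

end Hecke

end Fermat.Agent.M1.NRM.Side18
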