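/-
M1 (S44), chapter NRM, brick CuspSep (helper16): **cusp separation modulo `𝔪_A`.**

`(n, e) = (4, 8)` or `(9, 3)`, `t = tK n e` the Hauptmodul of `X₀(n)`, `n ∣ M`, `A` a valuation ring
of `ℚbar` with `n ∈ Aˣ`, `P` a place of `Fbar_M` with `j(P) ∈ A` (`Side18.NonCusp A M P`),
`S_P = Side18.sideRing A M P`.  Then

* `tF_mem_sideRing` : `t ∈ S_P` (`t(P) ∈ A`);
* `inv_sub_cuspValue_mem_sideRing` : `(t - c)⁻¹ ∈ S_P` for EVERY finite cusp value `c` of `t` at
  level `M` (`t(P) - c ∈ Aˣ`: the point `P` does not meet the cusp `c` modulo `𝔪_A`);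
* `core` : the underlying algebra package `j = N(t)/D(t)` with `N, D ∈ A[X]` monic,
  `deg D < deg N`, `D(c) = 0` and `N(c) ∈ Aˣ` at every finite cusp value `c`.

Proof.  `j = N(t)/D(t)` with `N, D` coprime, `D` monic (`TGenBase`).  (1) every root of `D` is a
finite cusp value (a zero of `t - ρ` exists, it is a pole of `j`, hence a cusp place, and the cusp
shape identifies `ρ`); cusp values are integral away from `n`, so `D ∈ A[X]`.  (2) the expansion
at `∞` (`t = q⁻¹(1 + …) ∈ ℤ((q))`, `j ∈ ℤ((q))`) gives `N ∈ A[X]`, monic of degree `deg D + 1`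
(`LevelOneRational.lor_coeff_mem_of_aeval_mem`).  (3) at a cusp `γ` of value `c` compare the leading
coefficients of `T_γ(j) · T_γ(D(t)) = T_γ(N(t))`: `N(c) = λ^m ∏_{ρ ≠ c} (c - ρ)` with `λ` a unit
away from `n` and `c - ρ` units away from `n` (`CuspSeparated`).  (4) `N(T) - j D(T)` is monic, so
`t` is integral over `A[j]`; dividing by `T - c` gives `(t - c)⁻¹` explicitly.
-/
import Mathlib
import Fermat.Agent.M1.NRM.Side18
import Fermat.Agent.M1.NRM.CuspSepAlg16
import Fermat.Agent.ES.P36.JDenom16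
import Fermat.Agent.RED.BASE.MainCusp12
import Fermat.Agent.RED.CUSP.CuspFibre14
import Fermat.Agent.RR.LHypGen
import Fermat.Agent.X0.CuspGen

set_option autoImplicit false
set_option linter.unusedSectionVars false
set_option linter.style.haveILetI false
set_option synthInstance.maxHeartbeats 400000

open ModularCurve AlgebraicCurve Polynomial
open scoped MatrixGroups IntermediateField

noncomputable section

namespace Fermat.Agent.M1.NRM.CuspSep16

open Fermat.Agent.X0 Fermat.Agent.X0.FF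
open Fermat.Agent.RED.BASE.Interface12 Fermat.Agent.RED.BASE.Hauptmodul12
open Fermat.Agent.RED.BASE.EtaQuot12 Fermat.Agent.RED.BASE.Main12
open Fermat.Agent.RED.BASE.MainCusp12
open Fermat.Agent.RED.CUSP.CuspExact16 Fermat.Agent.RED.CUSP.CuspFibre14
open Fermat.Agent.ES.P36.JDenom16
open Fermat.Agent.M1.NRM.Side18 Fermat.Agent.M1.NRM.CuspSepAlg16

local notation "L" => LaurentSeries Kbar

/-! ### generic function field facts -/

section Generic

variable {K F : Type*} [Field K] [Field F] [Algebra K F] [IsAlgClosed K] [CharZero K] {u : F}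

/-- every value of a generator is taken at some place. -/
theorem exists_place_ord_sub_pos (hu : IsGen K u) (c : K) :
    ∃ P : Place K F, 0 < P.ord (u - algebraMap K F c) := by
  have H := Fermat.Agent.RR.LHypGen.lHyp_of_isGen hu
  by_contra hcon
  push Not at hcon
  have hne : u - algebraMap K F c ≠ 0 := hu.sub_algebraMap_ne_zero c
  obtain ⟨a, ha⟩ := Fermat.Agent.RR.LSpace.eq_algebraMap_of_forall_ord_nonneg H
    (f := (u - algebraMap K F c)⁻¹) (fun v => by
      rw [v.ord_inv]
      have := hcon v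
      omega)
  apply hu.transcendental
  have hu' : u = algebraMap K F (a⁻¹ + c) := by
    have h1 : u - algebraMap K F c = (algebraMap K F a)⁻¹ := by
      rw [← ha, inv_inv]
    rw [map_add, map_inv₀, ← h1]
    ring
  rw [hu']
  exact isAlgebraic_algebraMap _

end Generic

section Frac

variable {k E : Type*} [Field k] [Field E] [Algebra k E]

/-- an element of `k(x)` is a fraction `N(x)/D(x)` with `N, D` coprime and `D` monic. -/
theorem exists_monic_coprime_frac {x y : E} (hy0 : y ≠ 0) (hy : y ∈ k⟮x⟯) :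
    ∃ N D : k[X], D.Monic ∧ IsCoprime N D ∧ y * aeval x D = aeval x N := by
  classical
  obtain ⟨r, s, hrs⟩ := (IntermediateField.mem_adjoin_simple_iff k y).mp hy
  have hs0 : aeval x s ≠ 0 := by
    intro h0
    rw [h0, div_zero] at hrs
    exact hy0 hrs
  have hs : s ≠ 0 := by rintro rfl; simp at hs0
  set g := EuclideanDomain.gcd r s with hg
  obtain ⟨r', hr'⟩ := EuclideanDomain.gcd_dvd_left r s
  obtain ⟨s', hs'⟩ := EuclideanDomain.gcd_dvd_right r s
  have hg0 : g ≠ 0 := by
    intro h0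
    rw [← hg, h0, zero_mul] at hs'
    exact hs hs'
  have hbez : r' * EuclideanDomain.gcdA r s + s' * EuclideanDomain.gcdB r s = 1 := by
    have h1 := EuclideanDomain.gcd_eq_gcd_ab r s
    rw [← hg] at h1 hr' hs'
    have h2 : g * (r' * EuclideanDomain.gcdA r s + s' * EuclideanDomain.gcdB r s) = g * 1 := by
      rw [mul_one]
      calc g * (r' * EuclideanDomain.gcdA r s + s' * EuclideanDomain.gcdB r s)
          = (g * r') * EuclideanDomain.gcdA r s + (g * s') * EuclideanDomain.gcdB r s := by ring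
        _ = g := by rw [← hr', ← hs']; exact h1.symm
    exact mul_left_cancel₀ hg0 h2
  have hcop : IsCoprime r' s' := ⟨EuclideanDomain.gcdA r s, EuclideanDomain.gcdB r s, by
    rw [mul_comm _ r', mul_comm _ s']; exact hbez⟩
  have hs'0 : s' ≠ 0 := by
    rintro rfl
    rw [mul_zero] at hs'
    exact hs hs'
  have hrel : y * aeval x s' = aeval x r' := by
    rw [← hg] at hr' hs'
    have hgx : aeval x g ≠ 0 := by
      intro h0
      apply hs0
      rw [hs', map_mul, h0, zero_mul]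
    have hsx : aeval x s' ≠ 0 := by
      intro h0
      apply hs0
      rw [hs', map_mul, h0, mul_zero]
    rw [hrs, hr', hs', map_mul, map_mul]
    field_simp
  have hlc : s'.leadingCoeff ≠ 0 := leadingCoeff_ne_zero.mpr hs'0
  have hu : IsUnit (C s'.leadingCoeff⁻¹ : k[X]) := isUnit_C.mpr (IsUnit.mk0 _ (inv_ne_zero hlc))
  refine ⟨r' * C s'.leadingCoeff⁻¹, s' * C s'.leadingCoeff⁻¹, monic_mul_leadingCoeff_inv hs'0,
    (isCoprime_mul_unit_right_left hu _ _).mpr ((isCoprime_mul_unit_right_right hu _ _).mpr hcop),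
    ?_⟩
  rw [map_mul, map_mul, ← mul_assoc, hrel]

end Frac

/-! ### the fraction `j = N(t)/D(t)` -/

section Level

variable {n e : ℕ} [NeZero n]

/-- **`j = N(t)/D(t)`**, `N, D` coprime, `D` monic; series form. -/
theorem exists_frac_series (hb : BaseHyp n e) :
    ∃ N D : Kbar[X], D.Monic ∧ IsCoprime N D ∧ jqK * aeval (tK n e) D = aeval (tK n e) N := by
  obtain ⟨h, htop⟩ := (baseExports hb n dvd_rfl).genBase
  have hj : jF n ∈ Kbar⟮tF n h⟯ := by rw [htop]; exact IntermediateField.mem_top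
  have hj0 : jF n ≠ 0 := (CuspGood.good (cuspData n)).jF_ne_zero
  obtain ⟨N, D, hD, hcop, hrel⟩ := exists_monic_coprime_frac hj0 hj
  refine ⟨N, D, hD, hcop, ?_⟩
  have hcoe : ∀ p : Kbar[X], ((aeval (tF n h) p : FF n) : L) = aeval (tK n e) p :=
    fun p => (Polynomial.aeval_algHom_apply (modularFunctionFieldBar n).val (tF n h) p).symm
  have hmul : ((jF n * aeval (tF n h) D : FF n) : L) =
      ((jF n : FF n) : L) * ((aeval (tF n h) D : FF n) : L) := rfl
  have h1 : ((jF n * aeval (tF n h) D : FF n) : L) = ((aeval (tF n h) N : FF n) : L) :=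
    congrArg Subtype.val hrel
  rw [hmul, hcoe, hcoe, coe_jF] at h1
  exact h1

/-- the relation at any level `M` at which `t` is defined. -/
theorem rel_level {M : ℕ} [NeZero M] (h : TMem n e M) (N D : Kbar[X])
    (hser : jqK * aeval (tK n e) D = aeval (tK n e) N) :
    jF M * aeval (tF M h) D = aeval (tF M h) N := by
  apply Subtype.ext
  have hcoe : ∀ p : Kbar[X], ((aeval (tF M h) p : FF M) : L) = aeval (tK n e) p :=
    fun p => (Polynomial.aeval_algHom_apply (modularFunctionFieldBar M).val (tF M h) p).symm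
  have hmul : ((jF M * aeval (tF M h) D : FF M) : L) =
      ((jF M : FF M) : L) * ((aeval (tF M h) D : FF M) : L) := rfl
  rw [hmul, hcoe, hcoe, coe_jF]
  exact hser

/-! ### (1) the roots of `D` are finite cusp values -/

/-- a place over `j = ∞` is a cusp place. -/
theorem exists_placeOf_eq {M : ℕ} [NeZero M] (v : Place Kbar (FF M)) (hj : v.ord (jF M) < 0) :
    ∃ γ : SL(2, ℤ), placeOf M γ = v := by
  have := Degree.finiteDimensional_adjoin M (realizeData M) (cuspData M)
  obtain ⟨g, hg⟩ := CuspSurj.exists_cuspPlace_eq (CuspGood.good (cuspData M))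
    (Degree.card_eq_finrank_adjoin M (realizeData M) (cuspData M)) v hj
  exact ⟨g⁻¹, by rw [placeOf, inv_inv]; exact hg⟩

/-- **every root of the denominator is a finite cusp value.** -/
theorem exists_cusp_of_root (hb : BaseHyp n e) {M : ℕ} [NeZero M] (hnM : n ∣ M)
    {cv : SL(2, ℤ) → Option Kbar} (hcv : CuspExp n e M cv) (h : TMem n e M) (N D : Kbar[X])
    (hD0 : D ≠ 0) (hcop : IsCoprime N D)
    (hrel : jF M * aeval (tF M h) D = aeval (tF M h) N) (ρ : Kbar) (hρ : D.eval ρ = 0) :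
    ∃ γ : SL(2, ℤ), cv γ = some ρ := by
  obtain ⟨h', hgen⟩ := (baseExports hb M hnM).isGen
  have hgen' : IsGen Kbar (tF M h) := hgen
  obtain ⟨v, hv⟩ := exists_place_ord_sub_pos hgen' ρ
  -- `t` is finite at `v`
  have hxc : tF M h - algebraMap Kbar (FF M) ρ ∈ v.toValuationSubring :=
    (ffp_mem_iff_ord_nonneg v).mpr hv.le
  have hxm : tF M h ∈ v.toValuationSubring := by
    have := add_mem hxc (v.algebraMap_mem' ρ)
    rwa [sub_add_cancel] at this
  -- `D(t)` vanishes at `v`
  obtain ⟨Q, hQ⟩ := dvd_iff_isRoot.mpr hρ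
  have hDt : aeval (tF M h) D = (tF M h - algebraMap Kbar (FF M) ρ) * aeval (tF M h) Q := by
    rw [hQ, map_mul, map_sub, aeval_X, aeval_C]
  have hDt0 : aeval (tF M h) D ≠ 0 := fun h0 =>
    hD0 ((transcendental_iff.mp hgen'.transcendental) D h0)
  have hQt0 : aeval (tF M h) Q ≠ 0 := by
    intro h0
    rw [hDt, h0, mul_zero] at hDt0
    exact hDt0 rfl
  have hpos : 0 < v.ord (aeval (tF M h) D) := by
    rw [hDt, v.ord_mul (hgen'.sub_algebraMap_ne_zero ρ) hQt0]
    have := (ffp_mem_iff_ord_nonneg v).mp (aeval_mem_place v hxm Q)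
    omega
  have hjord := ord_eq_neg_of_pos v hxm N D hcop hrel hpos
  have hjneg : v.ord (jF M) < 0 := by rw [hjord]; omega
  obtain ⟨γ, hγ⟩ := exists_placeOf_eq v hjneg
  rcases hcg : cv γ with _ | c'
  · exfalso
    have h1 := placeOf_ord_neg cv hcv h γ hcg
    rw [hγ] at h1
    have h2 := (ffp_mem_iff_ord_nonneg v).mp hxm
    omega
  · have hpos' := placeOf_ord_sub_pos cv hcv h γ c' hcg
    rw [hγ] at hpos'
    refine ⟨γ, ?_⟩
    rw [hcg]
    congr 1
    by_contra hne
    have hd : algebraMap Kbar (FF M) (c' - ρ) ≠ 0 := by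
      rw [ne_eq, map_eq_zero_iff _ (algebraMap Kbar (FF M)).injective, sub_eq_zero]
      exact hne
    have e1 : (tF M h - algebraMap Kbar (FF M) ρ) - (tF M h - algebraMap Kbar (FF M) c') =
        algebraMap Kbar (FF M) (c' - ρ) := by
      rw [map_sub]; ring
    have h3 := ord_sub_ge v (f := tF M h - algebraMap Kbar (FF M) ρ)
      (g := tF M h - algebraMap Kbar (FF M) c') (by rw [e1]; exact hd)
    rw [e1, ord_algebraMap] at h3
    have : 0 < min (v.ord (tF M h - algebraMap Kbar (FF M) ρ))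
        (v.ord (tF M h - algebraMap Kbar (FF M) c')) := lt_min hv hpos'
    omega

/-- finite cusp values are roots of the denominator (level `M` form). -/
theorem eval_cuspValue_eq_zero {M : ℕ} [NeZero M] {cv : SL(2, ℤ) → Option Kbar}
    (hcv : CuspExports n e M cv) (h : TMem n e M) (N D : Kbar[X])
    (hrel : jF M * aeval (tF M h) D = aeval (tF M h) N) (γ : SL(2, ℤ)) (c : Kbar)
    (hγ : cv γ = some c) : D.eval c = 0 := by
  by_contra hDc
  have hpos := placeOf_ord_sub_pos cv hcv.cuspExp h γ c hγ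
  set v := placeOf M γ with hv
  obtain ⟨h', hcp⟩ := hcv.cuspPlaces
  have hjneg : v.ord (jF M) < 0 := hcp v γ c hγ hpos
  have hxc : tF M h - algebraMap Kbar (FF M) c ∈ v.toValuationSubring :=
    (ffp_mem_iff_ord_nonneg v).mpr hpos.le
  have hxm : tF M h ∈ v.toValuationSubring := by
    have := add_mem hxc (v.algebraMap_mem' c)
    rwa [sub_add_cancel] at this
  obtain ⟨hord0, hne0⟩ := ord_aeval_eq_zero v c hpos D hDc
  have hj0 : jF M ≠ 0 := (CuspGood.good (cuspData M)).jF_ne_zero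
  have := ord_add_nonneg v hxm N D hj0 hne0 hrel
  rw [hord0] at this
  omega

/-! ### (2) integrality of the coefficients -/

variable (A : ValuationSubring Kbar)

theorem tK_mem_coeffRing : tK n e ∈ coeffRing A.toSubring := by
  intro k
  show (tq Kbar n e).coeff k ∈ A.toSubring
  rw [tq_eq_coeffMap_int, coeffMap_coeff, eq_intCast]
  exact intCast_mem A.toSubring _

theorem jqK_mem_coeffRing : jqK ∈ coeffRing A.toSubring := by
  intro k
  rw [jqK_eq_jqModC, coeff_jqModC_eq_intCast]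
  exact intCast_mem A.toSubring _

theorem coeff_tNum_mem (i : ℕ) : PowerSeries.coeff i (tNum Kbar n e) ∈ A.toSubring := by
  have h := tK_mem_coeffRing (n := n) (e := e) A ((i : ℤ) - 1)
  have h2 : (tq Kbar n e).coeff ((i : ℤ) - 1) = PowerSeries.coeff i (tNum Kbar n e) := by
    have e1 : ((i : ℤ) - 1 + ((1 : ℕ) : ℤ)).toNat = i := by omega
    rw [tq_eq_laurentOf, lor_laurentOf_coeff, if_pos (by omega), e1]
  rw [← h2]
  exact h

/-- a monic polynomial over `ℚbar` with all roots in `A` has coefficients in `A`. -/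
theorem coeff_mem_of_roots_mem {D : Kbar[X]} (hD : D.Monic) (hr : ∀ ρ ∈ D.roots, ρ ∈ A) (i : ℕ) :
    D.coeff i ∈ A.toSubring := by
  have hl : D ∈ lifts A.toSubring.subtype :=
    (IsAlgClosed.splits D).mem_lift_of_roots_mem_range hD A.toSubring.subtype
      (fun a ha => ⟨⟨a, hr a ha⟩, rfl⟩)
  rw [lifts_iff_coeff_lifts] at hl
  obtain ⟨x, hx⟩ := hl i
  rw [← hx]
  exact x.2

/-- **the numerator has coefficients in `A`.** -/
theorem coeff_num_mem (N D : Kbar[X]) (hDA : ∀ i, D.coeff i ∈ A.toSubring)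
    (hser : jqK * aeval (tK n e) D = aeval (tK n e) N) (i : ℕ) : N.coeff i ∈ A.toSubring := by
  have hmem : aeval (tK n e) N ∈ coeffRing A.toSubring := by
    rw [← hser]
    exact Subring.mul_mem _ (jqK_mem_coeffRing A)
      (aeval_mem_coeffRing _ (tK_mem_coeffRing A) D hDA)
  have key := lor_coeff_mem_of_aeval_mem A.toSubring 1 one_pos (tNum Kbar n e)
    (constantCoeff_tNum Kbar n e) (coeff_tNum_mem A) N
  rw [← tq_eq_laurentOf] at key
  exact key hmem i

/-- **the numerator is monic of degree `deg D + 1`.** -/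
theorem num_monic (N D : Kbar[X]) (hD : D.Monic)
    (hser : jqK * aeval (tK n e) D = aeval (tK n e) N) :
    N.Monic ∧ N.natDegree = D.natDegree + 1 := by
  have hW0 : PowerSeries.constantCoeff jNumK = 1 := by
    rw [← PowerSeries.coeff_zero_eq_constantCoeff_apply]
    exact CuspGen.coeff_zero_jNumK
  have hser' : laurentOf 1 jNumK * aeval (laurentOf 1 (tNum Kbar n e)) D =
      aeval (laurentOf 1 (tNum Kbar n e)) N := by
    rw [← jqK_eq_laurentOf, ← tq_eq_laurentOf]
    exact hser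
  exact monic_of_series_rel (tNum Kbar n e) jNumK (constantCoeff_tNum Kbar n e) hW0 N D hD hser'

/-! ### (3) `N(c)` is a unit of `A` at every finite cusp value `c` -/

/-- the units of `A`, as a submonoid of `ℚbar`. -/
def unitSub : Submonoid Kbar where
  carrier := {x | x ∈ A ∧ x⁻¹ ∈ A}
  mul_mem' := by
    rintro x y ⟨hx, hx'⟩ ⟨hy, hy'⟩
    exact ⟨A.mul_mem _ _ hx hy, by rw [mul_inv]; exact A.mul_mem _ _ hx' hy'⟩
  one_mem' := ⟨A.one_mem, by rw [inv_one]; exact A.one_mem⟩

theorem mem_unitSub {x : Kbar} : x ∈ unitSub A ↔ x ∈ A ∧ x⁻¹ ∈ A := Iff.rfl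

/-- a cusp expansion of a monic polynomial in `t`, as a product over the roots. -/
theorem map_aeval_monic {R : Type*} [CommRing R] [Algebra Kbar R] (T : R →+* L)
    (hT : ∀ c : Kbar, T (algebraMap Kbar R c) = HahnSeries.C c) (t : R) (c : Kbar) (y : L)
    (hE : T t = HahnSeries.C c + y) (P : Kbar[X]) (hP : P.Monic) :
    T (aeval t P) = (P.roots.map fun ρ => HahnSeries.C (c - ρ) + y).prod := by
  conv_lhs => rw [(IsAlgClosed.splits P).eq_prod_roots_of_monic hP]
  rw [map_multiset_prod, Multiset.map_map, map_multiset_prod, Multiset.map_map]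
  congr 1
  refine Multiset.map_congr rfl fun ρ _ => ?_
  simp only [Function.comp_apply, map_sub, aeval_X, aeval_C, hT, hE]
  ring

theorem leadingCoeff_qExpand_jqK (M : ℕ) [NeZero M] :
    (qExpand Kbar M jqK).leadingCoeff = 1 := by
  rw [HahnSeries.leadingCoeff_eq, order_qExpand_jqK]
  have := qExpand_coeff_mul (R := Kbar) M jqK (-1)
  rw [mul_neg_one] at this
  rw [this, jqK_coeff_neg_one]

/-- coprime polynomials have no common root. -/
theorem eval_num_ne_zero (N D : Kbar[X]) (hcop : IsCoprime N D) (c : Kbar) (hDc : D.eval c = 0) :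
    N.eval c ≠ 0 := by
  intro h0
  obtain ⟨u, w, huw⟩ := hcop
  have := congrArg (Polynomial.eval c) huw
  rw [eval_add, eval_mul, eval_mul, h0, hDc, mul_zero, mul_zero, add_zero, eval_one] at this
  exact zero_ne_one this

/-- **`N(c) ∈ Aˣ`** for every finite cusp value `c`. -/
theorem eval_cuspValue_mem_unitSub (hb : BaseHyp n e) {M : ℕ} [NeZero M] (hnM : n ∣ M)
    (hnA : ((n : Kbar))⁻¹ ∈ A) {cv : SL(2, ℤ) → Option Kbar} (hcv : CuspExports n e M cv)
    (h : TMem n e M) (N D : Kbar[X]) (hN : N.Monic) (hD : D.Monic) (hcop : IsCoprime N D)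
    (hrel : jF M * aeval (tF M h) D = aeval (tF M h) N) (γ : SL(2, ℤ)) (c : Kbar)
    (hγ : cv γ = some c) : N.eval c ∈ unitSub A := by
  have hn0 : n ≠ 0 := NeZero.ne n
  have hDc : D.eval c = 0 := eval_cuspValue_eq_zero hcv h N D hrel γ c hγ
  have hNc : N.eval c ≠ 0 := eval_num_ne_zero N D hcop c hDc
  -- the shape of the expansion of `t` at `γ`
  obtain ⟨h', hshape⟩ := hcv.cuspExp
  have hs := hshape γ
  rw [hγ] at hs
  obtain ⟨a, lam, V, ha, hlam, hV, -, -, hE⟩ := hs
  have hE' : (cuspData M).T γ (tF M h) = HahnSeries.C c +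
      HahnSeries.C lam * HahnSeries.single (a : ℤ) 1 * HahnSeries.ofPowerSeries ℤ Kbar V := hE
  set y : L := HahnSeries.C lam * HahnSeries.single (a : ℤ) 1 *
    HahnSeries.ofPowerSeries ℤ Kbar V with hy
  obtain ⟨hylc, hyord⟩ := leadingCoeff_tail a ha lam hlam.1 V hV
  have hgood := CuspGood.good (cuspData M)
  -- apply `T γ` to the relation
  have hTrel := congrArg ((cuspData M).T γ) hrel
  rw [map_mul, hgood.map_jF γ,
    map_aeval_monic ((cuspData M).T γ) (hgood.map_const γ) (tF M h) c y hE' D hD,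
    map_aeval_monic ((cuspData M).T γ) (hgood.map_const γ) (tF M h) c y hE' N hN] at hTrel
  have hlc := congrArg HahnSeries.leadingCoeff hTrel
  rw [HahnSeries.leadingCoeff_mul, leadingCoeff_qExpand_jqK, one_mul,
    leadingCoeff_multiset_prod_of_ne c hyord N.roots (fun ν hν hνc => by
      rw [hνc] at hν
      exact hNc (isRoot_of_mem_roots hν)),
    ← (IsAlgClosed.splits N).eval_eq_prod_roots_of_monic hN c] at hlc
  rw [← hlc]
  apply leadingCoeff_multiset_prod_mem (unitSub A) c hyord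
  · rw [hylc]
    exact hlam.inv_mem_of_inv_mem A hnA hn0
  · intro ρ hρ hρc
    obtain ⟨γ', hγ'⟩ := exists_cusp_of_root hb hnM hcv.cuspExp h N D hD.ne_zero hcop hrel ρ
      (isRoot_of_mem_roots hρ)
    rcases hcv.separated γ γ' c ρ hγ hγ' with heq | hu
    · exact absurd heq.symm hρc
    · exact hu.inv_mem_of_inv_mem A hnA hn0

/-! ### the package and the two exports -/

/-- **the algebra package**: `j = N(t)/D(t)` with `N, D ∈ A[X]` monic, `deg D < deg N`, and at every
finite cusp value `c`: `c ∈ A`, `D(c) = 0`, `N(c) ∈ Aˣ`. -/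
theorem core (hb : BaseHyp n e) {M : ℕ} [NeZero M] (hnM : n ∣ M) (hnA : ((n : Kbar))⁻¹ ∈ A)
    {cv : SL(2, ℤ) → Option Kbar} (hcv : CuspExports n e M cv) (h : TMem n e M) :
    ∃ N D : Kbar[X], N.Monic ∧ D.Monic ∧ D.natDegree < N.natDegree ∧ (∀ i, N.coeff i ∈ A) ∧
      (∀ i, D.coeff i ∈ A) ∧ jF M * aeval (tF M h) D = aeval (tF M h) N ∧
      ∀ (γ : SL(2, ℤ)) (c : Kbar), cv γ = some c →
        c ∈ A ∧ D.eval c = 0 ∧ N.eval c ≠ 0 ∧ (N.eval c)⁻¹ ∈ A := by
  have hn0 : n ≠ 0 := NeZero.ne n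
  obtain ⟨N, D, hD, hcop, hser⟩ := exists_frac_series hb
  have hrel := rel_level h N D hser
  -- cusp values lie in `A`
  have hcvA : ∀ (γ : SL(2, ℤ)) (c : Kbar), cv γ = some c → c ∈ A := by
    intro γ c hγ
    obtain ⟨h', hshape⟩ := hcv.cuspExp
    have hs := hshape γ
    rw [hγ] at hs
    obtain ⟨a, lam, V, -, -, -, -, hc, -⟩ := hs
    exact hc.mem_of_inv_mem A hnA hn0
  -- the roots of `D` lie in `A`
  have hroots : ∀ ρ ∈ D.roots, ρ ∈ A := by
    intro ρ hρ
    obtain ⟨γ', hγ'⟩ := exists_cusp_of_root hb hnM hcv.cuspExp h N D hD.ne_zero hcop hrel ρ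
      (isRoot_of_mem_roots hρ)
    exact hcvA γ' ρ hγ'
  have hDA : ∀ i, D.coeff i ∈ A.toSubring := coeff_mem_of_roots_mem A hD hroots
  have hNA : ∀ i, N.coeff i ∈ A.toSubring := coeff_num_mem A N D hDA hser
  obtain ⟨hN, hdeg⟩ := num_monic N D hD hser
  refine ⟨N, D, hN, hD, by omega, hNA, hDA, hrel, ?_⟩
  intro γ c hγ
  have hDc := eval_cuspValue_eq_zero hcv h N D hrel γ c hγ
  exact ⟨hcvA γ c hγ, hDc, eval_num_ne_zero N D hcop c hDc,
    (eval_cuspValue_mem_unitSub A hb hnM hnA hcv h N D hN hD hcop hrel γ c hγ).2⟩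

/-- **`t ∈ S_P`**: at a place with `j(P) ∈ A` the Hauptmodul has a value in `A`. -/
theorem tF_mem_sideRing_of (hb : BaseHyp n e) {M : ℕ} [NeZero M] (hnM : n ∣ M)
    (hnA : ((n : Kbar))⁻¹ ∈ A) {cv : SL(2, ℤ) → Option Kbar} (hcv : CuspExports n e M cv)
    (h : TMem n e M) (P : Place Kbar (FF M)) (hP : NonCusp A M P) :
    tF M h ∈ sideRing A M P := by
  obtain ⟨N, D, hN, hD, hdeg, hNA, hDA, hrel, -⟩ := core A hb hnM hnA hcv h
  exact mem_of_monic_rel A.toSubring (sideRing A M P)
    (fun f hf => mem_sideRing_of_isIntegral A f hf)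
    (fun c hc => (algebraMap_mem_sideRing_iff A c).mpr hc) hP N D hN hdeg hNA hDA hrel

/-- **`(t - c)⁻¹ ∈ S_P`** for every finite cusp value `c`: at a place with `j(P) ∈ A` the value
`t(P) - c` is a unit of `A`. -/
theorem inv_sub_cuspValue_mem_sideRing (hb : BaseHyp n e) {M : ℕ} [NeZero M] (hnM : n ∣ M)
    (hnA : ((n : Kbar))⁻¹ ∈ A) {cv : SL(2, ℤ) → Option Kbar} (hcv : CuspExports n e M cv)
    (h : TMem n e M) (P : Place Kbar (FF M)) (hP : NonCusp A M P) (γ : SL(2, ℤ)) (c : Kbar)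
    (hγ : cv γ = some c) :
    (tF M h - algebraMap Kbar (FF M) c)⁻¹ ∈ sideRing A M P := by
  obtain ⟨N, D, hN, hD, hdeg, hNA, hDA, hrel, hc⟩ := core A hb hnM hnA hcv h
  obtain ⟨hcA, hDc, hNc0, hNc⟩ := hc γ c hγ
  have hAS : ∀ c ∈ A.toSubring, algebraMap Kbar (FF M) c ∈ sideRing A M P :=
    fun c hc => (algebraMap_mem_sideRing_iff A c).mpr hc
  have ht : tF M h ∈ sideRing A M P :=
    mem_of_monic_rel A.toSubring (sideRing A M P)
      (fun f hf => mem_sideRing_of_isIntegral A f hf) hAS hP N D hN hdeg hNA hDA hrel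
  exact inv_sub_mem_of_rel A.toSubring (sideRing A M P) hAS hP ht N D hNA hDA hrel hcA hDc hNc
    (inv_mul_cancel₀ hNc0)

/-- the base hypotheses only hold for `(n, e) = (4, 8)` and `(9, 3)`. -/
theorem baseHyp_cases (hb : BaseHyp n e) : (n = 4 ∧ e = 8) ∨ (n = 9 ∧ e = 3) := by
  have hexp := hb.exp
  have h2 := hb.two_le
  have hdvd : n - 1 ∣ 24 := ⟨e, by rw [← hexp]; ring⟩
  have hle : n - 1 ≤ 24 := Nat.le_of_dvd (by norm_num) hdvd
  have hn : n ≤ 25 := by omega
  have h49 := hb.four_or_nine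
  clear hb hdvd hle
  rename_i inst
  clear inst
  interval_cases n <;> omega

/-- the cusp exports exist at every multiple of the base level. -/
theorem exists_cuspExports (hb : BaseHyp n e) {M : ℕ} [NeZero M] (hnM : n ∣ M) :
    ∃ cv : SL(2, ℤ) → Option Kbar, CuspExports n e M cv := by
  rcases baseHyp_cases hb with ⟨rfl, rfl⟩ | ⟨rfl, rfl⟩
  · exact ⟨_, cuspExports_four M hnM⟩
  · exact ⟨_, cuspExports_nine M hnM⟩

/-- **`t ∈ S_P`**, hypothesis-free form. -/
theorem tF_mem_sideRing (hb : BaseHyp n e) {M : ℕ} [NeZero M] (hnM : n ∣ M)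
    (hnA : ((n : Kbar))⁻¹ ∈ A) (h : TMem n e M) (P : Place Kbar (FF M)) (hP : NonCusp A M P) :
    tF M h ∈ sideRing A M P := by
  obtain ⟨cv, hcv⟩ := exists_cuspExports hb hnM
  exact tF_mem_sideRing_of A hb hnM hnA hcv h P hP

end Level

end Fermat.Agent.M1.NRM.CuspSep16
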