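/-
M1 (S44), chapter NRM, brick (SEP-K) of helper18's (U2) split (helper16): **cusp separation with
RATIONAL polynomials, uniform in the valuation ring, in both charts, over every `K ⊂ ℚbar`.**

`(n, e) = (4, 8)` or `(9, 3)`, `t = tq n e`.  `numQ hb, denQ hb : ℚ[X]` are the numerator and the
monic denominator of `j = N(t)/D(t)` (coprime; `j_mem_adjoin_rat`), ONE pair for all fields and all
valuation rings:

* `denQ_monic`, `numQ_monic`, `natDegree_numQ : deg N = deg D + 1`, `isCoprime_numQ_denQ`;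
* `series_rel L` : `j · D(t) = N(t)` in `L((q))` for every field `L ⊇ ℚ`;
* `coeff_numQ_mem`, `coeff_denQ_mem` : the coefficients lie in every valuation ring `A'` of `ℚbar` with
  `n ∈ A'ˣ` (hence in `AK A' K`: `coeff_numQ_mem_AK`, `coeff_denQ_mem_AK`);
* chart `0` (`τ = t`, `E = D`, `Nn = N`) and chart `∞` (`τ = t⁻¹`, `E = X · D^rev`, `Nn = N^rev`):
  `rel_FK`, `rel_FK_inv` : `j_K · E(τ) = Nn(τ)` in `FK N K`;
* `sepK_zero`, `sepK_inf` : for every `A'` with `n ∈ A'ˣ` and every place `P` of `Fbar_N` with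
  `j(P) ∈ A'` and `τ(P) ∈ A'`: `E(τ)(P) ∈ A'ˣ`, in the literal form
  `(bc (aeval τ E))⁻¹ ∈ sideRing A' N P` (`bc = PlaceExtend27.baseChangeHom N K`).
-/
import Mathlib
import Fermat.Agent.M1.NRM.CuspSep16
import Fermat.Agent.ES.P36.JFracInst16
import Fermat.Agent.RED.DESC.PlaceExtend27
import Fermat.Agent.RED.PUR.ChartGeneric22
import Fermat.Agent.ES.N34.ModelDefs9

set_option autoImplicit false
set_option linter.unusedSectionVars false
set_option linter.style.haveILetI false
set_option synthInstance.maxHeartbeats 400000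

open ModularCurve AlgebraicCurve Polynomial
open scoped MatrixGroups IntermediateField

noncomputable section

namespace Fermat.Agent.M1.NRM.CuspSepRat16

open Fermat.Agent.X0 Fermat.Agent.X0.FF
open Fermat.Agent.RED.Interface4
open Fermat.Agent.RED.BASE.Interface12 Fermat.Agent.RED.BASE.Hauptmodul12
open Fermat.Agent.RED.BASE.EtaQuot12 Fermat.Agent.RED.BASE.Main12
open Fermat.Agent.RED.BASE.MainCusp12
open Fermat.Agent.RED.DESC.PlaceExtend27
open Fermat.Agent.ES.P36.JDenom16
open Fermat.Agent.M1.NRM.Side18 Fermat.Agent.M1.NRM.CuspSepAlg16 Fermat.Agent.M1.NRM.CuspSep16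

variable {n e : ℕ} [NeZero n]

/-! ### elaboration shortcuts (instances found by `inferInstance`, cached under a name) -/

/-- shortcut for the slow instance `Algebra K (FK N K)`. -/
@[reducible] def algFK16 (N : ℕ) (K : IntermediateField ℚ Qbar) : Algebra K (FK N K) :=
  inferInstance

/-- shortcut for the slow instance `Algebra (A ∩ K) (FK N K)`. -/
@[reducible] def algAKFK16 (N : ℕ) (A : ValuationSubring Qbar) (K : IntermediateField ℚ Qbar) :
    Algebra ↥(AK A K) (FK N K) :=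
  inferInstance

attribute [local instance] algFK16 algAKFK16

/-! ### the rational fraction -/

/-- **`j = N(t)/D(t)` over `ℚ`**, `N, D` coprime, `D` monic. -/
theorem exists_frac_rat (hb : BaseHyp n e) :
    ∃ N D : ℚ[X], D.Monic ∧ IsCoprime N D ∧
      jqModC ℚ * aeval (tq ℚ n e) D = aeval (tq ℚ n e) N := by
  have hgen : TGenBase n e := (baseExports hb n dvd_rfl).genBase
  exact exists_monic_coprime_frac (jqModC_ne_zero_of_nontrivial ℚ)
    (Fermat.Agent.ES.P36.JFracInst16.j_mem_adjoin_rat n e hgen)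

/-- the numerator of `j` as a rational function of `t`. -/
def numQ (hb : BaseHyp n e) : ℚ[X] := (exists_frac_rat hb).choose

/-- the monic denominator of `j` as a rational function of `t`. -/
def denQ (hb : BaseHyp n e) : ℚ[X] := (exists_frac_rat hb).choose_spec.choose

theorem denQ_monic (hb : BaseHyp n e) : (denQ hb).Monic :=
  (exists_frac_rat hb).choose_spec.choose_spec.1

theorem isCoprime_numQ_denQ (hb : BaseHyp n e) : IsCoprime (numQ hb) (denQ hb) :=
  (exists_frac_rat hb).choose_spec.choose_spec.2.1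

theorem series_rel_rat (hb : BaseHyp n e) :
    jqModC ℚ * aeval (tq ℚ n e) (denQ hb) = aeval (tq ℚ n e) (numQ hb) :=
  (exists_frac_rat hb).choose_spec.choose_spec.2.2

/-- **`j · D(t) = N(t)` in `L((q))`** for every field `L ⊇ ℚ`. -/
theorem series_rel (hb : BaseHyp n e) (L : Type*) [Field L] [Algebra ℚ L] :
    jqModC L * aeval (tq L n e) ((denQ hb).map (algebraMap ℚ L)) =
      aeval (tq L n e) ((numQ hb).map (algebraMap ℚ L)) := by
  have h := congrArg (coeffMap (algebraMap ℚ L)) (series_rel_rat hb)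
  rw [map_mul, Fermat.Agent.RED.BASE.JInKt25.coeffMap_aeval,
    Fermat.Agent.RED.BASE.JInKt25.coeffMap_aeval, coeffMap_jqModC, coeffMap_tq] at h
  exact h

/-- the numerator over `ℚbar`. -/
abbrev numB (hb : BaseHyp n e) : Kbar[X] := (numQ hb).map (algebraMap ℚ Kbar)

/-- the denominator over `ℚbar`. -/
abbrev denB (hb : BaseHyp n e) : Kbar[X] := (denQ hb).map (algebraMap ℚ Kbar)

theorem denB_monic (hb : BaseHyp n e) : (denB hb).Monic := (denQ_monic hb).map _

theorem isCoprime_numB_denB (hb : BaseHyp n e) : IsCoprime (numB hb) (denB hb) :=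
  (isCoprime_numQ_denQ hb).map (Polynomial.mapRingHom (algebraMap ℚ Kbar))

theorem series_rel_bar (hb : BaseHyp n e) :
    jqK * aeval (tK n e) (denB hb) = aeval (tK n e) (numB hb) := by
  rw [jqK_eq_jqModC]
  exact series_rel hb Kbar

theorem numB_monic (hb : BaseHyp n e) : (numB hb).Monic :=
  (num_monic (numB hb) (denB hb) (denB_monic hb) (series_rel_bar hb)).1

theorem natDegree_numB (hb : BaseHyp n e) :
    (numB hb).natDegree = (denB hb).natDegree + 1 :=
  (num_monic (numB hb) (denB hb) (denB_monic hb) (series_rel_bar hb)).2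

theorem natDegree_numQ (hb : BaseHyp n e) : (numQ hb).natDegree = (denQ hb).natDegree + 1 := by
  have h := natDegree_numB hb
  rwa [natDegree_map, natDegree_map] at h

theorem numQ_monic (hb : BaseHyp n e) : (numQ hb).Monic := by
  have h := numB_monic hb
  exact (monic_map_iff (f := algebraMap ℚ Kbar)).mp h

/-! ### integrality of the coefficients, uniformly in the valuation ring -/

section Coeff

variable (hb : BaseHyp n e) (A' : ValuationSubring Kbar) (hnA : ((n : Kbar))⁻¹ ∈ A')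
include hnA

/-- the roots of the denominator lie in `A'`. -/
theorem root_denB_mem (ρ : Kbar) (hρ : ρ ∈ (denB hb).roots) : ρ ∈ A' := by
  obtain ⟨cv, hcv⟩ := exists_cuspExports hb (M := n) dvd_rfl
  have hrel := rel_level (tMem hb) (numB hb) (denB hb) (series_rel_bar hb)
  obtain ⟨γ, hγ⟩ := exists_cusp_of_root hb dvd_rfl hcv.cuspExp (tMem hb) (numB hb) (denB hb)
    (denB_monic hb).ne_zero (isCoprime_numB_denB hb) hrel ρ (isRoot_of_mem_roots hρ)
  obtain ⟨h', hshape⟩ := hcv.cuspExp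
  have hs := hshape γ
  rw [hγ] at hs
  obtain ⟨a, lam, V, -, -, -, -, hc, -⟩ := hs
  exact hc.mem_of_inv_mem A' hnA (NeZero.ne n)

theorem coeff_denB_mem (i : ℕ) : (denB hb).coeff i ∈ A' :=
  coeff_mem_of_roots_mem A' (denB_monic hb) (root_denB_mem hb A' hnA) i

theorem coeff_numB_mem (i : ℕ) : (numB hb).coeff i ∈ A' :=
  coeff_num_mem A' (numB hb) (denB hb) (coeff_denB_mem hb A' hnA) (series_rel_bar hb) i

/-- **the coefficients of the denominator lie in `A'`.** -/
theorem coeff_denQ_mem (i : ℕ) : algebraMap ℚ Kbar ((denQ hb).coeff i) ∈ A' := by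
  have h := coeff_denB_mem hb A' hnA i
  rwa [coeff_map] at h

/-- **the coefficients of the numerator lie in `A'`.** -/
theorem coeff_numQ_mem (i : ℕ) : algebraMap ℚ Kbar ((numQ hb).coeff i) ∈ A' := by
  have h := coeff_numB_mem hb A' hnA i
  rwa [coeff_map] at h

/-- in the ring `A' ∩ K`. -/
theorem coeff_denQ_mem_AK (K : IntermediateField ℚ Qbar) (i : ℕ) :
    algebraMap ℚ K ((denQ hb).coeff i) ∈ AK A' K := by
  show algebraMap K Qbar (algebraMap ℚ K ((denQ hb).coeff i)) ∈ A'
  rw [← IsScalarTower.algebraMap_apply]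
  exact coeff_denQ_mem hb A' hnA i

theorem coeff_numQ_mem_AK (K : IntermediateField ℚ Qbar) (i : ℕ) :
    algebraMap ℚ K ((numQ hb).coeff i) ∈ AK A' K := by
  show algebraMap K Qbar (algebraMap ℚ K ((numQ hb).coeff i)) ∈ A'
  rw [← IsScalarTower.algebraMap_apply]
  exact coeff_numQ_mem hb A' hnA i

end Coeff

/-! ### the relation in the two charts, over any field -/

section Charts

variable {L F : Type*} [Field L] [Field F] [Algebra L F]

/-- **chart `∞`**: from `j D(t) = N(t)`, `deg N = deg D + 1`, to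
`j · (X D^rev)(t⁻¹) = N^rev(t⁻¹)`. -/
theorem rel_inv_of_rel {j t : F} (ht : t ≠ 0) (N D : L[X]) (hdeg : N.natDegree = D.natDegree + 1)
    (hrel : j * aeval t D = aeval t N) :
    j * aeval t⁻¹ (X * D.reverse) = aeval t⁻¹ N.reverse := by
  rw [map_mul, aeval_X, aeval_inv_reverse' (K := L) ht D, aeval_inv_reverse' (K := L) ht N, ← hrel,
    hdeg, pow_succ]
  ring

end Charts

section FK

variable (hb : BaseHyp n e) {N : ℕ} [NeZero N] (K : IntermediateField ℚ Qbar)

/-- polynomials in an element of `FK N K`, on `q`-expansions. -/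
theorem coe_aeval_FK (τ : FK N K) (P : K[X]) :
    ((aeval τ P : FK N K) : LaurentSeries K) = aeval (τ : LaurentSeries K) P :=
  (Polynomial.aeval_algHom_apply (FK N K).val τ P).symm

/-- **chart `0` over `K`**: `j_K · D(t) = N(t)` in `FK N K`. -/
theorem rel_FK (τ jK : FK N K) (hτ : (τ : LaurentSeries K) = tq K n e)
    (hj : (jK : LaurentSeries K) = jqModC K) :
    jK * aeval τ ((denQ hb).map (algebraMap ℚ K)) = aeval τ ((numQ hb).map (algebraMap ℚ K)) := by
  apply Subtype.ext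
  have hmul : ((jK * aeval τ ((denQ hb).map (algebraMap ℚ K)) : FK N K) : LaurentSeries K) =
      ((jK : FK N K) : LaurentSeries K) *
        ((aeval τ ((denQ hb).map (algebraMap ℚ K)) : FK N K) : LaurentSeries K) := rfl
  rw [hmul, coe_aeval_FK, coe_aeval_FK, hτ, hj]
  exact series_rel hb K

/-- **chart `∞` over `K`**: `j_K · (X D^rev)(t⁻¹) = N^rev(t⁻¹)` in `FK N K`. -/
theorem rel_FK_inv (τ jK : FK N K) (hτ : (τ : LaurentSeries K) = tq K n e)
    (hj : (jK : LaurentSeries K) = jqModC K) :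
    jK * aeval τ⁻¹ (X * ((denQ hb).map (algebraMap ℚ K)).reverse) =
      aeval τ⁻¹ ((numQ hb).map (algebraMap ℚ K)).reverse := by
  have hτ0 : τ ≠ 0 := by
    intro h0
    have h1 : (tq K n e).coeff (-1) = 1 := coeff_tq_neg_one K n e
    rw [← hτ, h0] at h1
    simp at h1
  refine rel_inv_of_rel hτ0 _ _ ?_ (rel_FK hb K τ jK hτ hj)
  rw [natDegree_map, natDegree_map]
  exact natDegree_numQ hb

end FK

/-! ### the unit statements over `ℚbar` -/

section Units

variable (hb : BaseHyp n e) {N : ℕ} [NeZero N] (hnN : n ∣ N) (A' : ValuationSubring Kbar)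
  (hnA : ((n : Kbar))⁻¹ ∈ A')

/-- the units of a subring of a field, as a submonoid. -/
def unitsOf {F : Type*} [Field F] (S : Subring F) : Submonoid F where
  carrier := {x | x ∈ S ∧ x⁻¹ ∈ S}
  mul_mem' := by
    rintro x y ⟨hx, hx'⟩ ⟨hy, hy'⟩
    exact ⟨S.mul_mem hx hy, by rw [mul_inv]; exact S.mul_mem hx' hy'⟩
  one_mem' := ⟨S.one_mem, by rw [inv_one]; exact S.one_mem⟩

include hnN hnA

/-- **chart `0`**: `D(t)` is a unit of `S_P` at every place with `j(P) ∈ A'`. -/
theorem aeval_denB_mem_unitsOf (h : TMem n e N) (P : Place Kbar (FF N)) (hP : NonCusp A' N P) :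
    aeval (tF N h) (denB hb) ∈ unitsOf (sideRing A' N P) := by
  obtain ⟨cv, hcv⟩ := exists_cuspExports hb hnN
  have hrel := rel_level h (numB hb) (denB hb) (series_rel_bar hb)
  have ht : tF N h ∈ sideRing A' N P := tF_mem_sideRing_of A' hb hnN hnA hcv h P hP
  rw [(IsAlgClosed.splits (denB hb)).eq_prod_roots_of_monic (denB_monic hb), map_multiset_prod,
    Multiset.map_map]
  refine Submonoid.multiset_prod_mem _ _ fun x hx => ?_
  obtain ⟨ρ, hρ, rfl⟩ := Multiset.mem_map.mp hx
  simp only [Function.comp_apply, map_sub, aeval_X, aeval_C]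
  obtain ⟨γ, hγ⟩ := exists_cusp_of_root hb hnN hcv.cuspExp h (numB hb) (denB hb)
    (denB_monic hb).ne_zero (isCoprime_numB_denB hb) hrel ρ (isRoot_of_mem_roots hρ)
  have hρA : ρ ∈ A' := by
    obtain ⟨h', hshape⟩ := hcv.cuspExp
    have hs := hshape γ
    rw [hγ] at hs
    obtain ⟨a, lam, V, -, -, -, -, hc, -⟩ := hs
    exact hc.mem_of_inv_mem A' hnA (NeZero.ne n)
  exact ⟨Subring.sub_mem _ ht ((algebraMap_mem_sideRing_iff A' ρ).mpr hρA),
    inv_sub_cuspValue_mem_sideRing A' hb hnN hnA hcv h P hP γ ρ hγ⟩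

/-- **chart `∞`**: `(X D^rev)(t⁻¹)` is a unit of `S_P` at every place with `j(P) ∈ A'`,
`t⁻¹(P) ∈ A'`. -/
theorem aeval_inv_denB_mem_unitsOf (h : TMem n e N) (P : Place Kbar (FF N))
    (hP : NonCusp A' N P) (htinv : (tF N h)⁻¹ ∈ sideRing A' N P) :
    aeval (tF N h)⁻¹ (X * (denB hb).reverse) ∈ unitsOf (sideRing A' N P) := by
  obtain ⟨cv, hcv⟩ := exists_cuspExports hb hnN
  have ht : tF N h ∈ sideRing A' N P := tF_mem_sideRing_of A' hb hnN hnA hcv h P hP
  have ht0 : tF N h ≠ 0 := by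
    obtain ⟨h', hgen⟩ := (baseExports hb N hnN).isGen
    exact (show IsGen Kbar (tF N h) from hgen).ne_zero
  have htu : (tF N h)⁻¹ ∈ unitsOf (sideRing A' N P) := ⟨htinv, by rwa [inv_inv]⟩
  rw [map_mul, aeval_X, aeval_inv_reverse' (K := Kbar) ht0 (denB hb)]
  exact Submonoid.mul_mem _ htu (Submonoid.mul_mem _
    (aeval_denB_mem_unitsOf hb hnN A' hnA h P hP) (Submonoid.pow_mem _ htu _))

end Units

/-! ### base change `FK N K → Fbar N` and the literal (SEP-K) -/

section BaseChange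

variable {N : ℕ} [NeZero N] (K : IntermediateField ℚ Qbar)

/-- base change of a polynomial expression with rational coefficients. -/
theorem baseChangeHom_aeval_map (τ : FK N K) (P : ℚ[X]) :
    baseChangeHom N K (aeval τ (P.map (algebraMap ℚ K))) =
      aeval (baseChangeHom N K τ) (P.map (algebraMap ℚ Qbar)) := by
  induction P using Polynomial.induction_on' with
  | add p q hp hq => rw [Polynomial.map_add, map_add, map_add, Polynomial.map_add, map_add, hp, hq]
  | monomial k a =>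
    rw [Polynomial.map_monomial, Polynomial.map_monomial, aeval_monomial, aeval_monomial, map_mul,
      map_pow, baseChangeHom_algebraMap]
    congr 2

variable (hb : BaseHyp n e) (hnN : n ∣ N) (A' : ValuationSubring Kbar)
  (hnA : ((n : Kbar))⁻¹ ∈ A')

/-- the base change of an element with `q`-expansion `tq K n e` is the Hauptmodul over `ℚbar`. -/
theorem baseChangeHom_eq_tF (τ : FK N K) (hτ : (τ : LaurentSeries K) = tq K n e)
    (h : TMem n e N) : baseChangeHom N K τ = tF N h := by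
  apply Subtype.ext
  rw [coe_baseChangeHom, hτ, coeffMap_tq]
  rfl

include hnN hnA

/-- **(SEP-K), chart `0`**, literal form. -/
theorem sepK_zero (τ : FK N K) (hτ : (τ : LaurentSeries K) = tq K n e)
    (P : Place Kbar (FF N)) (hP : NonCusp A' N P) :
    (baseChangeHom N K (aeval τ ((denQ hb).map (algebraMap ℚ K))))⁻¹ ∈ sideRing A' N P := by
  have h : TMem n e N := tMem_of_dvd hb hnN
  rw [baseChangeHom_aeval_map, baseChangeHom_eq_tF K τ hτ h]
  exact (aeval_denB_mem_unitsOf hb hnN A' hnA h P hP).2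

/-- **(SEP-K), chart `∞`**, literal form. -/
theorem sepK_inf (τ : FK N K) (hτ : (τ : LaurentSeries K) = tq K n e)
    (P : Place Kbar (FF N)) (hP : NonCusp A' N P)
    (hτP : baseChangeHom N K τ⁻¹ ∈ sideRing A' N P) :
    (baseChangeHom N K (aeval τ⁻¹ ((X * (denQ hb).reverse).map (algebraMap ℚ K))))⁻¹ ∈
      sideRing A' N P := by
  have h : TMem n e N := tMem_of_dvd hb hnN
  rw [map_inv₀, baseChangeHom_eq_tF K τ hτ h] at hτP
  rw [baseChangeHom_aeval_map, map_inv₀, baseChangeHom_eq_tF K τ hτ h]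
  have hrev : (X * (denQ hb).reverse).map (algebraMap ℚ Qbar) = X * (denB hb).reverse := by
    rw [Polynomial.map_mul, Polynomial.map_X]
    congr 1
    rw [reverse, reverse, reflect_map, natDegree_map]
  rw [hrev]
  exact (aeval_inv_denB_mem_unitsOf hb hnN A' hnA h P hP hτP).2

end BaseChange

/-! ### chart `∞` with rational polynomials, and the packaged (SEP-K) -/

section InfPoly

variable (hb : BaseHyp n e)

/-- the denominator in the chart `∞`: `X · D^rev`. -/
def denInfQ : ℚ[X] := X * (denQ hb).reverse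

/-- the numerator in the chart `∞`: `N^rev`. -/
def numInfQ : ℚ[X] := (numQ hb).reverse

theorem map_denInfQ (L : Type*) [Field L] [Algebra ℚ L] :
    (denInfQ hb).map (algebraMap ℚ L) = X * ((denQ hb).map (algebraMap ℚ L)).reverse := by
  rw [denInfQ, Polynomial.map_mul, Polynomial.map_X]
  congr 1
  rw [reverse, reverse, reflect_map, natDegree_map]

theorem map_numInfQ (L : Type*) [Field L] [Algebra ℚ L] :
    (numInfQ hb).map (algebraMap ℚ L) = ((numQ hb).map (algebraMap ℚ L)).reverse := by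
  rw [numInfQ, reverse, reverse, reflect_map, natDegree_map]

theorem coeff_denInfQ_mem (A' : ValuationSubring Kbar) (hnA : ((n : Kbar))⁻¹ ∈ A') (i : ℕ) :
    algebraMap ℚ Kbar ((denInfQ hb).coeff i) ∈ A' := by
  cases i with
  | zero =>
    rw [denInfQ, coeff_X_mul_zero, map_zero]
    exact A'.zero_mem
  | succ k =>
    rw [denInfQ, coeff_X_mul, coeff_reverse]
    exact coeff_denQ_mem hb A' hnA _

theorem coeff_numInfQ_mem (A' : ValuationSubring Kbar) (hnA : ((n : Kbar))⁻¹ ∈ A') (i : ℕ) :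
    algebraMap ℚ Kbar ((numInfQ hb).coeff i) ∈ A' := by
  rw [numInfQ, coeff_reverse]
  exact coeff_numQ_mem hb A' hnA _

theorem coeff_denInfQ_mem_AK (A' : ValuationSubring Kbar) (hnA : ((n : Kbar))⁻¹ ∈ A')
    (K : IntermediateField ℚ Qbar) (i : ℕ) :
    algebraMap ℚ K ((denInfQ hb).coeff i) ∈ AK A' K := by
  show algebraMap K Qbar (algebraMap ℚ K ((denInfQ hb).coeff i)) ∈ A'
  rw [← IsScalarTower.algebraMap_apply]
  exact coeff_denInfQ_mem hb A' hnA i

theorem coeff_numInfQ_mem_AK (A' : ValuationSubring Kbar) (hnA : ((n : Kbar))⁻¹ ∈ A')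
    (K : IntermediateField ℚ Qbar) (i : ℕ) :
    algebraMap ℚ K ((numInfQ hb).coeff i) ∈ AK A' K := by
  show algebraMap K Qbar (algebraMap ℚ K ((numInfQ hb).coeff i)) ∈ A'
  rw [← IsScalarTower.algebraMap_apply]
  exact coeff_numInfQ_mem hb A' hnA i

variable {N : ℕ} [NeZero N] (K : IntermediateField ℚ Qbar)

/-- **chart `∞` over `K`**, with the rational polynomials `denInfQ`, `numInfQ`. -/
theorem rel_FK_inf (τ jK : FK N K) (hτ : (τ : LaurentSeries K) = tq K n e)
    (hj : (jK : LaurentSeries K) = jqModC K) :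
    jK * aeval τ⁻¹ ((denInfQ hb).map (algebraMap ℚ K)) =
      aeval τ⁻¹ ((numInfQ hb).map (algebraMap ℚ K)) := by
  rw [map_denInfQ, map_numInfQ]
  exact rel_FK_inv hb K τ jK hτ hj

/-- **(SEP-K), chart `∞`**, with `denInfQ`. -/
theorem sepK_inf' (hnN : n ∣ N) (A' : ValuationSubring Kbar) (hnA : ((n : Kbar))⁻¹ ∈ A')
    (τ : FK N K) (hτ : (τ : LaurentSeries K) = tq K n e)
    (P : Place Kbar (FF N)) (hP : NonCusp A' N P)
    (hτP : baseChangeHom N K τ⁻¹ ∈ sideRing A' N P) :
    (baseChangeHom N K (aeval τ⁻¹ ((denInfQ hb).map (algebraMap ℚ K))))⁻¹ ∈ sideRing A' N P :=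
  sepK_inf K hb hnN A' hnA τ hτ P hP hτP

/-- a polynomial expression with coefficients in `A ∩ K` lies in the chart of `τ`. -/
theorem aeval_map_mem_chart (A : ValuationSubring Qbar) (τ : FK N K) (P : ℚ[X])
    (hP : ∀ i, algebraMap ℚ K (P.coeff i) ∈ AK A K) :
    aeval τ (P.map (algebraMap ℚ K)) ∈
      Fermat.Agent.RED.PUR.ChartGeneric22.chart ↥(AK A K) τ := by
  apply Fermat.Agent.RED.PUR.ChartGeneric22.adjoin_le_chart τ
  rw [aeval_eq_sum_range]
  refine Subalgebra.sum_mem _ fun i _ => ?_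
  rw [coeff_map, Algebra.smul_def]
  have h : algebraMap K (FK N K) (algebraMap ℚ K (P.coeff i)) =
      algebraMap ↥(AK A K) (FK N K) ⟨_, hP i⟩ := rfl
  rw [h]
  exact Subalgebra.mul_mem _ (Subalgebra.algebraMap_mem _ _)
    (Subalgebra.pow_mem _ (Algebra.subset_adjoin (Set.mem_singleton _)) i)

include hb

/-- **(SEP-K), packaged, chart `0`** (`τ = t`): rational polynomials `E`, `Nn` with
`j_K · E(τ) = Nn(τ)`, coefficients in every `A' ∩ K` with `n ∈ A'ˣ`, and `E(τ)(P) ∈ A'ˣ` at every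
place `P` with `j(P) ∈ A'`. -/
theorem exists_sepK_zero (hnN : n ∣ N) (τ jK : FK N K) (hτ : (τ : LaurentSeries K) = tq K n e)
    (hj : (jK : LaurentSeries K) = jqModC K) :
    ∃ E Nn : ℚ[X],
      jK * aeval τ (E.map (algebraMap ℚ K)) = aeval τ (Nn.map (algebraMap ℚ K)) ∧
      (∀ A' : ValuationSubring Kbar, ((n : Kbar))⁻¹ ∈ A' →
        (∀ i, algebraMap ℚ K (E.coeff i) ∈ AK A' K) ∧
        (∀ i, algebraMap ℚ K (Nn.coeff i) ∈ AK A' K) ∧
        aeval τ (E.map (algebraMap ℚ K)) ∈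
          Fermat.Agent.RED.PUR.ChartGeneric22.chart ↥(AK A' K) τ ∧
        aeval τ (Nn.map (algebraMap ℚ K)) ∈
          Fermat.Agent.RED.PUR.ChartGeneric22.chart ↥(AK A' K) τ) ∧
      ∀ A' : ValuationSubring Kbar, ((n : Kbar))⁻¹ ∈ A' → ∀ P : Place Kbar (FF N),
        NonCusp A' N P → baseChangeHom N K τ ∈ sideRing A' N P →
          (baseChangeHom N K (aeval τ (E.map (algebraMap ℚ K))))⁻¹ ∈ sideRing A' N P :=
  ⟨denQ hb, numQ hb, rel_FK hb K τ jK hτ hj,
    fun A' hnA => ⟨coeff_denQ_mem_AK hb A' hnA K, coeff_numQ_mem_AK hb A' hnA K,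
      aeval_map_mem_chart K A' τ _ (coeff_denQ_mem_AK hb A' hnA K),
      aeval_map_mem_chart K A' τ _ (coeff_numQ_mem_AK hb A' hnA K)⟩,
    fun A' hnA P hP _ => sepK_zero K hb hnN A' hnA τ hτ P hP⟩

/-- **(SEP-K), packaged, chart `∞`** (`τ = t⁻¹`). -/
theorem exists_sepK_inf (hnN : n ∣ N) (τ jK : FK N K) (hτ : (τ : LaurentSeries K) = tq K n e)
    (hj : (jK : LaurentSeries K) = jqModC K) :
    ∃ E Nn : ℚ[X],
      jK * aeval τ⁻¹ (E.map (algebraMap ℚ K)) = aeval τ⁻¹ (Nn.map (algebraMap ℚ K)) ∧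
      (∀ A' : ValuationSubring Kbar, ((n : Kbar))⁻¹ ∈ A' →
        (∀ i, algebraMap ℚ K (E.coeff i) ∈ AK A' K) ∧
        (∀ i, algebraMap ℚ K (Nn.coeff i) ∈ AK A' K) ∧
        aeval τ⁻¹ (E.map (algebraMap ℚ K)) ∈
          Fermat.Agent.RED.PUR.ChartGeneric22.chart ↥(AK A' K) τ⁻¹ ∧
        aeval τ⁻¹ (Nn.map (algebraMap ℚ K)) ∈
          Fermat.Agent.RED.PUR.ChartGeneric22.chart ↥(AK A' K) τ⁻¹) ∧
      ∀ A' : ValuationSubring Kbar, ((n : Kbar))⁻¹ ∈ A' → ∀ P : Place Kbar (FF N),
        NonCusp A' N P → baseChangeHom N K τ⁻¹ ∈ sideRing A' N P →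
          (baseChangeHom N K (aeval τ⁻¹ (E.map (algebraMap ℚ K))))⁻¹ ∈ sideRing A' N P :=
  ⟨denInfQ hb, numInfQ hb, rel_FK_inf hb K τ jK hτ hj,
    fun A' hnA => ⟨coeff_denInfQ_mem_AK hb A' hnA K, coeff_numInfQ_mem_AK hb A' hnA K,
      aeval_map_mem_chart K A' τ⁻¹ _ (coeff_denInfQ_mem_AK hb A' hnA K),
      aeval_map_mem_chart K A' τ⁻¹ _ (coeff_numInfQ_mem_AK hb A' hnA K)⟩,
    fun A' hnA P hP hτP => sepK_inf' hb K hnN A' hnA τ hτ P hP hτP⟩

end InfPoly

end Fermat.Agent.M1.NRM.CuspSepRat16
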