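/-
M1 (S44), chapter NRM, (SEP-K) pushed to `R[X]`, `R = A ∩ K` (helper16): **the six hypotheses of
`SideAvoidWire18.hsep_of_sepK` and the two non-vanishing hypotheses of
`AvoidCusp53.exists_ord_rep_avoiding`, literally.**

Frame: `A` a valuation ring of `ℚbar` with `n ∈ Aˣ` (`(n, e) = (4, 8)` or `(9, 3)`), `K ⊂ ℚbar`,
`R = ↥(AK A K)`, `τ, jK ∈ FK N K` with `q`-expansions `tq K n e`, `jqModC K`.

* `toO O P hP : (↥O)[X]` : a polynomial over a field with coefficients in the valuation ring `O`, as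
  a polynomial over `O`; `map_toO`, `coeff_toO`, `aeval_toO`;
* `denR, numR, denInfR, numInfR : R[X]` : `CuspSepRat16.denQ, numQ, denInfQ, numInfQ` over `R`;
* `hrel0, hE0, hrel1, hE1, hsep0, hsep1` : the hypotheses of `hsep_of_sepK`;
* `denR_monic`, `map_denR_ne_zero`, `map_denInfR_ne_zero` : `G.map (Ideal.Quotient.mk (span {π})) ≠ 0`.
-/
import Mathlib
import Fermat.Agent.M1.NRM.CuspSepRat16

set_option autoImplicit false
set_option linter.unusedSectionVars false
set_option linter.style.haveILetI false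
set_option synthInstance.maxHeartbeats 400000

open ModularCurve AlgebraicCurve Polynomial
open scoped IntermediateField

noncomputable section

namespace Fermat.Agent.M1.NRM.CuspSepR16

open Fermat.Agent.X0 Fermat.Agent.X0.FF
open Fermat.Agent.RED.Interface4
open Fermat.Agent.RED.BASE.Interface12 Fermat.Agent.RED.BASE.Hauptmodul12
open Fermat.Agent.RED.BASE.EtaQuot12
open Fermat.Agent.RED.DESC.PlaceExtend27
open Fermat.Agent.M1.NRM.Side18 Fermat.Agent.M1.NRM.CuspSepRat16

/-! ### polynomials with coefficients in a valuation ring -/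

section ToO

variable {k : Type*} [Field k] (O : ValuationSubring k)

/-- a polynomial over `k` with coefficients in `O`, as a polynomial over `O`. -/
def toO (P : k[X]) (hP : ∀ i, P.coeff i ∈ O) : (↥O)[X] :=
  ∑ i ∈ Finset.range (P.natDegree + 1), monomial i (⟨P.coeff i, hP i⟩ : ↥O)

theorem map_toO (P : k[X]) (hP : ∀ i, P.coeff i ∈ O) : (toO O P hP).map O.subtype = P := by
  rw [toO, Polynomial.map_sum]
  conv_rhs => rw [P.as_sum_range]
  refine Finset.sum_congr rfl fun i _ => ?_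
  rw [map_monomial]
  rfl

theorem coeff_toO (P : k[X]) (hP : ∀ i, P.coeff i ∈ O) (i : ℕ) :
    (((toO O P hP).coeff i : ↥O) : k) = P.coeff i := by
  conv_rhs => rw [← map_toO O P hP, coeff_map]
  rfl

theorem natDegree_toO (P : k[X]) (hP : ∀ i, P.coeff i ∈ O) :
    (toO O P hP).natDegree = P.natDegree := by
  conv_rhs => rw [← map_toO O P hP]
  exact (natDegree_map_eq_of_injective Subtype.val_injective _).symm

theorem toO_monic (P : k[X]) (hP : ∀ i, P.coeff i ∈ O) (hm : P.Monic) : (toO O P hP).Monic := by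
  apply Polynomial.monic_of_injective (f := O.subtype) Subtype.val_injective
  rw [map_toO]
  exact hm

theorem aeval_toO {F : Type*} [Field F] [Algebra k F] [Algebra (↥O) F] [IsScalarTower (↥O) k F]
    (P : k[X]) (hP : ∀ i, P.coeff i ∈ O) (x : F) : aeval x (toO O P hP) = aeval x P := by
  conv_rhs => rw [← map_toO O P hP]
  exact (Polynomial.aeval_map_algebraMap k x (toO O P hP)).symm

end ToO

/-! ### a unit criterion -/

/-- `ℓ ∈ A'ˣ` when `ℓ` is prime to `p` and `p` is a non-unit of `A'`. -/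
theorem inv_natCast_mem (A' : ValuationSubring Qbar) {p l : ℕ} (hcop : Nat.Coprime l p)
    (hpA : (p : Qbar) ∈ A'.nonunits) : ((l : Qbar))⁻¹ ∈ A' := by
  have h1 : IsCoprime ((l : ℤ)) (p : ℤ) := Nat.isCoprime_iff_coprime.mpr hcop
  obtain ⟨x, y, hxy⟩ := h1
  have hx : ((x : ℤ) : Qbar) ∈ A' := intCast_mem A' x
  have hy : ((y : ℤ) : Qbar) ∈ A' := intCast_mem A' y
  have hl : ((l : ℕ) : Qbar) ∈ A' := natCast_mem A' l
  have h2 : ((x : ℤ) : Qbar) * (l : Qbar) + ((y : ℤ) : Qbar) * (p : Qbar) = 1 := by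
    have := congrArg (Int.cast : ℤ → Qbar) hxy
    push_cast at this
    exact this
  -- `y p` is a non-unit, so `x l = 1 - y p` is a unit
  have hyp : A'.valuation (((y : ℤ) : Qbar) * (p : Qbar)) < 1 := by
    rw [map_mul]
    have h3 : A'.valuation ((y : ℤ) : Qbar) ≤ 1 := (A'.valuation_le_one_iff _).mpr hy
    have h4 : A'.valuation (p : Qbar) < 1 := hpA
    exact Right.mul_lt_one_of_le_of_lt h3 h4
  have hxl : A'.valuation (((x : ℤ) : Qbar) * (l : Qbar)) = 1 := by
    have h5 : ((x : ℤ) : Qbar) * (l : Qbar) = 1 - ((y : ℤ) : Qbar) * (p : Qbar) := by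
      rw [← h2]; ring
    rw [h5]
    have h6 := Valuation.map_sub_eq_of_lt_left A'.valuation
      (x := (1 : Qbar)) (y := ((y : ℤ) : Qbar) * (p : Qbar)) (by rw [map_one]; exact hyp)
    rw [h6, map_one]
  have hl1 : A'.valuation (l : Qbar) = 1 := by
    rw [map_mul] at hxl
    have h7 : A'.valuation ((x : ℤ) : Qbar) ≤ 1 := (A'.valuation_le_one_iff _).mpr hx
    have h8 : A'.valuation (l : Qbar) ≤ 1 := (A'.valuation_le_one_iff _).mpr hl
    refine le_antisymm h8 ?_
    calc (1 : _) = A'.valuation ((x : ℤ) : Qbar) * A'.valuation (l : Qbar) := hxl.symm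
      _ ≤ A'.valuation (l : Qbar) := mul_le_of_le_one_left' h7
  rw [← A'.valuation_le_one_iff, map_inv₀, hl1, inv_one]

/-! ### the frame -/

section Frame

variable {n e : ℕ} [NeZero n] (hb : BaseHyp n e) (A : ValuationSubring Qbar)
  (hnA : ((n : Kbar))⁻¹ ∈ A) (K : IntermediateField ℚ Qbar)

/-- the scalar tower `A ∩ K → K → FK N K` (cached: the instance search is slow). -/
theorem tower16 (N : ℕ) : IsScalarTower ↥(AK A K) K (FK N K) :=
  IsScalarTower.of_algebraMap_eq fun _ => rfl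

attribute [local instance] algFK16 algAKFK16 tower16

/-- the denominator of `j` in the chart `0`, over `R = A ∩ K`. -/
def denR : (↥(AK A K))[X] :=
  toO (AK A K) ((denQ hb).map (algebraMap ℚ K)) fun i => by
    rw [coeff_map]; exact coeff_denQ_mem_AK hb A hnA K i

/-- the numerator of `j` in the chart `0`, over `R = A ∩ K`. -/
def numR : (↥(AK A K))[X] :=
  toO (AK A K) ((numQ hb).map (algebraMap ℚ K)) fun i => by
    rw [coeff_map]; exact coeff_numQ_mem_AK hb A hnA K i

/-- the denominator of `j` in the chart `∞`, over `R = A ∩ K`. -/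
def denInfR : (↥(AK A K))[X] :=
  toO (AK A K) ((denInfQ hb).map (algebraMap ℚ K)) fun i => by
    rw [coeff_map]; exact coeff_denInfQ_mem_AK hb A hnA K i

/-- the numerator of `j` in the chart `∞`, over `R = A ∩ K`. -/
def numInfR : (↥(AK A K))[X] :=
  toO (AK A K) ((numInfQ hb).map (algebraMap ℚ K)) fun i => by
    rw [coeff_map]; exact coeff_numInfQ_mem_AK hb A hnA K i

theorem map_denR :
    (denR hb A hnA K).map (AK A K).subtype = (denQ hb).map (algebraMap ℚ K) := map_toO _ _ _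

theorem map_numR :
    (numR hb A hnA K).map (AK A K).subtype = (numQ hb).map (algebraMap ℚ K) := map_toO _ _ _

theorem map_denInfR :
    (denInfR hb A hnA K).map (AK A K).subtype = (denInfQ hb).map (algebraMap ℚ K) :=
  map_toO _ _ _

theorem map_numInfR :
    (numInfR hb A hnA K).map (AK A K).subtype = (numInfQ hb).map (algebraMap ℚ K) :=
  map_toO _ _ _

theorem coeff_denR (i : ℕ) :
    (((denR hb A hnA K).coeff i : ↥(AK A K)) : K) = algebraMap ℚ K ((denQ hb).coeff i) := by
  rw [denR, coeff_toO, coeff_map]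

theorem coeff_denInfR (i : ℕ) :
    (((denInfR hb A hnA K).coeff i : ↥(AK A K)) : K) = algebraMap ℚ K ((denInfQ hb).coeff i) := by
  rw [denInfR, coeff_toO, coeff_map]

theorem denR_monic : (denR hb A hnA K).Monic :=
  toO_monic _ _ _ ((denQ_monic hb).map _)

theorem numR_monic : (numR hb A hnA K).Monic :=
  toO_monic _ _ _ ((numQ_monic hb).map _)

/-- `denR` is nonzero modulo any proper ideal. -/
theorem map_denR_ne_zero {I : Ideal ↥(AK A K)} (hI : I ≠ ⊤) :
    (denR hb A hnA K).map (Ideal.Quotient.mk I) ≠ 0 := by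
  have : Nontrivial (↥(AK A K) ⧸ I) := Ideal.Quotient.nontrivial_iff.mpr hI
  exact ((denR_monic hb A hnA K).map _).ne_zero

theorem coeff_one_denInfR : (denInfR hb A hnA K).coeff 1 = 1 := by
  apply Subtype.ext
  rw [coeff_denInfR, denInfQ, coeff_X_mul, coeff_zero_reverse, (denQ_monic hb).leadingCoeff,
    map_one]
  rfl

/-- `denInfR` is nonzero modulo any proper ideal. -/
theorem map_denInfR_ne_zero {I : Ideal ↥(AK A K)} (hI : I ≠ ⊤) :
    (denInfR hb A hnA K).map (Ideal.Quotient.mk I) ≠ 0 := by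
  have : Nontrivial (↥(AK A K) ⧸ I) := Ideal.Quotient.nontrivial_iff.mpr hI
  intro h0
  have h1 := congrArg (fun P => Polynomial.coeff P 1) h0
  simp only [coeff_map, coeff_one_denInfR, map_one, coeff_zero] at h1
  exact one_ne_zero h1

/-- `n ∈ A'ˣ` for every valuation ring `A' ⊇ R` of `ℚbar` in which `π` is a non-unit. -/
theorem inv_mem_of_frame {q : ℕ} (hcop : Nat.Coprime n q) {π : ↥(AK A K)}
    (hchar : π ∣ (q : ↥(AK A K))) (A' : ValuationSubring Qbar)
    (hR : ∀ r : ↥(AK A K), ((algebraMap ↥(AK A K) K r : K) : Qbar) ∈ A')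
    (hπ : ((algebraMap ↥(AK A K) K π : K) : Qbar) ∈ A'.nonunits) : ((n : Qbar))⁻¹ ∈ A' := by
  obtain ⟨r, hr⟩ := hchar
  have hq : (q : Qbar) ∈ A'.nonunits := by
    have h1 : (q : Qbar) = ((algebraMap ↥(AK A K) K π : K) : Qbar) *
        ((algebraMap ↥(AK A K) K r : K) : Qbar) := by
      have h2 : algebraMap K Qbar (algebraMap ↥(AK A K) K (q : ↥(AK A K))) =
          algebraMap K Qbar (algebraMap ↥(AK A K) K π) *
            algebraMap K Qbar (algebraMap ↥(AK A K) K r) := by
        rw [hr, map_mul, map_mul]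
      rw [map_natCast, map_natCast] at h2
      exact h2
    rw [h1]
    show A'.valuation _ < 1
    rw [map_mul]
    have h3 : A'.valuation ((algebraMap ↥(AK A K) K r : K) : Qbar) ≤ 1 :=
      (A'.valuation_le_one_iff _).mpr (hR r)
    have h4 : A'.valuation ((algebraMap ↥(AK A K) K π : K) : Qbar) < 1 := hπ
    exact Left.mul_lt_one_of_lt_of_le h4 h3
  exact inv_natCast_mem A' hcop hq

variable {N : ℕ} [NeZero N]

theorem aeval_denR (x : FK N K) :
    aeval x (denR hb A hnA K) = aeval x ((denQ hb).map (algebraMap ℚ K)) :=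
  aeval_toO _ _ _ x

theorem aeval_numR (x : FK N K) :
    aeval x (numR hb A hnA K) = aeval x ((numQ hb).map (algebraMap ℚ K)) :=
  aeval_toO _ _ _ x

theorem aeval_denInfR (x : FK N K) :
    aeval x (denInfR hb A hnA K) = aeval x ((denInfQ hb).map (algebraMap ℚ K)) :=
  aeval_toO _ _ _ x

theorem aeval_numInfR (x : FK N K) :
    aeval x (numInfR hb A hnA K) = aeval x ((numInfQ hb).map (algebraMap ℚ K)) :=
  aeval_toO _ _ _ x

variable (τ jK : FK N K) (hτ : (τ : LaurentSeries K) = tq K n e)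
  (hj : (jK : LaurentSeries K) = jqModC K)

include hτ hj

/-- **`hrel0`**. -/
theorem hrel0 : jK * aeval τ (denR hb A hnA K) = aeval τ (numR hb A hnA K) := by
  rw [aeval_denR, aeval_numR]
  exact rel_FK hb K τ jK hτ hj

/-- **`hrel1`**. -/
theorem hrel1 : jK * aeval τ⁻¹ (denInfR hb A hnA K) = aeval τ⁻¹ (numInfR hb A hnA K) := by
  rw [aeval_denInfR, aeval_numInfR]
  exact rel_FK_inf hb K τ jK hτ hj

/-- the denominator does not vanish at `τ` (coprimality). -/
theorem aeval_denQ_ne_zero : aeval τ ((denQ hb).map (algebraMap ℚ K)) ≠ 0 := by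
  intro h0
  obtain ⟨a, b, hab⟩ := isCoprime_numQ_denQ hb
  have h1 := rel_FK hb K τ jK hτ hj
  rw [h0, mul_zero] at h1
  have h2 := congrArg (fun P : ℚ[X] => aeval τ (P.map (algebraMap ℚ K))) hab
  simp only [Polynomial.map_add, Polynomial.map_mul, Polynomial.map_one, map_add, map_mul,
    map_one] at h2
  rw [h0, ← h1, mul_zero, mul_zero, add_zero] at h2
  exact zero_ne_one h2

omit hj in
theorem tau_ne_zero : τ ≠ 0 := by
  intro h0
  have h1 : (tq K n e).coeff (-1) = 1 := coeff_tq_neg_one K n e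
  rw [← hτ, h0] at h1
  simp at h1

/-- **`hE0`**. -/
theorem hE0 : aeval τ (denR hb A hnA K) ≠ 0 := by
  rw [aeval_denR]
  exact aeval_denQ_ne_zero hb K τ jK hτ hj

/-- **`hE1`**. -/
theorem hE1 : aeval τ⁻¹ (denInfR hb A hnA K) ≠ 0 := by
  have hτ0 : τ ≠ 0 := tau_ne_zero K τ hτ
  rw [aeval_denInfR, map_denInfQ, map_mul, aeval_X,
    Fermat.Agent.ES.P36.JDenom16.aeval_inv_reverse' (K := K) hτ0]
  exact mul_ne_zero (inv_ne_zero hτ0)
    (mul_ne_zero (aeval_denQ_ne_zero hb K τ jK hτ hj) (pow_ne_zero _ (inv_ne_zero hτ0)))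

omit hj

variable {q : ℕ} (hcop : Nat.Coprime n q) {π : ↥(AK A K)} (hchar : π ∣ (q : ↥(AK A K)))
  (hnN : n ∣ N)

include hcop hchar hnN

/-- **`hsep0`**. -/
theorem hsep0 : ∀ (A' : ValuationSubring Qbar) (P : Place Qbar (Fbar N)),
    (∀ r : ↥(AK A K), ((algebraMap ↥(AK A K) K r : K) : Qbar) ∈ A') →
    ((algebraMap ↥(AK A K) K π : K) : Qbar) ∈ A'.nonunits → NonCusp A' N P →
    baseChangeHom N K τ ∈ sideRing A' N P →
      (baseChangeHom N K (aeval τ (denR hb A hnA K)))⁻¹ ∈ sideRing A' N P := by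
  intro A' P hR hπ hP _
  rw [aeval_denR]
  exact sepK_zero K hb hnN A' (inv_mem_of_frame A K hcop hchar A' hR hπ) τ hτ P hP

/-- **`hsep1`**. -/
theorem hsep1 : ∀ (A' : ValuationSubring Qbar) (P : Place Qbar (Fbar N)),
    (∀ r : ↥(AK A K), ((algebraMap ↥(AK A K) K r : K) : Qbar) ∈ A') →
    ((algebraMap ↥(AK A K) K π : K) : Qbar) ∈ A'.nonunits → NonCusp A' N P →
    baseChangeHom N K τ⁻¹ ∈ sideRing A' N P →
      (baseChangeHom N K (aeval τ⁻¹ (denInfR hb A hnA K)))⁻¹ ∈ sideRing A' N P := by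
  intro A' P hR hπ hP hτP
  rw [aeval_denInfR]
  exact sepK_inf' hb K hnN A' (inv_mem_of_frame A K hcop hchar A' hR hπ) τ hτ P hP hτP

end Frame

end Fermat.Agent.M1.NRM.CuspSepR16
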