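/-
M1 (S44), chapter NRM, brick EIGEN-NORM-RAT (helper58).

**The `K`-rational form of `Link/EigenNorm88`.**  `K ⊂ ℚ̄` a number field, `D` a divisor of degree `0`
of `K·F_N / K` whose class over `ℚ̄` is a `T_l`-eigenclass (`T_l [D] = a [D]`), `g ∈ K·F_N` with
`div g = m D`.  Then the function `h` of the norm relation

  `N_α (β g) = c • (g ^ a * h ^ m)`

can be taken IN `K·F_N` (only the constant `c` lives in `ℚ̄`): the divisor `T_l D - a D` of `h` is
`Gal(ℚ̄/K)`-stable (`ES/HECKE/HeckeGalois12.correspondence_smul`, `RatClass25.smul_extDiv`), so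
Hilbert 90 at `∞` (`RatMain25.exists_bc_of_stable_div`) applies.

This removes the quantifier problem of NODE-TERM: the relation is available at the SAME field as
`D` and `g` (the frame `π`, `e`, `ThickNodes`, `HasLevel` need not be moved to a larger field).

* `exists_norm_eq_of_div` : over `ℚ̄`, from ANY function `h` with `div h = T_l D - a D`;
* `exists_norm_eq_of_eigen_rat` : the rational form, with the divisor of `h`.
-/
import Mathlib
import Fermat.Agent.M1.Link.EigenNorm88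
import Fermat.Agent.M1.Car.RatMain25
import Fermat.Agent.ES.HECKE.HeckeGalois12

set_option autoImplicit false
set_option synthInstance.maxHeartbeats 400000
set_option linter.style.haveILetI false
set_option linter.unusedSectionVars false

noncomputable section

open HahnSeries ModularCurve AlgebraicCurve

namespace Fermat.Agent.M1.NRM.EigenNormRat58

open Fermat.Agent.X0 Fermat.Agent.ES.HECKE.PointFormula28 Fermat.Agent.RED.Interface4
  Fermat.Agent.RED.DESC Fermat.Agent.M1.Car.Fibre25 Fermat.Agent.M1.Car.FibreEmb25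
  Fermat.Agent.M1.Car.FibreSep25 Fermat.Agent.M1.Car.FibreCount25
  Fermat.Agent.M1.Car.RatClass25 Fermat.Agent.M1.Car.RatMain25
  Fermat.Agent.M1.Link.EigenNorm88

/-- Shortcut to the instance found (slowly) by instance search. -/
local instance (priority := 5000) algKFK58 (M : ℕ) (K : IntermediateField ℚ Qbar) :
    Algebra K (FK M K) := SubalgebraClass.toAlgebra (FK M K)

variable {N : ℕ} [NeZero N]

/-! ### Over `ℚ̄`: the relation from any function with divisor `T_l D - a D` -/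

set_option maxHeartbeats 1600000 in
/-- `div g = m D`, `div h = T_l D - a D` ⟹ `N_α (β g) = c • (g ^ a * h ^ m)`. -/
theorem exists_norm_eq_of_div (l : Nat.Primes) (hlN : ¬ (l : ℕ) ∣ N) (a : ℤ)
    (D : Divisor Kbar (FF N)) {m : ℕ} {g h : FF N} (hg : g ≠ 0) (hh0 : h ≠ 0)
    (hgD : ∀ v : Place Kbar (FF N), (m : ℤ) * D v = v.ord g)
    (hhD : haveI : NeZero (l : ℕ) := ⟨l.2.ne_zero⟩;
      haveI := Fermat.Agent.ES.HECKE.InputsMain19.hasPrincipalDivisors_level N (l : ℕ);
      ∀ v : Place Kbar (FF N),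
        Divisor.correspondence (heckeBetaBar Kbar N (l : ℕ)) (heckeAlphaBar Kbar N (l : ℕ))
          (Fermat.Agent.ES.HECKE.AlongDegree25.heckeBetaBarIntegral Kbar N (l : ℕ) l.2 hlN)
          (Fermat.Agent.ES.HECKE.AlongDegree25.heckeAlphaBarIntegral Kbar N (l : ℕ) l.2 hlN)
          D v - a * D v = v.ord h) :
    ∃ c : Kbar, c ≠ 0 ∧
      (haveI : NeZero (l : ℕ) := ⟨l.2.ne_zero⟩;
        normAlong (heckeAlphaBar Kbar N (l : ℕ)) (heckeBetaBar Kbar N (l : ℕ) g)) =
        c • (g ^ a * h ^ m) := by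
  haveI : NeZero (l : ℕ) := ⟨l.2.ne_zero⟩
  haveI := Fermat.Agent.ES.HECKE.InputsMain19.hasPrincipalDivisors_level N (l : ℕ)
  have hα := Fermat.Agent.ES.HECKE.AlongDegree25.heckeAlphaBarIntegral Kbar N (l : ℕ) l.2 hlN
  have hβ := Fermat.Agent.ES.HECKE.AlongDegree25.heckeBetaBarIntegral Kbar N (l : ℕ) l.2 hlN
  have hfin := Fermat.Agent.ES.HECKE.AlongDegree25.finiteAlong_alpha Kbar N (l : ℕ) l.2 hlN
  have hN := Fermat.Agent.ES.HECKE.InputsFinal15.normFormulaAlong_alpha N (l : ℕ) l.2 hlN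
  have hmD : ∀ w : Place Kbar (FF N), (m • D) w = w.ord g := by
    intro w
    rw [← hgD w]
    simp
  set Ng : FF N := normAlong (heckeAlphaBar Kbar N (l : ℕ)) (heckeBetaBar Kbar N (l : ℕ) g)
    with hNgdef
  have hord : ∀ v : Place Kbar (FF N),
      v.ord Ng = a * v.ord g + (m : ℤ) * v.ord h := by
    intro v
    rw [hNgdef, ← correspondence_eq_ord_norm (heckeBetaBar Kbar N (l : ℕ))
      (heckeAlphaBar Kbar N (l : ℕ)) hβ hα hfin hN hg hmD v, map_nsmul, ← hhD v, ← hgD v]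
    simp only [Finsupp.smul_apply, nsmul_eq_mul]
    ring
  have hNg0 : Ng ≠ 0 := by
    letI := algebraAlong (heckeAlphaBar Kbar N (l : ℕ))
    haveI : Module.Finite (FF N) (FF (N * (l : ℕ))) := hfin
    have hβg : heckeBetaBar Kbar N (l : ℕ) g ≠ 0 := by
      rw [Ne, map_eq_zero_iff (heckeBetaBar Kbar N (l : ℕ))
        (heckeBetaBar Kbar N (l : ℕ)).toRingHom.injective]
      exact hg
    show Algebra.norm (FF N) (heckeBetaBar Kbar N (l : ℕ) g) ≠ 0
    exact Algebra.norm_ne_zero_iff.mpr hβg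
  have hga0 : g ^ a ≠ 0 := zpow_ne_zero a hg
  have hhm0 : h ^ m ≠ 0 := pow_ne_zero m hh0
  have hden0 : g ^ a * h ^ m ≠ 0 := mul_ne_zero hga0 hhm0
  obtain ⟨c, hc0, hc⟩ := exists_const_of_ord_eq_zero (x := Ng / (g ^ a * h ^ m))
    (div_ne_zero hNg0 hden0) (fun v => by
      rw [div_eq_mul_inv, v.ord_mul hNg0 (inv_ne_zero hden0), v.ord_inv, hord v,
        v.ord_mul hga0 hhm0, v.ord_zpow, ← zpow_natCast h m, v.ord_zpow]
      ring)
  refine ⟨c, hc0, ?_⟩
  rw [Algebra.smul_def, ← hc, div_mul_cancel₀ _ hden0]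

/-! ### The rational form -/

variable (N) (K : IntermediateField ℚ Qbar) [FiniteDimensional ℚ K]

set_option maxHeartbeats 1600000 in
/-- **EIGEN-NORM-RAT.**  `T_l [D] = a [D]` over `ℚ̄`, `div g = m D` over `K` ⟹
`N_α (β g) = c • (g ^ a * h ^ m)` with `h ∈ K·F_N`, `div h = T_l D - a D`. -/
theorem exists_norm_eq_of_eigen_rat (l : Nat.Primes) (hlN : ¬ (l : ℕ) ∣ N) (a : ℤ)
    (D : Divisor.degZero (K := K) (F := FK N K))
    (heig : heckeOperatorBar N l (bcPic0 N K (Pic0.mk D)) = a • bcPic0 N K (Pic0.mk D))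
    {m : ℕ} {g : FK N K} (hg : g ≠ 0)
    (hgD : ∀ w : Place K (FK N K), (m • (D : Divisor K (FK N K))) w = w.ord g) :
    ∃ (c : Qbar) (h : FK N K), c ≠ 0 ∧ h ≠ 0 ∧
      (haveI : NeZero (l : ℕ) := ⟨l.2.ne_zero⟩;
        normAlong (heckeAlphaBar Qbar N (l : ℕ)) (heckeBetaBar Qbar N (l : ℕ) (bc N K g))) =
        c • (bc N K g ^ a * bc N K h ^ m) ∧
      (haveI : NeZero (l : ℕ) := ⟨l.2.ne_zero⟩;
        haveI := Fermat.Agent.ES.HECKE.InputsMain19.hasPrincipalDivisors_level N (l : ℕ);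
        ∀ P : Place Qbar (Fbar N),
          P.ord (bc N K h) =
            heckeDivBar (N := N) (ℓ := (l : ℕ))
              (Fermat.Agent.ES.HECKE.AlongDegree25.heckeAlphaBarIntegral Qbar N (l : ℕ) l.2 hlN)
              (Fermat.Agent.ES.HECKE.AlongDegree25.heckeBetaBarIntegral Qbar N (l : ℕ) l.2 hlN)
              (extDiv N K (D : Divisor K (FK N K))) P -
            a * extDiv N K (D : Divisor K (FK N K)) P) := by
  haveI : NeZero (l : ℕ) := ⟨l.2.ne_zero⟩
  haveI := Fermat.Agent.ES.HECKE.InputsMain19.hasPrincipalDivisors_level N (l : ℕ)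
  have hα := Fermat.Agent.ES.HECKE.AlongDegree25.heckeAlphaBarIntegral Kbar N (l : ℕ) l.2 hlN
  have hβ := Fermat.Agent.ES.HECKE.AlongDegree25.heckeBetaBarIntegral Kbar N (l : ℕ) l.2 hlN
  have hfin := Fermat.Agent.ES.HECKE.AlongDegree25.finiteAlong_alpha Kbar N (l : ℕ) l.2 hlN
  have hFI := Fermat.Agent.ES.HECKE.InputsMain19.fundamentalIdentityAlong_beta N (l : ℕ) l.2 hlN
  have hN := Fermat.Agent.ES.HECKE.InputsFinal15.normFormulaAlong_alpha N (l : ℕ) l.2 hlN
  -- the divisor over `ℚ̄`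
  set Dbar : Divisor.degZero (K := Qbar) (F := Fbar N) := extDivZero N K D with hDbar
  have hDbar_coe : (Dbar : Divisor Qbar (Fbar N)) = extDiv N K (D : Divisor K (FK N K)) := rfl
  rw [bcPic0_mk, heckeOperatorBar_mk l hα hβ hFI hfin hN Dbar] at heig
  -- `T_l D - a • D = div h̄`
  have h1 : Pic0.mk (Pic0.degZeroCorrespondence (heckeBetaBar Kbar N (l : ℕ))
      (heckeAlphaBar Kbar N (l : ℕ)) hβ hα hFI Dbar - a • Dbar) = 0 := by
    have : Pic0.mk (Pic0.degZeroCorrespondence (heckeBetaBar Kbar N (l : ℕ))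
        (heckeAlphaBar Kbar N (l : ℕ)) hβ hα hFI Dbar - a • Dbar) =
        Pic0.mk (Pic0.degZeroCorrespondence (heckeBetaBar Kbar N (l : ℕ))
          (heckeAlphaBar Kbar N (l : ℕ)) hβ hα hFI Dbar) - a • Pic0.mk Dbar := rfl
    rw [this, heig, sub_self]
  have h2 := (QuotientAddGroup.eq_zero_iff _).mp h1
  rw [AddSubgroup.mem_addSubgroupOf] at h2
  obtain ⟨hbar, hhbar0, hhbarD⟩ := h2
  have hhD' : ∀ v : Place Kbar (FF N),
      Divisor.correspondence (heckeBetaBar Kbar N (l : ℕ)) (heckeAlphaBar Kbar N (l : ℕ)) hβ hα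
        (Dbar : Divisor Kbar (FF N)) v - a * (Dbar : Divisor Kbar (FF N)) v = v.ord hbar := by
    intro v
    have h3 := hhbarD v
    simp only [AddSubgroup.coe_sub, AddSubgroup.coe_zsmul, Finsupp.sub_apply, Finsupp.smul_apply,
      smul_eq_mul] at h3
    exact h3
  -- the divisor of `h̄` is `Gal(ℚ̄/K)`-stable
  have hstab : ∀ σ : Qbar ≃ₐ[ℚ] Qbar, (∀ x ∈ K, σ x = x) →
      ∀ P : Place Qbar (Fbar N), P.ord (galBar N σ • hbar) = P.ord hbar := by
    intro σ hσ P
    have e1 := SemilinearAut.ord_smul (galBar N σ) ((galBar N σ)⁻¹ • P) hbar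
    rw [smul_inv_smul] at e1
    have e2 : Divisor.correspondence (heckeBetaBar Kbar N (l : ℕ)) (heckeAlphaBar Kbar N (l : ℕ))
        hβ hα (galBar N σ • (Dbar : Divisor Kbar (FF N))) =
        galBar N σ • Divisor.correspondence (heckeBetaBar Kbar N (l : ℕ))
          (heckeAlphaBar Kbar N (l : ℕ)) hβ hα (Dbar : Divisor Kbar (FF N)) :=
      Fermat.Agent.ES.HECKE.HeckeGalois12.correspondence_smul (heckeBetaBar Kbar N (l : ℕ))
        (heckeAlphaBar Kbar N (l : ℕ)) hβ hα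
        (arithmeticGalois (modularFunctionFieldFull N) σ)
        (arithmeticGalois (modularFunctionFieldFull (N * (l : ℕ))) σ)
        (Fermat.Agent.ES.HECKE.HeckeGalois12.heckeBetaBar_smul N (l : ℕ) σ)
        (Fermat.Agent.ES.HECKE.HeckeGalois12.heckeAlphaBar_smul N (l : ℕ) σ)
        (fun w => Fermat.Agent.ES.HECKE.FundId12.inertiaDegAlong_eq_one
          (heckeAlphaBar Kbar N (l : ℕ)) hα hfin (Fermat.Agent.RED.TOP.FbarFacts20.isGen_j N) w)
        (Dbar : Divisor Kbar (FF N))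
    have e3 : galBar N σ • (Dbar : Divisor Kbar (FF N)) = (Dbar : Divisor Kbar (FF N)) := by
      rw [hDbar_coe]
      exact smul_extDiv N K σ hσ _
    rw [e3] at e2
    rw [e1, ← hhD' ((galBar N σ)⁻¹ • P), ← hhD' P, ← SemilinearAut.divisor_smul_apply,
      ← SemilinearAut.divisor_smul_apply, ← e2, e3]
  -- Hilbert 90 at `∞`
  obtain ⟨h, hh0, hhord⟩ := exists_bc_of_stable_div N K hhbar0 hstab
  have hbch0 : bc N K h ≠ 0 := bc_ne_zero N K hh0
  have hbcg0 : bc N K g ≠ 0 := bc_ne_zero N K hg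
  have hgD' : ∀ v : Place Kbar (FF N), (m : ℤ) * (Dbar : Divisor Kbar (FF N)) v =
      v.ord (bc N K g) := by
    intro v
    have := extDiv_eq_ord N K hgD v
    rw [map_nsmul] at this
    rw [← this, hDbar_coe]
    simp
  have hhD'' : ∀ v : Place Kbar (FF N),
      Divisor.correspondence (heckeBetaBar Kbar N (l : ℕ)) (heckeAlphaBar Kbar N (l : ℕ)) hβ hα
        (Dbar : Divisor Kbar (FF N)) v - a * (Dbar : Divisor Kbar (FF N)) v =
      v.ord (bc N K h) := by
    intro v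
    rw [hhD' v, hhord v]
  obtain ⟨c, hc0, hc⟩ := exists_norm_eq_of_div l hlN a (Dbar : Divisor Kbar (FF N)) hbcg0 hbch0
    hgD' hhD''
  exact ⟨c, h, hc0, hh0, hc, fun P => (hhD'' P).symm⟩

end Fermat.Agent.M1.NRM.EigenNormRat58
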