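/-
M1 (S44), chapter NRM / EIS (helper18): **the Eisenstein step on bidegrees.**

`T_ℓ` multiplies the degree of each side of a divisor by `ℓ + 1 = [Fbar_{Mℓ} : β Fbar_M]`:

* `degree_part_ordInf_heckeDivBar`, `degree_part_ordZero_heckeDivBar` :
  `deg (T_ℓ D)_∞ = [β] · deg D_∞`, `deg (T_ℓ D)_0 = [β] · deg D_0`;
* `degree_part_eta_ordInf`, `degree_part_eta_ordZero` : hence `η_ℓ D := T_ℓ D - [β] • D` has
  bidegree `(0, 0)`;
* `isOrd_heckeDivBar` : `T_ℓ` maps divisors supported on `OrdInf ∪ OrdZero` places to such divisors.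

So if `v = [D]` with `D` ORD and `T_ℓ v = a • v`, then `(a - ℓ - 1) • v = [η_ℓ D]` has an ORD
representative of bidegree `(0,0)`, i.e. lies in `J^0`; for `p ∤ a - ℓ - 1` and `p • v = 0` this
puts `v` itself in `J^0` (no cuspidal class is needed).
-/
import Mathlib
import Fermat.Agent.M1.NRM.Side18

set_option autoImplicit false
set_option linter.unusedSectionVars false
set_option synthInstance.maxHeartbeats 400000

noncomputable section

namespace Fermat.Agent.M1.NRM.Eis18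

open ModularCurve AlgebraicCurve
open Fermat.Agent.X0 Fermat.Agent.X0.Analytic
open Fermat.Agent.M1.NRM.SidePart18 Fermat.Agent.M1.NRM.Side18

variable (A : ValuationSubring Kbar) (p : ℕ) [NeZero p] {M : ℕ} [NeZero M] (ℓ : ℕ) [NeZero ℓ]
variable (hα : (heckeAlphaBar Kbar M ℓ).toRingHom.IsIntegral)
  (hβ : (heckeBetaBar Kbar M ℓ).toRingHom.IsIntegral)
variable [HasPrincipalDivisors Kbar (FF (M * ℓ))]

/-- `deg (T_ℓ D)_∞ = [β] · deg D_∞`. -/
theorem degree_part_ordInf_heckeDivBar (hℓ : ℓ.Prime) (hℓA : ((ℓ : Kbar))⁻¹ ∈ A) (hpM : p ∣ M)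
    (hFI : FundamentalIdentityAlong Kbar (heckeBetaBar Kbar M ℓ) hβ) (D : Divisor Kbar (FF M)) :
    Divisor.degree (part (OrdInf A p M hpM) (heckeDivBar (N := M) (ℓ := ℓ) hα hβ D)) =
      (finrankAlong Kbar (heckeBetaBar Kbar M ℓ) : ℤ) *
        Divisor.degree (part (OrdInf A p M hpM) D) := by
  rw [← heckeDivBar_part_ordInf A p ℓ hα hβ hℓ hℓA hpM D]
  exact Divisor.degree_correspondence _ _ _ _ hFI _

/-- `deg (T_ℓ D)_0 = [β] · deg D_0`. -/
theorem degree_part_ordZero_heckeDivBar (hℓ : ℓ.Prime) (hℓA : ((ℓ : Kbar))⁻¹ ∈ A) (hpM : p ∣ M)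
    (hFI : FundamentalIdentityAlong Kbar (heckeBetaBar Kbar M ℓ) hβ) (D : Divisor Kbar (FF M)) :
    Divisor.degree (part (OrdZero A p M hpM) (heckeDivBar (N := M) (ℓ := ℓ) hα hβ D)) =
      (finrankAlong Kbar (heckeBetaBar Kbar M ℓ) : ℤ) *
        Divisor.degree (part (OrdZero A p M hpM) D) := by
  rw [← heckeDivBar_part_ordZero A p ℓ hα hβ hℓ hℓA hpM D]
  exact Divisor.degree_correspondence _ _ _ _ hFI _

/-- `η_ℓ D = T_ℓ D - [β] • D` has `∞`-degree `0`. -/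
theorem degree_part_eta_ordInf (hℓ : ℓ.Prime) (hℓA : ((ℓ : Kbar))⁻¹ ∈ A) (hpM : p ∣ M)
    (hFI : FundamentalIdentityAlong Kbar (heckeBetaBar Kbar M ℓ) hβ) (D : Divisor Kbar (FF M)) :
    Divisor.degree (part (OrdInf A p M hpM)
      (heckeDivBar (N := M) (ℓ := ℓ) hα hβ D -
        (finrankAlong Kbar (heckeBetaBar Kbar M ℓ) : ℤ) • D)) = 0 := by
  rw [map_sub, map_sub, map_zsmul, map_zsmul,
    degree_part_ordInf_heckeDivBar A p ℓ hα hβ hℓ hℓA hpM hFI D, smul_eq_mul, sub_self]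

/-- `η_ℓ D = T_ℓ D - [β] • D` has `0`-degree `0`. -/
theorem degree_part_eta_ordZero (hℓ : ℓ.Prime) (hℓA : ((ℓ : Kbar))⁻¹ ∈ A) (hpM : p ∣ M)
    (hFI : FundamentalIdentityAlong Kbar (heckeBetaBar Kbar M ℓ) hβ) (D : Divisor Kbar (FF M)) :
    Divisor.degree (part (OrdZero A p M hpM)
      (heckeDivBar (N := M) (ℓ := ℓ) hα hβ D -
        (finrankAlong Kbar (heckeBetaBar Kbar M ℓ) : ℤ) • D)) = 0 := by
  rw [map_sub, map_sub, map_zsmul, map_zsmul,
    degree_part_ordZero_heckeDivBar A p ℓ hα hβ hℓ hℓA hpM hFI D, smul_eq_mul, sub_self]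

/-- `T_ℓ` preserves the divisors all of whose points are ordinary (on one of the two sides). -/
theorem isOrd_heckeDivBar (hℓ : ℓ.Prime) (hℓA : ((ℓ : Kbar))⁻¹ ∈ A) (hpM : p ∣ M)
    (D : Divisor Kbar (FF M))
    (hD : ∀ v ∈ D.support, OrdInf A p M hpM v ∨ OrdZero A p M hpM v) :
    ∀ v ∈ (heckeDivBar (N := M) (ℓ := ℓ) hα hβ D).support,
      OrdInf A p M hpM v ∨ OrdZero A p M hpM v := by
  intro v hv
  obtain ⟨w, hwv, hwD⟩ := exists_of_mem_support_correspondence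
    (heckeBetaBar Kbar M ℓ) (heckeAlphaBar Kbar M ℓ) hβ hα D hv
  rw [← hwv]
  rcases hD _ hwD with h | h
  · exact Or.inl ((ordInf_alpha_iff_beta A p ℓ hα hβ hℓ hℓA hpM w).mpr h)
  · exact Or.inr ((ordZero_alpha_iff_beta A p ℓ hα hβ hℓ hℓA hpM w).mpr h)

end Fermat.Agent.M1.NRM.Eis18
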