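/-
M1 (S44), chapter NRM / brick (U2-F) (helper16): **the Fricke transform of the modular unit
`u_p = Δ(q^p)/Δ(q)` and its membership in the two Gauss valuation rings of the nodal model.**

* `tauS_uF_of_eq`  : for `p * k = N`, the Fricke expansion (`tauS N = (cuspData N).T S`) of
  `u_p ∈ Fbar_N` is `p⁻¹² · (Δ(q)/Δ(q^p))(q^k)`, i.e. `C (p⁻¹ ^ 12) * qExpand Kbar k (uqInv p Kbar)`;
* `tauS_uF`, `tauS_uF_div`, `coe_frickeBar_uF`, `coe_frickeBar_uF_div` : the forms at level `M' * p`,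
  at level `N` with `N / p`, and for `frickeBar`;
* `iotaTwo_of_coe_eq_uq` : the same over a number field `K ⊂ ℚbar` (for `FrickeFK8.iotaTwo`);
* `mem_O1`, `inv_mem_O1`, `mul_mem_O2`, `mul_inv_mem_O2`, **`unit_facts`** : in the frame of
  `ModelDefs9` (level `M' * q`), the element `u` with `q`-expansion `uq K q` satisfies
  `u ∈ O1 ∧ u⁻¹ ∈ O1 ∧ q¹² u ∈ O2 ∧ (q¹² u)⁻¹ ∈ O2`.
-/
import Mathlib
import Fermat.Agent.M1.NRM.Side18
import Fermat.Agent.ES.N34.ModelDefs9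
import Fermat.Agent.RED.BASE.DeltaMem19
import Fermat.Agent.RED.BASE.QExpMem19
import Fermat.Agent.IG.AN.DeltaQuotExp19
import Fermat.Agent.RED.PUR.GaussGen8

set_option autoImplicit false
set_option linter.unusedSectionVars false

noncomputable section

namespace Fermat.Agent.M1.NRM.FrickeUnit16

open ModularCurve UpperHalfPlane
open Fermat.Agent.X0 Fermat.Agent.X0.Analytic
open Fermat.Agent.IG.PR.Interface20
open Fermat.Agent.RED.LVL.FrickeExp17

/-! ### the Fricke expansion of `u_p` over `ℚbar` -/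

section Bar

open Fermat.Agent.IG.AN.DeltaQuot19 Fermat.Agent.RED.BASE.QExpMem19
  Fermat.Agent.RED.BASE.DeltaMem19 Fermat.Agent.M1.NRM.Side18

/-- `z ↦ (p k) z` is `z ↦ p (k z)`. -/
theorem scaleH_mul_eq (p k : ℕ) [NeZero p] [NeZero k] [NeZero (p * k)] (z : ℍ) :
    scaleH (p * k) z = scaleH p (scaleH k z) :=
  scaleH_mul p k z

/-- the series `p⁻¹² Δ(q)/Δ(q^p)` of `DeltaQuotExp19.expansion_S` in terms of `uqInv`. -/
theorem expansionS_series_eq (p : ℕ) [NeZero p] :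
    (HahnSeries.C (((p : Kbar)⁻¹) ^ 12) *
        coeffMap (Int.castRingHom Kbar) (deltaq ℤ * qExpand ℤ p (deltaqInv ℤ)) :
          LaurentSeries Kbar) =
      HahnSeries.C (((p : Kbar)⁻¹) ^ 12) * uqInv p Kbar := by
  have h : deltaq ℤ * qExpand ℤ p (deltaqInv ℤ) = uqInv p ℤ := rfl
  rw [h, coeffMap_uqInv]

/-- **(F)**: the Fricke expansion of `u_p` at level `N = p k`. -/
theorem tauS_uF_of_eq (p k N : ℕ) [NeZero p] [NeZero k] [NeZero N] (hk : p * k = N)
    (hpN : p ∣ N) :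
    tauS N (uF p N hpN) =
      HahnSeries.C (((p : Kbar)⁻¹) ^ 12) * qExpand Kbar k (uqInv p Kbar) := by
  subst hk
  have hnice : IsNice (p * k) (uq Kbar p) (deltaQuot p) :=
    isNice_of_dvd hpN (isNice_deltaQuot p)
  have h0 := Fermat.Agent.IG.AN.DeltaQuotExp19.expansion_S p
  rw [expansionS_series_eq] at h0
  have h1 : HasQExp (qExpand ℂ k (toC (HahnSeries.C (((p : Kbar)⁻¹) ^ 12) * uqInv p Kbar)))
      (fun z => compSL (deltaQuot p) ModularGroup.S (scaleH p (scaleH k z))) :=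
    HasQExp.qExpand h0 k
  have h2 : IntgQN (p * k) (compSL (deltaQuot p) ModularGroup.S)
      (toC (qExpand Kbar k (HahnSeries.C (((p : Kbar)⁻¹) ^ 12) * uqInv p Kbar))) := by
    have e1 : toC (qExpand Kbar k (HahnSeries.C (((p : Kbar)⁻¹) ^ 12) * uqInv p Kbar)) =
        qExpand ℂ k (toC (HahnSeries.C (((p : Kbar)⁻¹) ^ 12) * uqInv p Kbar)) := by
      rw [toC, ModularCurve.coeffMap_qExpand]
    have e2 : (fun z => compSL (deltaQuot p) ModularGroup.S (scaleH (p * k) z)) =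
        fun z => compSL (deltaQuot p) ModularGroup.S (scaleH p (scaleH k z)) := by
      funext z
      rw [scaleH_mul_eq]
    show HasQExp _ (fun z => compSL (deltaQuot p) ModularGroup.S (scaleH (p * k) z))
    rw [e1, e2]
    exact h1
  have h3 := T_eq_of_isNice hnice ModularGroup.S _ h2
  have h4 : (⟨uq Kbar p, mem_of_isNice hnice⟩ : FF (p * k)) = uF p (p * k) hpN := rfl
  rw [h4] at h3
  rw [show tauS (p * k) = (cuspData (p * k)).T ModularGroup.S from rfl, h3, map_mul, qExpand_C]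

/-- **(F)** at level `M' * p`. -/
theorem tauS_uF (p M' : ℕ) [NeZero p] [NeZero M'] [NeZero (M' * p)] :
    tauS (M' * p) (uF p (M' * p) (dvd_mul_left p M')) =
      HahnSeries.C (((p : Kbar)⁻¹) ^ 12) * qExpand Kbar M' (uqInv p Kbar) :=
  tauS_uF_of_eq p M' (M' * p) (mul_comm p M') _

/-- **(F)** at level `N`, `p ∣ N`, with `N / p`. -/
theorem tauS_uF_div (p N : ℕ) [NeZero p] [NeZero N] (hpN : p ∣ N) [NeZero (N / p)] :
    tauS N (uF p N hpN) =
      HahnSeries.C (((p : Kbar)⁻¹) ^ 12) * qExpand Kbar (N / p) (uqInv p Kbar) :=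
  tauS_uF_of_eq p (N / p) N (Nat.mul_div_cancel' hpN) hpN

open Fermat.Agent.ES.N34.FrickeFK8 in
/-- **(F)** for `frickeBar`, level `M' * p`. -/
theorem coe_frickeBar_uF (p M' : ℕ) [NeZero p] [NeZero M'] [NeZero (M' * p)] :
    ((frickeBar (M' * p) (uF p (M' * p) (dvd_mul_left p M')) : FF (M' * p)) :
        LaurentSeries Kbar) =
      HahnSeries.C (((p : Kbar)⁻¹) ^ 12) * qExpand Kbar M' (uqInv p Kbar) := by
  rw [coe_frickeBar, tauS_uF]

open Fermat.Agent.ES.N34.FrickeFK8 in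
/-- **(F)** for `frickeBar`, level `N`, `p ∣ N`, with `N / p` (helper18's literal form). -/
theorem coe_frickeBar_uF_div (p N : ℕ) [NeZero p] [NeZero N] (hpN : p ∣ N) [NeZero (N / p)] :
    ((frickeBar N (uF p N hpN) : FF N) : LaurentSeries Kbar) =
      HahnSeries.C (((p : Kbar)⁻¹) ^ 12) * qExpand Kbar (N / p) (uqInv p Kbar) := by
  rw [coe_frickeBar, tauS_uF_div]

end Bar

/-! ### over a number field -/

section NumberField

open Fermat.Agent.RED.Interface4 Fermat.Agent.RED.DESC.PlaceExtend27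
  Fermat.Agent.ES.N34.FrickeFK8 Fermat.Agent.RED.BASE.DeltaMem19 Fermat.Agent.M1.NRM.Side18
  Fermat.Agent.IG.AN.DeltaQuotExp19

variable (K : IntermediateField ℚ Qbar)

/-- an element of `FK N K` with `q`-expansion `uq K p` base-changes to `u_p ∈ Fbar_N`. -/
theorem baseChangeHom_eq_uF (p N : ℕ) [NeZero p] [NeZero N] (hpN : p ∣ N) {u : FK N K}
    (hu : (u : LaurentSeries K) = uq K p) : baseChangeHom N K u = uF p N hpN := by
  apply Subtype.ext
  rw [coe_baseChangeHom, hu, coeffMap_uq]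
  rfl

theorem coeffMap_HahnC {R S : Type*} [CommRing R] [CommRing S] (f : R →+* S) (r : R) :
    coeffMap f (HahnSeries.C r) = HahnSeries.C (f r) :=
  Fermat.Agent.RED.PUR.GaussGen8.coeffMap_C f r

/-- **(F) over `K`**: the expansion at the cusp `0` of `u_p`. -/
theorem iotaTwo_of_coe_eq_uq (p k N : ℕ) [NeZero p] [NeZero k] [NeZero N] (hk : p * k = N)
    {u : FK N K} (hu : (u : LaurentSeries K) = uq K p) :
    iotaTwo N K u = HahnSeries.C (((p : K)⁻¹) ^ 12) * qExpand K k (uqInv p K) := by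
  have hpN : p ∣ N := ⟨k, hk.symm⟩
  have hc : (algebraMap K Qbar) (((p : K)⁻¹) ^ 12) = ((p : Kbar)⁻¹) ^ 12 := by
    rw [map_pow, map_inv₀, map_natCast]
  apply Fermat.Agent.RED.DESC.CoeffDescent1.coeffMap_injective (algebraMap K Qbar)
  rw [coeffMap_iotaTwo, baseChangeHom_eq_uF K p N hpN hu, tauS_uF_of_eq p k N hk hpN, map_mul,
    coeffMap_HahnC, ModularCurve.coeffMap_qExpand, coeffMap_uqInv, hc]

end NumberField

/-! ### the unit facts in the frame of `ModelDefs9` -/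

section Frame

open Fermat.Agent.RED.Interface4 Fermat.Agent.RED.PUR.GaussGen8 Fermat.Agent.ES.N34.FrickeFK8
  Fermat.Agent.ES.N34.ModelDefs9 Fermat.Agent.RED.BASE.DeltaMem19
  Fermat.Agent.IG.AN.DeltaQuotExp19

variable {A : ValuationSubring Qbar} {K : IntermediateField ℚ Qbar} (M' q : ℕ) [NeZero M']
  [NeZero q] [NeZero (M' * q)]

theorem uq_mem_gaussRing : uq (↥K) q ∈ gaussRing (AK A K) := by
  have h : uq (↥K) q = embK (AK A K) (uq (↥(AK A K)) q) := by
    rw [embK, coeffMap_uq]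
  rw [h]
  exact embK_mem _ _

theorem uqInv_mem_gaussRing : uqInv q (↥K) ∈ gaussRing (AK A K) := by
  have h : uqInv q (↥K) = embK (AK A K) (uqInv q (↥(AK A K))) := by
    rw [embK, coeffMap_uqInv]
  rw [h]
  exact embK_mem _ _

theorem qExpand_uq_mem_gaussRing : qExpand (↥K) M' (uq (↥K) q) ∈ gaussRing (AK A K) := by
  have h : qExpand (↥K) M' (uq (↥K) q) =
      embK (AK A K) (qExpand (↥(AK A K)) M' (uq (↥(AK A K)) q)) := by
    rw [embK, ModularCurve.coeffMap_qExpand, coeffMap_uq]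
  rw [h]
  exact embK_mem _ _

theorem qExpand_uqInv_mem_gaussRing : qExpand (↥K) M' (uqInv q (↥K)) ∈ gaussRing (AK A K) := by
  have h : qExpand (↥K) M' (uqInv q (↥K)) =
      embK (AK A K) (qExpand (↥(AK A K)) M' (uqInv q (↥(AK A K)))) := by
    rw [embK, ModularCurve.coeffMap_qExpand, coeffMap_uqInv]
  rw [h]
  exact embK_mem _ _

theorem inv_uq_eq (R : Type*) [Field R] : (uq R q)⁻¹ = uqInv q R :=
  (eq_inv_of_mul_eq_one_left (uqInv_mul_uq q R)).symm

variable {π : ↥(AK A K)} (hπ : IsUnif (AK A K) π) (hE : FK (M' * q) K ≤ fracField (AK A K))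
  {u : FK (M' * q) K} (hu : (u : LaurentSeries K) = uq K q)

include hu

/-- `u_q ∈ O1`. -/
theorem mem_O1 : u ∈ O1 M' q hπ hE := by
  rw [mem_O1_iff, hu]
  exact uq_mem_gaussRing q

/-- `u_q⁻¹ ∈ O1`. -/
theorem inv_mem_O1 : u⁻¹ ∈ O1 M' q hπ hE := by
  rw [mem_O1_iff]
  have h : ((u⁻¹ : FK (M' * q) K) : LaurentSeries K) = (u : LaurentSeries K)⁻¹ := rfl
  rw [h, hu, inv_uq_eq]
  exact uqInv_mem_gaussRing q

/-- the expansion at the cusp `0` of `q¹² u_q`. -/
theorem iota2_mul : iota2 K M' q ((q : FK (M' * q) K) ^ 12 * u) =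
    qExpand (↥K) M' (uqInv q (↥K)) := by
  have hq0 : (q : K) ≠ 0 := by exact_mod_cast NeZero.ne q
  have h1 : iota2 K M' q u =
      HahnSeries.C (((q : K)⁻¹) ^ 12) * qExpand (↥K) M' (uqInv q (↥K)) :=
    iotaTwo_of_coe_eq_uq K q M' (M' * q) (mul_comm q M') hu
  have h2 : iota2 K M' q (q : FK (M' * q) K) = HahnSeries.C (q : K) := by
    rw [map_natCast, ← map_natCast (HahnSeries.C : K →+* LaurentSeries K)]
  rw [map_mul, map_pow, h2, h1, ← map_pow, ← mul_assoc, ← map_mul, ← mul_pow,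
    mul_inv_cancel₀ hq0, one_pow, map_one, one_mul]

/-- `q¹² u_q ∈ O2`. -/
theorem mul_mem_O2 : (q : FK (M' * q) K) ^ 12 * u ∈ O2 M' q hπ hE := by
  rw [mem_O2_iff, iota2_mul M' q hu]
  exact qExpand_uqInv_mem_gaussRing M' q

/-- `(q¹² u_q)⁻¹ ∈ O2`. -/
theorem mul_inv_mem_O2 : ((q : FK (M' * q) K) ^ 12 * u)⁻¹ ∈ O2 M' q hπ hE := by
  rw [mem_O2_iff, map_inv₀, iota2_mul M' q hu, ← map_inv₀, ← inv_uq_eq, inv_inv]
  exact qExpand_uq_mem_gaussRing M' q

/-- **(U2-F), K-level consequence**: `u_q` is a unit of `O1` and `q¹² u_q` is a unit of `O2`. -/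
theorem unit_facts :
    u ∈ O1 M' q hπ hE ∧ u⁻¹ ∈ O1 M' q hπ hE ∧
      (q : FK (M' * q) K) ^ 12 * u ∈ O2 M' q hπ hE ∧
      ((q : FK (M' * q) K) ^ 12 * u)⁻¹ ∈ O2 M' q hπ hE :=
  ⟨mem_O1 M' q hπ hE hu, inv_mem_O1 M' q hπ hE hu, mul_mem_O2 M' q hπ hE hu,
    mul_inv_mem_O2 M' q hπ hE hu⟩

end Frame

end Fermat.Agent.M1.NRM.FrickeUnit16
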