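/-
M1 (S44) / ORD (S33), chapter NRM/HK (helper70, second seat of helper88's claim): **the abstract
assembly of `PushReg88.PushData`** for one degeneracy map `E → F` (the `Algebra E F` structure).

Inputs:
* the SMOOTH lower two-chart model `M : CoreIface24.TwoChartModel R K E π t C0 C1 O'` (Program H at
  the good level) and `arch` for its Gauss ring: they give the Hartogs fields `glob0`, `glob1`
  (`LocFrameInst53.glob_of_chart` with `O1 = O2 := O'`);
* the upper charts are integral over the images of the lower charts (`hint0`, `hint1`): they give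
  `over0`, `over1` (`PushReg88.over_of_isIntegralElem`);
* the norm formula `Divisor.PushforwardNormFormula K E F`;
* the push-forward of `D` is principal (`hprin`, the shape of helper51's
  `pushforwardAlong_alpha_mem_principal`): normalising the function by a power of `π` (a constant:
  order `0` at every place) gives `f` with `f, f⁻¹ ∈ O'` and `N_* D = - div f`.

Output: `pushData_of_model : ∃ f, PushData C0 C1 O' B0 B1 D f`.
-/
import Mathlib
import Fermat.Agent.RED.CORE.CoreIface24
import Fermat.Agent.X0.FFDict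
import Fermat.Agent.M1.Car.LocFrameInst53
import Fermat.Agent.M1.NRM.PushReg88

set_option autoImplicit false
set_option linter.unusedSectionVars false

namespace Fermat.Agent.M1.NRM.PushAbs70

open AlgebraicCurve
open Fermat.Agent.RED.CORE.CoreIface24 Fermat.Agent.M1.NRM.TraceGauss88
  Fermat.Agent.M1.Car.AdelicToCech43 Fermat.Agent.M1.NRM.PushReg88

/-! ### Hartogs on the charts of a smooth two-chart model -/

section Glob

variable {R K E : Type*} [CommRing R] [Field K] [Field E] [Algebra R K] [Algebra K E]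
  [Algebra R E] [IsScalarTower R K E]
variable {π : R} {t : E} {C0 C1 : Subalgebra R E} {O' : ValuationSubring E}

/-- field `glob0` of `PushData`. -/
theorem glob0_of_model (M : TwoChartModel R K E π t C0 C1 O')
    (harch : ∀ x : E, ∃ k : ℕ, algebraMap R E π ^ k * x ∈ O') :
    ∀ x : E, x ∈ O' → (∀ v' : Place K E, Over C0 v' → x ≠ 0 → 0 ≤ v'.ord x) → x ∈ C0 :=
  fun x hx h =>
    Fermat.Agent.M1.Car.LocFrameInst53.glob_of_chart (K := K) π t C0 O' O' M.t_mem M.noeth0
      M.fracR M.dvrR M.pi_ne M.intcl0 M.int0 M.frac0 M.le_Ov0 M.le_Ov0 harch harch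
      (fun b hb c hc _ hbc => M.sat0 b hb c hc hbc) M.pi_nonunit x hx hx h

/-- field `glob1` of `PushData`. -/
theorem glob1_of_model (M : TwoChartModel R K E π t C0 C1 O')
    (harch : ∀ x : E, ∃ k : ℕ, algebraMap R E π ^ k * x ∈ O') :
    ∀ x : E, x ∈ O' → (∀ v' : Place K E, Over C1 v' → x ≠ 0 → 0 ≤ v'.ord x) → x ∈ C1 :=
  fun x hx h =>
    Fermat.Agent.M1.Car.LocFrameInst53.glob_of_chart (K := K) π t⁻¹ C1 O' O' M.tinv_mem M.noeth1
      M.fracR M.dvrR M.pi_ne M.intcl1 M.int1 M.frac1 M.le_Ov1 M.le_Ov1 harch harch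
      (fun b hb c hc _ hbc => M.sat1 b hb c hc hbc) M.pi_nonunit x hx hx h

end Glob

/-! ### Normalising a function by a power of the uniformiser -/

section Normalise

variable {R K E : Type*} [CommRing R] [Field K] [Field E] [Algebra R K] [Algebra K E]
  [Algebra R E] [IsScalarTower R K E]

/-- Every nonzero `g : E` is a Gauss unit up to a power of the (constant) uniformiser: there is a
unit `f` of `O'` with the same order as `g` at every place of `E / K`. -/
theorem exists_gauss_unit_ord_eq {π : R} {O' : ValuationSubring E}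
    (hd : IsDiscrete O' (algebraMap R E π)) {g : E} (hg : g ≠ 0) :
    ∃ f : E, f ≠ 0 ∧ f ∈ O' ∧ f⁻¹ ∈ O' ∧ ∀ v : Place K E, v.ord f = v.ord g := by
  have hπ0 : algebraMap R E π ≠ 0 := hd.ne_zero
  have hordπ : ∀ v : Place K E, v.ord (algebraMap R E π) = 0 := by
    intro v
    rw [IsScalarTower.algebraMap_apply R K E]
    exact Fermat.Agent.X0.FF.ord_algebraMap v _
  have hordpow : ∀ (v : Place K E) (n : ℕ), v.ord (algebraMap R E π ^ n) = 0 := by
    intro v n
    rw [Fermat.Agent.X0.FF.ord_pow, hordπ, mul_zero]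
  rcases O'.mem_or_inv_mem g with h | h
  · obtain ⟨n, u, hu, hui, hgu⟩ := hd.exists_pow_mul_unit h hg
    have hu0 : u ≠ 0 := by
      rintro rfl
      rw [mul_zero] at hgu
      exact hg hgu
    refine ⟨u, hu0, hu, hui, fun v => ?_⟩
    rw [hgu, v.ord_mul (pow_ne_zero n hπ0) hu0, hordpow, zero_add]
  · obtain ⟨n, u, hu, hui, hgu⟩ := hd.exists_pow_mul_unit h (inv_ne_zero hg)
    have hu0 : u ≠ 0 := by
      rintro rfl
      rw [mul_zero] at hgu
      exact inv_ne_zero hg hgu
    refine ⟨u⁻¹, inv_ne_zero hu0, hui, by rwa [inv_inv], fun v => ?_⟩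
    have hg' : g = (algebraMap R E π ^ n)⁻¹ * u⁻¹ := by
      rw [← mul_inv, ← hgu, inv_inv]
    rw [hg', v.ord_mul (inv_ne_zero (pow_ne_zero n hπ0)) (inv_ne_zero hu0),
      v.ord_inv (algebraMap R E π ^ n), hordpow, neg_zero, zero_add]

end Normalise

/-! ### The assembly -/

section Assembly

variable {R K E F : Type*} [CommRing R] [Field K] [Field E] [Field F] [Algebra R K]
  [Algebra K E] [Algebra K F] [Algebra E F] [IsScalarTower K E F] [FiniteDimensional E F]
  [Algebra.IsSeparable E F] [Algebra R E] [Algebra R F] [IsScalarTower R E F]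
  [IsScalarTower R K E]
variable {π : R} {t : E} {C0 C1 : Subalgebra R E} {O' : ValuationSubring E}
  {B0 B1 : Subalgebra R F}

/-- **`PushData` from the smooth lower model, integrality of the upper charts over the lower ones,
the norm formula, and principality of the push-forward.** -/
theorem pushData_of_model (M : TwoChartModel R K E π t C0 C1 O')
    (harch : ∀ x : E, ∃ k : ℕ, algebraMap R E π ^ k * x ∈ O')
    (hint0 : ∀ b ∈ B0, ((algebraMap E F).comp (C0.val : C0 →+* E)).IsIntegralElem b)
    (hint1 : ∀ b ∈ B1, ((algebraMap E F).comp (C1.val : C1 →+* E)).IsIntegralElem b)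
    (hN : Divisor.PushforwardNormFormula K E F) {D : Divisor K F}
    (hprin : ∃ f₀ : E, f₀ ≠ 0 ∧ ∀ v' : Place K E, Divisor.pushforward E D v' = v'.ord f₀) :
    ∃ f : E, PushData C0 C1 O' B0 B1 D f := by
  obtain ⟨f₀, hf₀, hpush⟩ := hprin
  have hunif : Fermat.Agent.M1.Node.Thick25.IsUnifOf O' (algebraMap R E π) :=
    ⟨M.pi_nonunit, fun x hx hxi => M.unif x hx hxi⟩
  have hd : IsDiscrete O' (algebraMap R E π) := ⟨hunif, harch⟩
  obtain ⟨f, hf0, hf, hfi, hord⟩ :=
    exists_gauss_unit_ord_eq (K := K) hd (inv_ne_zero hf₀)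
  refine ⟨f,
    { normFormula := hN
      over0 := over_of_isIntegralElem hint0
      over1 := over_of_isIntegralElem hint1
      glob0 := glob0_of_model M harch
      glob1 := glob1_of_model M harch
      f_ne := hf0
      f_mem := hf
      f_inv_mem := hfi
      push := fun v' => by rw [hpush v', hord v', v'.ord_inv, neg_neg] }⟩

end Assembly

end Fermat.Agent.M1.NRM.PushAbs70
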