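/-
M1 (S44) / ORD (S33), chapter NRM/HK (helper70): **the concrete `PushReg88.PushData` for the two
degeneracy maps of the model of record** (`ES/N34/ModelDefs9`), over ANY subfield `K ⊆ ℚ̄`.

* generic `Along` layer (`pushData_along`): for `φ : E →ₐ[K] F` finite, in characteristic `0`, with
  the `Algebra E F` structure `algebraAlong φ`: smooth lower model + `arch` + integrality of the
  upper charts over the lower ones + principality of `φ_* D` ⟹ `∃ f, PushData C0 C1 O' B0 B1 D f`
  (`PushAbs70.pushData_of_model`; the norm formula over `K` is helper6's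
  `NormK6.normFormulaAlong`, places of any inertia degree);
* `hint_alpha0/1`, `hint_beta0/1` : the upper charts `B0 = chart R tN`, `B1 = chart R tN⁻¹` are
  integral over `α (B0M)`, `α (B1M)` (trivial) and over `β (B0M)`, `β (B1M)` (helper23's
  symmetric modular equation `IntBeta23.tN_mem_chart_yN`, `tN_inv_mem_chart_yN_inv`, from
  `ModEqItems`: `yN ∈ B0`, `yN⁻¹ ∈ B1`);
* `pushData_alpha`, `pushData_beta` : the two instances, the lower smooth model
  `TwoChartModel (AK A K) K (FK M' K) π (tM ht) (B0M A ht) (B1M A ht) O'` being a hypothesis (it is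
  `ES/RED/ModelExplicit26.twoChartModel_of_g1` over every large `K`; the SAME hypothesis as in
  helper88's `BranchAbs88.branch_of_inputs`), together with `arch` for its Gauss ring.
-/
import Mathlib
import Fermat.Agent.ES.N34.ModelDefs9
import Fermat.Agent.ES.P36.IntBeta23
import Fermat.Agent.ES.HECKE.AlongDegree25
import Fermat.Agent.ORD.Geo.NormK6
import Fermat.Agent.ORD.Geo.NormKInst6
import Fermat.Agent.M1.NRM.PushAbs70

set_option autoImplicit false
set_option linter.unusedSectionVars false
set_option linter.style.haveILetI false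
set_option synthInstance.maxHeartbeats 400000

open AlgebraicCurve HahnSeries ModularCurve

noncomputable section

namespace Fermat.Agent.M1.NRM.PushInst70

open Fermat.Agent.RED.CORE.CoreIface24 Fermat.Agent.RED.PUR.ChartGeneric22
  Fermat.Agent.M1.NRM.PushReg88 Fermat.Agent.M1.NRM.PushAbs70
  Fermat.Agent.ES.HECKE.AlongDegree25

/-! ### The generic `Along` layer -/

section Along

variable {R K E F : Type*} [CommRing R] [Field K] [Field E] [Field F] [Algebra R K]
  [Algebra K E] [Algebra K F] [Algebra R E] [Algebra R F] [IsScalarTower R K E]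
  [IsScalarTower R K F]

/-- The scalar tower `R → E → F` for the `Algebra E F` structure along a `K`-embedding. -/
theorem isScalarTower_along_base (φ : E →ₐ[K] F) :
    letI := algebraAlong φ
    IsScalarTower R E F :=
  letI := algebraAlong φ
  IsScalarTower.of_algebraMap_eq fun r => by
    show algebraMap R F r = φ (algebraMap R E r)
    rw [IsScalarTower.algebraMap_apply R K E, φ.commutes, ← IsScalarTower.algebraMap_apply R K F]

/-- A finite extension in characteristic zero is separable (`Along` form). -/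
theorem isSeparable_along [CharZero E] (φ : E →ₐ[K] F) (hfin : FiniteAlong K φ) :
    letI := algebraAlong φ
    Algebra.IsSeparable E F := by
  letI := algebraAlong φ
  haveI : Module.Finite E F := hfin
  infer_instance

/-- **`PushData` along a `K`-embedding `φ : E → F`** (generic form of the two instances). -/
theorem pushData_along [CharZero E] (φ : E →ₐ[K] F) (hfin : FiniteAlong K φ)
    {π : R} {t : E} {C0 C1 : Subalgebra R E} {O' : ValuationSubring E}
    (M : TwoChartModel R K E π t C0 C1 O')
    (harch : ∀ x : E, ∃ k : ℕ, algebraMap R E π ^ k * x ∈ O')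
    {B0 B1 : Subalgebra R F}
    (hint0 : ∀ b ∈ B0, (φ.toRingHom.comp (C0.val : C0 →+* E)).IsIntegralElem b)
    (hint1 : ∀ b ∈ B1, (φ.toRingHom.comp (C1.val : C1 →+* E)).IsIntegralElem b)
    {D : Divisor K F}
    (hprin : (Divisor.pushforwardAlong φ (isIntegral_of_finiteAlong φ hfin) D).IsPrincipal) :
    letI := algebraAlong φ
    haveI := isScalarTower_along φ
    haveI : FiniteDimensional E F := hfin
    haveI := isSeparable_along φ hfin
    haveI := isScalarTower_along_base (R := R) φ
    ∃ f : E, PushData C0 C1 O' B0 B1 D f := by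
  letI := algebraAlong φ
  haveI := isScalarTower_along φ
  haveI : FiniteDimensional E F := hfin
  haveI := isSeparable_along φ hfin
  haveI := isScalarTower_along_base (R := R) φ
  exact pushData_of_model M harch hint0 hint1
    (Fermat.Agent.ORD.Geo.NormK6.pushforwardNormFormula (K := K) (F := E) (F' := F)) hprin

end Along

/-! ### The model of record -/

section Model

open Fermat.Agent.RED.Interface4 Fermat.Agent.RED.PUR.GaussGen8 Fermat.Agent.RED.BASE.EtaQuot12
  Fermat.Agent.ES.N34.ModelDefs9 Fermat.Agent.ES.P36.IntBeta23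

variable {n e q M' : ℕ} [NeZero n] [NeZero M'] [NeZero q] {A : ValuationSubring Qbar}
  {K : IntermediateField ℚ Qbar}

/-- `B0` is integral over `α (B0M)`. -/
theorem hint_alpha0 (ht : tq (↥K) n e ∈ FK M' K) :
    ∀ b ∈ B0 A q ht, ((alpha K M' q).toRingHom.comp
      ((B0M A ht).val : ↥(B0M A ht) →+* ↥(FK M' K))).IsIntegralElem b :=
  fun _ hb => isIntegralElem_of_mem_chart (R := ↥(AK A K)) (alpha K M' q).toRingHom
    alpha_commutes (B0M A ht) (adjoin_le_chart (tM ht)) hb

/-- `B1` is integral over `α (B1M)`. -/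
theorem hint_alpha1 (ht : tq (↥K) n e ∈ FK M' K) :
    ∀ b ∈ B1 A q ht, ((alpha K M' q).toRingHom.comp
      ((B1M A ht).val : ↥(B1M A ht) →+* ↥(FK M' K))).IsIntegralElem b := by
  intro b hb
  have hb' : b ∈ chart ↥(AK A K) ((alpha K M' q).toRingHom (tM ht)⁻¹) := by
    rw [map_inv₀]
    exact hb
  exact isIntegralElem_of_mem_chart (R := ↥(AK A K)) (alpha K M' q).toRingHom
    alpha_commutes (B1M A ht) (adjoin_le_chart (tM ht)⁻¹) hb'

/-- `B0` is integral over `β (B0M)` (symmetric modular equation). -/
theorem hint_beta0 (hq : q.Prime) (hqM : ¬ q ∣ M') (ht : tq (↥K) n e ∈ FK M' K)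
    (hy0 : yN q ht ∈ B0 A q ht) :
    ∀ b ∈ B0 A q ht, ((beta K M' q).toRingHom.comp
      ((B0M A ht).val : ↥(B0M A ht) →+* ↥(FK M' K))).IsIntegralElem b := by
  intro b hb
  have hb' : b ∈ chart ↥(AK A K) ((beta K M' q).toRingHom (tM ht)) :=
    chart_le_chart (tN_mem_chart_yN hq hqM ht hy0) hb
  exact isIntegralElem_of_mem_chart (R := ↥(AK A K)) (beta K M' q).toRingHom
    beta_commutes (B0M A ht) (adjoin_le_chart (tM ht)) hb'

/-- `B1` is integral over `β (B1M)` (symmetric modular equation). -/
theorem hint_beta1 (hq : q.Prime) (hqM : ¬ q ∣ M') (ht : tq (↥K) n e ∈ FK M' K)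
    (hy1 : (yN q ht)⁻¹ ∈ B1 A q ht) :
    ∀ b ∈ B1 A q ht, ((beta K M' q).toRingHom.comp
      ((B1M A ht).val : ↥(B1M A ht) →+* ↥(FK M' K))).IsIntegralElem b := by
  intro b hb
  have hb' : b ∈ chart ↥(AK A K) ((beta K M' q).toRingHom (tM ht)⁻¹) := by
    rw [map_inv₀]
    exact chart_le_chart (tN_inv_mem_chart_yN_inv hq hqM ht hy1) hb
  exact isIntegralElem_of_mem_chart (R := ↥(AK A K)) (beta K M' q).toRingHom
    beta_commutes (B1M A ht) (adjoin_le_chart (tM ht)⁻¹) hb'

/-- **`PushData` along `α`** for the model of record: lower smooth model + `arch` + principality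
of `α_* D` (helper51's `PushBcLevel51.pushforwardAlong_alpha_mem_principal`). -/
theorem pushData_alpha (hq : q.Prime) (hqM : ¬ q ∣ M') (ht : tq (↥K) n e ∈ FK M' K)
    {π : ↥(AK A K)} {O' : ValuationSubring ↥(FK M' K)}
    (M : TwoChartModel ↥(AK A K) ↥K ↥(FK M' K) π (tM ht) (B0M A ht) (B1M A ht) O')
    (harch : ∀ x : ↥(FK M' K), ∃ k : ℕ, algebraMap ↥(AK A K) ↥(FK M' K) π ^ k * x ∈ O')
    {D : Divisor ↥K ↥(FK (M' * q) K)}
    (hprin : (Divisor.pushforwardAlong (alpha K M' q)
      (heckeAlphaBarIntegral (↥K) M' q hq hqM) D).IsPrincipal) :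
    letI := algebraAlong (alpha K M' q)
    haveI := isScalarTower_along (alpha K M' q)
    haveI : FiniteDimensional ↥(FK M' K) ↥(FK (M' * q) K) := finiteAlong_alpha (↥K) M' q hq hqM
    haveI := Fermat.Agent.ORD.Geo.NormKInst6.charZero_laurentBaseChange (↥K)
      (modularFunctionFieldFull M')
    haveI := isSeparable_along (alpha K M' q) (finiteAlong_alpha (↥K) M' q hq hqM)
    haveI := isScalarTower_along_base (R := ↥(AK A K)) (alpha K M' q)
    ∃ f : ↥(FK M' K), PushData (B0M A ht) (B1M A ht) O' (B0 A q ht) (B1 A q ht) D f := by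
  haveI := Fermat.Agent.ORD.Geo.NormKInst6.charZero_laurentBaseChange (↥K)
    (modularFunctionFieldFull M')
  exact pushData_along (alpha K M' q) (finiteAlong_alpha (↥K) M' q hq hqM) M harch
    (hint_alpha0 ht) (hint_alpha1 ht) hprin

/-- **`PushData` along `β`** for the model of record: lower smooth model + `arch` + `ModEqItems`
(`yN ∈ B0`, `yN⁻¹ ∈ B1`) + principality of `β_* D`. -/
theorem pushData_beta (hq : q.Prime) (hqM : ¬ q ∣ M') (ht : tq (↥K) n e ∈ FK M' K)
    (hy0 : yN q ht ∈ B0 A q ht) (hy1 : (yN q ht)⁻¹ ∈ B1 A q ht)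
    {π : ↥(AK A K)} {O' : ValuationSubring ↥(FK M' K)}
    (M : TwoChartModel ↥(AK A K) ↥K ↥(FK M' K) π (tM ht) (B0M A ht) (B1M A ht) O')
    (harch : ∀ x : ↥(FK M' K), ∃ k : ℕ, algebraMap ↥(AK A K) ↥(FK M' K) π ^ k * x ∈ O')
    {D : Divisor ↥K ↥(FK (M' * q) K)}
    (hprin : (Divisor.pushforwardAlong (beta K M' q)
      (heckeBetaBarIntegral (↥K) M' q hq hqM) D).IsPrincipal) :
    letI := algebraAlong (beta K M' q)
    haveI := isScalarTower_along (beta K M' q)
    haveI : FiniteDimensional ↥(FK M' K) ↥(FK (M' * q) K) := finiteAlong_beta (↥K) M' q hq hqM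
    haveI := Fermat.Agent.ORD.Geo.NormKInst6.charZero_laurentBaseChange (↥K)
      (modularFunctionFieldFull M')
    haveI := isSeparable_along (beta K M' q) (finiteAlong_beta (↥K) M' q hq hqM)
    haveI := isScalarTower_along_base (R := ↥(AK A K)) (beta K M' q)
    ∃ f : ↥(FK M' K), PushData (B0M A ht) (B1M A ht) O' (B0 A q ht) (B1 A q ht) D f := by
  haveI := Fermat.Agent.ORD.Geo.NormKInst6.charZero_laurentBaseChange (↥K)
    (modularFunctionFieldFull M')
  exact pushData_along (beta K M' q) (finiteAlong_beta (↥K) M' q hq hqM) M harch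
    (hint_beta0 hq hqM ht hy0) (hint_beta1 hq hqM ht hy1) hprin

end Model

end Fermat.Agent.M1.NRM.PushInst70
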