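/-
M1 (S44) / ORD (S33), chapter NRM/HK (helper70): **the hypothesis `hpush` of
`HtorWire15.htor_climb_of_pushData` / `HtorAt15.htorAt_of_pushData` / `T4MainPush60` for the model
of record**, over a number field `K ⊂ ℚ̄`.

* `PushDataAlong φ hfin C0 C1 O' B0 B1 D f` : `PushReg88.PushData C0 C1 O' B0 B1 D f` for the
  `Algebra E F` structure `algebraAlong φ` (with the instance chain of `PushInst70.pushData_along`);
  needed because along `α` and along `β` the lower field is the SAME type `↥(FK M' K)` with two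
  different algebra structures over `↥(FK (M' * q) K)`;
* `harch_of_gauss` : `arch` for any valuation ring `O'` of `FK M' K` which is the pull-back of the
  Gauss ring (`GaussEmb22.arch`);
* `pushDataAlong_alpha_of_ker`, `pushDataAlong_beta_of_ker` : one push killed over `ℚ̄`
  (`alphaPush (bcPic0 [D]) = 0`, resp. `betaPush`) ⟹ `∃ f, PushDataAlong …` (helper51's
  `PushBcLevel51.pushforwardAlong_alpha_mem_principal` + `PushInst70.pushData_alpha`); the `β` form is
  the level-`0` input `hpush` of `T4MainPush60.t4_of_bricks_push`;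
* `hpush_model` : `bcPic0 [D] ∈ ker alphaPush ⊓ ker betaPush ⟹ ∃ f₁ f₂, PushDataAlong α … f₁ ∧
  PushDataAlong β … f₂`.
-/
import Mathlib
import Fermat.Agent.ES.N34.GaussEmb22
import Fermat.Agent.ORD.Geo.PushBcLevel51
import Fermat.Agent.M1.NRM.PushInst70

set_option autoImplicit false
set_option linter.unusedSectionVars false
set_option linter.style.haveILetI false
set_option synthInstance.maxHeartbeats 400000

open AlgebraicCurve HahnSeries ModularCurve

noncomputable section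

namespace Fermat.Agent.M1.NRM.PushFinal70

open Fermat.Agent.RED.CORE.CoreIface24 Fermat.Agent.RED.PUR.ChartGeneric22
  Fermat.Agent.M1.NRM.PushReg88 Fermat.Agent.M1.NRM.PushInst70
  Fermat.Agent.ES.HECKE.AlongDegree25

section Along

variable {R K E F : Type*} [CommRing R] [Field K] [Field E] [Field F] [Algebra R K]
  [Algebra K E] [Algebra K F] [Algebra R E] [Algebra R F] [IsScalarTower R K E]
  [IsScalarTower R K F]

/-- `PushReg88.PushData` for the `Algebra E F` structure along a finite `K`-embedding `φ`. -/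
def PushDataAlong [CharZero E] (φ : E →ₐ[K] F) (hfin : FiniteAlong K φ)
    (C0 C1 : Subalgebra R E) (O' : ValuationSubring E) (B0 B1 : Subalgebra R F)
    (D : Divisor K F) (f : E) : Prop :=
  letI := algebraAlong φ
  haveI := isScalarTower_along φ
  haveI : FiniteDimensional E F := hfin
  haveI := isSeparable_along φ hfin
  haveI := isScalarTower_along_base (R := R) φ
  PushData C0 C1 O' B0 B1 D f

end Along

section Model

open Fermat.Agent.RED.Interface4 Fermat.Agent.RED.PUR.GaussGen8 Fermat.Agent.RED.BASE.EtaQuot12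
  Fermat.Agent.ES.N34.ModelDefs9 Fermat.Agent.M1.Car.RatClass25 Fermat.Agent.ES.N35.PushO12
  Fermat.Agent.ORD.Geo.PushBcLevel51

variable {n e q M' : ℕ} [NeZero n] [NeZero M'] [NeZero q] {A : ValuationSubring Qbar}
  {K : IntermediateField ℚ Qbar}

/-- `arch` for a pull-back of the Gauss ring to `FK M' K`. -/
theorem harch_of_gauss [IsDiscreteValuationRing ↥(AK A K)] {π : ↥(AK A K)} (hπ : Irreducible π)
    {O' : ValuationSubring ↥(FK M' K)}
    (hO' : ∀ x : ↥(FK M' K), x ∈ O' ↔ (x : LaurentSeries K) ∈ gaussRing (AK A K)) :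
    ∀ x : ↥(FK M' K), ∃ k : ℕ, algebraMap ↥(AK A K) ↥(FK M' K) π ^ k * x ∈ O' := by
  haveI := Fermat.Agent.RED.NumInst4.isScalarTower_OE (AK A K) (FK M' K)
  have hV : Fermat.Agent.ES.N34.GaussEmb22.IsGaussPullback (AK A K) (FK M' K).val O' := hO'
  intro x
  obtain ⟨k, hk⟩ := Fermat.Agent.ES.N34.GaussEmb22.arch hV hπ x
  exact ⟨k, by rwa [IsScalarTower.algebraMap_apply ↥(AK A K) ↥K ↥(FK M' K)]⟩

variable [FiniteDimensional ℚ K]

local instance charZeroFK70 (M : ℕ) : CharZero ↥(FK M K) :=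
  Fermat.Agent.ORD.Geo.NormKInst6.charZero_laurentBaseChange (↥K) (modularFunctionFieldFull M)

/-- **`α`-half**: `alphaPush (bcPic0 [D]) = 0` ⟹ `PushData` along `α`. -/
theorem pushDataAlong_alpha_of_ker (hq : q.Prime) (hqM : ¬ q ∣ M') (ht : tq (↥K) n e ∈ FK M' K)
    {π : ↥(AK A K)} {O' : ValuationSubring ↥(FK M' K)}
    (M : TwoChartModel ↥(AK A K) ↥K ↥(FK M' K) π (tM ht) (B0M A ht) (B1M A ht) O')
    (harch : ∀ x : ↥(FK M' K), ∃ k : ℕ, algebraMap ↥(AK A K) ↥(FK M' K) π ^ k * x ∈ O')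
    (D : Divisor.degZero (K := ↥K) (F := ↥(FK (M' * q) K)))
    (hD : alphaPush hq hqM (bcPic0 (M' * q) K (Pic0.mk D)) = 0) :
    ∃ f : ↥(FK M' K), PushDataAlong (alpha K M' q) (finiteAlong_alpha (↥K) M' q hq hqM)
      (B0M A ht) (B1M A ht) O' (B0 A q ht) (B1 A q ht) (D : Divisor ↥K ↥(FK (M' * q) K)) f :=
  pushData_alpha hq hqM ht M harch
    (Divisor.mem_principal.mp (pushforwardAlong_alpha_mem_principal K hq hqM D hD))

/-- **`β`-half** (also the level-`0` input of `T4MainPush60`): `betaPush (bcPic0 [D]) = 0` ⟹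
`PushData` along `β`. -/
theorem pushDataAlong_beta_of_ker (hq : q.Prime) (hqM : ¬ q ∣ M') (ht : tq (↥K) n e ∈ FK M' K)
    (hy0 : yN q ht ∈ B0 A q ht) (hy1 : (yN q ht)⁻¹ ∈ B1 A q ht)
    {π : ↥(AK A K)} {O' : ValuationSubring ↥(FK M' K)}
    (M : TwoChartModel ↥(AK A K) ↥K ↥(FK M' K) π (tM ht) (B0M A ht) (B1M A ht) O')
    (harch : ∀ x : ↥(FK M' K), ∃ k : ℕ, algebraMap ↥(AK A K) ↥(FK M' K) π ^ k * x ∈ O')
    (D : Divisor.degZero (K := ↥K) (F := ↥(FK (M' * q) K)))
    (hD : betaPush hq hqM (bcPic0 (M' * q) K (Pic0.mk D)) = 0) :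
    ∃ f : ↥(FK M' K), PushDataAlong (beta K M' q) (finiteAlong_beta (↥K) M' q hq hqM)
      (B0M A ht) (B1M A ht) O' (B0 A q ht) (B1 A q ht) (D : Divisor ↥K ↥(FK (M' * q) K)) f :=
  pushData_beta hq hqM ht hy0 hy1 M harch
    (Divisor.mem_principal.mp (pushforwardAlong_beta_mem_principal K hq hqM D hD))

/-- **`hpush` for the model of record.** -/
theorem hpush_model (hq : q.Prime) (hqM : ¬ q ∣ M') (ht : tq (↥K) n e ∈ FK M' K)
    (hy0 : yN q ht ∈ B0 A q ht) (hy1 : (yN q ht)⁻¹ ∈ B1 A q ht)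
    {π : ↥(AK A K)} {O' : ValuationSubring ↥(FK M' K)}
    (M : TwoChartModel ↥(AK A K) ↥K ↥(FK M' K) π (tM ht) (B0M A ht) (B1M A ht) O')
    (harch : ∀ x : ↥(FK M' K), ∃ k : ℕ, algebraMap ↥(AK A K) ↥(FK M' K) π ^ k * x ∈ O') :
    ∀ D : Divisor.degZero (K := ↥K) (F := ↥(FK (M' * q) K)),
      bcPic0 (M' * q) K (Pic0.mk D) ∈ (alphaPush hq hqM).ker ⊓ (betaPush hq hqM).ker →
      ∃ f₁ f₂ : ↥(FK M' K),
        PushDataAlong (alpha K M' q) (finiteAlong_alpha (↥K) M' q hq hqM)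
          (B0M A ht) (B1M A ht) O' (B0 A q ht) (B1 A q ht) (D : Divisor ↥K ↥(FK (M' * q) K)) f₁ ∧
        PushDataAlong (beta K M' q) (finiteAlong_beta (↥K) M' q hq hqM)
          (B0M A ht) (B1M A ht) O' (B0 A q ht) (B1 A q ht) (D : Divisor ↥K ↥(FK (M' * q) K)) f₂ := by
  intro D hD
  rw [AddSubgroup.mem_inf, AddMonoidHom.mem_ker, AddMonoidHom.mem_ker] at hD
  obtain ⟨f₁, h₁⟩ := pushDataAlong_alpha_of_ker hq hqM ht M harch D hD.1
  obtain ⟨f₂, h₂⟩ := pushDataAlong_beta_of_ker hq hqM ht hy0 hy1 M harch D hD.2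
  exact ⟨f₁, f₂, h₁, h₂⟩

end Model

end Fermat.Agent.M1.NRM.PushFinal70
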