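/-
M1 (S44), T5 side, model instance of `htor` (helper88; assignment #2493): for the model of record
(`ES/N34/ModelDefs9`) over a finite normal number field `L ∋ ζ_{M''}`, `p` odd, `p ∤ M''`,
`4 ∣ M''`, and a subgroup `Y` of `J₀(M'' p)(ℚ̄)` killed by the two degeneracy push-forwards,

  `htor_model` : the LITERAL `htor` binder of `Tri/OverL43.inertia_smul_eq_over_L`
                 (= `ContractNum15.wildContract_of_numData`'s) for `V := Transport53.VL (M'' p) L Y`.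

Inputs (all on main): `HtorWire15.htor_of_pushData_numData`, `BranchModel88.branch_alpha_four /
branch_beta_four`, `PushFinal70.pushDataAlong_alpha_of_ker / pushDataAlong_beta_of_ker`.

Also exported: `hpush_VL` (the `hpush` binder of `HtorWire15.htor_of_pushData_numData` in helper70's
`PushDataAlong` form) and `harch_OvK`.
-/
import Mathlib
import Fermat.Agent.M1.NRM.BranchModel88
import Fermat.Agent.M1.NRM.PushFinal70
import Fermat.Agent.M1.Car.HtorWire15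
import Fermat.Agent.M1.Fib.NodeExists61
import Fermat.Agent.M1.Tri.Transport53

set_option autoImplicit false
set_option linter.unusedSectionVars false
set_option linter.style.haveILetI false
set_option synthInstance.maxHeartbeats 400000
set_option maxHeartbeats 1000000

noncomputable section

open HahnSeries ModularCurve AlgebraicCurve

namespace Fermat.Agent.M1.NRM.HtorModel88

open Fermat.Agent.RED.Interface4 Fermat.Agent.RED.PUR.GaussGen8 Fermat.Agent.RED.PUR.GaussBridge10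
  Fermat.Agent.RED.BASE.EtaQuot12 Fermat.Agent.RED.BASE Fermat.Agent.X0
  Fermat.Agent.RED.CORE.CoreIface24 Fermat.Agent.RED.PUR.ChartGeneric22
  Fermat.Agent.ES.N34.ModelDefs9 Fermat.Agent.ES.N34.NumData13 Fermat.Agent.ES.N34.NodalCore13
  Fermat.Agent.ES.N35.PushO12 Fermat.Agent.ES.HECKE.AlongDegree25
  Fermat.Agent.M1.Fib.Branch98 Fermat.Agent.M1.Fib.Constants98
  Fermat.Agent.M1.Car.Defs43 Fermat.Agent.M1.Car.RatClass25 Fermat.Agent.M1.Car.TorsInst15
  Fermat.Agent.M1.Pic2.Defs60 Fermat.Agent.M1.Pic2.Lead60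
  Fermat.Agent.M1.NRM.ToricLead88 Fermat.Agent.M1.NRM.PushReg88 Fermat.Agent.M1.NRM.BranchAbs88
  Fermat.Agent.M1.NRM.BranchInst88 Fermat.Agent.M1.NRM.BranchVal88
  Fermat.Agent.M1.NRM.BranchModel88 Fermat.Agent.M1.NRM.PushInst70 Fermat.Agent.M1.NRM.PushFinal70
  Fermat.Agent.M1.Tri.Transport53

variable {A : ValuationSubring Qbar} {K : IntermediateField ℚ Qbar} {M' q : ℕ} [NeZero M']
  [NeZero q] {n e : ℕ} [NeZero n]

/-! ### `arch` for the Gauss ring of the good level -/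

section Arch

variable [FiniteDimensional ℚ K] [Normal ℚ K]

/-- the Gauss ring of the good level is archimedean for `π`. -/
theorem harch_OvK (hq : q.Prime) (hqM : ¬ q ∣ M') (hA : A.LiesOverPrime q)
    (hjt : jqModC (↥K) ∈ IntermediateField.adjoin (↥K) {tq (↥K) n e})
    (ht : tq (↥K) n e ∈ FK M' K) (hE : FK (M' * q) K ≤ fracField (AK A K))
    (π : ↥(AK A K)) (hπ : IsUnif (AK A K) π) :
    ∀ x : ↥(FK M' K), ∃ k : ℕ, algebraMap ↥(AK A K) ↥(FK M' K) π ^ k * x ∈ OvK A K M' hπ := by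
  have hV := valInputs_alpha M' q hq hqM hA hjt ht hE π hπ
  letI := algebraAlong (alpha K M' q)
  haveI : IsScalarTower ↥(AK A K) ↥(FK M' K) ↥(FK (M' * q) K) := towerAlpha M' q
  exact hV.disc.arch

end Arch


/-! ### The model instance of `htor` -/

section Htor

variable {L : IntermediateField ℚ Qbar} [FiniteDimensional ℚ L] [Normal ℚ L] {M'' p : ℕ}
  [NeZero M''] [NeZero p]

local instance charZeroFK88 (M : ℕ) : CharZero ↥(FK M L) :=
  Fermat.Agent.ORD.Geo.NormKInst6.charZero_laurentBaseChange (↥L) (modularFunctionFieldFull M)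

/-- **The `hpush` binder of `HtorWire15.htor_of_pushData_numData`** for the model of record and
`V := VL (M'' p) L Y`, `Y` killed by `α_*` and `β_*`. -/
theorem hpush_VL (hp : p.Prime) (hp2 : p ≠ 2) (hpM : ¬ p ∣ M'') (hM : 4 ∣ M'')
    (hA : A.LiesOverPrime p) (hζ : zetaK M'' ∈ L)
    (ht : tq (↥L) 4 8 ∈ FK M'' L) (hE : FK (M'' * p) L ≤ fracField (AK A L))
    (ϖ : ↥(AK A L)) (hπ : IsUnif (AK A L) ϖ)
    (Y : AddSubgroup (JZero (M'' * p)))
    (hY : ∀ y ∈ Y, alphaPush hp hpM y = 0 ∧ betaPush hp hpM y = 0)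
    (v : Pic0 ↥L ↥(FK (M'' * p) L)) (hv : v ∈ VL (M'' * p) L Y)
    (D : Divisor.degZero (K := ↥L) (F := ↥(FK (M'' * p) L))) (hD : Pic0.mk D = v) :
    ∃ (f₁ f₂ : ↥(FK M'' L)),
      PushDataAlong (alpha L M'' p) (finiteAlong_alpha (↥L) M'' p hp hpM)
        (B0M A ht) (B1M A ht) (OvK A L M'' hπ) (B0 A p ht) (B1 A p ht)
        (D : Divisor ↥L ↥(FK (M'' * p) L)) f₁ ∧
      PushDataAlong (beta L M'' p) (finiteAlong_beta (↥L) M'' p hp hpM)
        (B0M A ht) (B1M A ht) (OvK A L M'' hπ) (B0 A p ht) (B1 A p ht)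
        (D : Divisor ↥L ↥(FK (M'' * p) L)) f₂ := by
  obtain ⟨-, hjt, -⟩ := Fermat.Agent.ES.P36.LevelMAt4.levelItems_four_at (A := A) (K := L)
    hp hpM hM hA hζ
  obtain ⟨-, -, hS2, -, -⟩ := Fermat.Agent.ES.P36.ModelQAt4.items_four_at (A := A) (K := L)
    hp hp2 hpM hM hA hζ (Fermat.Agent.ES.P36.ModelQAt4.frobInvAt_of_normal hp hA)
  obtain ⟨hy0, hy1⟩ := hS2 ht
  have Mlow := lowerModel_four hp hpM hM hA hζ ht ϖ hπ
  have harch := harch_OvK hp hpM hA hjt ht hE ϖ hπ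
  have hk := hY _ (mem_VL.mp hv)
  rw [← hD] at hk
  obtain ⟨f₁, h1⟩ := pushDataAlong_alpha_of_ker hp hpM ht Mlow harch D hk.1
  obtain ⟨f₂, h2⟩ := pushDataAlong_beta_of_ker hp hpM ht hy0 hy1 Mlow harch D hk.2
  exact ⟨f₁, f₂, h1, h2⟩

/-- **The model instance of `htor`** = the literal `htor` binder of
`Tri/OverL43.inertia_smul_eq_over_L` / `ContractNum15.wildContract_of_numData` for
`V := Transport53.VL (M'' p) L Y`, `Y` killed by the two degeneracy push-forwards. -/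
theorem htor_model (hp : p.Prime) (hp2 : p ≠ 2) (hpM : ¬ p ∣ M'') (hM : 4 ∣ M'')
    (hA : A.LiesOverPrime p) (hζ : zetaK M'' ∈ L)
    (ht : tq (↥L) 4 8 ∈ FK M'' L) (hE : FK (M'' * p) L ≤ fracField (AK A L))
    {ϖ : ↥(AK A L)} (hπ : IsUnif (AK A L) ϖ)
    (N : NodalNumData ↥(AK A L) ↥L ↥(FK (M'' * p) L) ϖ (tN p ht) (B0 A p ht) (B1 A p ht)
      (O1 M'' p hπ hE) (O2 M'' p hπ hE))
    (hac1 : ResidueAlgClosed ϖ (O1 M'' p hπ hE)) (hac2 : ResidueAlgClosed ϖ (O2 M'' p hπ hE))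
    {hπ1 : algebraMap ↥(AK A L) ↥(FK (M'' * p) L) ϖ ∈ O1 M'' p hπ hE}
    {hπ2 : algebraMap ↥(AK A L) ↥(FK (M'' * p) L) ϖ ∈ O2 M'' p hπ hE}
    (Y : AddSubgroup (JZero (M'' * p)))
    (hY : ∀ y ∈ Y, alphaPush hp hpM y = 0 ∧ betaPush hp hpM y = 0) {pp : ℕ} :
    ∀ n : ℕ, 1 ≤ n → n < pp → ∀ v ∈ VL (M'' * p) L Y,
      v ∈ Cart ϖ (B0 A p ht) (B1 A p ht) (O1 M'' p hπ hE) (O2 M'' p hπ hE) hπ1 hπ2 n →
      ∃ D : Divisor.degZero (K := ↥L) (F := ↥(FK (M'' * p) L)), Pic0.mk D = v ∧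
        HasLevel ϖ (B0 A p ht) (B1 A p ht) (O1 M'' p hπ hE) (O2 M'' p hπ hE) n
          (D : Divisor ↥L ↥(FK (M'' * p) L)) ∧
        ∃ c, HasLead (algebraMap ↥(AK A L) ↥(FK (M'' * p) L) ϖ) n
          ((torsFrame_of_numData N hac1 hac2
            (Fermat.Agent.M1.Fib.NodeExists61.hasNode_of_numData N)).pair
              (D : Divisor ↥L ↥(FK (M'' * p) L))) c ∧
          Fermat.Agent.M1.Pic2.ToricPic15.IsToric ϖ (B0 A p ht) (B1 A p ht)
            (O1 M'' p hπ hE) (O2 M'' p hπ hE) c := by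
  haveI : Fact p.Prime := ⟨hp⟩
  have hα := branch_alpha_four hp hpM hM hA hζ ht hE ϖ hπ hac1
    (B01 := overlap (tN p ht) (B0 A p ht) N.model.t_mem) (fun x hx => hx)
  have hβ := branch_beta_four hp hp2 hpM hM hA hζ ht hE ϖ hπ hac2
    (B01 := overlap (tN p ht) (B0 A p ht) N.model.t_mem) (fun x hx => hx)
  have hpush := hpush_VL hp hp2 hpM hM hA hζ ht hE ϖ hπ Y hY
  -- `E₁ = E₂ = ↥(FK M'' L)` with the two algebra structures: all instances passed explicitly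
  exact @Fermat.Agent.M1.Car.HtorWire15.htor_of_pushData_numData
    ↥(AK A L) ↥L ↥(FK (M'' * p) L) _ _ _ _ _ _ _ ϖ (tN p ht) (B0 A p ht) (B1 A p ht)
    (O1 M'' p hπ hE) (O2 M'' p hπ hE) ↥(FK M'' L) ↥(FK M'' L) _ _ _ _ _ _
    (algebraAlong (alpha L M'' p)) (isScalarTower_along (alpha L M'' p)) (towerAlpha M'' p)
    (finite_alpha M'' p hp hpM)
    (isSeparable_along (alpha L M'' p) (finiteAlong_alpha (↥L) M'' p hp hpM))
    (algebraAlong (beta L M'' p)) (isScalarTower_along (beta L M'' p)) (towerBeta M'' p)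
    (finite_beta M'' p hp hpM)
    (isSeparable_along (beta L M'' p) (finiteAlong_beta (↥L) M'' p hp hpM))
    p (B0M A ht) (B1M A ht) _ (OvK A L M'' hπ) (B0M A ht) (B1M A ht) _ (OvK A L M'' hπ) _ _
    N hac1 hac2 (Fermat.Agent.M1.Fib.NodeExists61.hasNode_of_numData N) hα hβ hπ1 hπ2
    (VL (M'' * p) L Y) hpush pp

end Htor

end Fermat.Agent.M1.NRM.HtorModel88
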