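/-
M1 (S44), chapter NRM/HK, brick HK4 → class-level (T5) (helper88): the hypothesis `htor` of
helper43's `Car/TorsClass43.TorsFrame.cart_succ_of_toric`,

  `∃ c, HasLead π n P c ∧ ToricPic15.IsToric π B0 B1 O₁ O₂ c`,

for the canonical pair `P = (secs B0 O₁ O₂ D, secs B1 O₁ O₂ D)` of a divisor `D` of level `n ≥ 1`
whose two degeneracy push-forwards are principal (`PushReg88.PushData` along `α` and along `β`).
-/
import Mathlib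
import Fermat.Agent.M1.NRM.PushReg88
import Fermat.Agent.M1.Pic2.LeadOps60

set_option autoImplicit false
set_option linter.unusedSectionVars false

namespace Fermat.Agent.M1.NRM.HtorPush88

open AlgebraicCurve
open Fermat.Agent.M1.Pic2.Defs60 Fermat.Agent.M1.Pic2.Lead60 Fermat.Agent.M1.Pic2.LeadOps60
  Fermat.Agent.M1.NRM.TraceGauss88 Fermat.Agent.M1.Car.AdelicToCech43
  Fermat.Agent.M1.NRM.ToricLead88 Fermat.Agent.M1.NRM.PushReg88 Fermat.Agent.M1.Pic2.ToricPic15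

variable {R K E₁ E₂ F : Type*} [CommRing R] [Field K] [Field E₁] [Field E₂] [Field F]
  [Algebra K E₁] [Algebra K E₂] [Algebra K F] [Algebra R E₁] [Algebra R E₂] [Algebra R F]
  [Algebra E₁ F] [IsScalarTower K E₁ F] [IsScalarTower R E₁ F] [FiniteDimensional E₁ F]
  [Algebra.IsSeparable E₁ F]
  [Algebra E₂ F] [IsScalarTower K E₂ F] [IsScalarTower R E₂ F] [FiniteDimensional E₂ F]
  [Algebra.IsSeparable E₂ F]
variable {π : R} {q : ℕ}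
  {C0 C1 C01 : Subalgebra R E₁} {O' : ValuationSubring E₁}
  {D0 D1 D01 : Subalgebra R E₂} {O'' : ValuationSubring E₂}
  {O₁ O₂ : ValuationSubring F} {B0 B1 B01 : Subalgebra R F}

/-- `secs` does not depend on the order of the two Gauss rings. -/
theorem secs_swap (B : Subalgebra R F) (D : Divisor K F) :
    secs B O₂ O₁ D = secs B O₁ O₂ D := by
  ext z
  simp only [mem_secs]
  tauto

/-- **HK4 ⟹ toric, divisor level**: every leading coefficient of the canonical pair of `D` is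
toric when `α_* D` and `β_* D` are principal. -/
theorem isToric_of_pushData [HasPrincipalDivisors K F] [Fact q.Prime]
    (hα : Branch π q C0 C1 C01 O' O₁ O₂ B0 B1 B01)
    (hβ : Branch π q D0 D1 D01 O'' O₂ O₁ B0 B1 B01)
    (h0 : B0 ≤ B01) (h1 : B1 ≤ B01) (hB1 : ∀ x ∈ B01, x ∈ O₁) (hB2 : ∀ x ∈ B01, x ∈ O₂)
    {D : Divisor K F} {f₁ : E₁} {f₂ : E₂}
    (hDα : PushData C0 C1 O' B0 B1 D f₁) (hDβ : PushData D0 D1 O'' B0 B1 D f₂)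
    (hunit0 : ∃ z ∈ secs B0 O₁ O₂ D, z ≠ 0 ∧ z⁻¹ ∈ O₁ ∧ z⁻¹ ∈ O₂)
    (hunit1 : ∃ z ∈ secs B1 O₁ O₂ D, z ≠ 0 ∧ z⁻¹ ∈ O₁ ∧ z⁻¹ ∈ O₂)
    {P : LinePair B0 B1 B01} (hI0 : P.I0 = secs B0 O₁ O₂ D) (hI1 : P.I1 = secs B1 O₁ O₂ D)
    {n : ℕ} (hn : 1 ≤ n) {c : F} (hc : HasLead (algebraMap R F π) n P c) :
    IsToric π B0 B1 O₁ O₂ c := by
  have hunit0' : ∃ z ∈ secs B0 O₂ O₁ D, z ≠ 0 ∧ z⁻¹ ∈ O₂ ∧ z⁻¹ ∈ O₁ := by
    obtain ⟨z, hz, hz0, h1, h2⟩ := hunit0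
    exact ⟨z, by rw [secs_swap]; exact hz, hz0, h2, h1⟩
  have hunit1' : ∃ z ∈ secs B1 O₂ O₁ D, z ≠ 0 ∧ z⁻¹ ∈ O₂ ∧ z⁻¹ ∈ O₁ := by
    obtain ⟨z, hz, hz0, h1, h2⟩ := hunit1
    exact ⟨z, by rw [secs_swap]; exact hz, hz0, h2, h1⟩
  exact ⟨half_of_pushData hα h0 h1 hB1 hB2 hDα hunit0 hunit1 hI0 hI1 hn hc,
    half_of_pushData hβ h0 h1 hB2 hB1 hDβ hunit0' hunit1'
      (by rw [secs_swap]; exact hI0) (by rw [secs_swap]; exact hI1) hn hc⟩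

/-- **The hypothesis `htor` of `TorsClass43.TorsFrame.cart_succ_of_toric`.** -/
theorem exists_lead_isToric [HasPrincipalDivisors K F] [Fact q.Prime]
    (h : TwoChart (algebraMap R F π) B0 B1 B01)
    (hα : Branch π q C0 C1 C01 O' O₁ O₂ B0 B1 B01)
    (hβ : Branch π q D0 D1 D01 O'' O₂ O₁ B0 B1 B01)
    (hB1 : ∀ x ∈ B01, x ∈ O₁) (hB2 : ∀ x ∈ B01, x ∈ O₂)
    {D : Divisor K F} {f₁ : E₁} {f₂ : E₂}
    (hDα : PushData C0 C1 O' B0 B1 D f₁) (hDβ : PushData D0 D1 O'' B0 B1 D f₂)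
    (hunit0 : ∃ z ∈ secs B0 O₁ O₂ D, z ≠ 0 ∧ z⁻¹ ∈ O₁ ∧ z⁻¹ ∈ O₂)
    (hunit1 : ∃ z ∈ secs B1 O₁ O₂ D, z ≠ 0 ∧ z⁻¹ ∈ O₁ ∧ z⁻¹ ∈ O₂)
    {P : LinePair B0 B1 B01} (hI0 : P.I0 = secs B0 O₁ O₂ D) (hI1 : P.I1 = secs B1 O₁ O₂ D)
    {n : ℕ} (hn : 1 ≤ n) (hP : Level (algebraMap R F π) n P) :
    ∃ c, HasLead (algebraMap R F π) n P c ∧ IsToric π B0 B1 O₁ O₂ c := by
  obtain ⟨c, hc⟩ := Level.hasLead h hP
  exact ⟨c, hc, isToric_of_pushData hα hβ h.le0 h.le1 hB1 hB2 hDα hDβ hunit0 hunit1 hI0 hI1 hn hc⟩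

end Fermat.Agent.M1.NRM.HtorPush88
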