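/-
M1 (S44), chapter NRM (helper18): **wiring of (AV)** (`SideAvoid18.ord_eq_zero_of_through_node`) to
the literal exports of its suppliers.

* `UData.of_units` : the four unit statements of `FrickeUnit16.unit_facts` (+ `π ∣ p`) give `UData`;
* `WeakCentre.algebraMap_mem`, `BarCentre.pi_nonunit` : `R ⊆ A'`, `π ∈ 𝔪_{A'}` at a centre;
* `inLocal_j_of_barCentre` : at THE centre of `P`, a denominator `e` of `j` (`j e = n`, `e, n ∈ B`)
  which is a unit of the composite ring makes `j` regular;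
* `hsep_of_sepK` : the hypothesis `hsep` of (AV) from the (SEP-K) statements on the two charts
  (`j E(τ) = Nn(τ)`, `E(τ)` a unit of the composite ring at non-cuspidal places);
* `hD_of_avoid` : the hypothesis `hD` of (AV) from `D` avoiding the nodes and the zeros of `E(τ)`
  (literal clauses of `AvoidCusp53.exists_ord_rep_avoiding`);
* `ord_eq_zero_of_through_node_numData` : (AV) for a `NodalNumData`.
-/
import Mathlib
import Fermat.Agent.M1.NRM.SideAvoid18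
import Fermat.Agent.M1.Fib.FrameInst98

set_option autoImplicit false
set_option linter.unusedSectionVars false
set_option linter.style.haveILetI false
set_option synthInstance.maxHeartbeats 400000
set_option maxHeartbeats 800000

noncomputable section

namespace Fermat.Agent.M1.NRM.SideAvoidWire18

open AlgebraicCurve ModularCurve Polynomial
open Fermat.Agent.X0 Fermat.Agent.X0.Analytic Fermat.Agent.X0.FF Fermat.Agent.RED.Interface4
open Fermat.Agent.ES.RED.PlaceValue13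
open Fermat.Agent.ES.N34.NodalCore13 Fermat.Agent.ES.N34.NumData13
open Fermat.Agent.M1.Car.Fibre25 Fermat.Agent.M1.Car.RatClass25
open Fermat.Agent.M1.Car.Defs43 Fermat.Agent.M1.Mon.WildPL43
open Fermat.Agent.M1.NRM.SidePart18 Fermat.Agent.M1.NRM.Side18 Fermat.Agent.M1.NRM.CompRing18
open Fermat.Agent.M1.NRM.SideBranch18 Fermat.Agent.M1.NRM.SideAvoid18
open Fermat.Agent.M1.Fib.Constants98 Fermat.Agent.M1.Fib.FrameInst98

/-- Shortcut to the instance found (slowly) by instance search. -/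
local instance (priority := 5000) algKFK (M : ℕ) (K : IntermediateField ℚ Qbar) :
    Algebra K (FK M K) := SubalgebraClass.toAlgebra (FK M K)

variable {N : ℕ} [NeZero N] {L : IntermediateField ℚ Qbar} [FiniteDimensional ℚ L]
variable {R : Type*} [CommRing R] [Algebra R (FK N L)]
variable {A' : ValuationSubring Qbar} {B : Subalgebra R (FK N L)} {𝔪 : Ideal B}
  {P : Place Qbar (Fbar N)}
variable {π : R} {B0 B1 : Subalgebra R (FK N L)} {O1 O2 : ValuationSubring (FK N L)}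
variable {p : ℕ} [NeZero p] {hpN : p ∣ N} {jL uL : FK N L}

/-! ### `UData` from the four unit statements -/

/-- `UData` from `u^{±1} ∈ O1`, `(p¹² u)^{±1} ∈ O2` and `π ∣ p`. -/
theorem UData.of_units (M : Frame (K := L) π B0 B1 O1 O2) (hpπ : ∃ r : R, (p : R) = π * r)
    (bc_j : bc N L jL = jF N) (bc_u : bc N L uL = uF p N hpN)
    (h1 : uL ∈ O1) (h2 : uL⁻¹ ∈ O1) (h3 : (p : FK N L) ^ 12 * uL ∈ O2)
    (h4 : ((p : FK N L) ^ 12 * uL)⁻¹ ∈ O2) : UData N L π O1 O2 p hpN jL uL := by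
  obtain ⟨r, hr⟩ := hpπ
  have hu0 : uL ≠ 0 := by
    rintro rfl
    rw [map_zero] at bc_u
    exact uF_ne_zero p N hpN bc_u.symm
  have hp0 : (p : FK N L) ≠ 0 := by exact_mod_cast NeZero.ne p
  have hpF : (p : FK N L) = algebraMap R (FK N L) π * algebraMap R (FK N L) r := by
    rw [← map_mul, ← hr, map_natCast]
  have hp12 : (p : FK N L) ^ 12 =
      algebraMap R (FK N L) π * (algebraMap R (FK N L) r * (p : FK N L) ^ 11) := by
    rw [← mul_assoc, ← hpF]; ring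
  refine ⟨bc_j, bc_u, h1, h2, h3, h4, ?_, ?_⟩
  · refine ⟨algebraMap R (FK N L) r * (p : FK N L) ^ 11 * ((p : FK N L) ^ 12 * uL)⁻¹,
      O2.mul_mem _ _ (O2.mul_mem _ _ (M.algebraMap_mem2 r) (pow_mem (natCast_mem O2 p) 11)) h4, ?_⟩
    rw [← mul_assoc, ← mul_assoc, mul_assoc (algebraMap R (FK N L) π), ← hp12]
    field_simp
  · refine ⟨algebraMap R (FK N L) r * (p : FK N L) ^ 11 * uL,
      O1.mul_mem _ _ (O1.mul_mem _ _ (M.algebraMap_mem1 r) (pow_mem (natCast_mem O1 p) 11)) h1, ?_⟩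
    rw [← mul_assoc, ← mul_assoc, mul_assoc (algebraMap R (FK N L) π), ← hp12]

/-! ### Constants at a centre -/

section Const

variable [Algebra R L] [IsScalarTower R L (FK N L)]

theorem WeakCentre.algebraMap_mem (hc : WeakCentre N L A' B 𝔪 P) (r : R) :
    ((algebraMap R L r : L) : Qbar) ∈ A' := by
  have := hc.le (algebraMap R B r)
  have h1 : ((algebraMap R B r : B) : FK N L) = algebraMap R (FK N L) r := rfl
  rw [h1, bc_algebraMap_R, algebraMap_mem_sideRing_iff] at this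
  exact this

theorem BarCentre.pi_nonunit (hc : BarCentre N L A' B 𝔪 P) (hπ : algebraMap R B π ∈ 𝔪) :
    ((algebraMap R L π : L) : Qbar) ∈ A'.nonunits := by
  have := hc.nonunit (algebraMap R B π) hπ
  have h1 : ((algebraMap R B π : B) : FK N L) = algebraMap R (FK N L) π := rfl
  rw [h1, bc_algebraMap_R,
    not_isSUnit_algebraMap_iff (WeakCentre.algebraMap_mem hc.toWeakCentre π)] at this
  exact this

end Const

/-! ### `hsep` from (SEP-K) -/

/-- At THE centre of `P`, a denominator of `j` which is a unit of the composite ring makes `j`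
regular. -/
theorem inLocal_j_of_barCentre (hc : BarCentre N L A' B 𝔪 P) {e n : B}
    (hrel : jL * (e : FK N L) = (n : FK N L)) (he0 : (e : FK N L) ≠ 0)
    (hinv : (bc N L (e : FK N L))⁻¹ ∈ sideRing A' N P) : InLocal B 𝔪 jL :=
  ⟨n, e, fun he => hc.nonunit e he (isSUnit_of_inv_mem (bc_ne_zero N L he0) hinv), hrel⟩

/-- The hypothesis `hsep` of (AV) from the two (SEP-K) statements. -/
theorem hsep_of_sepK [Algebra R L] [IsScalarTower R L (FK N L)] {t : FK N L} (ht0 : t ∈ B0)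
    (ht1 : t⁻¹ ∈ B1) {E0 N0 E1 N1 : R[X]}
    (hrel0 : jL * aeval t E0 = aeval t N0) (hE0 : aeval t E0 ≠ 0)
    (hrel1 : jL * aeval t⁻¹ E1 = aeval t⁻¹ N1) (hE1 : aeval t⁻¹ E1 ≠ 0)
    (hsep0 : ∀ (A' : ValuationSubring Qbar) (P : Place Qbar (Fbar N)),
      (∀ r : R, ((algebraMap R L r : L) : Qbar) ∈ A') →
      ((algebraMap R L π : L) : Qbar) ∈ A'.nonunits → NonCusp A' N P →
      bc N L t ∈ sideRing A' N P → (bc N L (aeval t E0))⁻¹ ∈ sideRing A' N P)
    (hsep1 : ∀ (A' : ValuationSubring Qbar) (P : Place Qbar (Fbar N)),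
      (∀ r : R, ((algebraMap R L r : L) : Qbar) ∈ A') →
      ((algebraMap R L π : L) : Qbar) ∈ A'.nonunits → NonCusp A' N P →
      bc N L t⁻¹ ∈ sideRing A' N P → (bc N L (aeval t⁻¹ E1))⁻¹ ∈ sideRing A' N P) :
    ∀ (A' : ValuationSubring Qbar) (P : Place Qbar (Fbar N)) (B : Subalgebra R (FK N L))
      (𝔪 : Ideal B), (B = B0 ∨ B = B1) → 𝔪.IsMaximal → algebraMap R B π ∈ 𝔪 →
      BarCentre N L A' B 𝔪 P → NonCusp A' N P → InLocal B 𝔪 jL := by
  rintro A' P B 𝔪 (rfl | rfl) - hπ hc hnc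
  · have h := hsep0 A' P (WeakCentre.algebraMap_mem hc.toWeakCentre) (BarCentre.pi_nonunit hc hπ)
      hnc (hc.le ⟨t, ht0⟩)
    refine inLocal_j_of_barCentre hc (e := aeval (⟨t, ht0⟩ : B) E0)
      (n := aeval (⟨t, ht0⟩ : B) N0) ?_ ?_ ?_
    · rw [aeval_subalgebra_coe, aeval_subalgebra_coe]; exact hrel0
    · rw [aeval_subalgebra_coe]; exact hE0
    · rw [aeval_subalgebra_coe]; exact h
  · have h := hsep1 A' P (WeakCentre.algebraMap_mem hc.toWeakCentre) (BarCentre.pi_nonunit hc hπ)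
      hnc (hc.le ⟨t⁻¹, ht1⟩)
    refine inLocal_j_of_barCentre hc (e := aeval (⟨t⁻¹, ht1⟩ : B) E1)
      (n := aeval (⟨t⁻¹, ht1⟩ : B) N1) ?_ ?_ ?_
    · rw [aeval_subalgebra_coe, aeval_subalgebra_coe]; exact hrel1
    · rw [aeval_subalgebra_coe]; exact hE1
    · rw [aeval_subalgebra_coe]; exact h

/-! ### `hD` from the avoidance clauses -/

/-- The hypothesis `hD` of (AV) from `D` avoiding the nodes and the zeros of the denominators
`E_B(τ_B)` of `j` on the two charts. -/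
theorem hD_of_avoid {t : FK N L} (ht0 : t ∈ B0) (ht1 : t⁻¹ ∈ B1) {E0 N0 E1 N1 : R[X]}
    (hrel0 : jL * aeval t E0 = aeval t N0) (hrel1 : jL * aeval t⁻¹ E1 = aeval t⁻¹ N1)
    (D : Divisor L (FK N L))
    (hnode : ∀ (B : Subalgebra R (FK N L)) (𝔪 : Ideal B), IsNode π B0 B1 O1 O2 B 𝔪 →
      ∀ w : Place L (FK N L), Through B 𝔪 w → D w = 0)
    (h0 : ∀ 𝔪 : Ideal B0, 𝔪.IsMaximal → algebraMap R B0 π ∈ 𝔪 →
      aeval (⟨t, ht0⟩ : B0) E0 ∈ 𝔪 → ∀ w : Place L (FK N L), Through B0 𝔪 w → D w = 0)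
    (h1 : ∀ 𝔪 : Ideal B1, 𝔪.IsMaximal → algebraMap R B1 π ∈ 𝔪 →
      aeval (⟨t⁻¹, ht1⟩ : B1) E1 ∈ 𝔪 → ∀ w : Place L (FK N L), Through B1 𝔪 w → D w = 0) :
    ∀ (B : Subalgebra R (FK N L)) (𝔪 : Ideal B), (B = B0 ∨ B = B1) → 𝔪.IsMaximal →
      algebraMap R B π ∈ 𝔪 → (IsNode π B0 B1 O1 O2 B 𝔪 ∨ ¬ InLocal B 𝔪 jL) →
      ∀ w : Place L (FK N L), Through B 𝔪 w → D w = 0 := by
  rintro B 𝔪 hB h𝔪 hπ (hn | hj) w hw
  · exact hnode B 𝔪 hn w hw
  · rcases hB with rfl | rfl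
    · refine h0 𝔪 h𝔪 hπ ?_ w hw
      by_contra hE
      apply hj
      refine ⟨aeval (⟨t, ht0⟩ : B) N0, aeval (⟨t, ht0⟩ : B) E0, hE, ?_⟩
      rw [aeval_subalgebra_coe, aeval_subalgebra_coe]
      exact hrel0
    · refine h1 𝔪 h𝔪 hπ ?_ w hw
      by_contra hE
      apply hj
      refine ⟨aeval (⟨t⁻¹, ht1⟩ : B) N1, aeval (⟨t⁻¹, ht1⟩ : B) E1, hE, ?_⟩
      rw [aeval_subalgebra_coe, aeval_subalgebra_coe]
      exact hrel1

/-! ### (AV) for a `NodalNumData` -/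

/-- **(AV) for a `NodalNumData`** (frame by `FrameInst98.frame_of_numData`). -/
theorem ord_eq_zero_of_through_node_numData [Algebra R L] [IsScalarTower R L (FK N L)]
    {t : FK N L} (Nd : NodalNumData R L (FK N L) π t B0 B1 O1 O2)
    (hac1 : ResidueAlgClosed π O1) (hac2 : ResidueAlgClosed π O2)
    (U : UData N L π O1 O2 p hpN jL uL) (hp : p.Prime)
    (hpπ : ∃ r : R, (p : R) = π * r)
    (hsep : ∀ (A' : ValuationSubring Qbar) (P : Place Qbar (Fbar N))
      (B : Subalgebra R (FK N L)) (𝔪 : Ideal B), (B = B0 ∨ B = B1) → 𝔪.IsMaximal →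
      algebraMap R B π ∈ 𝔪 → BarCentre N L A' B 𝔪 P → NonCusp A' N P → InLocal B 𝔪 jL)
    {ℓ : ℕ} [NeZero ℓ] (hℓ : ℓ.Prime) (hℓp : ℓ ≠ p)
    (hα : (heckeAlphaBar Kbar N ℓ).toRingHom.IsIntegral)
    (hβ : (heckeBetaBar Kbar N ℓ).toRingHom.IsIntegral)
    [HasPrincipalDivisors Kbar (FF (N * ℓ))]
    (D : Divisor L (FK N L))
    (hD : ∀ (B : Subalgebra R (FK N L)) (𝔪 : Ideal B), (B = B0 ∨ B = B1) → 𝔪.IsMaximal →
      algebraMap R B π ∈ 𝔪 → (IsNode π B0 B1 O1 O2 B 𝔪 ∨ ¬ InLocal B 𝔪 jL) →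
      ∀ w : Place L (FK N L), Through B 𝔪 w → D w = 0)
    {Bn : Subalgebra R (FK N L)} {𝔪₀ : Ideal Bn} (hs : IsNode π B0 B1 O1 O2 Bn 𝔪₀)
    {h : FK N L} {a : ℤ}
    (hdiv : ∀ Pb : Place Qbar (Fbar N), Pb.ord (bc N L h) =
      heckeDivBar (N := N) (ℓ := ℓ) hα hβ (extDiv N L D) Pb - a * extDiv N L D Pb) :
    ∀ w : Place L (FK N L), Through Bn 𝔪₀ w → w.ord h = 0 :=
  ord_eq_zero_of_through_node (frame_of_numData Nd hac1 hac2) U hp hpπ Nd.model.int0
    Nd.model.int1 hsep hℓ hℓp hα hβ D hD hs hdiv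

end Fermat.Agent.M1.NRM.SideAvoidWire18
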