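/-
M1 (S44), chapter NRM (helper18): **the `Good` predicate of `Old/T4MainRep60` for NODE-TERM.**

A divisor `D` of `F / L` is in GOOD POSITION if its support avoids the nodes of the two-chart model
and the closed points of the special fibre at which the denominators `E0(t)`, `E1(t⁻¹)` of `j`
(`j E0(t) = N0(t)`, `j E1(t⁻¹) = N1(t⁻¹)`) vanish.

* `Good`;
* `exists_good_rep` : every class of `Cart 0` has a level-`0` representative in good position
  (`Car/AvoidCusp53.exists_ord_rep_avoiding`) = the hypothesis `hrep` of `T4MainRep60`;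
* `Good.node` : `D` avoids every node (`hD` of `NodeTermAbs58.hnode_of_rel`);
* `Good.hD` : the hypothesis `hD` of (AV);
* `Good.ord_eq_zero` : **(AV) for a divisor in good position** (`NodalNumData` form).
-/
import Mathlib
import Fermat.Agent.M1.NRM.SideAvoidWire18
import Fermat.Agent.M1.Car.AvoidCusp53

set_option autoImplicit false
set_option linter.unusedSectionVars false
set_option linter.style.haveILetI false
set_option synthInstance.maxHeartbeats 400000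
set_option maxHeartbeats 800000

noncomputable section

namespace Fermat.Agent.M1.NRM.NodeTermGood18

open AlgebraicCurve ModularCurve Polynomial
open Fermat.Agent.X0 Fermat.Agent.X0.Analytic Fermat.Agent.X0.FF Fermat.Agent.RED.Interface4
open Fermat.Agent.ES.N34.NodalCore13 Fermat.Agent.ES.N34.NumData13
open Fermat.Agent.M1.Car.Fibre25 Fermat.Agent.M1.Car.RatClass25
open Fermat.Agent.M1.Car.Defs43 Fermat.Agent.M1.Mon.WildPL43
open Fermat.Agent.M1.NRM.SidePart18 Fermat.Agent.M1.NRM.Side18 Fermat.Agent.M1.NRM.CompRing18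
open Fermat.Agent.M1.NRM.SideBranch18 Fermat.Agent.M1.NRM.SideAvoid18
open Fermat.Agent.M1.NRM.SideAvoidWire18
open Fermat.Agent.M1.Fib.Constants98 Fermat.Agent.M1.Fib.FrameInst98

/-- Shortcut to the instance found (slowly) by instance search. -/
local instance (priority := 5000) algKFK (M : ℕ) (K : IntermediateField ℚ Qbar) :
    Algebra K (FK M K) := SubalgebraClass.toAlgebra (FK M K)

variable {N : ℕ} [NeZero N] {L : IntermediateField ℚ Qbar} [FiniteDimensional ℚ L]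
variable {R : Type*} [CommRing R] [Algebra R (FK N L)]
variable {π : R} {B0 B1 : Subalgebra R (FK N L)} {O1 O2 : ValuationSubring (FK N L)}

/-- **Good position**: `D` avoids the nodes and the zeros of `E0(t)` on `B0`, of `E1(t⁻¹)` on
`B1`. -/
def Good (π : R) (B0 B1 : Subalgebra R (FK N L)) (O1 O2 : ValuationSubring (FK N L))
    {t : FK N L} (ht0 : t ∈ B0) (ht1 : t⁻¹ ∈ B1) (E0 E1 : R[X]) (D : Divisor L (FK N L)) : Prop :=
  (∀ (B : Subalgebra R (FK N L)) (𝔪 : Ideal B), IsNode π B0 B1 O1 O2 B 𝔪 →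
      ∀ w : Place L (FK N L), Through B 𝔪 w → D w = 0) ∧
    (∀ 𝔪 : Ideal B0, 𝔪.IsMaximal → algebraMap R B0 π ∈ 𝔪 → aeval (⟨t, ht0⟩ : B0) E0 ∈ 𝔪 →
      ∀ w : Place L (FK N L), Through B0 𝔪 w → D w = 0) ∧
    (∀ 𝔪 : Ideal B1, 𝔪.IsMaximal → algebraMap R B1 π ∈ 𝔪 → aeval (⟨t⁻¹, ht1⟩ : B1) E1 ∈ 𝔪 →
      ∀ w : Place L (FK N L), Through B1 𝔪 w → D w = 0)

variable {t : FK N L} {ht0 : t ∈ B0} {ht1 : t⁻¹ ∈ B1} {E0 E1 : R[X]} {D : Divisor L (FK N L)}

/-- A divisor in good position avoids every node. -/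
theorem Good.node (hG : Good π B0 B1 O1 O2 ht0 ht1 E0 E1 D) {Bn : Subalgebra R (FK N L)}
    {𝔪₀ : Ideal Bn} (hs : IsNode π B0 B1 O1 O2 Bn 𝔪₀) :
    ∀ w : Place L (FK N L), Through Bn 𝔪₀ w → D w = 0 :=
  hG.1 Bn 𝔪₀ hs

/-- The hypothesis `hD` of (AV) for a divisor in good position. -/
theorem Good.hD (hG : Good π B0 B1 O1 O2 ht0 ht1 E0 E1 D) {jL : FK N L} {N0 N1 : R[X]}
    (hrel0 : jL * aeval t E0 = aeval t N0) (hrel1 : jL * aeval t⁻¹ E1 = aeval t⁻¹ N1) :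
    ∀ (B : Subalgebra R (FK N L)) (𝔪 : Ideal B), (B = B0 ∨ B = B1) → 𝔪.IsMaximal →
      algebraMap R B π ∈ 𝔪 → (IsNode π B0 B1 O1 O2 B 𝔪 ∨ ¬ InLocal B 𝔪 jL) →
      ∀ w : Place L (FK N L), Through B 𝔪 w → D w = 0 :=
  hD_of_avoid ht0 ht1 hrel0 hrel1 D hG.1 hG.2.1 hG.2.2

section Rep

variable [Algebra R L] [IsScalarTower R L (FK N L)]

/-- **Every class of `Cart 0` has a level-`0` representative in good position** (`hrep` of
`Old/T4MainRep60`). -/
theorem exists_good_rep (Nd : NodalNumData R L (FK N L) π t B0 B1 O1 O2)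
    [Finite (R ⧸ (Ideal.span {π} : Ideal R))] (hne : O1 ≠ O2)
    {hπ1 : algebraMap R (FK N L) π ∈ O1} {hπ2 : algebraMap R (FK N L) π ∈ O2}
    (hE0 : E0.map (Ideal.Quotient.mk (Ideal.span {π} : Ideal R)) ≠ 0)
    (hE1 : E1.map (Ideal.Quotient.mk (Ideal.span {π} : Ideal R)) ≠ 0)
    {x : Pic0 L (FK N L)} (hx : x ∈ Cart π B0 B1 O1 O2 hπ1 hπ2 0) :
    ∃ D : Divisor.degZero (K := L) (F := FK N L), Pic0.mk D = x ∧
      HasLevel π B0 B1 O1 O2 0 (D : Divisor L (FK N L)) ∧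
      Good π B0 B1 O1 O2 Nd.model.t_mem Nd.model.tinv_mem E0 E1 (D : Divisor L (FK N L)) := by
  obtain ⟨D, hD, hlev, h1, h2, h3⟩ :=
    Fermat.Agent.M1.Car.AvoidCusp53.exists_ord_rep_avoiding Nd hne hE0 hE1 hx
  exact ⟨D, hD, hlev, h1, h2, h3⟩

variable {p : ℕ} [NeZero p] {hpN : p ∣ N} {jL uL : FK N L}

/-- **(AV) for a divisor in good position** (`NodalNumData` form). -/
theorem Good.ord_eq_zero (Nd : NodalNumData R L (FK N L) π t B0 B1 O1 O2)
    (hac1 : ResidueAlgClosed π O1) (hac2 : ResidueAlgClosed π O2)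
    (U : UData N L π O1 O2 p hpN jL uL) (hp : p.Prime)
    (hpπ : ∃ r : R, (p : R) = π * r)
    (hsep : ∀ (A' : ValuationSubring Qbar) (P : Place Qbar (Fbar N))
      (B : Subalgebra R (FK N L)) (𝔪 : Ideal B), (B = B0 ∨ B = B1) → 𝔪.IsMaximal →
      algebraMap R B π ∈ 𝔪 → BarCentre N L A' B 𝔪 P → NonCusp A' N P → InLocal B 𝔪 jL)
    {ℓ : ℕ} [NeZero ℓ] (hℓ : ℓ.Prime) (hℓp : ℓ ≠ p)
    (hα : (heckeAlphaBar Kbar N ℓ).toRingHom.IsIntegral)
    (hβ : (heckeBetaBar Kbar N ℓ).toRingHom.IsIntegral)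
    [HasPrincipalDivisors Kbar (FF (N * ℓ))]
    (hG : Good π B0 B1 O1 O2 Nd.model.t_mem Nd.model.tinv_mem E0 E1 D) {N0 N1 : R[X]}
    (hrel0 : jL * aeval t E0 = aeval t N0) (hrel1 : jL * aeval t⁻¹ E1 = aeval t⁻¹ N1)
    {Bn : Subalgebra R (FK N L)} {𝔪₀ : Ideal Bn} (hs : IsNode π B0 B1 O1 O2 Bn 𝔪₀)
    {h : FK N L} {a : ℤ}
    (hdiv : ∀ Pb : Place Qbar (Fbar N), Pb.ord (bc N L h) =
      heckeDivBar (N := N) (ℓ := ℓ) hα hβ (extDiv N L D) Pb - a * extDiv N L D Pb) :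
    ∀ w : Place L (FK N L), Through Bn 𝔪₀ w → w.ord h = 0 :=
  ord_eq_zero_of_through_node_numData Nd hac1 hac2 U hp hpπ hsep hℓ hℓp hα hβ D
    (hG.hD hrel0 hrel1) hs hdiv

end Rep

end Fermat.Agent.M1.NRM.NodeTermGood18
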