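/-
M1 (S44), chapter NRM (helper18): **(N1) the Hecke norm `N_α (β ·)` and the two Gauss valuations.**

`N` a level, `l ∤ N` a prime, `FF N = modularFunctionFieldBar N`, `α, β : FF N → FF (N l)` the two
degeneracy maps, `W_N = FrickeFK8.frickeBar N` the Fricke involution.

* `frickeBar_alpha`, `frickeBar_beta` : `W_{Nl} ∘ α = β ∘ W_N`, `W_{Nl} ∘ β = α ∘ W_N`;
* `normAlong_beta_alpha` : `N_β (α f) = N_α (β f)` (the correspondence `T_l` is symmetric);
* `frickeBar_normAlong` : `W_N (N_α (β f)) = N_α (β (W_N f))` (`T_l` commutes with `W_N`);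
* `IsGaussUnit A f` : `f` is a quotient of two functions of `FF N` with `A`-integral `q`-expansions of
  nonzero reduction (a unit of the Gauss valuation ring at `∞`);
* `IsGaussUnit.heckeNorm` : units at `∞` go to units at `∞` under `N_α (β ·)`,
  `IsGaussUnit.heckeNorm_fricke` : the same at the cusp `0` (`f ↦ W_N f`);
* `gauss_const_relation` : the resulting relation between the Gauss constants of `f` and `h` when
  `N_α (β f) = c • (f ^ a * h ^ m)`: `(c₂/c₁)^(l+1-a) = (d₂/d₁)^m` up to a unit of `A`.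
-/
import Mathlib
import Fermat.Agent.M1.Link.NormLinkFF88
import Fermat.Agent.ES.N34.FrickeFK8
import Fermat.Agent.ES.HECKE.NormCompat12

set_option autoImplicit false
set_option linter.unusedSectionVars false
set_option linter.style.haveILetI false
set_option synthInstance.maxHeartbeats 400000
set_option maxHeartbeats 800000

noncomputable section

open HahnSeries ModularCurve AlgebraicCurve

namespace Fermat.Agent.M1.NRM.NormVal18

open Fermat.Agent.X0 Fermat.Agent.X0.Analytic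
open Fermat.Agent.ES.N34.FrickeFK8
open Fermat.Agent.ES.KRON.Conjugates11 Fermat.Agent.ES.KRON.ConjAlpha24
open Fermat.Agent.ES.KRON.KronCong24 Fermat.Agent.ES.KRON.KronNorm10
open Fermat.Agent.ES.HECKE.PointFormula28

/-! ### Fricke versus the degeneracy maps, over `ℚbar` -/

section Ext

variable (N : ℕ) [NeZero N] {E : Type*} [Field E] [Algebra Kbar E]

/-- Two `ℚbar`-algebra homomorphisms out of `Fbar N` that agree on the generators `x_d` agree. -/
theorem algHom_ext_jdF_gen {φ ψ : FF N →ₐ[Kbar] E}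
    (h : ∀ (d : ℕ) [NeZero d] (hd : d ∣ N), φ (jdF N d hd) = ψ (jdF N d hd)) : φ = ψ := by
  have hR : ∀ u : Rsub N, φ (u : FF N) = ψ (u : FF N) := by
    intro u
    induction u using FracR.Rsub_induction with
    | hgen d hd => exact h d hd
    | hconst c =>
        show φ (algebraMap Kbar (FF N) c) = ψ (algebraMap Kbar (FF N) c)
        rw [φ.commutes, ψ.commutes]
    | hadd u v hu hv =>
        show φ ((u : FF N) + (v : FF N)) = ψ ((u : FF N) + (v : FF N))
        rw [map_add, map_add, hu, hv]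
    | hmul u v hu hv =>
        show φ ((u : FF N) * (v : FF N)) = ψ ((u : FF N) * (v : FF N))
        rw [map_mul, map_mul, hu, hv]
  apply AlgHom.ext
  intro y
  obtain ⟨r, s, rfl⟩ := FracR.exists_div N y
  rw [map_div₀, map_div₀, hR r, hR s]

end Ext

variable (N l : ℕ) [NeZero N] [NeZero l]

/-- `W_{Nl} ∘ α = β ∘ W_N`. -/
theorem frickeBar_comp_alpha :
    (frickeBar (N * l)).comp (heckeAlphaBar Kbar N l) =
      (heckeBetaBar Kbar N l).comp (frickeBar N) := by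
  apply algHom_ext_jdF_gen
  intro d _ hd
  obtain ⟨e, hde⟩ := hd
  have he0 : e ≠ 0 := by
    rintro rfl
    exact NeZero.ne N (by rw [hde, mul_zero])
  haveI : NeZero e := ⟨he0⟩
  have hde' : d * (e * l) = N * l := by rw [← mul_assoc, ← hde]
  rw [AlgHom.comp_apply, AlgHom.comp_apply,
    alpha_jdF N l d ⟨e, hde⟩ (Dvd.intro _ hde'),
    frickeBar_jdF (N * l) d (e * l) hde', frickeBar_jdF N d e hde.symm,
    beta_jdF N l e (Dvd.intro_left _ hde.symm) (Dvd.intro_left _ hde')]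

theorem frickeBar_alpha (x : FF N) :
    frickeBar (N * l) (heckeAlphaBar Kbar N l x) = heckeBetaBar Kbar N l (frickeBar N x) :=
  DFunLike.congr_fun (frickeBar_comp_alpha N l) x

/-- `W_{Nl} ∘ β = α ∘ W_N`. -/
theorem frickeBar_beta (x : FF N) :
    frickeBar (N * l) (heckeBetaBar Kbar N l x) = heckeAlphaBar Kbar N l (frickeBar N x) := by
  have h := frickeBar_alpha N l (frickeBar N x)
  rw [frickeBar_frickeBar] at h
  rw [← h, frickeBar_frickeBar]

/-! ### The Hecke correspondence is symmetric and commutes with Fricke -/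

/-- **(NORM-β)**: `N_β (α f) (q^l) = ∏_b f(ζ^b q) · f(q^{l²})`. -/
theorem qExpand_normAlong_beta (hl : l.Prime) (hlN : ¬ l ∣ N) (ζ : Kbarˣ)
    (hζ : IsPrimitiveRoot ζ l) (f : FF N) :
    qExpand Kbar l ((normAlong (heckeBetaBar Kbar N l) (heckeAlphaBar Kbar N l f) : FF N) :
        LaurentSeries Kbar) = normProd l ζ (f : LaurentSeries Kbar) := by
  have hfin := Fermat.Agent.ES.HECKE.AlongDegree25.finiteAlong_beta Kbar N l hl hlN
  have hn : finrankAlong Kbar (heckeBetaBar Kbar N l) = l + 1 :=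
    Fermat.Agent.ES.HECKE.AlongDegree25.finrankAlong_beta Kbar N l hl hlN
  have hpoly := charpolyAlong_map_of_val N l hl hlN ζ hζ
    (algebraMap (FF N) (LaurentSeries Kbar)) (fun _ => rfl) hfin f
  have h0 := congrArg (fun p => p.coeff 0) hpoly
  simp only [Polynomial.coeff_map] at h0
  rw [kronProd_coeff_zero] at h0
  rw [normAlong_eq_coeff_zero (heckeBetaBar Kbar N l) (heckeAlphaBar Kbar N l) hfin f, hn]
  have hs : ((-1 : LaurentSeries Kbar) ^ (l + 1)) * (-1) ^ (l + 1) = 1 := by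
    rw [← mul_pow, neg_one_mul, neg_neg, one_pow]
  show qExpand Kbar l (algebraMap (FF N) (LaurentSeries Kbar)
    ((-1) ^ (l + 1) * (charpolyAlong (heckeBetaBar Kbar N l) (heckeAlphaBar Kbar N l) hfin f).coeff 0))
    = _
  rw [map_mul, map_mul, h0, map_pow, map_pow, map_neg, map_neg, map_one, map_one, ← mul_assoc, hs,
    one_mul]

/-- **The correspondence `T_l` is symmetric on functions**: `N_β (α f) = N_α (β f)`. -/
theorem normAlong_beta_alpha (hl : l.Prime) (hlN : ¬ l ∣ N) (f : FF N) :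
    normAlong (heckeBetaBar Kbar N l) (heckeAlphaBar Kbar N l f) =
      normAlong (heckeAlphaBar Kbar N l) (heckeBetaBar Kbar N l f) := by
  haveI : Fact l.Prime := ⟨hl⟩
  obtain ⟨ζ, -, hζ⟩ := Fermat.Agent.ES.KRON.KronInst10.exists_primitiveRoot_unit (L := Kbar) (ℓ := l)
  have hζu : IsPrimitiveRoot ζ l := IsPrimitiveRoot.coe_units_iff.mp hζ
  apply Subtype.ext
  apply qExpand_injective (R := Kbar) l
  rw [qExpand_normAlong_beta N l hl hlN ζ hζu f, qExpand_normAlong_alpha N l hl hlN ζ hζu f]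

/-- **`T_l` commutes with the Fricke involution on functions**:
`W_N (N_α (β f)) = N_α (β (W_N f))`. -/
theorem frickeBar_normAlong (hl : l.Prime) (hlN : ¬ l ∣ N) (f : FF N) :
    frickeBar N (normAlong (heckeAlphaBar Kbar N l) (heckeBetaBar Kbar N l f)) =
      normAlong (heckeAlphaBar Kbar N l) (heckeBetaBar Kbar N l (frickeBar N f)) := by
  have hfinα := Fermat.Agent.ES.HECKE.AlongDegree25.finiteAlong_alpha Kbar N l hl hlN
  have hdeg : finrankAlong Kbar (heckeAlphaBar Kbar N l) =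
      finrankAlong Kbar (heckeBetaBar Kbar N l) := by
    rw [Fermat.Agent.ES.HECKE.AlongDegree25.finrankAlong_alpha Kbar N l hl hlN,
      Fermat.Agent.ES.HECKE.AlongDegree25.finrankAlong_beta Kbar N l hl hlN]
  have h := Fermat.Agent.ES.HECKE.NormCompat12.normAlong_compat
    (heckeAlphaBar Kbar N l) (frickeBar N) (heckeBetaBar Kbar N l) (frickeBar (N * l))
    (frickeBar_comp_alpha N l).symm hfinα hdeg
    (by
      letI := algebraAlong (heckeBetaBar Kbar N l)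
      intro y _
      exact Submodule.subset_span ⟨frickeBar (N * l) y, frickeBar_frickeBar (N * l) y⟩)
    (heckeBetaBar Kbar N l f)
  rw [frickeBar_beta] at h
  have h' : normAlong (heckeBetaBar Kbar N l) (heckeAlphaBar Kbar N l (frickeBar N f)) =
      frickeBar N (normAlong (heckeAlphaBar Kbar N l) (heckeBetaBar Kbar N l f)) := h
  rw [← h', normAlong_beta_alpha N l hl hlN]

/-! ### Generalities on `normAlong` -/

section NormAlong

variable {K F F' : Type*} [Field K] [Field F] [Field F'] [Algebra K F] [Algebra K F']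

theorem normAlong_mul (φ : F →ₐ[K] F') (x y : F') :
    normAlong φ (x * y) = normAlong φ x * normAlong φ y := by
  letI := algebraAlong φ
  show Algebra.norm F (x * y) = Algebra.norm F x * Algebra.norm F y
  exact map_mul _ _ _

theorem normAlong_one (φ : F →ₐ[K] F') : normAlong φ (1 : F') = 1 := by
  letI := algebraAlong φ
  show Algebra.norm F (1 : F') = 1
  exact map_one _

/-- the norm of a constant. -/
theorem normAlong_const (φ : F →ₐ[K] F') (c : K) :
    normAlong φ (algebraMap K F' c) = algebraMap K F (c ^ finrankAlong K φ) := by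
  letI := algebraAlong φ
  have h1 : algebraMap K F' c = algebraMap F F' (algebraMap K F c) := (φ.commutes c).symm
  show Algebra.norm F (algebraMap K F' c) = _
  rw [h1, Algebra.norm_algebraMap, map_pow]
  rfl

theorem normAlong_smul (φ ψ : F →ₐ[K] F') (c : K) (x : F) :
    normAlong φ (ψ (c • x)) = c ^ finrankAlong K φ • normAlong φ (ψ x) := by
  rw [Algebra.smul_def, map_mul, ψ.commutes, normAlong_mul, normAlong_const, Algebra.smul_def]

end NormAlong

/-! ### Units of the Gauss valuation ring at `∞` -/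

section Gauss

variable {N} (A : ValuationSubring Kbar)

/-- `f` has an `A`-integral `q`-expansion with nonzero reduction. -/
def IsIntUnit (f : FF N) : Prop :=
  ∃ y : LaurentSeries ↥A, coeffMap A.subtype y = (f : LaurentSeries Kbar) ∧
    coeffMap (IsLocalRing.residue ↥A) y ≠ 0

/-- `f` is a unit of the Gauss valuation ring at `∞`: a quotient of two functions of `FF N` with
`A`-integral `q`-expansions of nonzero reduction. -/
def IsGaussUnit (f : FF N) : Prop :=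
  ∃ a b : FF N, IsIntUnit A a ∧ IsIntUnit A b ∧ f * b = a

variable {A}

theorem IsIntUnit.ne_zero {f : FF N} (hf : IsIntUnit A f) : f ≠ 0 := by
  obtain ⟨y, hy, hyr⟩ := hf
  rintro rfl
  apply hyr
  have : y = 0 := by
    apply Fermat.Agent.RED.DESC.CoeffDescent1.coeffMap_injective_of_injective A.subtype
      Subtype.val_injective
    rw [hy, map_zero]
    rfl
  rw [this, map_zero]

theorem IsIntUnit.one : IsIntUnit A (1 : FF N) :=
  ⟨1, by rw [map_one]; rfl, by rw [map_one]; exact one_ne_zero⟩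

theorem IsIntUnit.mul {f g : FF N} (hf : IsIntUnit A f) (hg : IsIntUnit A g) :
    IsIntUnit A (f * g) := by
  obtain ⟨y, hy, hyr⟩ := hf
  obtain ⟨z, hz, hzr⟩ := hg
  refine ⟨y * z, ?_, ?_⟩
  · rw [map_mul, hy, hz]; rfl
  · rw [map_mul]; exact mul_ne_zero hyr hzr

theorem IsIntUnit.pow {f : FF N} (hf : IsIntUnit A f) (n : ℕ) : IsIntUnit A (f ^ n) := by
  induction n with
  | zero => rw [pow_zero]; exact IsIntUnit.one
  | succ n ih => rw [pow_succ]; exact ih.mul hf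

theorem IsIntUnit.isGaussUnit {f : FF N} (hf : IsIntUnit A f) : IsGaussUnit A f :=
  ⟨f, 1, hf, IsIntUnit.one, mul_one f⟩

theorem IsGaussUnit.ne_zero {f : FF N} (hf : IsGaussUnit A f) : f ≠ 0 := by
  obtain ⟨a, b, ha, hb, hab⟩ := hf
  rintro rfl
  rw [zero_mul] at hab
  exact ha.ne_zero hab.symm

theorem IsGaussUnit.one : IsGaussUnit A (1 : FF N) := IsIntUnit.one.isGaussUnit

theorem IsGaussUnit.mul {f g : FF N} (hf : IsGaussUnit A f) (hg : IsGaussUnit A g) :
    IsGaussUnit A (f * g) := by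
  obtain ⟨a, b, ha, hb, hab⟩ := hf
  obtain ⟨a', b', ha', hb', hab'⟩ := hg
  exact ⟨a * a', b * b', ha.mul ha', hb.mul hb', by rw [← hab, ← hab']; ring⟩

theorem IsGaussUnit.inv {f : FF N} (hf : IsGaussUnit A f) : IsGaussUnit A f⁻¹ := by
  have hf0 := hf.ne_zero
  obtain ⟨a, b, ha, hb, hab⟩ := hf
  refine ⟨b, a, hb, ha, ?_⟩
  rw [← hab]
  field_simp

theorem IsGaussUnit.div {f g : FF N} (hf : IsGaussUnit A f) (hg : IsGaussUnit A g) :
    IsGaussUnit A (f / g) := by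
  rw [div_eq_mul_inv]; exact hf.mul hg.inv

theorem IsGaussUnit.pow {f : FF N} (hf : IsGaussUnit A f) (n : ℕ) : IsGaussUnit A (f ^ n) := by
  induction n with
  | zero => rw [pow_zero]; exact IsGaussUnit.one
  | succ n ih => rw [pow_succ]; exact ih.mul hf

theorem IsGaussUnit.zpow {f : FF N} (hf : IsGaussUnit A f) (n : ℤ) : IsGaussUnit A (f ^ n) := by
  obtain ⟨k, rfl | rfl⟩ := n.eq_nat_or_neg
  · rw [zpow_natCast]; exact hf.pow k
  · rw [zpow_neg, zpow_natCast]; exact (hf.pow k).inv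

theorem coe_algebraMap_FF (κ : Kbar) :
    ((algebraMap Kbar (FF N) κ : FF N) : LaurentSeries Kbar) = HahnSeries.C κ := by
  have h0 : ((algebraMap Kbar (FF N) κ : FF N) : LaurentSeries Kbar) =
      algebraMap Kbar (LaurentSeries Kbar) κ := rfl
  have h1 : algebraMap Kbar (PowerSeries Kbar) κ = PowerSeries.C κ := by simp
  rw [h0, HahnSeries.algebraMap_apply', h1, HahnSeries.ofPowerSeries_C]

/-- A constant which is a Gauss unit is a unit of `A`. -/
theorem IsGaussUnit.const_mem {κ : Kbar} (h : IsGaussUnit A (algebraMap Kbar (FF N) κ)) :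
    κ ∈ A ∧ κ⁻¹ ∈ A := by
  have key : ∀ (μ : Kbar) (a b : FF N), IsIntUnit A a → IsIntUnit A b →
      algebraMap Kbar (FF N) μ * b = a → μ⁻¹ ∈ A := by
    intro μ a b ha hb hab
    by_contra hμ
    have hμA : μ ∈ A := by
      rcases A.mem_or_inv_mem μ with h1 | h1
      · exact h1
      · exact absurd h1 hμ
    obtain ⟨y, hy, hyr⟩ := ha
    obtain ⟨z, hz, hzr⟩ := hb
    apply hyr
    ext n
    rw [coeffMap_coeff, HahnSeries.coeff_zero, IsLocalRing.residue_eq_zero_iff]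
    have hcoe : (a : LaurentSeries Kbar) = HahnSeries.C μ * (b : LaurentSeries Kbar) := by
      rw [← hab, ← coe_algebraMap_FF (N := N) μ]; rfl
    have hn : ((y.coeff n : ↥A) : Kbar) = μ * ((z.coeff n : ↥A) : Kbar) := by
      have h1 : (a : LaurentSeries Kbar).coeff n =
          (HahnSeries.C μ * (b : LaurentSeries Kbar)).coeff n := by rw [hcoe]
      rw [← hy, ← hz, HahnSeries.C_mul_eq_smul, HahnSeries.coeff_smul] at h1
      exact h1
    have hyn : y.coeff n = (⟨μ, hμA⟩ : ↥A) * z.coeff n := Subtype.ext hn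
    rw [hyn]
    refine Ideal.mul_mem_right _ _ ?_
    rw [IsLocalRing.mem_maximalIdeal, mem_nonunits_iff]
    intro hu
    obtain ⟨v, hv⟩ := hu.exists_left_inv
    have hv' : (v : Kbar) * μ = 1 := congrArg Subtype.val hv
    have hμ0 : μ ≠ 0 := by
      rintro rfl
      rw [mul_zero] at hv'
      exact zero_ne_one hv'
    have : μ⁻¹ = (v : Kbar) := by
      field_simp
      rw [mul_comm]; exact hv'.symm
    exact hμ (this ▸ v.2)
  obtain ⟨a, b, ha, hb, hab⟩ := h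
  have hκ0 : κ ≠ 0 := by
    rintro rfl
    rw [map_zero, zero_mul] at hab
    exact ha.ne_zero hab.symm
  refine ⟨?_, key κ a b ha hb hab⟩
  have := key κ⁻¹ b a hb ha (by
    rw [← hab, ← mul_assoc, ← map_mul, inv_mul_cancel₀ hκ0, map_one, one_mul])
  rwa [inv_inv] at this

end Gauss

/-! ### (N1): the Hecke norm preserves Gauss units, at `∞` and at `0` -/

section HeckeNorm

variable {N l}
variable {p : ℕ} {A : ValuationSubring Kbar}

theorem IsIntUnit.heckeNorm (hl : l.Prime) (hlN : ¬ l ∣ N) (hp : p.Prime) (hlp : l ≠ p)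
    (hA : A.LiesOverPrime p) {f : FF N} (hf : IsIntUnit A f) :
    IsIntUnit A (normAlong (heckeAlphaBar Kbar N l) (heckeBetaBar Kbar N l f)) := by
  obtain ⟨y, hy, hyr⟩ := hf
  obtain ⟨NR, h1, h2, -⟩ :=
    Fermat.Agent.M1.Link.NormLinkFF88.dlog_hecke_norm N l hl hlN hp hlp A hA f y hy hyr
  exact ⟨NR, h1, h2⟩

/-- **(N1) at `∞`**: the Hecke norm of a Gauss unit is a Gauss unit. -/
theorem IsGaussUnit.heckeNorm (hl : l.Prime) (hlN : ¬ l ∣ N) (hp : p.Prime) (hlp : l ≠ p)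
    (hA : A.LiesOverPrime p) {f : FF N} (hf : IsGaussUnit A f) :
    IsGaussUnit A (normAlong (heckeAlphaBar Kbar N l) (heckeBetaBar Kbar N l f)) := by
  obtain ⟨a, b, ha, hb, hab⟩ := hf
  refine ⟨_, _, ha.heckeNorm hl hlN hp hlp hA, hb.heckeNorm hl hlN hp hlp hA, ?_⟩
  rw [← normAlong_mul, ← map_mul, hab]

/-- **(N1) at `0`**: if `W_N f` is a Gauss unit, so is `W_N (N_α (β f))`. -/
theorem IsGaussUnit.heckeNorm_fricke (hl : l.Prime) (hlN : ¬ l ∣ N) (hp : p.Prime) (hlp : l ≠ p)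
    (hA : A.LiesOverPrime p) {f : FF N} (hf : IsGaussUnit A (frickeBar N f)) :
    IsGaussUnit A
      (frickeBar N (normAlong (heckeAlphaBar Kbar N l) (heckeBetaBar Kbar N l f))) := by
  rw [frickeBar_normAlong N l hl hlN]
  exact hf.heckeNorm hl hlN hp hlp hA

theorem frickeBar_smul (c : Kbar) (x : FF N) : frickeBar N (c • x) = c • frickeBar N x := by
  rw [Algebra.smul_def, map_mul, AlgHom.commutes, ← Algebra.smul_def]

/-- **One-sided constant relation.**  If `N_α (β f) = c • (f ^ a * h ^ m)`, `f = c₁ u`, `h = d₁ w`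
with `u`, `w` Gauss units, then `c c₁^a d₁^m / c₁^(l+1)` is a unit of `A`. -/
theorem const_unit_of_rel (hl : l.Prime) (hlN : ¬ l ∣ N) (hp : p.Prime) (hlp : l ≠ p)
    (hA : A.LiesOverPrime p) {f h : FF N} {a : ℤ} {m : ℕ} {c : Kbar}
    (hrel : normAlong (heckeAlphaBar Kbar N l) (heckeBetaBar Kbar N l f) = c • (f ^ a * h ^ m))
    {c₁ d₁ : Kbar} (hc₁ : c₁ ≠ 0) (hd₁ : d₁ ≠ 0)
    (hf : IsGaussUnit A (c₁⁻¹ • f)) (hh : IsGaussUnit A (d₁⁻¹ • h)) :
    c ≠ 0 ∧ c * c₁ ^ a * d₁ ^ m / c₁ ^ (l + 1) ∈ A ∧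
      (c * c₁ ^ a * d₁ ^ m / c₁ ^ (l + 1))⁻¹ ∈ A := by
  obtain ⟨u, hu⟩ : ∃ u : FF N, u = c₁⁻¹ • f := ⟨_, rfl⟩
  obtain ⟨w, hw⟩ : ∃ w : FF N, w = d₁⁻¹ • h := ⟨_, rfl⟩
  rw [← hu] at hf
  rw [← hw] at hh
  have hfu : f = c₁ • u := by rw [hu, smul_smul, mul_inv_cancel₀ hc₁, one_smul]
  have hhw : h = d₁ • w := by rw [hw, smul_smul, mul_inv_cancel₀ hd₁, one_smul]
  have hn : finrankAlong Kbar (heckeAlphaBar Kbar N l) = l + 1 :=
    Fermat.Agent.ES.HECKE.AlongDegree25.finrankAlong_alpha Kbar N l hl hlN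
  have hX := hf.heckeNorm hl hlN hp hlp hA
  have hY : IsGaussUnit A (u ^ a * w ^ m) := (hf.zpow a).mul (hh.pow m)
  have hY0 := hY.ne_zero
  have hc₁' : c₁ ^ (l + 1) ≠ 0 := pow_ne_zero _ hc₁
  have h1 : c₁ ^ (l + 1) •
      normAlong (heckeAlphaBar Kbar N l) (heckeBetaBar Kbar N l u) =
      (c * c₁ ^ a * d₁ ^ m) • (u ^ a * w ^ m) := by
    rw [← hn, ← normAlong_smul, ← hfu, hrel, hfu, hhw]
    simp only [Algebra.smul_def, mul_zpow, mul_pow, map_mul, map_zpow₀, map_pow]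
    ring
  have h2 : algebraMap Kbar (FF N) (c * c₁ ^ a * d₁ ^ m / c₁ ^ (l + 1)) =
      normAlong (heckeAlphaBar Kbar N l) (heckeBetaBar Kbar N l u) / (u ^ a * w ^ m) := by
    rw [eq_div_iff hY0, map_div₀, div_mul_eq_mul_div, div_eq_iff
      (by rw [Ne, map_eq_zero_iff _ (algebraMap Kbar (FF N)).injective]; exact hc₁')]
    rw [Algebra.smul_def, Algebra.smul_def] at h1
    rw [← h1]; ring
  have hunit : IsGaussUnit A (algebraMap Kbar (FF N) (c * c₁ ^ a * d₁ ^ m / c₁ ^ (l + 1))) := by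
    rw [h2]; exact hX.div hY
  refine ⟨?_, hunit.const_mem⟩
  rintro rfl
  apply hunit.ne_zero
  rw [zero_mul, zero_mul, zero_div, map_zero]

/-- **(N1), constant form.**  `N_α (β f) = c • (f ^ a * h ^ m)`; `c₁, d₁` Gauss constants of `f, h` at
`∞` and `c₂, d₂` Gauss constants at `0` (i.e. of `W_N f`, `W_N h`).  Then
`(c₂/c₁)^(l+1-a) = (d₂/d₁)^m` up to a unit of `A`: in terms of `b(x) := v₂(x) - v₁(x)`,
`(l + 1 - a) b(f) = m b(h)`. -/
theorem gauss_const_relation (hl : l.Prime) (hlN : ¬ l ∣ N) (hp : p.Prime) (hlp : l ≠ p)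
    (hA : A.LiesOverPrime p) {f h : FF N} {a : ℤ} {m : ℕ} {c : Kbar}
    (hrel : normAlong (heckeAlphaBar Kbar N l) (heckeBetaBar Kbar N l f) = c • (f ^ a * h ^ m))
    {c₁ c₂ d₁ d₂ : Kbar} (hc₁ : c₁ ≠ 0) (hc₂ : c₂ ≠ 0) (hd₁ : d₁ ≠ 0) (hd₂ : d₂ ≠ 0)
    (hf1 : IsGaussUnit A (c₁⁻¹ • f)) (hf2 : IsGaussUnit A (frickeBar N (c₂⁻¹ • f)))
    (hh1 : IsGaussUnit A (d₁⁻¹ • h)) (hh2 : IsGaussUnit A (frickeBar N (d₂⁻¹ • h))) :
    ∃ u : Kbar, u ∈ A ∧ u⁻¹ ∈ A ∧ (c₂ / c₁) ^ ((l : ℤ) + 1 - a) = u * (d₂ / d₁) ^ m := by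
  obtain ⟨hc0, hk1, hk1'⟩ := const_unit_of_rel hl hlN hp hlp hA hrel hc₁ hd₁ hf1 hh1
  have hrel' : normAlong (heckeAlphaBar Kbar N l) (heckeBetaBar Kbar N l (frickeBar N f)) =
      c • (frickeBar N f ^ a * frickeBar N h ^ m) := by
    rw [← frickeBar_normAlong N l hl hlN, hrel, frickeBar_smul, map_mul, map_zpow₀, map_pow]
  rw [frickeBar_smul] at hf2 hh2
  obtain ⟨-, hk2, hk2'⟩ := const_unit_of_rel hl hlN hp hlp hA hrel' hc₂ hd₂ hf2 hh2
  refine ⟨(c * c₁ ^ a * d₁ ^ m / c₁ ^ (l + 1)) * (c * c₂ ^ a * d₂ ^ m / c₂ ^ (l + 1))⁻¹,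
    A.mul_mem _ _ hk1 hk2', ?_, ?_⟩
  · rw [mul_inv, inv_inv, mul_comm]; exact A.mul_mem _ _ hk2 hk1'
  · have hr0 : c₂ / c₁ ≠ 0 := div_ne_zero hc₂ hc₁
    have e1 : c₂ = (c₂ / c₁) * c₁ := by field_simp
    have e2 : d₂ = (d₂ / d₁) * d₁ := by field_simp
    generalize c₂ / c₁ = r at hr0 e1 ⊢
    generalize d₂ / d₁ = s at e2 ⊢
    have hs0 : s ≠ 0 := by
      rintro rfl
      rw [zero_mul] at e2
      exact hd₂ e2
    subst e1 e2
    rw [zpow_sub₀ hr0, mul_zpow, mul_pow, mul_pow]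
    have hra : r ^ a ≠ 0 := zpow_ne_zero _ hr0
    have hca : c₁ ^ a ≠ 0 := zpow_ne_zero _ hc₁
    have h3 : r ^ ((l : ℤ) + 1) = r ^ (l + 1) := by
      rw [← zpow_natCast]; push_cast; rfl
    rw [h3]
    field_simp

/-- Valuation form of `gauss_const_relation`. -/
theorem gauss_val_relation (hl : l.Prime) (hlN : ¬ l ∣ N) (hp : p.Prime) (hlp : l ≠ p)
    (hA : A.LiesOverPrime p) {f h : FF N} {a : ℤ} {m : ℕ} {c : Kbar}
    (hrel : normAlong (heckeAlphaBar Kbar N l) (heckeBetaBar Kbar N l f) = c • (f ^ a * h ^ m))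
    {c₁ c₂ d₁ d₂ : Kbar} (hc₁ : c₁ ≠ 0) (hc₂ : c₂ ≠ 0) (hd₁ : d₁ ≠ 0) (hd₂ : d₂ ≠ 0)
    (hf1 : IsGaussUnit A (c₁⁻¹ • f)) (hf2 : IsGaussUnit A (frickeBar N (c₂⁻¹ • f)))
    (hh1 : IsGaussUnit A (d₁⁻¹ • h)) (hh2 : IsGaussUnit A (frickeBar N (d₂⁻¹ • h))) :
    A.valuation (c₂ / c₁) ^ ((l : ℤ) + 1 - a) = A.valuation (d₂ / d₁) ^ m := by
  obtain ⟨u, hu, hu', hrel'⟩ :=
    gauss_const_relation hl hlN hp hlp hA hrel hc₁ hc₂ hd₁ hd₂ hf1 hf2 hh1 hh2
  have hu1 : A.valuation u = 1 := by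
    have h1 : A.valuation u ≤ 1 := (A.valuation_le_one_iff _).mpr hu
    have h2 : A.valuation u⁻¹ ≤ 1 := (A.valuation_le_one_iff _).mpr hu'
    have hu0 : u ≠ 0 := by
      rintro rfl
      rw [zero_mul] at hrel'
      exact zpow_ne_zero _ (div_ne_zero hc₂ hc₁) hrel'
    have hpos : 0 < A.valuation u := by
      rw [pos_iff_ne_zero, Valuation.ne_zero_iff]; exact hu0
    rw [map_inv₀] at h2
    exact le_antisymm h1 ((inv_le_one₀ hpos).mp h2)
  rw [← map_zpow₀, hrel', map_mul, hu1, one_mul, map_pow]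

/-- Powers of an element of nontrivial valuation: equality of valuations forces equality of
exponents. -/
theorem zpow_exponent_eq {π : Kbar} (hπ0 : π ≠ 0) (hπ : π⁻¹ ∉ A) {x y : ℤ}
    (h : A.valuation π ^ x = A.valuation π ^ y) : x = y := by
  have hpos : 0 < A.valuation π := by
    rw [pos_iff_ne_zero, Valuation.ne_zero_iff]; exact hπ0
  have hne : A.valuation π ≠ 1 := by
    intro h1
    apply hπ
    rw [← A.valuation_le_one_iff, map_inv₀, h1, inv_one]
  exact zpow_right_injective₀ hpos hne h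

/-- **(N1), integer form.**  With a common "uniformiser" `π` (any nonunit of `A`, `π ≠ 0`):
`v₁(f) = a₁`, `v₂(f) = a₂`, `v₁(h) = b₁`, `v₂(h) = b₂` (in units of `v(π)`) and
`N_α (β f) = c • (f ^ a * h ^ m)` give `(a₂ - a₁) (l + 1 - a) = (b₂ - b₁) m`. -/
theorem gauss_int_relation (hl : l.Prime) (hlN : ¬ l ∣ N) (hp : p.Prime) (hlp : l ≠ p)
    (hA : A.LiesOverPrime p) {f h : FF N} {a : ℤ} {m : ℕ} {c : Kbar}
    (hrel : normAlong (heckeAlphaBar Kbar N l) (heckeBetaBar Kbar N l f) = c • (f ^ a * h ^ m))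
    {π : Kbar} (hπ0 : π ≠ 0) (hπ : π⁻¹ ∉ A) {a₁ a₂ b₁ b₂ : ℤ}
    (hf1 : IsGaussUnit A ((π ^ a₁)⁻¹ • f)) (hf2 : IsGaussUnit A (frickeBar N ((π ^ a₂)⁻¹ • f)))
    (hh1 : IsGaussUnit A ((π ^ b₁)⁻¹ • h)) (hh2 : IsGaussUnit A (frickeBar N ((π ^ b₂)⁻¹ • h))) :
    (a₂ - a₁) * ((l : ℤ) + 1 - a) = (b₂ - b₁) * m := by
  have hz : ∀ n : ℤ, π ^ n ≠ 0 := fun n => zpow_ne_zero n hπ0
  have h1 := gauss_val_relation hl hlN hp hlp hA hrel (hz a₁) (hz a₂) (hz b₁) (hz b₂)
    hf1 hf2 hh1 hh2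
  rw [← zpow_sub₀ hπ0, ← zpow_sub₀ hπ0, map_zpow₀, map_zpow₀, ← zpow_mul, ← zpow_natCast,
    ← zpow_mul] at h1
  exact zpow_exponent_eq hπ0 hπ h1

/-- The arithmetic of the node term: `e ∣ a₂ - a₁`, `e ∣ b₂ - b₁` (thickness `e`),
`(a₂ - a₁) k = (b₂ - b₁) p` with `p ∤ k` ⟹ `e p ∣ a₂ - a₁`. -/
theorem node_term_arith {e : ℕ} (he : 0 < e) {p : ℕ} (hp : p.Prime) {a₁ a₂ b₁ b₂ x y k : ℤ}
    (hx : a₂ - a₁ = e * x) (hy : b₂ - b₁ = e * y) (hk : ¬ (p : ℤ) ∣ k)
    (h : (a₂ - a₁) * k = (b₂ - b₁) * p) : ((e : ℤ) * p) ∣ a₂ - a₁ := by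
  rw [hx, hy] at h
  have he0 : (e : ℤ) ≠ 0 := by exact_mod_cast he.ne'
  have h' : x * k = y * p := by
    apply mul_left_cancel₀ he0
    linear_combination h
  have hpx : (p : ℤ) ∣ x * k := ⟨y, by rw [h']; ring⟩
  have hp' : Prime (p : ℤ) := Nat.prime_iff_prime_int.mp hp
  rcases hp'.dvd_or_dvd hpx with h1 | h1
  · rw [hx]; exact mul_dvd_mul_left _ h1
  · exact absurd h1 hk

end HeckeNorm

end Fermat.Agent.M1.NRM.NormVal18
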