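/-
M1 (S44), chapter NRM (helper18): **(N1) in the frame of `ES/N34/ModelDefs9`** (number field `K`,
`R = A ∩ K`, `F = FK N K`, Gauss valuation rings `O1 = gaussVS`, `O2 = O1 ∘ W_N`).

* `mem_of_C_mul_embK` : `C μ * y = z`, `y, z ∈ A((q))`, `ȳ ≠ 0` ⟹ `μ ∈ A`;
* `isGaussUnit_of_mem_gaussRing` : `f ∈ FF N` with `f, f⁻¹` in the Gauss ring of `ℚbar((q))` is a
  Gauss unit in the sense of `NormVal18` (quotient of two FUNCTIONS with integral expansions);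
* `bar_mem_gaussRing` : base change `K((q)) → ℚbar((q))` maps the Gauss ring of `A ∩ K` into the one
  of `A`;
* `isGaussUnit_bar_of_unit`, `isGaussUnit_fricke_bar_of_unit` : units of `O1` (resp. `O2`) become
  Gauss units (resp. after `W_N`) over `ℚbar`;
* **`node_term`** : `g, h ∈ FK N K`, `N_α (β g) = c • (g ^ a * h ^ p)` over `ℚbar`,
  `g = π^a₁ u₁ = π^a₂ u₂`, `h = π^b₁ w₁ = π^b₂ w₂` (units of `O1`, `O2`), `e ∣ a₂ - a₁`,
  `e ∣ b₂ - b₁`, `p ∤ l + 1 - a` ⟹ `e p ∣ a₂ - a₁`.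
-/
import Mathlib
import Fermat.Agent.M1.NRM.NormVal18
import Fermat.Agent.ES.N34.ModelDefs9
import Fermat.Agent.ES.RED.GaussUnit25
import Fermat.Agent.M1.Link.HeckeDlog88

set_option autoImplicit false
set_option linter.unusedSectionVars false
set_option linter.style.haveILetI false
set_option synthInstance.maxHeartbeats 400000
set_option maxHeartbeats 800000

noncomputable section

open HahnSeries ModularCurve AlgebraicCurve

namespace Fermat.Agent.M1.NRM.NormValK18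

open Fermat.Agent.X0
open Fermat.Agent.RED.Interface4 Fermat.Agent.RED.DESC Fermat.Agent.RED.DESC.NumberFieldDVR27
open Fermat.Agent.RED.DESC.PlaceExtend27
open Fermat.Agent.RED.PUR.GaussGen8
open Fermat.Agent.ES.RED.GaussUnit25
open Fermat.Agent.ES.N34.FrickeFK8 Fermat.Agent.ES.N34.ModelDefs9
open Fermat.Agent.ES.HECKE.PointFormula28
open Fermat.Agent.M1.NRM.NormVal18

/-! ### The Gauss ring of `ℚbar((q))` -/

section Bar

variable {A : ValuationSubring Qbar}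

/-- `C μ * y = z` with `y, z` integral and `ȳ ≠ 0` forces `μ ∈ A`. -/
theorem mem_of_C_mul_embK {μ : Qbar} {y z : LaurentSeries ↥A} (hy : redL A y ≠ 0)
    (h : HahnSeries.C μ * embK A y = embK A z) : μ ∈ A := by
  by_contra hμ
  have hμinv : μ⁻¹ ∈ A := by
    rcases A.mem_or_inv_mem μ with h1 | h1
    · exact absurd h1 hμ
    · exact h1
  have hμ0 : μ ≠ 0 := by
    rintro rfl
    exact hμ A.zero_mem
  apply hy
  ext n
  show IsLocalRing.residue ↥A (y.coeff n) = 0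
  rw [IsLocalRing.residue_eq_zero_iff]
  have hn : μ * ((y.coeff n : ↥A) : Qbar) = ((z.coeff n : ↥A) : Qbar) := by
    have h1 : (HahnSeries.C μ * embK A y).coeff n = (embK A z).coeff n := by rw [h]
    rw [HahnSeries.C_mul_eq_smul, HahnSeries.coeff_smul] at h1
    exact h1
  have hyn : y.coeff n = (⟨μ⁻¹, hμinv⟩ : ↥A) * z.coeff n := by
    apply Subtype.ext
    show ((y.coeff n : ↥A) : Qbar) = μ⁻¹ * ((z.coeff n : ↥A) : Qbar)
    rw [← hn, ← mul_assoc, inv_mul_cancel₀ hμ0, one_mul]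
  rw [hyn]
  refine Ideal.mul_mem_right _ _ ?_
  rw [IsLocalRing.mem_maximalIdeal, mem_nonunits_iff]
  intro hu
  obtain ⟨v, hv⟩ := hu.exists_left_inv
  have hv' : (v : Qbar) * μ⁻¹ = 1 := congrArg Subtype.val hv
  have : μ = (v : Qbar) := by
    field_simp at hv'
    exact hv'.symm
  exact hμ (this ▸ v.2)

variable {N : ℕ} [NeZero N]

/-- A function of `FF N` which is a unit of the Gauss ring of `ℚbar((q))` is a quotient of two
functions of `FF N` with integral expansions of nonzero reduction. -/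
theorem isGaussUnit_of_mem_gaussRing {p : ℕ} (hp : p.Prime) (hA : A.LiesOverPrime p) {f : FF N}
    (hf0 : f ≠ 0) (h1 : (f : LaurentSeries Qbar) ∈ gaussRing A)
    (h2 : ((f⁻¹ : FF N) : LaurentSeries Qbar) ∈ gaussRing A) : IsGaussUnit A f := by
  obtain ⟨c, a, b, hc0, haE, hbE, har, hbr, hrel⟩ :=
    Fermat.Agent.M1.Link.HeckeDlog88.exists_gauss_fraction_bar hp A hA N f hf0
  have ha0 : embK A a ≠ 0 := fun h0 => har (by rw [(embK_eq_zero_iff A a).mp h0, map_zero])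
  have hb0 : embK A b ≠ 0 := fun h0 => hbr (by rw [(embK_eq_zero_iff A b).mp h0, map_zero])
  have hrel' : (f : LaurentSeries Qbar) * embK A b = HahnSeries.C c * embK A a := hrel
  have hfv0 : (f : LaurentSeries Qbar) ≠ 0 := fun h0 => hf0 (Subtype.ext h0)
  -- `c ∈ A`
  have hcA : c ∈ A := by
    obtain ⟨a₀, s₀, hs₀, h₀⟩ := h1
    refine mem_of_C_mul_embK (y := a * s₀) (z := a₀ * b)
      (by rw [map_mul]; exact mul_ne_zero har hs₀) ?_
    rw [map_mul, map_mul, ← mul_assoc, ← hrel', ← h₀]; ring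
  -- `c⁻¹ ∈ A`
  have hcA' : c⁻¹ ∈ A := by
    obtain ⟨a₁, s₁, hs₁, h₁⟩ := h2
    have h₁' : (f : LaurentSeries Qbar)⁻¹ * embK A s₁ = embK A a₁ := h₁
    refine mem_of_C_mul_embK (y := b * s₁) (z := a₁ * a)
      (by rw [map_mul]; exact mul_ne_zero hbr hs₁) ?_
    rw [map_mul, map_mul, ← h₁']
    have hC : (HahnSeries.C c : LaurentSeries Qbar) ≠ 0 := by
      intro h0
      have := congrArg (fun z : LaurentSeries Qbar => z.coeff 0) h0
      simp only [HahnSeries.C_apply, HahnSeries.coeff_single_same, HahnSeries.coeff_zero] at this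
      exact hc0 this
    have hb' : embK A b = (f : LaurentSeries Qbar)⁻¹ * (HahnSeries.C c * embK A a) := by
      rw [← hrel', ← mul_assoc, inv_mul_cancel₀ hfv0, one_mul]
    rw [hb', map_inv₀]
    field_simp
  -- assemble
  refine ⟨⟨HahnSeries.C c * embK A a, ?_⟩, ⟨embK A b, hbE⟩, ?_, ⟨b, rfl, hbr⟩, Subtype.ext hrel'⟩
  · have : (HahnSeries.C c : LaurentSeries Qbar) ∈ modularFunctionFieldBar N := by
      rw [← coe_algebraMap_FF (N := N) c]
      exact (algebraMap Qbar (FF N) c).2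
    exact mul_mem this haE
  · refine ⟨HahnSeries.C (⟨c, hcA⟩ : ↥A) * a, ?_, ?_⟩
    · show embK A (HahnSeries.C (⟨c, hcA⟩ : ↥A) * a) = _
      rw [map_mul, embK_C]
    · show redL A (HahnSeries.C (⟨c, hcA⟩ : ↥A) * a) ≠ 0
      rw [map_mul, redL_C]
      refine mul_ne_zero ?_ har
      intro h0
      have h00 := congrArg (fun z : LaurentSeries (Res A) => z.coeff 0) h0
      simp only [HahnSeries.C_apply, HahnSeries.coeff_single_same, HahnSeries.coeff_zero] at h00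
      have hmem : (⟨c, hcA⟩ : ↥A) ∈ IsLocalRing.maximalIdeal ↥A :=
        (IsLocalRing.residue_eq_zero_iff _).mp h00
      rw [IsLocalRing.mem_maximalIdeal, mem_nonunits_iff] at hmem
      apply hmem
      refine isUnit_iff_exists_inv.mpr ⟨⟨c⁻¹, hcA'⟩, Subtype.ext ?_⟩
      show c * c⁻¹ = 1
      exact mul_inv_cancel₀ hc0

end Bar

/-! ### From the number field `K` to `ℚbar` -/

section KLevel

variable {A : ValuationSubring Qbar} {K : IntermediateField ℚ Qbar}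

/-- Base change maps the Gauss ring of `A ∩ K` into the Gauss ring of `A`. -/
theorem bar_mem_gaussRing {x : LaurentSeries K} (hx : x ∈ gaussRing (AK A K)) :
    coeffMap (algebraMap K Qbar) x ∈ gaussRing A := by
  obtain ⟨a, s, hs, h⟩ := hx
  refine ⟨coeffMap (incl A K) a, coeffMap (incl A K) s, ?_, ?_⟩
  · show coeffMap (IsLocalRing.residue ↥A) (coeffMap (incl A K) s) ≠ 0
    rw [coeffMap_residue_incl]
    intro h0
    apply hs
    apply CoeffDescent1.coeffMap_injective_of_injective (resMap A K) (resMap_injective A K)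
    rw [h0, map_zero]
  · show coeffMap (algebraMap K Qbar) x * coeffMap A.subtype (coeffMap (incl A K) s) =
      coeffMap A.subtype (coeffMap (incl A K) a)
    rw [coeffMap_subtype_incl, coeffMap_subtype_incl, ← map_mul, h]

variable {N : ℕ} [NeZero N]

/-- A unit of the Gauss valuation ring of `FK N K` is a Gauss unit over `ℚbar`. -/
theorem isGaussUnit_bar_of_unit {p : ℕ} (hp : p.Prime) (hA : A.LiesOverPrime p)
    {π : ↥(AK A K)} (hπ : IsUnif (AK A K) π) (hE : FK N K ≤ fracField (AK A K))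
    {u : FK N K} (hu0 : u ≠ 0) (hu : u ∈ gaussVS hπ (FK N K) hE)
    (hu' : u⁻¹ ∈ gaussVS hπ (FK N K) hE) : IsGaussUnit A (baseChangeHom N K u) := by
  refine isGaussUnit_of_mem_gaussRing hp hA ?_ ?_ ?_
  · rw [Ne, map_eq_zero_iff _ (baseChangeHom_injective N K)]
    exact hu0
  · exact bar_mem_gaussRing ((mem_gaussVS_iff hπ (FK N K) hE u).mp hu)
  · rw [← map_inv₀]
    exact bar_mem_gaussRing ((mem_gaussVS_iff hπ (FK N K) hE u⁻¹).mp hu')

end KLevel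

section Model

variable {A : ValuationSubring Qbar} {K : IntermediateField ℚ Qbar}
variable {M' q : ℕ} [NeZero M'] [NeZero q]

/-- A unit of `O2` becomes a Gauss unit over `ℚbar` after the Fricke involution. -/
theorem isGaussUnit_fricke_bar_of_unit {p : ℕ} (hp : p.Prime) (hA : A.LiesOverPrime p)
    {π : ↥(AK A K)} (hπ : IsUnif (AK A K) π) (hE : FK (M' * q) K ≤ fracField (AK A K))
    {u : FK (M' * q) K} (hu0 : u ≠ 0) (hu : u ∈ O2 M' q hπ hE) (hu' : u⁻¹ ∈ O2 M' q hπ hE) :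
    IsGaussUnit A (frickeBar (M' * q) (baseChangeHom (M' * q) K u)) := by
  rw [← baseChangeHom_frickeFK]
  refine isGaussUnit_bar_of_unit hp hA hπ hE ?_ ?_ ?_
  · intro h0
    apply hu0
    have h1 := congrArg (frickeFK (M' * q) K) h0
    rwa [frickeFK_frickeFK, map_zero] at h1
  · exact (mem_O2_iff_wN_mem_O1 M' q hπ hE u).mp hu
  · have := (mem_O2_iff_wN_mem_O1 M' q hπ hE u⁻¹).mp hu'
    rw [wN, map_inv₀] at this
    exact this

/-- the uniformiser is not invertible in `A`. -/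
theorem unif_inv_not_mem {π : ↥(AK A K)} (hπ : IsUnif (AK A K) π) :
    (((π : K) : Qbar))⁻¹ ∉ A := by
  intro h
  have h1 : ((π : K))⁻¹ ∈ AK A K := by
    rw [mem_AK_iff]
    show ((((π : K))⁻¹ : K) : Qbar) ∈ A
    rw [show ((((π : K))⁻¹ : K) : Qbar) = (((π : K) : Qbar))⁻¹ from map_inv₀ (algebraMap K Qbar) _]
    exact h
  have hmem : π ∈ IsLocalRing.maximalIdeal ↥(AK A K) := by
    rw [hπ.max_eq]; exact Ideal.mem_span_singleton_self π
  rw [IsLocalRing.mem_maximalIdeal, mem_nonunits_iff] at hmem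
  apply hmem
  refine isUnit_iff_exists_inv.mpr ⟨⟨_, h1⟩, Subtype.ext ?_⟩
  show (π : K) * ((π : K))⁻¹ = 1
  exact mul_inv_cancel₀ (fun h0 => hπ.ne_zero (Subtype.ext h0))

/-- `bar (π ^ n * u) = π ^ n • bar u`. -/
theorem smul_bar_eq {π : ↥(AK A K)} (hπ : IsUnif (AK A K) π) {g u : FK (M' * q) K} {n : ℤ}
    (hg : g = algebraMap K (FK (M' * q) K) (π : K) ^ n * u) :
    ((((π : K) : Qbar)) ^ n)⁻¹ • baseChangeHom (M' * q) K g = baseChangeHom (M' * q) K u := by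
  have hπ0 : (((π : K) : Qbar)) ≠ 0 := by
    intro h0
    have h1 : (π : K) = 0 :=
      (map_eq_zero_iff (algebraMap K Qbar) (algebraMap K Qbar).injective).mp h0
    exact hπ.ne_zero (Subtype.ext h1)
  rw [hg, map_mul, map_zpow₀, baseChangeHom_algebraMap, Algebra.smul_def, ← mul_assoc,
    ← map_zpow₀, ← map_mul, inv_mul_cancel₀ (zpow_ne_zero n hπ0), map_one, one_mul]

/-- **(N1) in the frame of `ModelDefs9`, integer form.** -/
theorem node_relation {l : ℕ} [NeZero l] (hl : l.Prime) (hlN : ¬ l ∣ M' * q) {p : ℕ}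
    (hp : p.Prime) (hlp : l ≠ p) (hA : A.LiesOverPrime p)
    {π : ↥(AK A K)} (hπ : IsUnif (AK A K) π) (hE : FK (M' * q) K ≤ fracField (AK A K))
    {g h : FK (M' * q) K} {a : ℤ} {m : ℕ} {c : Qbar}
    (hrel : normAlong (heckeAlphaBar Qbar (M' * q) l)
        (heckeBetaBar Qbar (M' * q) l (baseChangeHom (M' * q) K g)) =
      c • (baseChangeHom (M' * q) K g ^ a * baseChangeHom (M' * q) K h ^ m))
    {a₁ a₂ b₁ b₂ : ℤ} {u₁ u₂ w₁ w₂ : FK (M' * q) K}
    (hu₁0 : u₁ ≠ 0) (hu₂0 : u₂ ≠ 0) (hw₁0 : w₁ ≠ 0) (hw₂0 : w₂ ≠ 0)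
    (hu₁ : u₁ ∈ O1 M' q hπ hE ∧ u₁⁻¹ ∈ O1 M' q hπ hE)
    (hg₁ : g = algebraMap K (FK (M' * q) K) (π : K) ^ a₁ * u₁)
    (hu₂ : u₂ ∈ O2 M' q hπ hE ∧ u₂⁻¹ ∈ O2 M' q hπ hE)
    (hg₂ : g = algebraMap K (FK (M' * q) K) (π : K) ^ a₂ * u₂)
    (hw₁ : w₁ ∈ O1 M' q hπ hE ∧ w₁⁻¹ ∈ O1 M' q hπ hE)
    (hh₁ : h = algebraMap K (FK (M' * q) K) (π : K) ^ b₁ * w₁)
    (hw₂ : w₂ ∈ O2 M' q hπ hE ∧ w₂⁻¹ ∈ O2 M' q hπ hE)
    (hh₂ : h = algebraMap K (FK (M' * q) K) (π : K) ^ b₂ * w₂) :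
    (a₂ - a₁) * ((l : ℤ) + 1 - a) = (b₂ - b₁) * m := by
  have hπ0 : (((π : K) : Qbar)) ≠ 0 := by
    intro h0
    have h1 : (π : K) = 0 :=
      (map_eq_zero_iff (algebraMap K Qbar) (algebraMap K Qbar).injective).mp h0
    exact hπ.ne_zero (Subtype.ext h1)
  refine gauss_int_relation hl hlN hp hlp hA hrel hπ0 (unif_inv_not_mem hπ)
    (a₁ := a₁) (a₂ := a₂) (b₁ := b₁) (b₂ := b₂) ?_ ?_ ?_ ?_
  · rw [smul_bar_eq hπ hg₁]
    exact isGaussUnit_bar_of_unit hp hA hπ hE hu₁0 hu₁.1 hu₁.2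
  · rw [smul_bar_eq hπ hg₂]
    exact isGaussUnit_fricke_bar_of_unit hp hA hπ hE hu₂0 hu₂.1 hu₂.2
  · rw [smul_bar_eq hπ hh₁]
    exact isGaussUnit_bar_of_unit hp hA hπ hE hw₁0 hw₁.1 hw₁.2
  · rw [smul_bar_eq hπ hh₂]
    exact isGaussUnit_fricke_bar_of_unit hp hA hπ hE hw₂0 hw₂.1 hw₂.2

/-- **NODE-TERM.**  With thickness `e` (`e ∣ v₂ - v₁` for `g` and for `h`, from `Thick25.vertical` at
a node avoided by both divisors), `N_α (β g) = c • (g ^ a * h ^ p)` and `p ∤ l + 1 - a`: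
`e p ∣ v₂(g) - v₁(g)`. -/
theorem node_term {l : ℕ} [NeZero l] (hl : l.Prime) (hlN : ¬ l ∣ M' * q) {p : ℕ}
    (hp : p.Prime) (hlp : l ≠ p) (hA : A.LiesOverPrime p)
    {π : ↥(AK A K)} (hπ : IsUnif (AK A K) π) (hE : FK (M' * q) K ≤ fracField (AK A K))
    {g h : FK (M' * q) K} {a : ℤ} {c : Qbar}
    (hrel : normAlong (heckeAlphaBar Qbar (M' * q) l)
        (heckeBetaBar Qbar (M' * q) l (baseChangeHom (M' * q) K g)) =
      c • (baseChangeHom (M' * q) K g ^ a * baseChangeHom (M' * q) K h ^ p))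
    (ha : ¬ (p : ℤ) ∣ (l : ℤ) + 1 - a)
    {a₁ a₂ b₁ b₂ : ℤ} {u₁ u₂ w₁ w₂ : FK (M' * q) K}
    (hu₁0 : u₁ ≠ 0) (hu₂0 : u₂ ≠ 0) (hw₁0 : w₁ ≠ 0) (hw₂0 : w₂ ≠ 0)
    (hu₁ : u₁ ∈ O1 M' q hπ hE ∧ u₁⁻¹ ∈ O1 M' q hπ hE)
    (hg₁ : g = algebraMap K (FK (M' * q) K) (π : K) ^ a₁ * u₁)
    (hu₂ : u₂ ∈ O2 M' q hπ hE ∧ u₂⁻¹ ∈ O2 M' q hπ hE)
    (hg₂ : g = algebraMap K (FK (M' * q) K) (π : K) ^ a₂ * u₂)
    (hw₁ : w₁ ∈ O1 M' q hπ hE ∧ w₁⁻¹ ∈ O1 M' q hπ hE)
    (hh₁ : h = algebraMap K (FK (M' * q) K) (π : K) ^ b₁ * w₁)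
    (hw₂ : w₂ ∈ O2 M' q hπ hE ∧ w₂⁻¹ ∈ O2 M' q hπ hE)
    (hh₂ : h = algebraMap K (FK (M' * q) K) (π : K) ^ b₂ * w₂)
    {e : ℕ} (he : 0 < e) {x y : ℤ} (hx : a₂ - a₁ = e * x) (hy : b₂ - b₁ = e * y) :
    ((e : ℤ) * p) ∣ a₂ - a₁ :=
  node_term_arith he hp hx hy ha
    (node_relation hl hlN hp hlp hA hπ hE hrel hu₁0 hu₂0 hw₁0 hw₂0 hu₁ hg₁ hu₂ hg₂ hw₁ hh₁
      hw₂ hh₂)

end Model

end Fermat.Agent.M1.NRM.NormValK18
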