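/-
M1 (S44), chapter NRM, brick NODE-TERM, instance wiring (helper58).

**NODE-TERM in the frame of `ES/N34/ModelDefs9`** (number field `K`, `R = A ∩ K`, `F = FK (M' q) K`,
`O1`, `O2` the two Gauss valuation rings), in the LITERAL `hnode` shape of `Old/FrameAssembly58`:

* `node_relation_val` : `NormValK18.node_relation` in valuation form;
* `hnode_of_hrel` : from the Hecke norm relation for every `f` with `div f = p D` (with `h ∈ F`);
* `hnode_of_eigen` : from `T_l [D] = a [D]` over `ℚ̄` (`EigenNormRat58`), `p ∤ l + 1 - a`,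
  `D` avoiding ONE node and `T_l D - a D` avoiding the same node.
-/
import Mathlib
import Fermat.Agent.M1.NRM.NormValK18
import Fermat.Agent.M1.NRM.ConstNum58
import Fermat.Agent.M1.NRM.EigenNormRat58

set_option autoImplicit false
set_option linter.unusedSectionVars false
set_option linter.style.haveILetI false
set_option synthInstance.maxHeartbeats 400000
set_option maxHeartbeats 800000

noncomputable section

open HahnSeries ModularCurve AlgebraicCurve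

namespace Fermat.Agent.M1.NRM.NodeTermInst58

open Fermat.Agent.X0
open Fermat.Agent.RED.Interface4 Fermat.Agent.RED.DESC Fermat.Agent.RED.DESC.NumberFieldDVR27
open Fermat.Agent.RED.DESC.PlaceExtend27
open Fermat.Agent.RED.PUR.GaussGen8
open Fermat.Agent.ES.N34.FrickeFK8 Fermat.Agent.ES.N34.ModelDefs9
open Fermat.Agent.ES.N34.NodalCore13 Fermat.Agent.ES.N34.NumData13
open Fermat.Agent.ES.HECKE.PointFormula28
open Fermat.Agent.M1.NRM.NormVal18 Fermat.Agent.M1.NRM.NormValK18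
open Fermat.Agent.M1.Car.Defs43 Fermat.Agent.M1.Node.Thick25 Fermat.Agent.M1.Mon.WildPL43
open Fermat.Agent.M1.Car.Slope43 Fermat.Agent.M1.Car.NodeFrame58
open Fermat.Agent.M1.NRM.NodeTermAbs58 Fermat.Agent.M1.NRM.ConstNum58
open Fermat.Agent.M1.Car.RatClass25 Fermat.Agent.M1.Car.Fibre25

variable {A : ValuationSubring Qbar} {K : IntermediateField ℚ Qbar}
variable {M' q : ℕ} [NeZero M'] [NeZero q]

/-- **(N1) in valuation form.** -/
theorem node_relation_val {l : ℕ} [NeZero l] (hl : l.Prime) (hlN : ¬ l ∣ M' * q) {p : ℕ}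
    (hp : p.Prime) (hlp : l ≠ p) (hA : A.LiesOverPrime p)
    {π : ↥(AK A K)} (hπ : IsUnif (AK A K) π) (hE : FK (M' * q) K ≤ fracField (AK A K))
    {g h : FK (M' * q) K} (hg0 : g ≠ 0) (hh0 : h ≠ 0) {a : ℤ} {m : ℕ} {c : Qbar}
    (hrel : normAlong (heckeAlphaBar Qbar (M' * q) l)
        (heckeBetaBar Qbar (M' * q) l (baseChangeHom (M' * q) K g)) =
      c • (baseChangeHom (M' * q) K g ^ a * baseChangeHom (M' * q) K h ^ m))
    {a₁ a₂ b₁ b₂ : ℤ}
    (hg₁ : (O1 M' q hπ hE).valuation g =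
      (O1 M' q hπ hE).valuation (algebraMap K (FK (M' * q) K) (π : K)) ^ a₁)
    (hg₂ : (O2 M' q hπ hE).valuation g =
      (O2 M' q hπ hE).valuation (algebraMap K (FK (M' * q) K) (π : K)) ^ a₂)
    (hh₁ : (O1 M' q hπ hE).valuation h =
      (O1 M' q hπ hE).valuation (algebraMap K (FK (M' * q) K) (π : K)) ^ b₁)
    (hh₂ : (O2 M' q hπ hE).valuation h =
      (O2 M' q hπ hE).valuation (algebraMap K (FK (M' * q) K) (π : K)) ^ b₂) :
    (a₂ - a₁) * ((l : ℤ) + 1 - a) = (b₂ - b₁) * m := by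
  have hϖ0 : algebraMap K (FK (M' * q) K) (π : K) ≠ 0 := by
    rw [Ne, map_eq_zero_iff _ (algebraMap K (FK (M' * q) K)).injective]
    intro h0
    exact hπ.ne_zero (Subtype.ext h0)
  obtain ⟨u₁, hu₁, hu₁', hu₁0, e₁⟩ := exists_unit_of_val hϖ0 hg0 hg₁
  obtain ⟨u₂, hu₂, hu₂', hu₂0, e₂⟩ := exists_unit_of_val hϖ0 hg0 hg₂
  obtain ⟨w₁, hw₁, hw₁', hw₁0, f₁⟩ := exists_unit_of_val hϖ0 hh0 hh₁
  obtain ⟨w₂, hw₂, hw₂', hw₂0, f₂⟩ := exists_unit_of_val hϖ0 hh0 hh₂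
  exact node_relation hl hlN hp hlp hA hπ hE hrel hu₁0 hu₂0 hw₁0 hw₂0 ⟨hu₁, hu₁'⟩ e₁
    ⟨hu₂, hu₂'⟩ e₂ ⟨hw₁, hw₁'⟩ f₁ ⟨hw₂, hw₂'⟩ f₂

/-- The uniformiser of `R = A ∩ K` in `F`, in the two forms. -/
theorem algebraMap_AK_eq58 (N : ℕ) (r : ↥(AK A K)) :
    algebraMap ↥(AK A K) ↥(FK N K) r = algebraMap ↥K ↥(FK N K) ((r : ↥(AK A K)) : ↥K) := rfl

variable [FiniteDimensional ℚ K]

/-- **NODE-TERM from the eigen-relation**, in the frame of `ModelDefs9` over the number field `K`,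
literal `hnode` shape of `FrameAssembly58`.  Inputs: `T_l [D] = a [D]` over `ℚ̄`, `p ∤ l + 1 - a`,
`D` avoids ONE node `(B, 𝔪)`, and (AV): every `h ∈ F` with `div h = T_l D - a D` avoids that
node. -/
theorem hnode_of_eigen
    {π : ↥(AK A K)} (hπ : IsUnif (AK A K) π) (hE : FK (M' * q) K ≤ fracField (AK A K))
    {t : FK (M' * q) K} {B0 B1 : Subalgebra ↥(AK A K) ↥(FK (M' * q) K)}
    (Nd : NodalNumData ↥(AK A K) ↥K ↥(FK (M' * q) K) π t B0 B1 (O1 M' q hπ hE) (O2 M' q hπ hE))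
    {e : ℕ} (hth : ThickNodes π B0 B1 (O1 M' q hπ hE) (O2 M' q hπ hE) e)
    {B : Subalgebra ↥(AK A K) ↥(FK (M' * q) K)} {𝔪 : Ideal B}
    (hs : IsNode π B0 B1 (O1 M' q hπ hE) (O2 M' q hπ hE) B 𝔪)
    (l : Nat.Primes) (hlN : ¬ (l : ℕ) ∣ M' * q) {p : ℕ} (hp : p.Prime) (hlp : (l : ℕ) ≠ p)
    (hA : A.LiesOverPrime p) (a : ℤ) (ha : ¬ (p : ℤ) ∣ ((l : ℕ) : ℤ) + 1 - a)
    (D : Divisor.degZero (K := K) (F := FK (M' * q) K))
    (heig : heckeOperatorBar (M' * q) l (bcPic0 (M' * q) K (Pic0.mk D)) =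
      a • bcPic0 (M' * q) K (Pic0.mk D))
    (hD : ∀ P : Place K (FK (M' * q) K), Through B 𝔪 P →
      (D : Divisor K (FK (M' * q) K)) P = 0)
    (hAV : ∀ h : FK (M' * q) K, h ≠ 0 →
      (haveI : NeZero (l : ℕ) := ⟨l.2.ne_zero⟩;
        haveI := Fermat.Agent.ES.HECKE.InputsMain19.hasPrincipalDivisors_level (M' * q) (l : ℕ);
        ∀ P : Place Qbar (Fbar (M' * q)),
          P.ord (bc (M' * q) K h) =
            heckeDivBar (N := M' * q) (ℓ := (l : ℕ))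
              (Fermat.Agent.ES.HECKE.AlongDegree25.heckeAlphaBarIntegral Qbar (M' * q) (l : ℕ)
                l.2 hlN)
              (Fermat.Agent.ES.HECKE.AlongDegree25.heckeBetaBarIntegral Qbar (M' * q) (l : ℕ)
                l.2 hlN)
              (extDiv (M' * q) K (D : Divisor K (FK (M' * q) K))) P -
            a * extDiv (M' * q) K (D : Divisor K (FK (M' * q) K)) P) →
      ∀ P : Place K (FK (M' * q) K), Through B 𝔪 P → P.ord h = 0) :
    ∀ f : FK (M' * q) K, f ≠ 0 →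
      (∀ P : Place K (FK (M' * q) K), (p • (D : Divisor K (FK (M' * q) K))) P = P.ord f) →
      (O1 M' q hπ hE).valuation f = 1 →
      ∃ b' : ℤ, (O2 M' q hπ hE).valuation f =
        (O2 M' q hπ hE).valuation (algebraMap ↥(AK A K) ↥(FK (M' * q) K) π) ^
          ((e : ℤ) * p * b') := by
  haveI : NeZero (l : ℕ) := ⟨l.2.ne_zero⟩
  refine hnode_of_rel (slopeFrame_of_thickNodes Nd hth) hs hp (D : Divisor K (FK (M' * q) K)) hD
    (fun f hf hdiv => ?_)
  obtain ⟨c, h, -, hh0, hrel, hdivh⟩ :=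
    Fermat.Agent.M1.NRM.EigenNormRat58.exists_norm_eq_of_eigen_rat (M' * q) K l hlN a D heig hf hdiv
  refine ⟨h, ((l : ℕ) : ℤ) + 1 - a, hh0, ha, hAV h hh0 hdivh, fun a1 a2 b1 b2 h1 h2 h3 h4 => ?_⟩
  rw [algebraMap_AK_eq58] at h1 h2 h3 h4
  exact node_relation_val l.2 hlN hp hlp hA hπ hE hf hh0 hrel h1 h2 h3 h4

end Fermat.Agent.M1.NRM.NodeTermInst58
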