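/-
M1 (S44), chapter NRM (helper18): **(AV) in the frame of `ES/N34/ModelDefs9`** (level `M' * q`,
`R = A ∩ L`, `O1 = ` Gauss ring at `∞`, `O2 = O1 ∘ W`).

* `uq_mem_FK` : `u_q = Δ(𝐪^q)/Δ(𝐪) ∈ L · F_N` for `q ∣ N` (coefficient descent);
* `uK N L q hqN : FK N L`, `bc_uK`, `bc_of_coe_eq_jqModC`;
* `uData_model` : `SideAvoid18.UData` for the frame of `ModelDefs9` (units by `FrickeUnit16.unit_facts`);
* `ord_eq_zero_of_through_node_model` : (AV) for a `NodalNumData` in the frame of `ModelDefs9`.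
-/
import Mathlib
import Fermat.Agent.M1.NRM.SideAvoidWire18
import Fermat.Agent.M1.NRM.FrickeUnit16
import Fermat.Agent.ES.P36.CoeffField4

set_option autoImplicit false
set_option linter.unusedSectionVars false
set_option linter.style.haveILetI false
set_option synthInstance.maxHeartbeats 400000
set_option maxHeartbeats 800000

noncomputable section

namespace Fermat.Agent.M1.NRM.SideAvoidModel18

open AlgebraicCurve ModularCurve Polynomial
open Fermat.Agent.X0 Fermat.Agent.X0.Analytic Fermat.Agent.X0.FF Fermat.Agent.RED.Interface4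
open Fermat.Agent.RED.PUR.GaussGen8
open Fermat.Agent.ES.N34.NodalCore13 Fermat.Agent.ES.N34.NumData13 Fermat.Agent.ES.N34.ModelDefs9
open Fermat.Agent.M1.Car.Fibre25 Fermat.Agent.M1.Car.RatClass25
open Fermat.Agent.M1.Car.Defs43 Fermat.Agent.M1.Mon.WildPL43
open Fermat.Agent.M1.NRM.SidePart18 Fermat.Agent.M1.NRM.Side18 Fermat.Agent.M1.NRM.CompRing18
open Fermat.Agent.M1.NRM.SideBranch18 Fermat.Agent.M1.NRM.SideAvoid18
open Fermat.Agent.M1.NRM.SideAvoidWire18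
open Fermat.Agent.M1.Fib.Constants98 Fermat.Agent.M1.Fib.FrameInst98
open Fermat.Agent.IG.PR.Interface20 Fermat.Agent.RED.BASE.DeltaMem19

/-- Shortcut to the instance found (slowly) by instance search. -/
local instance (priority := 5000) algKFK (M : ℕ) (K : IntermediateField ℚ Qbar) :
    Algebra K (FK M K) := SubalgebraClass.toAlgebra (FK M K)

/-! ### `u_q` over a number field -/

/-- `u_q = Δ(𝐪^q)/Δ(𝐪)` lies in `L · F_N` for `q ∣ N`. -/
theorem uq_mem_FK (N : ℕ) [NeZero N] (L : IntermediateField ℚ Qbar) (q : ℕ) [NeZero q]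
    (hqN : q ∣ N) : uq (↥L) q ∈ FK N L := by
  have := Fermat.Agent.ES.P36.CoeffField4.algebraic_Qbar_over4 L
  apply Fermat.Agent.ES.P36.CoeffField4.mem_of_coeffMap_mem (K₁ := Qbar)
    (modularFunctionFieldFull N)
  rw [Fermat.Agent.IG.AN.DeltaQuotExp19.coeffMap_uq]
  exact uq_mem q hqN

/-- `u_q` as an element of `L · F_N`. -/
def uK (N : ℕ) [NeZero N] (L : IntermediateField ℚ Qbar) (q : ℕ) [NeZero q] (hqN : q ∣ N) :
    FK N L := ⟨uq (↥L) q, uq_mem_FK N L q hqN⟩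

theorem coe_uK (N : ℕ) [NeZero N] (L : IntermediateField ℚ Qbar) (q : ℕ) [NeZero q]
    (hqN : q ∣ N) : ((uK N L q hqN : FK N L) : LaurentSeries L) = uq (↥L) q := rfl

theorem bc_uK (N : ℕ) [NeZero N] (L : IntermediateField ℚ Qbar) (q : ℕ) [NeZero q]
    (hqN : q ∣ N) : bc N L (uK N L q hqN) = uF q N hqN :=
  Fermat.Agent.M1.NRM.FrickeUnit16.baseChangeHom_eq_uF L q N hqN rfl

/-- an element with `q`-expansion `j` base-changes to `jF N`. -/
theorem bc_of_coe_eq_jqModC (N : ℕ) [NeZero N] (L : IntermediateField ℚ Qbar) {jL : FK N L}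
    (hj : (jL : LaurentSeries L) = jqModC (↥L)) : bc N L jL = jF N := by
  apply Subtype.ext
  rw [Fermat.Agent.RED.DESC.PlaceExtend27.coe_baseChangeHom, hj, coeffMap_jqModC, coe_jF,
    jqK_eq_jqModC]

/-! ### the frame of `ModelDefs9` -/

section Model

variable {A : ValuationSubring Qbar} {L : IntermediateField ℚ Qbar} [FiniteDimensional ℚ L]
  {M' q : ℕ} [NeZero M'] [NeZero q] [NeZero (M' * q)]
  {n e : ℕ} [NeZero n] {ht : Fermat.Agent.RED.BASE.EtaQuot12.tq (↥L) n e ∈ FK M' L}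
  {π : ↥(AK A L)} {hπ : IsUnif (AK A L) π} {hE : FK (M' * q) L ≤ fracField (AK A L)}

/-- **`UData` in the frame of `ModelDefs9`.** -/
theorem uData_model
    (M : Frame (K := L) π (B0 A q ht) (B1 A q ht) (O1 M' q hπ hE) (O2 M' q hπ hE))
    (hchar : π ∣ (q : ↥(AK A L))) {jL : FK (M' * q) L}
    (hj : (jL : LaurentSeries L) = jqModC (↥L)) :
    UData (M' * q) L π (O1 M' q hπ hE) (O2 M' q hπ hE) q (dvd_mul_left q M') jL
      (uK (M' * q) L q (dvd_mul_left q M')) := by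
  obtain ⟨h1, h2, h3, h4⟩ := Fermat.Agent.M1.NRM.FrickeUnit16.unit_facts M' q hπ hE
    (u := uK (M' * q) L q (dvd_mul_left q M')) rfl
  exact UData.of_units M hchar (bc_of_coe_eq_jqModC (M' * q) L hj)
    (bc_uK (M' * q) L q (dvd_mul_left q M')) h1 h2 h3 h4

/-- **(AV) in the frame of `ModelDefs9`**, for a `NodalNumData`. -/
theorem ord_eq_zero_of_through_node_model
    (Nd : NodalNumData ↥(AK A L) ↥L ↥(FK (M' * q) L) π (tN q ht) (B0 A q ht) (B1 A q ht)
      (O1 M' q hπ hE) (O2 M' q hπ hE))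
    (hac1 : ResidueAlgClosed π (O1 M' q hπ hE)) (hac2 : ResidueAlgClosed π (O2 M' q hπ hE))
    (hq : q.Prime) (hchar : π ∣ (q : ↥(AK A L))) {jL : FK (M' * q) L}
    (hj : (jL : LaurentSeries L) = jqModC (↥L))
    (hsep : ∀ (A' : ValuationSubring Qbar) (P : Place Qbar (Fbar (M' * q)))
      (B : Subalgebra ↥(AK A L) (FK (M' * q) L)) (𝔪 : Ideal B),
      (B = B0 A q ht ∨ B = B1 A q ht) → 𝔪.IsMaximal → algebraMap ↥(AK A L) B π ∈ 𝔪 →
      BarCentre (M' * q) L A' B 𝔪 P → NonCusp A' (M' * q) P → InLocal B 𝔪 jL)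
    {ℓ : ℕ} [NeZero ℓ] (hℓ : ℓ.Prime) (hℓq : ℓ ≠ q)
    (hα : (heckeAlphaBar Kbar (M' * q) ℓ).toRingHom.IsIntegral)
    (hβ : (heckeBetaBar Kbar (M' * q) ℓ).toRingHom.IsIntegral)
    [HasPrincipalDivisors Kbar (FF (M' * q * ℓ))]
    (D : Divisor L (FK (M' * q) L))
    (hD : ∀ (B : Subalgebra ↥(AK A L) (FK (M' * q) L)) (𝔪 : Ideal B),
      (B = B0 A q ht ∨ B = B1 A q ht) → 𝔪.IsMaximal → algebraMap ↥(AK A L) B π ∈ 𝔪 →
      (IsNode π (B0 A q ht) (B1 A q ht) (O1 M' q hπ hE) (O2 M' q hπ hE) B 𝔪 ∨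
        ¬ InLocal B 𝔪 jL) →
      ∀ w : Place L (FK (M' * q) L), Through B 𝔪 w → D w = 0)
    {Bn : Subalgebra ↥(AK A L) (FK (M' * q) L)} {𝔪₀ : Ideal Bn}
    (hs : IsNode π (B0 A q ht) (B1 A q ht) (O1 M' q hπ hE) (O2 M' q hπ hE) Bn 𝔪₀)
    {h : FK (M' * q) L} {a : ℤ}
    (hdiv : ∀ Pb : Place Qbar (Fbar (M' * q)), Pb.ord (bc (M' * q) L h) =
      heckeDivBar (N := M' * q) (ℓ := ℓ) hα hβ (extDiv (M' * q) L D) Pb -
        a * extDiv (M' * q) L D Pb) :
    ∀ w : Place L (FK (M' * q) L), Through Bn 𝔪₀ w → w.ord h = 0 :=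
  ord_eq_zero_of_through_node_numData Nd hac1 hac2
    (uData_model (frame_of_numData Nd hac1 hac2) hchar hj) hq hchar hsep hℓ hℓq hα hβ D hD hs hdiv

end Model

end Fermat.Agent.M1.NRM.SideAvoidModel18
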