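/-
M1 (S44), chapter NRM (helper18): **NODE-TERM for divisors in good position**, in the frame of
`ES/N34/ModelDefs9` — the literal `hnode` of `Old/T4MainRep60.t4_of_bricks_rep(_push)` with
`Good := NodeTermGood18.Good π B0 B1 O1 O2 _ _ E0 E1`.

`hnode_of_good` = `NodeTermInst58.hnode_of_eigen` (helper58) ∘ (AV) (`SideAvoidModel18`) ∘
`NodeTermGood18.Good.hD`.  Remaining hypotheses: the eigen-relation `T_l [D] = a [D]`,
`q ∤ l + 1 - a`, the thickness of the nodes, and the cusp separation `hsep`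
(`SideAvoidWire18.hsep_of_sepK` from helper16's (SEP-K)).
-/
import Mathlib
import Fermat.Agent.M1.NRM.NodeTermInst58
import Fermat.Agent.M1.NRM.SideAvoidModel18
import Fermat.Agent.M1.NRM.NodeTermGood18

set_option autoImplicit false
set_option linter.unusedSectionVars false
set_option linter.style.haveILetI false
set_option synthInstance.maxHeartbeats 400000
set_option maxHeartbeats 800000

noncomputable section

namespace Fermat.Agent.M1.NRM.NodeTermFinal18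

open AlgebraicCurve ModularCurve Polynomial
open Fermat.Agent.X0 Fermat.Agent.X0.Analytic Fermat.Agent.X0.FF Fermat.Agent.RED.Interface4
open Fermat.Agent.RED.PUR.GaussGen8
open Fermat.Agent.ES.N34.NodalCore13 Fermat.Agent.ES.N34.NumData13 Fermat.Agent.ES.N34.ModelDefs9
open Fermat.Agent.M1.Car.Fibre25 Fermat.Agent.M1.Car.RatClass25
open Fermat.Agent.M1.Car.Defs43 Fermat.Agent.M1.Mon.WildPL43 Fermat.Agent.M1.Car.NodeFrame58
open Fermat.Agent.M1.NRM.SidePart18 Fermat.Agent.M1.NRM.Side18 Fermat.Agent.M1.NRM.CompRing18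
open Fermat.Agent.M1.NRM.SideBranch18 Fermat.Agent.M1.NRM.SideAvoid18
open Fermat.Agent.M1.NRM.SideAvoidWire18 Fermat.Agent.M1.NRM.SideAvoidModel18
open Fermat.Agent.M1.NRM.NodeTermGood18
open Fermat.Agent.M1.Fib.Constants98 Fermat.Agent.M1.Fib.FrameInst98

/-- Shortcut to the instance found (slowly) by instance search. -/
local instance (priority := 5000) algKFK (M : ℕ) (K : IntermediateField ℚ Qbar) :
    Algebra K (FK M K) := SubalgebraClass.toAlgebra (FK M K)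

variable {A : ValuationSubring Qbar} {L : IntermediateField ℚ Qbar} [FiniteDimensional ℚ L]
  {M' q : ℕ} [NeZero M'] [NeZero q] [NeZero (M' * q)]
  {n e₀ : ℕ} [NeZero n] {ht : Fermat.Agent.RED.BASE.EtaQuot12.tq (↥L) n e₀ ∈ FK M' L}
  {π : ↥(AK A L)}

/-- **NODE-TERM for a divisor in good position**: the literal `hnode` of
`Old/T4MainRep60.t4_of_bricks_rep` (for ONE divisor `D`). -/
theorem hnode_of_good (hπ : IsUnif (AK A L) π) (hE : FK (M' * q) L ≤ fracField (AK A L))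
    (Nd : NodalNumData ↥(AK A L) ↥L ↥(FK (M' * q) L) π (tN q ht) (B0 A q ht) (B1 A q ht)
      (O1 M' q hπ hE) (O2 M' q hπ hE))
    (hac1 : ResidueAlgClosed π (O1 M' q hπ hE)) (hac2 : ResidueAlgClosed π (O2 M' q hπ hE))
    {e : ℕ} (hth : ThickNodes π (B0 A q ht) (B1 A q ht) (O1 M' q hπ hE) (O2 M' q hπ hE) e)
    {Bn : Subalgebra ↥(AK A L) ↥(FK (M' * q) L)} {𝔪₀ : Ideal Bn}
    (hs : IsNode π (B0 A q ht) (B1 A q ht) (O1 M' q hπ hE) (O2 M' q hπ hE) Bn 𝔪₀)
    (l : Nat.Primes) (hlN : ¬ (l : ℕ) ∣ M' * q) (hq : q.Prime) (hlq : (l : ℕ) ≠ q)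
    (hA : A.LiesOverPrime q) (hchar : π ∣ (q : ↥(AK A L)))
    (a : ℤ) (ha : ¬ (q : ℤ) ∣ ((l : ℕ) : ℤ) + 1 - a)
    {jL : FK (M' * q) L} (hj : (jL : LaurentSeries L) = jqModC (↥L))
    (hsep : ∀ (A' : ValuationSubring Qbar) (P : Place Qbar (Fbar (M' * q)))
      (B : Subalgebra ↥(AK A L) (FK (M' * q) L)) (𝔪 : Ideal B),
      (B = B0 A q ht ∨ B = B1 A q ht) → 𝔪.IsMaximal → algebraMap ↥(AK A L) B π ∈ 𝔪 →
      BarCentre (M' * q) L A' B 𝔪 P → NonCusp A' (M' * q) P → InLocal B 𝔪 jL)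
    {E0 N0 E1 N1 : (↥(AK A L))[X]}
    (hrel0 : jL * aeval (tN q ht) E0 = aeval (tN q ht) N0)
    (hrel1 : jL * aeval (tN q ht)⁻¹ E1 = aeval (tN q ht)⁻¹ N1)
    (D : Divisor.degZero (K := L) (F := FK (M' * q) L))
    (heig : heckeOperatorBar (M' * q) l (bcPic0 (M' * q) L (Pic0.mk D)) =
      a • bcPic0 (M' * q) L (Pic0.mk D))
    (hG : Good π (B0 A q ht) (B1 A q ht) (O1 M' q hπ hE) (O2 M' q hπ hE) Nd.model.t_mem
      Nd.model.tinv_mem E0 E1 (D : Divisor L (FK (M' * q) L))) :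
    ∀ f : FK (M' * q) L, f ≠ 0 →
      (∀ P : Place L (FK (M' * q) L), (q • (D : Divisor L (FK (M' * q) L))) P = P.ord f) →
      (O1 M' q hπ hE).valuation f = 1 →
      ∃ b' : ℤ, (O2 M' q hπ hE).valuation f =
        (O2 M' q hπ hE).valuation (algebraMap ↥(AK A L) ↥(FK (M' * q) L) π) ^
          ((e : ℤ) * q * b') := by
  haveI : NeZero (l : ℕ) := ⟨l.2.ne_zero⟩
  haveI := Fermat.Agent.ES.HECKE.InputsMain19.hasPrincipalDivisors_level (M' * q) (l : ℕ)
  refine Fermat.Agent.M1.NRM.NodeTermInst58.hnode_of_eigen hπ hE Nd hth hs l hlN hq hlq hA a ha D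
    heig (hG.node hs) (fun h _ hdiv => ?_)
  exact ord_eq_zero_of_through_node_model Nd hac1 hac2 hq hchar hj hsep l.2 hlq _ _
    (D : Divisor L (FK (M' * q) L)) (hG.hD hrel0 hrel1) hs hdiv

end Fermat.Agent.M1.NRM.NodeTermFinal18
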