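/-
M1 (S44), chapter NRM, brick NODE-TERM, final composition (helper58).

**NODE-TERM for the model of record** (`ES/N34/ModelDefs9` over a number field `L`, level `M' q`,
residue characteristic `q`): `hnode_of_eigen` (`NodeTermInst58`: rational eigen-norm + the two
Gauss valuations) composed with (AV) (`SideAvoidModel18.ord_eq_zero_of_through_node_model`,
helper18).  Conclusion: the LITERAL `hnode` of `Old/FrameAssembly58` / `T4Main45` /
`T4MainRep60` for the divisor `D`.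

Remaining hypotheses: the model bundle `Nd`, `(AC_1)`, `(AC_2)` (`ACModel98`), thick nodes, one node,
`π ∣ q`, the eigen-relation `T_l [D] = a [D]` with `q ∤ l + 1 - a`, and the two inputs of (AV):
`hsep` (cusp separation, `SideAvoidWire18.hsep_of_sepK` + helper16) and `hD` (good position of `D`,
`SideAvoidWire18.hD_of_avoid` + `AvoidCusp53`).
-/
import Mathlib
import Fermat.Agent.M1.NRM.NodeTermInst58
import Fermat.Agent.M1.NRM.SideAvoidModel18

set_option autoImplicit false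
set_option linter.unusedSectionVars false
set_option linter.style.haveILetI false
set_option synthInstance.maxHeartbeats 400000
set_option maxHeartbeats 1600000

noncomputable section

namespace Fermat.Agent.M1.NRM.NodeTermModel58

open AlgebraicCurve ModularCurve Polynomial
open Fermat.Agent.X0 Fermat.Agent.X0.Analytic Fermat.Agent.X0.FF Fermat.Agent.RED.Interface4
open Fermat.Agent.RED.PUR.GaussGen8
open Fermat.Agent.ES.N34.NodalCore13 Fermat.Agent.ES.N34.NumData13 Fermat.Agent.ES.N34.ModelDefs9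
open Fermat.Agent.M1.Car.Fibre25 Fermat.Agent.M1.Car.RatClass25
open Fermat.Agent.M1.Car.Defs43 Fermat.Agent.M1.Mon.WildPL43
open Fermat.Agent.M1.NRM.SidePart18 Fermat.Agent.M1.NRM.Side18 Fermat.Agent.M1.NRM.CompRing18
open Fermat.Agent.M1.NRM.SideBranch18 Fermat.Agent.M1.NRM.SideAvoid18
open Fermat.Agent.M1.NRM.SideAvoidWire18 Fermat.Agent.M1.NRM.SideAvoidModel18
open Fermat.Agent.M1.Fib.Constants98 Fermat.Agent.M1.Fib.FrameInst98
open Fermat.Agent.M1.Car.NodeFrame58 Fermat.Agent.M1.NRM.NodeTermInst58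

variable {A : ValuationSubring Qbar} {L : IntermediateField ℚ Qbar} [FiniteDimensional ℚ L]
  {M' q : ℕ} [NeZero M'] [NeZero q] [NeZero (M' * q)]
  {n e : ℕ} [NeZero n] {ht : Fermat.Agent.RED.BASE.EtaQuot12.tq (↥L) n e ∈ FK M' L}
  {π : ↥(AK A L)} {hπ : IsUnif (AK A L) π} {hE : FK (M' * q) L ≤ fracField (AK A L)}

/-- **NODE-TERM for the model of record.** -/
theorem hnode_model
    (Nd : NodalNumData ↥(AK A L) ↥L ↥(FK (M' * q) L) π (tN q ht) (B0 A q ht) (B1 A q ht)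
      (O1 M' q hπ hE) (O2 M' q hπ hE))
    (hac1 : ResidueAlgClosed π (O1 M' q hπ hE)) (hac2 : ResidueAlgClosed π (O2 M' q hπ hE))
    {e' : ℕ} (hth : ThickNodes π (B0 A q ht) (B1 A q ht) (O1 M' q hπ hE) (O2 M' q hπ hE) e')
    (hq : q.Prime) (hchar : π ∣ (q : ↥(AK A L))) (hA : A.LiesOverPrime q)
    {jL : FK (M' * q) L} (hj : (jL : LaurentSeries L) = jqModC (↥L))
    (hsep : ∀ (A' : ValuationSubring Qbar) (P : Place Qbar (Fbar (M' * q)))
      (B : Subalgebra ↥(AK A L) (FK (M' * q) L)) (𝔪 : Ideal B),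
      (B = B0 A q ht ∨ B = B1 A q ht) → 𝔪.IsMaximal → algebraMap ↥(AK A L) B π ∈ 𝔪 →
      BarCentre (M' * q) L A' B 𝔪 P → NonCusp A' (M' * q) P → InLocal B 𝔪 jL)
    (l : Nat.Primes) (hlN : ¬ (l : ℕ) ∣ M' * q) (hlq : (l : ℕ) ≠ q) (a : ℤ)
    (ha : ¬ (q : ℤ) ∣ ((l : ℕ) : ℤ) + 1 - a)
    (D : Divisor.degZero (K := L) (F := FK (M' * q) L))
    (heig : heckeOperatorBar (M' * q) l (bcPic0 (M' * q) L (Pic0.mk D)) =
      a • bcPic0 (M' * q) L (Pic0.mk D))
    (hD : ∀ (B : Subalgebra ↥(AK A L) (FK (M' * q) L)) (𝔪 : Ideal B),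
      (B = B0 A q ht ∨ B = B1 A q ht) → 𝔪.IsMaximal → algebraMap ↥(AK A L) B π ∈ 𝔪 →
      (IsNode π (B0 A q ht) (B1 A q ht) (O1 M' q hπ hE) (O2 M' q hπ hE) B 𝔪 ∨
        ¬ InLocal B 𝔪 jL) →
      ∀ w : Place L (FK (M' * q) L), Through B 𝔪 w → (D : Divisor L (FK (M' * q) L)) w = 0)
    {Bn : Subalgebra ↥(AK A L) (FK (M' * q) L)} {𝔪₀ : Ideal Bn}
    (hs : IsNode π (B0 A q ht) (B1 A q ht) (O1 M' q hπ hE) (O2 M' q hπ hE) Bn 𝔪₀) :
    ∀ f : FK (M' * q) L, f ≠ 0 →
      (∀ P : Place L (FK (M' * q) L), (q • (D : Divisor L (FK (M' * q) L))) P = P.ord f) →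
      (O1 M' q hπ hE).valuation f = 1 →
      ∃ b' : ℤ, (O2 M' q hπ hE).valuation f =
        (O2 M' q hπ hE).valuation (algebraMap ↥(AK A L) ↥(FK (M' * q) L) π) ^
          ((e' : ℤ) * q * b') := by
  haveI : NeZero (l : ℕ) := ⟨l.2.ne_zero⟩
  haveI := Fermat.Agent.ES.HECKE.InputsMain19.hasPrincipalDivisors_level (M' * q) (l : ℕ)
  refine hnode_of_eigen hπ hE Nd hth hs l hlN hq hlq hA a ha D heig
    (hD Bn 𝔪₀ hs.chart hs.max hs.pi_mem (Or.inl hs)) (fun h _ hdivh => ?_)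
  exact ord_eq_zero_of_through_node_model Nd hac1 hac2 hq hchar hj hsep l.2 hlq
    (Fermat.Agent.ES.HECKE.AlongDegree25.heckeAlphaBarIntegral Qbar (M' * q) (l : ℕ) l.2 hlN)
    (Fermat.Agent.ES.HECKE.AlongDegree25.heckeBetaBarIntegral Qbar (M' * q) (l : ℕ) l.2 hlN)
    (D : Divisor L (FK (M' * q) L)) hD hs hdivh

end Fermat.Agent.M1.NRM.NodeTermModel58
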