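/-
M1 (S44), chapter NRM, brick (U2), abstract half (helper58).

**"The centre of `P` lies on the `O₁`-branch only ⟺ a suitable function is a unit at `P`."**

Setting: a `WildPL43.Frame` (two charts, two Gauss valuation rings), a closed point `(B, 𝔪)` of the
special fibre, and a subring `W ⊆ F` DOMINATING `B_𝔪`
(`b ∉ 𝔪 ⟹ b⁻¹ ∈ W`, `b ∈ 𝔪 ⟹ b⁻¹ ∉ W`): think of the composite ring
`W = {f ∈ O_P | f(P) ∈ A}` of a place `P` whose centre is `𝔪` (`NRM/CompRing18`, `Side18.sideRing`,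
pulled back to the number field).  Let `w ∈ F^×` be a function with no pole at the places through
`𝔪` (for `w = u_p⁻¹`: no cusp passes through `𝔪`), regular on `O₁` and VANISHING on `O₂`
(`w ∈ π O₂`).

* `offBranch_of_unit` : if `w⁻¹ ∈ W` (`w(P)` is a unit) then the branch `O₂` does not pass through
  `𝔪` (`Frame.hart` gives `w = a / d`, `d ∉ 𝔪`; `a = w d` is a unit of `W`, so `a ∉ 𝔪`, and
  `a ∈ π O₂`);
* `mem_of_inLocal` : `B_𝔪 ⊆ W`;
* `unit_of_offBranch` : conversely, if `O₂` does not pass through `𝔪`, a function which is a unit of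
  `O₁` with trivial orders at the places through `𝔪` is a unit of `W` (no hypothesis on `O₂`).
-/
import Mathlib
import Fermat.Agent.M1.Mon.WildPL43

set_option autoImplicit false
set_option linter.unusedSectionVars false

namespace Fermat.Agent.M1.NRM.OffBranchUnit58

open AlgebraicCurve Fermat.Agent.ES.N34.NodalCore13 Fermat.Agent.M1.Car.Defs43
  Fermat.Agent.M1.Node.Thick25 Fermat.Agent.M1.Mon.WildPL43

variable {R K F : Type*} [CommRing R] [Field K] [Field F] [Algebra K F] [Algebra R F]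
  {π : R} {B0 B1 : Subalgebra R F} {O1 O2 : ValuationSubring F}

/-- `B_𝔪 ⊆ W` for a subring `W` containing `B` in which the elements of `B ∖ 𝔪` are invertible. -/
theorem mem_of_inLocal {B : Subalgebra R F} {𝔪 : Ideal B} (W : Subring F)
    (hWB : ∀ b : B, (b : F) ∈ W) (hWu : ∀ b : B, b ∉ 𝔪 → ((b : F))⁻¹ ∈ W) {w : F}
    (h : InLocal B 𝔪 w) : w ∈ W := by
  obtain ⟨a, d, hd, hwd⟩ := h
  have hd0 : (d : F) ≠ 0 := by
    intro h0
    apply hd
    have : d = 0 := Subtype.ext h0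
    rw [this]
    exact 𝔪.zero_mem
  have : w = (a : F) * ((d : F))⁻¹ := by
    rw [← hwd, mul_assoc, mul_inv_cancel₀ hd0, mul_one]
  rw [this]
  exact W.mul_mem (hWB a) (hWu d hd)

/-- **(U2), first half.**  A function `w`, regular at the places through `𝔪`, regular on `O₁`,
vanishing on `O₂`, whose value at a place centred at `𝔪` is a unit, forces `O₂` off `𝔪`. -/
theorem offBranch_of_unit (M : Frame (K := K) π B0 B1 O1 O2) {B : Subalgebra R F}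
    (hB : B = B0 ∨ B = B1) {𝔪 : Ideal B} (h𝔪 : 𝔪.IsMaximal) (hπ𝔪 : algebraMap R B π ∈ 𝔪)
    (W : Subring F) (hWu : ∀ b : B, b ∉ 𝔪 → ((b : F))⁻¹ ∈ W)
    (hW𝔪 : ∀ b : B, b ∈ 𝔪 → ((b : F))⁻¹ ∉ W) {w : F} (hw0 : w ≠ 0)
    (hord : ∀ Q : Place K F, Through B 𝔪 Q → 0 ≤ Q.ord w)
    (hw1 : OffBranch π B O1 𝔪 ∨ w ∈ O1) (hw2 : ∃ c ∈ O2, w = algebraMap R F π * c)
    (hwW : w⁻¹ ∈ W) : OffBranch π B O2 𝔪 := by
  obtain ⟨c, hc, hwc⟩ := hw2
  have hwO2 : w ∈ O2 := by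
    rw [hwc]
    exact O2.mul_mem _ _ M.pi_mem2 hc
  obtain ⟨a, d, hd, hwd⟩ := M.hart B hB 𝔪 h𝔪 hπ𝔪 w hw0 hord hw1 (Or.inr hwO2)
  have hd0 : (d : F) ≠ 0 := by
    intro h0
    apply hd
    have : d = 0 := Subtype.ext h0
    rw [this]
    exact 𝔪.zero_mem
  have ha : a ∉ 𝔪 := by
    intro ha𝔪
    apply hW𝔪 a ha𝔪
    rw [← hwd, mul_inv]
    exact W.mul_mem hwW (hWu d hd)
  refine ⟨a, ha, c * (d : F), O2.mul_mem _ _ hc (M.le2 B hB _ d.2), ?_⟩
  rw [← hwd, hwc]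
  ring

/-- **(U2), second half.**  If `O₂` does not pass through `𝔪`, a unit of `O₁` with trivial orders at
the places through `𝔪` is a unit of `W`. -/
theorem unit_of_offBranch (M : Frame (K := K) π B0 B1 O1 O2) {B : Subalgebra R F}
    (hB : B = B0 ∨ B = B1) {𝔪 : Ideal B} (h𝔪 : 𝔪.IsMaximal) (hπ𝔪 : algebraMap R B π ∈ 𝔪)
    (W : Subring F) (hWB : ∀ b : B, (b : F) ∈ W) (hWu : ∀ b : B, b ∉ 𝔪 → ((b : F))⁻¹ ∈ W)
    {w : F} (hw0 : w ≠ 0) (hord : ∀ Q : Place K F, Through B 𝔪 Q → Q.ord w = 0)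
    (hw1 : w ∈ O1) (hw1' : w⁻¹ ∈ O1) (hoff : OffBranch π B O2 𝔪) : w ∈ W ∧ w⁻¹ ∈ W := by
  constructor
  · exact mem_of_inLocal W hWB hWu
      (M.hart B hB 𝔪 h𝔪 hπ𝔪 w hw0 (fun Q hQ => (hord Q hQ).ge) (Or.inr hw1) (Or.inl hoff))
  · refine mem_of_inLocal W hWB hWu
      (M.hart B hB 𝔪 h𝔪 hπ𝔪 w⁻¹ (inv_ne_zero hw0) (fun Q hQ => ?_) (Or.inr hw1') (Or.inl hoff))
    rw [Q.ord_inv, hord Q hQ, neg_zero]

end Fermat.Agent.M1.NRM.OffBranchUnit58
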