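/-
M1 (S44), chapter NRM (helper18): **(U2) the bridge between the chart-free sides of a place
(`Side18`: `NonCusp`, `OrdInf`, `OrdZero`, over `ℚbar`, w.r.t. a valuation ring `A'` of `ℚbar`) and the
branches through a closed point of the two-chart model over a number field `L`
(`OffBranch π B O_j 𝔪`).**

`L ⊂ ℚbar` a number field, `F = FK N L`, `bc : F → Fbar N` the base change, `P` a place of
`Fbar N / ℚbar`, `S = sideRing A' N P` the composite ring of `P` and `A'`.

* `WeakCentre A' B 𝔪 P` : `bc B ⊆ S` and `bc (B ∖ 𝔪) ⊆ Sˣ`  (`B_𝔪 ⊆ S`);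
  `BarCentre` : moreover `bc 𝔪` consists of non-units of `S` (`𝔪 = B ∩ 𝔪_S`);
* `WeakCentre.through` : then `resPlace P` passes through `(B, 𝔪)`;
* `WeakCentre.mem_of_inLocal` : `x ∈ B_𝔪 ⟹ bc x ∈ S`;
* `exists_weakCentre` : every `P` has a weak `A'`-centre on a chart whose coordinate lies in `S`;
* `exists_barCentre_of_through` : if `w` passes through `(B, 𝔪)` (`𝔪` maximal) and `P` lies above
  `w`, there is a valuation ring `A'` of `ℚbar` for which `(B, 𝔪)` is the `A'`-centre of `P`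
  (Chevalley; this replaces the henselian property that `R` does not have);
* `ordInf_of_offBranch`, `ordZero_of_offBranch`, `offBranch_of_ordInf`, `offBranch_of_ordZero` :
  the dictionary at a centre where `j` is regular (`Frame.hart`).
-/
import Mathlib
import Fermat.Agent.M1.NRM.Eis18
import Fermat.Agent.M1.Car.RatClass25
import Fermat.Agent.M1.Mon.WildPL43
import Fermat.Agent.M1.Car.Centre99

set_option autoImplicit false
set_option linter.unusedSectionVars false
set_option linter.style.haveILetI false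
set_option synthInstance.maxHeartbeats 400000
set_option maxHeartbeats 800000

noncomputable section

namespace Fermat.Agent.M1.NRM.SideBranch18

open AlgebraicCurve ModularCurve
open Fermat.Agent.X0 Fermat.Agent.X0.FF Fermat.Agent.RED.Interface4
open Fermat.Agent.ES.RED.PlaceValue13
open Fermat.Agent.ES.N34.NodalCore13
open Fermat.Agent.M1.Car.Fibre25 Fermat.Agent.M1.Car.Defs43 Fermat.Agent.M1.Mon.WildPL43
open Fermat.Agent.M1.NRM.Side18 Fermat.Agent.M1.NRM.CompRing18

/-- Shortcut to the instance found (slowly) by instance search. -/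
local instance (priority := 5000) algKFK (M : ℕ) (K : IntermediateField ℚ Qbar) :
    Algebra K (FK M K) := SubalgebraClass.toAlgebra (FK M K)

variable (N : ℕ) [NeZero N] (L : IntermediateField ℚ Qbar) [FiniteDimensional ℚ L]
variable {R : Type*} [CommRing R] [Algebra R (FK N L)]

/-! ### Units of the composite ring and centres -/

/-- `f` is a unit of the composite ring `S = sideRing A' N P`. -/
def IsSUnit (A' : ValuationSubring Qbar) (P : Place Qbar (Fbar N)) (f : Fbar N) : Prop :=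
  ∃ s ∈ sideRing A' N P, f * s = 1

variable {N}

theorem IsSUnit.mem {A' : ValuationSubring Qbar} {P : Place Qbar (Fbar N)} {f : Fbar N}
    (h : IsSUnit N A' P f) (hf : f ∈ sideRing A' N P) :
    f ∈ sideRing A' N P ∧ f⁻¹ ∈ sideRing A' N P := by
  obtain ⟨s, hs, hfs⟩ := h
  refine ⟨hf, ?_⟩
  rw [← eq_inv_of_mul_eq_one_right hfs]
  exact hs

theorem isSUnit_of_inv_mem {A' : ValuationSubring Qbar} {P : Place Qbar (Fbar N)} {f : Fbar N}
    (hf0 : f ≠ 0) (hinv : f⁻¹ ∈ sideRing A' N P) : IsSUnit N A' P f :=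
  ⟨f⁻¹, hinv, mul_inv_cancel₀ hf0⟩

theorem IsSUnit.mul {A' : ValuationSubring Qbar} {P : Place Qbar (Fbar N)} {f g : Fbar N}
    (hf : IsSUnit N A' P f) (hg : IsSUnit N A' P g) : IsSUnit N A' P (f * g) := by
  obtain ⟨s, hs, hfs⟩ := hf
  obtain ⟨t, ht, hgt⟩ := hg
  exact ⟨s * t, Subring.mul_mem _ hs ht, by rw [mul_mul_mul_comm, hfs, hgt, mul_one]⟩

variable (N)

/-- `(B, 𝔪)` is a **weak `A'`-centre** of `P`: `B_𝔪 ⊆ S`. -/
structure WeakCentre (A' : ValuationSubring Qbar) (B : Subalgebra R (FK N L)) (𝔪 : Ideal B)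
    (P : Place Qbar (Fbar N)) : Prop where
  le : ∀ b : B, bc N L (b : FK N L) ∈ sideRing A' N P
  unit : ∀ b : B, b ∉ 𝔪 → IsSUnit N A' P (bc N L (b : FK N L))

/-- `(B, 𝔪)` is **the `A'`-centre** of `P`: `B ⊆ S` and `𝔪 = B ∩ 𝔪_S`. -/
structure BarCentre (A' : ValuationSubring Qbar) (B : Subalgebra R (FK N L)) (𝔪 : Ideal B)
    (P : Place Qbar (Fbar N)) : Prop extends WeakCentre N L A' B 𝔪 P where
  nonunit : ∀ b : B, b ∈ 𝔪 → ¬ IsSUnit N A' P (bc N L (b : FK N L))

variable {N L}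
variable {A' : ValuationSubring Qbar} {B : Subalgebra R (FK N L)} {𝔪 : Ideal B}
  {P : Place Qbar (Fbar N)}

theorem sideRing_le_place {f : Fbar N} (hf : f ∈ sideRing A' N P) : f ∈ P.toValuationSubring :=
  mem_valuationSubring_of_mem (hgen N) A' P hf

/-- The place below passes through a weak centre. -/
theorem WeakCentre.through (hc : WeakCentre N L A' B 𝔪 P) : Through B 𝔪 (resPlace N L P) := by
  refine ⟨fun b => ?_, fun b hb => ?_⟩
  · rw [mem_resPlace_iff]
    exact sideRing_le_place (hc.le b)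
  · rw [mem_resPlace_iff, map_inv₀]
    obtain ⟨s, hs, hbs⟩ := hc.unit b hb
    rw [← eq_inv_of_mul_eq_one_right hbs]
    exact sideRing_le_place hs

/-- `x ∈ B_𝔪 ⟹ bc x ∈ S`. -/
theorem WeakCentre.mem_of_inLocal (hc : WeakCentre N L A' B 𝔪 P) {x : FK N L}
    (hx : InLocal B 𝔪 x) : bc N L x ∈ sideRing A' N P := by
  obtain ⟨a, d, hd, hxd⟩ := hx
  obtain ⟨s, hs, hds⟩ := hc.unit d hd
  have h1 : bc N L x = bc N L (a : FK N L) * s := by
    rw [← hxd, map_mul, mul_assoc, hds, mul_one]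
  rw [h1]
  exact Subring.mul_mem _ (hc.le a) hs

/-- `x ∈ B_𝔪ˣ ⟹ bc x ∈ Sˣ`. -/
theorem WeakCentre.isSUnit_of_inLocal (hc : WeakCentre N L A' B 𝔪 P) {x : FK N L} (hx0 : x ≠ 0)
    (hx : InLocal B 𝔪 x⁻¹) : IsSUnit N A' P (bc N L x) := by
  refine isSUnit_of_inv_mem (bc_ne_zero N L hx0) ?_
  rw [← map_inv₀]
  exact hc.mem_of_inLocal hx


/-! ### The composite ring is a valuation ring; its units -/

theorem mem_sideRing_iff {f : Fbar N} : f ∈ sideRing A' N P ↔
    ∃ hf : f ∈ P.toValuationSubring, valueHom (hgen N) P ⟨f, hf⟩ ∈ A' := Iff.rfl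

theorem mem_sideRing_of_inv_not_mem {g : Fbar N} (hg : g ∈ P.toValuationSubring)
    (hg' : g⁻¹ ∉ P.toValuationSubring) : g ∈ sideRing A' N P := by
  rw [mem_sideRing_iff]
  refine ⟨hg, ?_⟩
  have h0 : valueHom (hgen N) P ⟨g, hg⟩ = 0 := by
    by_contra hne
    have hu : IsUnit (⟨g, hg⟩ : P.toValuationSubring) :=
      (valueHom_ne_zero_iff (hgen N) P _).mp hne
    exact hg' (Fermat.Agent.M1.Car.Centre99.inv_mem_of_isUnit P.toValuationSubring hg hu)
  rw [h0]
  exact A'.zero_mem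

/-- **the composite ring is a valuation ring of `Fbar N`.** -/
theorem mem_or_inv_mem (A' : ValuationSubring Qbar) (P : Place Qbar (Fbar N)) (f : Fbar N) :
    f ∈ sideRing A' N P ∨ f⁻¹ ∈ sideRing A' N P := by
  by_cases hf : f ∈ P.toValuationSubring
  · by_cases hf' : f⁻¹ ∈ P.toValuationSubring
    · rcases eq_or_ne f 0 with rfl | hf0
      · exact Or.inl (Subring.zero_mem _)
      · have hmul : valueHom (hgen N) P ⟨f, hf⟩ * valueHom (hgen N) P ⟨f⁻¹, hf'⟩ = 1 := by
          rw [← map_mul, ← map_one (valueHom (hgen N) P)]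
          congr 1
          exact Subtype.ext (mul_inv_cancel₀ hf0)
        rcases A'.mem_or_inv_mem (valueHom (hgen N) P ⟨f, hf⟩) with h | h
        · exact Or.inl (mem_sideRing_iff.mpr ⟨hf, h⟩)
        · refine Or.inr (mem_sideRing_iff.mpr ⟨hf', ?_⟩)
          rw [eq_inv_of_mul_eq_one_right hmul]
          exact h
    · exact Or.inl (mem_sideRing_of_inv_not_mem hf hf')
  · have hf' : f⁻¹ ∈ P.toValuationSubring :=
      (P.toValuationSubring.mem_or_inv_mem f).resolve_left hf
    refine Or.inr (mem_sideRing_of_inv_not_mem hf' ?_)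
    rwa [inv_inv]

/-- units of the composite ring are detected by the evaluation `S → A'`. -/
theorem isSUnit_iff_isUnit {f : Fbar N} (hf : f ∈ sideRing A' N P) :
    IsSUnit N A' P f ↔ IsUnit (evalHom (hgen N) A' P ⟨f, hf⟩) := by
  constructor
  · rintro ⟨s, hs, hfs⟩
    have h1 : evalHom (hgen N) A' P ⟨f, hf⟩ * evalHom (hgen N) A' P ⟨s, hs⟩ = 1 := by
      rw [← map_mul, ← map_one (evalHom (hgen N) A' P)]
      congr 1
      exact Subtype.ext hfs
    exact IsUnit.of_mul_eq_one _ h1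
  · intro hu
    obtain ⟨hfO, hfA⟩ := mem_sideRing_iff.mp hf
    have hne : valueHom (hgen N) P ⟨f, hfO⟩ ≠ 0 := by
      intro h0
      have : evalHom (hgen N) A' P ⟨f, hf⟩ = 0 := Subtype.ext h0
      rw [this] at hu
      exact not_isUnit_zero hu
    have hinv : (valueHom (hgen N) P ⟨f, hfO⟩)⁻¹ ∈ A' :=
      Fermat.Agent.M1.Car.Centre99.inv_mem_of_isUnit A' hfA hu
    have hf0 : f ≠ 0 := by
      rintro rfl
      apply hne
      have : (⟨0, hfO⟩ : P.toValuationSubring) = 0 := rfl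
      rw [this, map_zero]
    exact isSUnit_of_inv_mem hf0 (inv_mem_of_value_inv_mem (hgen N) A' P hf hinv hne)

/-- constants: `c` is a unit of `S` iff it is a unit of `A'`. -/
theorem not_isSUnit_algebraMap_iff {c : Qbar} (hc : c ∈ A') :
    ¬ IsSUnit N A' P (algebraMap Qbar (Fbar N) c) ↔ c ∈ A'.nonunits := by
  have hmem : algebraMap Qbar (Fbar N) c ∈ sideRing A' N P :=
    (algebraMap_mem_sideRing_iff A' c).mpr hc
  rw [isSUnit_iff_isUnit hmem]
  have hval : evalHom (hgen N) A' P ⟨algebraMap Qbar (Fbar N) c, hmem⟩ = ⟨c, hc⟩ :=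
    Subtype.ext ((valueHom (hgen N) P).commutes c)
  rw [hval, ← mem_nonunits_iff, ← IsLocalRing.mem_maximalIdeal,
    ← ValuationSubring.coe_mem_nonunits_iff]

/-! ### Evaluation of a chart -/

/-- the ring hom `B → S`. -/
def toSide (hle : ∀ b : B, bc N L (b : FK N L) ∈ sideRing A' N P) : B →+* sideRing A' N P :=
  ((bc N L).comp (B.val : B →+* FK N L)).codRestrict (sideRing A' N P) hle

/-- evaluation `B → A'` at `P`. -/
def evB (hle : ∀ b : B, bc N L (b : FK N L) ∈ sideRing A' N P) : B →+* A' :=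
  (evalHom (hgen N) A' P).comp (toSide hle)

theorem evB_apply (hle : ∀ b : B, bc N L (b : FK N L) ∈ sideRing A' N P) (b : B) :
    evB hle b = evalHom (hgen N) A' P ⟨bc N L (b : FK N L), hle b⟩ := rfl

theorem isSUnit_bc_iff (hle : ∀ b : B, bc N L (b : FK N L) ∈ sideRing A' N P) (b : B) :
    IsSUnit N A' P (bc N L (b : FK N L)) ↔ IsUnit (evB hle b) :=
  isSUnit_iff_isUnit (hle b)

/-- **Integrality**: a chart integral over `R[s]` is mapped into `S` as soon as `R` and `s` are. -/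
theorem bc_mem_of_chart {s : FK N L} (hint : ∀ x ∈ B, IsIntegral (Algebra.adjoin R {s}) x)
    (hRS : ∀ r : R, bc N L (algebraMap R (FK N L) r) ∈ sideRing A' N P)
    (hs : bc N L s ∈ sideRing A' N P) (b : B) : bc N L (b : FK N L) ∈ sideRing A' N P := by
  have hSA : ∀ y ∈ Algebra.adjoin R {s}, y ∈ (sideRing A' N P).comap (bc N L) :=
    Fermat.Agent.M1.Car.Centre99.adjoin_le_of_mem ((sideRing A' N P).comap (bc N L)) hRS hs
  obtain ⟨q, hq, hqb⟩ := hint b b.2
  let ψS : (Algebra.adjoin R {s}) →+* sideRing A' N P :=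
    ((bc N L).comp (algebraMap (Algebra.adjoin R {s}) (FK N L))).codRestrict (sideRing A' N P)
      (fun y => hSA y y.2)
  apply mem_sideRing_of_isIntegral A'
  refine ⟨q.map ψS, hq.map ψS, ?_⟩
  rw [Polynomial.eval₂_map]
  have hcomp : (algebraMap (sideRing A' N P) (Fbar N)).comp ψS =
      (bc N L).comp (algebraMap (Algebra.adjoin R {s}) (FK N L)) := RingHom.ext fun _ => rfl
  rw [hcomp, ← Polynomial.hom_eval₂, hqb, map_zero]

/-- **Existence of a weak centre** on a chart that `bc` maps into `S`, when `π` is a non-unit of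
`S`. -/
theorem exists_weakCentre_of_le {π : R}
    (hle : ∀ b : B, bc N L (b : FK N L) ∈ sideRing A' N P)
    (hπ : ¬ IsSUnit N A' P (bc N L (algebraMap R (FK N L) π))) :
    ∃ 𝔪 : Ideal B, 𝔪.IsMaximal ∧ algebraMap R B π ∈ 𝔪 ∧ WeakCentre N L A' B 𝔪 P := by
  have h𝔮top : Ideal.comap (evB hle) (IsLocalRing.maximalIdeal A') ≠ ⊤ :=
    (Ideal.comap_isPrime (evB hle) _).ne_top
  obtain ⟨𝔪, h𝔪, hle𝔪⟩ := Ideal.exists_le_maximal _ h𝔮top
  refine ⟨𝔪, h𝔪, hle𝔪 ?_, hle, ?_⟩
  · show evB hle (algebraMap R B π) ∈ IsLocalRing.maximalIdeal A'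
    rw [IsLocalRing.mem_maximalIdeal, mem_nonunits_iff]
    intro hu
    exact hπ ((isSUnit_bc_iff hle (algebraMap R B π)).mpr hu)
  · intro b hb
    rw [isSUnit_bc_iff hle b]
    by_contra hu
    apply hb
    apply hle𝔪
    show evB hle b ∈ IsLocalRing.maximalIdeal A'
    rwa [IsLocalRing.mem_maximalIdeal, mem_nonunits_iff]

/-- **Chevalley**: if the place below `P` passes through the closed point `(B, 𝔪)` then `(B, 𝔪)` is
THE `A'`-centre of `P` for a suitable valuation ring `A'` of `ℚbar`. -/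
theorem exists_barCentre_of_through (h𝔪 : 𝔪.IsMaximal) (hw : Through B 𝔪 (resPlace N L P)) :
    ∃ A' : ValuationSubring Qbar, BarCentre N L A' B 𝔪 P := by
  have hB : ∀ b : B, bc N L (b : FK N L) ∈ P.toValuationSubring := fun b =>
    (mem_resPlace_iff N L P _).mp (hw.1 b)
  let φ : B →+* Qbar := ((valueHom (hgen N) P : P.toValuationSubring →+* Qbar)).comp
    (((bc N L).comp (B.val : B →+* FK N L)).codRestrict P.toValuationSubring.toSubring hB)
  have hφ : ∀ b : B, φ b = valueHom (hgen N) P ⟨bc N L (b : FK N L), hB b⟩ := fun b => rfl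
  -- the kernel of `φ` lies in `𝔪`
  have hker : ∀ b : B, φ b = 0 → b ∈ 𝔪 := by
    intro b hb
    by_contra hb𝔪
    have hinv := hw.2 b hb𝔪
    rw [mem_resPlace_iff, map_inv₀] at hinv
    rw [hφ, valueHom_eq_zero_iff, IsLocalRing.mem_maximalIdeal, mem_nonunits_iff] at hb
    apply hb
    have hb0 : bc N L (b : FK N L) ≠ 0 := by
      apply bc_ne_zero
      intro h0
      apply hb𝔪
      have : b = 0 := Subtype.ext h0
      rw [this]
      exact 𝔪.zero_mem
    exact isUnit_iff_exists_inv.mpr ⟨⟨_, hinv⟩, Subtype.ext (mul_inv_cancel₀ hb0)⟩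
  -- the image ring and the image ideal
  have hsurj : Function.Surjective φ.rangeRestrict := φ.rangeRestrict_surjective
  have hI : Ideal.map φ.rangeRestrict 𝔪 ≠ ⊤ := by
    intro htop
    have h1 : (1 : φ.range) ∈ Ideal.map φ.rangeRestrict 𝔪 := by rw [htop]; trivial
    obtain ⟨m, hm, hm1⟩ := (Ideal.mem_map_iff_of_surjective φ.rangeRestrict hsurj).mp h1
    have hm1' : φ m = 1 := congrArg Subtype.val hm1
    have h2 : φ (1 - m) = 0 := by rw [map_sub, map_one, hm1', sub_self]
    have h3 := hker _ h2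
    have h4 : (1 : B) ∈ 𝔪 := by
      have := 𝔪.add_mem h3 hm
      rwa [sub_add_cancel] at this
    exact h𝔪.ne_top ((Ideal.eq_top_iff_one _).mpr h4)
  obtain ⟨A', hCA, hIA⟩ := Ideal.image_subset_nonunits_valuationSubring _ hI
  have hval : ∀ b : B, φ b ∈ A' := fun b => hCA ⟨b, rfl⟩
  have hnon : ∀ b ∈ 𝔪, φ b ∈ A'.nonunits := fun b hb =>
    hIA ⟨φ.rangeRestrict b, Ideal.mem_map_of_mem _ hb, rfl⟩
  have hle : ∀ b : B, bc N L (b : FK N L) ∈ sideRing A' N P := fun b =>
    mem_sideRing_iff.mpr ⟨hB b, hval b⟩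
  have hmax : ∀ b ∈ 𝔪, evB hle b ∈ IsLocalRing.maximalIdeal A' := fun b hb =>
    ValuationSubring.coe_mem_nonunits_iff.mp (hnon b hb)
  refine ⟨A', ⟨⟨hle, ?_⟩, ?_⟩⟩
  · intro b hb
    rw [isSUnit_bc_iff hle b]
    obtain ⟨b', i, hi, hbi⟩ := h𝔪.exists_inv hb
    have h1 : evB hle b' * evB hle b = 1 - evB hle i := by
      rw [← map_mul, ← map_one (evB hle), ← map_sub, ← hbi, add_sub_cancel_right]
    have h2 : IsUnit (evB hle b' * evB hle b) := by
      rw [h1]
      exact IsLocalRing.isUnit_one_sub_self_of_mem_nonunits _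
        ((IsLocalRing.mem_maximalIdeal _).mp (hmax i hi))
    exact isUnit_of_mul_isUnit_right h2
  · intro b hb hu
    rw [isSUnit_bc_iff hle b] at hu
    have := hmax b hb
    rw [IsLocalRing.mem_maximalIdeal, mem_nonunits_iff] at this
    exact this hu

end Fermat.Agent.M1.NRM.SideBranch18
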