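/-
M1 (S44), chapter NRM (helper18): **(AV) the function `h` of the Hecke norm relation avoids the
nodes.**

`L ⊂ ℚbar` a number field, `F = FK N L`, two-chart frame `(π, B0, B1, O1, O2)` over `R`, `p ∣ N`,
`u = u_p ∈ F`, `j ∈ F`.  `D` a divisor of `F / L` avoiding the nodes and the closed points of the
special fibre where `j` is not regular.  If `div (bc h) = T_ℓ (D̄) - a D̄` then `ord_w h = 0` at every
place `w` through a node.

* `inLocal_unit` : two applications of `Frame.hart`;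
* `ord_uF_eq_zero` : `u_p` has neither zero nor pole where `j` is finite;
* `UData` : the facts about `j`, `u_p` over `L` that are used;
* `ordInf_of_off2`, `ordZero_of_off1` : a place with a weak centre off one branch, where `j` is
  regular, lies on the side of the other branch;
* `off2_of_ordInf`, `off1_of_ordZero` : conversely THE centre of a place of side `∞` (resp. `0`) is
  off the branch `2` (resp. `1`);
* `isOrd_of_weakCentre`;
* **`ord_eq_zero_of_through_node`** : (AV).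
-/
import Mathlib
import Fermat.Agent.M1.NRM.SideBranch18

set_option autoImplicit false
set_option linter.unusedSectionVars false
set_option linter.style.haveILetI false
set_option synthInstance.maxHeartbeats 400000
set_option maxHeartbeats 800000

noncomputable section

namespace Fermat.Agent.M1.NRM.SideAvoid18

open AlgebraicCurve ModularCurve
open Fermat.Agent.X0 Fermat.Agent.X0.Analytic Fermat.Agent.X0.FF Fermat.Agent.RED.Interface4
open Fermat.Agent.ES.RED.PlaceValue13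
open Fermat.Agent.ES.N34.NodalCore13
open Fermat.Agent.M1.Car.Fibre25 Fermat.Agent.M1.Car.RatClass25
open Fermat.Agent.M1.Car.Defs43 Fermat.Agent.M1.Mon.WildPL43
open Fermat.Agent.M1.NRM.SidePart18 Fermat.Agent.M1.NRM.Side18 Fermat.Agent.M1.NRM.CompRing18
open Fermat.Agent.M1.NRM.UnitPoly18 Fermat.Agent.M1.NRM.Eis18 Fermat.Agent.M1.NRM.SideBranch18
open Fermat.Agent.IG.PR.Interface20 Fermat.Agent.RED.BASE.DeltaMem19

/-- Shortcut to the instance found (slowly) by instance search. -/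
local instance (priority := 5000) algKFK (M : ℕ) (K : IntermediateField ℚ Qbar) :
    Algebra K (FK M K) := SubalgebraClass.toAlgebra (FK M K)

variable {N : ℕ} [NeZero N] {L : IntermediateField ℚ Qbar} [FiniteDimensional ℚ L]
variable {R : Type*} [CommRing R] [Algebra R (FK N L)]
variable {A' : ValuationSubring Qbar} {B : Subalgebra R (FK N L)} {𝔪 : Ideal B}
  {P : Place Qbar (Fbar N)}
variable {π : R} {B0 B1 : Subalgebra R (FK N L)} {O1 O2 : ValuationSubring (FK N L)}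

/-! ### Local ring of a closed point -/

theorem mem_place_of_inLocal {w : Place L (FK N L)} (hw : Through B 𝔪 w) {x : FK N L}
    (hx : InLocal B 𝔪 x) : x ∈ w.toValuationSubring := by
  obtain ⟨a, d, hd, hxd⟩ := hx
  have hd0 : (d : FK N L) ≠ 0 := by
    intro h0
    apply hd
    have : d = 0 := Subtype.ext h0
    rw [this]
    exact 𝔪.zero_mem
  have : x = (a : FK N L) * ((d : FK N L))⁻¹ := by
    rw [← hxd, mul_assoc, mul_inv_cancel₀ hd0, mul_one]
  rw [this]
  exact w.toValuationSubring.mul_mem _ _ (hw.1 a) (hw.2 d hd)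

/-- Two applications of `Frame.hart`: a function without zero or pole through `(B, 𝔪)` which is a
unit on the branches through `𝔪` is a unit of `B_𝔪`. -/
theorem inLocal_unit (M : Frame (K := L) π B0 B1 O1 O2) (hB : B = B0 ∨ B = B1)
    (h𝔪 : 𝔪.IsMaximal) (hπ : algebraMap R B π ∈ 𝔪) {g : FK N L} (hg : g ≠ 0)
    (hord : ∀ w : Place L (FK N L), Through B 𝔪 w → w.ord g = 0)
    (h1 : OffBranch π B O1 𝔪 ∨ (g ∈ O1 ∧ g⁻¹ ∈ O1))
    (h2 : OffBranch π B O2 𝔪 ∨ (g ∈ O2 ∧ g⁻¹ ∈ O2)) :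
    InLocal B 𝔪 g ∧ InLocal B 𝔪 g⁻¹ := by
  constructor
  · exact M.hart B hB 𝔪 h𝔪 hπ g hg (fun w hw => (hord w hw).ge) (h1.imp id And.left)
      (h2.imp id And.left)
  · refine M.hart B hB 𝔪 h𝔪 hπ g⁻¹ (inv_ne_zero hg) (fun w hw => ?_) (h1.imp id And.right)
      (h2.imp id And.right)
    rw [Place.ord_inv, hord w hw, neg_zero]

/-! ### The unit `u_p` -/

/-- `u_p` has neither zero nor pole at a place where `j` is finite. -/
theorem ord_uF_eq_zero {p : ℕ} [NeZero p] (hp : p.Prime) (hpN : p ∣ N)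
    (P : Place Qbar (Fbar N)) (hj : jF N ∈ P.toValuationSubring) : P.ord (uF p N hpN) = 0 := by
  have hcl : ∀ f : FF N, IsIntegral P.toValuationSubring.toSubring f →
      f ∈ P.toValuationSubring.toSubring := fun f hf =>
    Fermat.Agent.M1.Car.Centre99.mem_of_isIntegral P.toValuationSubring hf
  have hjL : algebraMap (FF N) (LaurentSeries Kbar) (jF N) = jqModC Kbar := by
    show ((jF N : FF N) : LaurentSeries Kbar) = _
    rw [coe_jF, jqK_eq_jqModC]
  have hY : algebraMap (FF N) (LaurentSeries Kbar) (uF p N hpN) = qExpand Kbar 1 (uq Kbar p) := by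
    rw [qExpand_one_apply]; rfl
  obtain ⟨h1, h2⟩ := unit_mem hcl hjL hj 1 p hp hY
  have hu0 := uF_ne_zero p N hpN
  have hp0 : (p : FF N) ^ 12 ≠ 0 := pow_ne_zero _ (by exact_mod_cast NeZero.ne p)
  have hpc : (p : FF N) ^ 12 = algebraMap Kbar (FF N) ((p : Kbar) ^ 12) := by
    rw [map_pow, map_natCast]
  have h1' : 0 ≤ P.ord ((p : FF N) ^ 12 * uF p N hpN) := (ffp_mem_iff_ord_nonneg P).mp h1
  rw [P.ord_mul hp0 hu0, hpc, ffp_ord_algebraMap, zero_add] at h1'
  have h2' : 0 ≤ P.ord (uF p N hpN)⁻¹ := (ffp_mem_iff_ord_nonneg P).mp h2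
  rw [Place.ord_inv] at h2'
  omega

/-- The facts about `j` and `u_p` over `L` that are used. -/
structure UData (N : ℕ) [NeZero N] (L : IntermediateField ℚ Qbar) [FiniteDimensional ℚ L]
    {R : Type*} [CommRing R] [Algebra R (FK N L)] (π : R) (O1 O2 : ValuationSubring (FK N L))
    (p : ℕ) [NeZero p] (hpN : p ∣ N) (jL uL : FK N L) : Prop where
  bc_j : bc N L jL = jF N
  bc_u : bc N L uL = uF p N hpN
  u_mem1 : uL ∈ O1
  uinv_mem1 : uL⁻¹ ∈ O1
  y_mem2 : (p : FK N L) ^ 12 * uL ∈ O2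
  yinv_mem2 : ((p : FK N L) ^ 12 * uL)⁻¹ ∈ O2
  uinv_mem2 : ∃ c ∈ O2, uL⁻¹ = algebraMap R (FK N L) π * c
  y_mem1 : ∃ c ∈ O1, (p : FK N L) ^ 12 * uL = algebraMap R (FK N L) π * c

namespace UData

variable {p : ℕ} [NeZero p] {hpN : p ∣ N} {jL uL : FK N L}

theorem u_ne_zero (U : UData N L π O1 O2 p hpN jL uL) : uL ≠ 0 := by
  rintro rfl
  have := U.bc_u
  rw [map_zero] at this
  exact uF_ne_zero p N hpN this.symm

theorem y_ne_zero (U : UData N L π O1 O2 p hpN jL uL) : (p : FK N L) ^ 12 * uL ≠ 0 :=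
  mul_ne_zero (pow_ne_zero _ (by exact_mod_cast NeZero.ne p)) U.u_ne_zero

theorem bc_y (U : UData N L π O1 O2 p hpN jL uL) :
    bc N L ((p : FK N L) ^ 12 * uL) = (p : FF N) ^ 12 * uF p N hpN := by
  rw [map_mul, map_pow, map_natCast, U.bc_u]

theorem ord_u (U : UData N L π O1 O2 p hpN jL uL) (hp : p.Prime) (w : Place L (FK N L))
    (hjw : jL ∈ w.toValuationSubring) : w.ord uL = 0 := by
  obtain ⟨P, rfl⟩ := resPlace_surjective N L w
  rw [← ord_resPlace, U.bc_u]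
  apply ord_uF_eq_zero hp hpN P
  rw [← U.bc_j, ← mem_resPlace_iff]
  exact hjw

theorem ord_y (U : UData N L π O1 O2 p hpN jL uL) (hp : p.Prime) (w : Place L (FK N L))
    (hjw : jL ∈ w.toValuationSubring) : w.ord ((p : FK N L) ^ 12 * uL) = 0 := by
  have hp0 : (p : FK N L) ^ 12 ≠ 0 := pow_ne_zero _ (by exact_mod_cast NeZero.ne p)
  have hpc : (p : FK N L) ^ 12 = algebraMap L (FK N L) ((p : L) ^ 12) := by
    rw [map_pow, map_natCast]
  rw [w.ord_mul hp0 U.u_ne_zero, hpc, ffp_ord_algebraMap, zero_add, U.ord_u hp w hjw]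

end UData

/-! ### The dictionary -/

section Dict

variable {p : ℕ} [NeZero p] {hpN : p ∣ N} {jL uL : FK N L}

/-- A weak centre off the branch `2` at which `j` is regular: side `∞`. -/
theorem ordInf_of_off2 (M : Frame (K := L) π B0 B1 O1 O2) (U : UData N L π O1 O2 p hpN jL uL)
    (hp : p.Prime) (hB : B = B0 ∨ B = B1) (h𝔪 : 𝔪.IsMaximal) (hπ : algebraMap R B π ∈ 𝔪)
    (hc : WeakCentre N L A' B 𝔪 P) (hj : InLocal B 𝔪 jL) (hoff : OffBranch π B O2 𝔪) :
    OrdInf A' p N hpN P := by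
  have hord : ∀ w : Place L (FK N L), Through B 𝔪 w → w.ord uL = 0 := fun w hw =>
    U.ord_u hp w (mem_place_of_inLocal hw hj)
  obtain ⟨h1, h2⟩ := inLocal_unit M hB h𝔪 hπ U.u_ne_zero hord
    (Or.inr ⟨U.u_mem1, U.uinv_mem1⟩) (Or.inl hoff)
  refine ⟨?_, ?_, ?_⟩
  · rw [← U.bc_j]; exact hc.mem_of_inLocal hj
  · rw [← U.bc_u]; exact hc.mem_of_inLocal h1
  · rw [← U.bc_u, ← map_inv₀]; exact hc.mem_of_inLocal h2

/-- A weak centre off the branch `1` at which `j` is regular: side `0`. -/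
theorem ordZero_of_off1 (M : Frame (K := L) π B0 B1 O1 O2) (U : UData N L π O1 O2 p hpN jL uL)
    (hp : p.Prime) (hB : B = B0 ∨ B = B1) (h𝔪 : 𝔪.IsMaximal) (hπ : algebraMap R B π ∈ 𝔪)
    (hc : WeakCentre N L A' B 𝔪 P) (hj : InLocal B 𝔪 jL) (hoff : OffBranch π B O1 𝔪) :
    OrdZero A' p N hpN P := by
  have hord : ∀ w : Place L (FK N L), Through B 𝔪 w → w.ord ((p : FK N L) ^ 12 * uL) = 0 :=
    fun w hw => U.ord_y hp w (mem_place_of_inLocal hw hj)
  obtain ⟨h1, h2⟩ := inLocal_unit M hB h𝔪 hπ U.y_ne_zero hord (Or.inl hoff)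
    (Or.inr ⟨U.y_mem2, U.yinv_mem2⟩)
  refine ⟨?_, ?_, ?_⟩
  · rw [← U.bc_j]; exact hc.mem_of_inLocal hj
  · rw [← U.bc_y]; exact hc.mem_of_inLocal h1
  · rw [← U.bc_y, ← map_inv₀]; exact hc.mem_of_inLocal h2

/-- A weak centre which is not a node and at which `j` is regular: the place is ordinary. -/
theorem isOrd_of_weakCentre (M : Frame (K := L) π B0 B1 O1 O2)
    (U : UData N L π O1 O2 p hpN jL uL) (hp : p.Prime) (hB : B = B0 ∨ B = B1)
    (h𝔪 : 𝔪.IsMaximal) (hπ : algebraMap R B π ∈ 𝔪) (hc : WeakCentre N L A' B 𝔪 P)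
    (hj : InLocal B 𝔪 jL) (hnode : ¬ IsNode π B0 B1 O1 O2 B 𝔪) :
    OrdInf A' p N hpN P ∨ OrdZero A' p N hpN P := by
  by_cases h2 : OffBranch π B O2 𝔪
  · exact Or.inl (ordInf_of_off2 M U hp hB h𝔪 hπ hc hj h2)
  · by_cases h1 : OffBranch π B O1 𝔪
    · exact Or.inr (ordZero_of_off1 M U hp hB h𝔪 hπ hc hj h1)
    · exact absurd ⟨hB, h𝔪, hπ, h1, h2⟩ hnode

/-- THE centre of a place of side `∞`, where `j` is regular, is off the branch `2`. -/
theorem off2_of_ordInf (M : Frame (K := L) π B0 B1 O1 O2) (U : UData N L π O1 O2 p hpN jL uL)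
    (hp : p.Prime) (hB : B = B0 ∨ B = B1) (h𝔪 : 𝔪.IsMaximal) (hπ : algebraMap R B π ∈ 𝔪)
    (hc : BarCentre N L A' B 𝔪 P) (hj : InLocal B 𝔪 jL) (hP : OrdInf A' p N hpN P) :
    OffBranch π B O2 𝔪 := by
  by_contra hon
  have hu2 : uL⁻¹ ∈ O2 := by
    obtain ⟨c, hc2, hcu⟩ := U.uinv_mem2
    rw [hcu]
    exact O2.mul_mem _ _ M.pi_mem2 hc2
  have hloc : InLocal B 𝔪 uL⁻¹ := by
    refine M.hart B hB 𝔪 h𝔪 hπ uL⁻¹ (inv_ne_zero U.u_ne_zero) (fun w hw => ?_)
      (Or.inr U.uinv_mem1) (Or.inr hu2)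
    rw [Place.ord_inv, U.ord_u hp w (mem_place_of_inLocal hw hj), neg_zero]
  obtain ⟨a, d, hd, had⟩ := hloc
  have ha : a ∈ 𝔪 := InLocal.num_mem (M.le2 B hB) hon had U.uinv_mem2
  apply hc.nonunit a ha
  have hbc : bc N L (a : FK N L) = (uF p N hpN)⁻¹ * bc N L (d : FK N L) := by
    rw [← had, map_mul, map_inv₀, U.bc_u]
  rw [hbc]
  exact IsSUnit.mul ⟨uF p N hpN, hP.2.1, inv_mul_cancel₀ (uF_ne_zero p N hpN)⟩ (hc.unit d hd)

/-- THE centre of a place of side `0`, where `j` is regular, is off the branch `1`. -/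
theorem off1_of_ordZero (M : Frame (K := L) π B0 B1 O1 O2) (U : UData N L π O1 O2 p hpN jL uL)
    (hp : p.Prime) (hB : B = B0 ∨ B = B1) (h𝔪 : 𝔪.IsMaximal) (hπ : algebraMap R B π ∈ 𝔪)
    (hc : BarCentre N L A' B 𝔪 P) (hj : InLocal B 𝔪 jL) (hP : OrdZero A' p N hpN P) :
    OffBranch π B O1 𝔪 := by
  by_contra hon
  have hy1 : (p : FK N L) ^ 12 * uL ∈ O1 := by
    obtain ⟨c, hc1, hcu⟩ := U.y_mem1
    rw [hcu]
    exact O1.mul_mem _ _ M.pi_mem1 hc1
  have hloc : InLocal B 𝔪 ((p : FK N L) ^ 12 * uL) := by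
    refine M.hart B hB 𝔪 h𝔪 hπ _ U.y_ne_zero (fun w hw => ?_) (Or.inr hy1) (Or.inr U.y_mem2)
    rw [U.ord_y hp w (mem_place_of_inLocal hw hj)]
  obtain ⟨a, d, hd, had⟩ := hloc
  have ha : a ∈ 𝔪 := InLocal.num_mem (M.le1 B hB) hon had U.y_mem1
  apply hc.nonunit a ha
  have hbc : bc N L (a : FK N L) = ((p : FF N) ^ 12 * uF p N hpN) * bc N L (d : FK N L) := by
    rw [← had, map_mul, U.bc_y]
  have hy0 : (p : FF N) ^ 12 * uF p N hpN ≠ 0 :=
    mul_ne_zero (pow_ne_zero _ (by exact_mod_cast NeZero.ne p)) (uF_ne_zero p N hpN)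
  rw [hbc]
  exact IsSUnit.mul (isSUnit_of_inv_mem hy0 hP.2.2) (hc.unit d hd)

end Dict

/-! ### Constants -/

section Const

variable [Algebra R L] [IsScalarTower R L (FK N L)]

theorem bc_algebraMap_R (r : R) :
    bc N L (algebraMap R (FK N L) r) = algebraMap Qbar (Fbar N) ((algebraMap R L r : L) : Qbar) := by
  rw [IsScalarTower.algebraMap_apply R L (FK N L)]
  exact Fermat.Agent.RED.DESC.PlaceExtend27.baseChangeHom_algebraMap N L _

end Const

/-- `ℓ` is a unit of `A'` when `p` is not and `ℓ, p` are coprime. -/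
theorem inv_natCast_mem_of_coprime (A' : ValuationSubring Qbar) {p ℓ : ℕ} (hcop : Nat.Coprime ℓ p)
    (hpA : (p : Qbar) ∈ A'.nonunits) : ((ℓ : Qbar))⁻¹ ∈ A' := by
  have h1 : IsCoprime ((ℓ : ℤ)) (p : ℤ) := Nat.isCoprime_iff_coprime.mpr hcop
  obtain ⟨x, y, hxy⟩ := h1
  have h2 : ((x : ℤ) : A') * ((ℓ : ℕ) : A') + ((y : ℤ) : A') * ((p : ℕ) : A') = 1 := by
    have := congrArg (Int.cast : ℤ → A') hxy
    push_cast at this
    exact this
  have hpmax : ((p : ℕ) : A') ∈ IsLocalRing.maximalIdeal A' := by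
    apply ValuationSubring.coe_mem_nonunits_iff.mp
    have : (((p : ℕ) : A') : Qbar) = (p : Qbar) := by push_cast; rfl
    rw [this]
    exact hpA
  have h3 : IsUnit (((x : ℤ) : A') * ((ℓ : ℕ) : A')) := by
    have : ((x : ℤ) : A') * ((ℓ : ℕ) : A') = 1 - ((y : ℤ) : A') * ((p : ℕ) : A') := by
      rw [← h2]; ring
    rw [this]
    exact IsLocalRing.isUnit_one_sub_self_of_mem_nonunits _
      ((IsLocalRing.mem_maximalIdeal _).mp (Ideal.mul_mem_left _ _ hpmax))
  have h4 : IsUnit ((ℓ : ℕ) : A') := isUnit_of_mul_isUnit_right h3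
  have h5 : (((ℓ : ℕ) : A') : Qbar) = (ℓ : Qbar) := by push_cast; rfl
  have hmem : (ℓ : Qbar) ∈ A' := by rw [← h5]; exact ((ℓ : ℕ) : A').2
  have h6 : IsUnit (⟨(ℓ : Qbar), hmem⟩ : A') := by
    have : (⟨(ℓ : Qbar), hmem⟩ : A') = ((ℓ : ℕ) : A') := Subtype.ext h5.symm
    rw [this]
    exact h4
  exact Fermat.Agent.M1.Car.Centre99.inv_mem_of_isUnit A' hmem h6

/-! ### (AV) -/

section Main

variable [Algebra R L] [IsScalarTower R L (FK N L)]
variable {p : ℕ} [NeZero p] {hpN : p ∣ N} {jL uL : FK N L}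

/-- **(AV)**: `div (bc h) = T_ℓ (D̄) - a D̄`, `D` avoiding the nodes and the closed points where `j` is
not regular ⟹ `h` has neither zero nor pole through a node. -/
theorem ord_eq_zero_of_through_node (M : Frame (K := L) π B0 B1 O1 O2)
    (U : UData N L π O1 O2 p hpN jL uL) (hp : p.Prime)
    (hpπ : ∃ r : R, (p : R) = π * r)
    {t : FK N L} (hint0 : ∀ x ∈ B0, IsIntegral (Algebra.adjoin R {t}) x)
    (hint1 : ∀ x ∈ B1, IsIntegral (Algebra.adjoin R {t⁻¹}) x)
    (hsep : ∀ (A' : ValuationSubring Qbar) (P : Place Qbar (Fbar N))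
      (B : Subalgebra R (FK N L)) (𝔪 : Ideal B), (B = B0 ∨ B = B1) → 𝔪.IsMaximal →
      algebraMap R B π ∈ 𝔪 → BarCentre N L A' B 𝔪 P → NonCusp A' N P → InLocal B 𝔪 jL)
    {ℓ : ℕ} [NeZero ℓ] (hℓ : ℓ.Prime) (hℓp : ℓ ≠ p)
    (hα : (heckeAlphaBar Kbar N ℓ).toRingHom.IsIntegral)
    (hβ : (heckeBetaBar Kbar N ℓ).toRingHom.IsIntegral)
    [HasPrincipalDivisors Kbar (FF (N * ℓ))]
    (D : Divisor L (FK N L))
    (hD : ∀ (B : Subalgebra R (FK N L)) (𝔪 : Ideal B), (B = B0 ∨ B = B1) → 𝔪.IsMaximal →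
      algebraMap R B π ∈ 𝔪 → (IsNode π B0 B1 O1 O2 B 𝔪 ∨ ¬ InLocal B 𝔪 jL) →
      ∀ w : Place L (FK N L), Through B 𝔪 w → D w = 0)
    {Bn : Subalgebra R (FK N L)} {𝔪₀ : Ideal Bn} (hs : IsNode π B0 B1 O1 O2 Bn 𝔪₀)
    {h : FK N L} {a : ℤ}
    (hdiv : ∀ Pb : Place Qbar (Fbar N), Pb.ord (bc N L h) =
      heckeDivBar (N := N) (ℓ := ℓ) hα hβ (extDiv N L D) Pb - a * extDiv N L D Pb) :
    ∀ w : Place L (FK N L), Through Bn 𝔪₀ w → w.ord h = 0 := by
  intro w hw
  by_contra hne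
  obtain ⟨P, rfl⟩ := resPlace_surjective N L w
  -- `D` vanishes at `w`
  have hDw : D (resPlace N L P) = 0 :=
    hD Bn 𝔪₀ hs.chart hs.max hs.pi_mem (Or.inl hs) _ hw
  have hP : P ∈ (heckeDivBar (N := N) (ℓ := ℓ) hα hβ (extDiv N L D)).support := by
    rw [Finsupp.mem_support_iff]
    intro h0
    apply hne
    rw [← ord_resPlace, hdiv P, h0, extDiv_apply, hDw, mul_zero, sub_zero]
  -- the valuation ring `A'` of `ℚbar` for which the node is THE centre of `P`
  obtain ⟨A', hc⟩ := exists_barCentre_of_through hs.max hw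
  have hRA : ∀ r : R, ((algebraMap R L r : L) : Qbar) ∈ A' := by
    intro r
    have := hc.le (algebraMap R Bn r)
    have h1 : ((algebraMap R Bn r : Bn) : FK N L) = algebraMap R (FK N L) r := rfl
    rw [h1, bc_algebraMap_R, algebraMap_mem_sideRing_iff] at this
    exact this
  have hπA : ((algebraMap R L π : L) : Qbar) ∈ A'.nonunits := by
    have := hc.nonunit (algebraMap R Bn π) hs.pi_mem
    have h1 : ((algebraMap R Bn π : Bn) : FK N L) = algebraMap R (FK N L) π := rfl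
    rw [h1, bc_algebraMap_R, not_isSUnit_algebraMap_iff (hRA π)] at this
    exact this
  have hpA : (p : Qbar) ∈ A'.nonunits := by
    obtain ⟨r, hr⟩ := hpπ
    have h1 : (p : Qbar) = ((algebraMap R L π : L) : Qbar) * ((algebraMap R L r : L) : Qbar) := by
      have := congrArg (fun x : R => ((algebraMap R L x : L) : Qbar)) hr
      simp only [map_natCast, map_mul] at this
      exact_mod_cast this
    rw [h1]
    have hmax : (⟨_, hRA π⟩ : A') ∈ IsLocalRing.maximalIdeal A' :=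
      ValuationSubring.coe_mem_nonunits_iff.mp hπA
    have := Ideal.mul_mem_right (⟨_, hRA r⟩ : A') _ hmax
    exact ValuationSubring.coe_mem_nonunits_iff.mpr this
  have hℓA : ((ℓ : Qbar))⁻¹ ∈ A' :=
    inv_natCast_mem_of_coprime A' ((Nat.coprime_primes hℓ hp).mpr hℓp) hpA
  -- all the points of `D̄` are ordinary
  have hsupp : ∀ v ∈ (extDiv N L D).support, OrdInf A' p N hpN v ∨ OrdZero A' p N hpN v := by
    intro v hv
    rw [Finsupp.mem_support_iff, extDiv_apply] at hv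
    have hRS : ∀ r : R, bc N L (algebraMap R (FK N L) r) ∈ sideRing A' N v := fun r => by
      rw [bc_algebraMap_R, algebraMap_mem_sideRing_iff]
      exact hRA r
    have hπS : ¬ IsSUnit N A' v (bc N L (algebraMap R (FK N L) π)) := by
      rw [bc_algebraMap_R, not_isSUnit_algebraMap_iff (hRA π)]
      exact hπA
    -- one chart at a time
    have key : ∀ (B : Subalgebra R (FK N L)) (s : FK N L), (B = B0 ∨ B = B1) →
        (∀ x ∈ B, IsIntegral (Algebra.adjoin R {s}) x) → bc N L s ∈ sideRing A' N v →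
        OrdInf A' p N hpN v ∨ OrdZero A' p N hpN v := by
      intro B s hB hint hsS
      obtain ⟨𝔪', h𝔪', hπ𝔪', hwc⟩ :=
        exists_weakCentre_of_le (π := π) (bc_mem_of_chart hint hRS hsS) hπS
      have hthr := hwc.through
      have hgood : ¬ (IsNode π B0 B1 O1 O2 B 𝔪' ∨ ¬ InLocal B 𝔪' jL) := fun hbad =>
        hv (hD B 𝔪' hB h𝔪' hπ𝔪' hbad _ hthr)
      rw [not_or, not_not] at hgood
      exact isOrd_of_weakCentre M U hp hB h𝔪' hπ𝔪' hwc hgood.2 hgood.1
    rcases SideBranch18.mem_or_inv_mem A' v (bc N L t) with ht | ht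
    · exact key B0 t (Or.inl rfl) hint0 ht
    · rw [← map_inv₀] at ht
      exact key B1 t⁻¹ (Or.inr rfl) hint1 ht
  have hPord := isOrd_heckeDivBar A' p ℓ hα hβ hℓ hℓA hpN (extDiv N L D) hsupp P hP
  -- contradiction at the node
  have hj : InLocal Bn 𝔪₀ jL := hsep A' P Bn 𝔪₀ hs.chart hs.max hs.pi_mem hc
    (hPord.elim (fun h => h.1) (fun h => h.1))
  rcases hPord with h1 | h1
  · exact hs.on2 (off2_of_ordInf M U hp hs.chart hs.max hs.pi_mem hc hj h1)
  · exact hs.on1 (off1_of_ordZero M U hp hs.chart hs.max hs.pi_mem hc hj h1)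

end Main

end Fermat.Agent.M1.NRM.SideAvoid18
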