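/-
M1 (S44), chapter NRM (helper18): **NODE-TERM, final citation file** (frame of `ES/N34/ModelDefs9`,
level `M' * q`, `R = A ∩ L`).  With helper16's `CuspSepR16` (the polynomials `denR, numR, denInfR,
numInfR ∈ R[X]`: `j = numR(t)/denR(t) = numInfR(1/t)/denInfR(1/t)`) all the cusp-separation
hypotheses of `NodeTermFinal18.hnode_of_good` / `NodeTermGood18.exists_good_rep` are discharged.

* `GoodModel hb hnA Nd D` : `D` avoids the nodes and the zeros of `denR(t)`, `denInfR(1/t)`;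
* `hsep_model` : the hypothesis `hsep` of (AV) in the frame of `ModelDefs9`;
* `exists_goodModel_rep` : **`hrep` of `Old/T4MainRep60`** for `Good := GoodModel ..`;
* `hnode_goodModel` : **`hnode` of `Old/T4MainRep60`** for `Good := GoodModel ..` (for one `D`
  with `T_l [D] = a [D]`, `q ∤ l + 1 - a`).
-/
import Mathlib
import Fermat.Agent.M1.NRM.NodeTermFinal18
import Fermat.Agent.M1.NRM.CuspSepR16

set_option autoImplicit false
set_option linter.unusedSectionVars false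
set_option linter.style.haveILetI false
set_option synthInstance.maxHeartbeats 400000
set_option maxHeartbeats 800000

noncomputable section

namespace Fermat.Agent.M1.NRM.SideAvoidFinal18

open AlgebraicCurve ModularCurve Polynomial
open Fermat.Agent.X0 Fermat.Agent.X0.Analytic Fermat.Agent.X0.FF Fermat.Agent.RED.Interface4
open Fermat.Agent.RED.PUR.GaussGen8
open Fermat.Agent.RED.BASE.Hauptmodul12 Fermat.Agent.RED.BASE.EtaQuot12
open Fermat.Agent.ES.N34.NodalCore13 Fermat.Agent.ES.N34.NumData13 Fermat.Agent.ES.N34.ModelDefs9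
open Fermat.Agent.M1.Car.Fibre25 Fermat.Agent.M1.Car.RatClass25
open Fermat.Agent.M1.Car.Defs43 Fermat.Agent.M1.Mon.WildPL43 Fermat.Agent.M1.Car.NodeFrame58
open Fermat.Agent.M1.NRM.SidePart18 Fermat.Agent.M1.NRM.Side18 Fermat.Agent.M1.NRM.CompRing18
open Fermat.Agent.M1.NRM.SideBranch18 Fermat.Agent.M1.NRM.SideAvoid18
open Fermat.Agent.M1.NRM.SideAvoidWire18 Fermat.Agent.M1.NRM.SideAvoidModel18
open Fermat.Agent.M1.NRM.NodeTermGood18 Fermat.Agent.M1.NRM.NodeTermFinal18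
open Fermat.Agent.M1.NRM.CuspSepR16
open Fermat.Agent.M1.Fib.Constants98 Fermat.Agent.M1.Fib.FrameInst98

/-- Shortcut to the instance found (slowly) by instance search. -/
local instance (priority := 5000) algKFK (M : ℕ) (K : IntermediateField ℚ Qbar) :
    Algebra K (FK M K) := SubalgebraClass.toAlgebra (FK M K)

variable {A : ValuationSubring Qbar} {L : IntermediateField ℚ Qbar} [FiniteDimensional ℚ L]
  {M' q : ℕ} [NeZero M'] [NeZero q] [NeZero (M' * q)]
  {n e₀ : ℕ} [NeZero n] (hb : BaseHyp n e₀) (hnA : ((n : Kbar))⁻¹ ∈ A)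
  {ht : tq (↥L) n e₀ ∈ FK M' L} {π : ↥(AK A L)}
  {hπ : IsUnif (AK A L) π} {hE : FK (M' * q) L ≤ fracField (AK A L)}

/-- **Good position in the frame of `ModelDefs9`**: `D` avoids the nodes and the closed points of the
special fibre over the cusp values (zeros of `denR(t)` on `B0`, of `denInfR(1/t)` on `B1`). -/
def GoodModel
    (Nd : NodalNumData ↥(AK A L) ↥L ↥(FK (M' * q) L) π (tN q ht) (B0 A q ht) (B1 A q ht)
      (O1 M' q hπ hE) (O2 M' q hπ hE))
    (D : Divisor L (FK (M' * q) L)) : Prop :=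
  Good π (B0 A q ht) (B1 A q ht) (O1 M' q hπ hE) (O2 M' q hπ hE) Nd.model.t_mem
    Nd.model.tinv_mem (denR hb A hnA L) (denInfR hb A hnA L) D

include hb hnA in
/-- **the hypothesis `hsep` of (AV) in the frame of `ModelDefs9`.** -/
theorem hsep_model (hnM : n ∣ M') (hcop : Nat.Coprime n q) (hchar : π ∣ (q : ↥(AK A L)))
    (ht0 : tN q ht ∈ B0 A q ht) (ht1 : (tN q ht)⁻¹ ∈ B1 A q ht)
    {jL : FK (M' * q) L} (hj : (jL : LaurentSeries L) = jqModC (↥L)) :
    ∀ (A' : ValuationSubring Qbar) (P : Place Qbar (Fbar (M' * q)))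
      (B : Subalgebra ↥(AK A L) (FK (M' * q) L)) (𝔪 : Ideal B),
      (B = B0 A q ht ∨ B = B1 A q ht) → 𝔪.IsMaximal → algebraMap ↥(AK A L) B π ∈ 𝔪 →
      BarCentre (M' * q) L A' B 𝔪 P → NonCusp A' (M' * q) P → InLocal B 𝔪 jL :=
  hsep_of_sepK ht0 ht1
    (hrel0 hb A hnA L (tN q ht) jL (coe_tN q ht) hj)
    (hE0 hb A hnA L (tN q ht) jL (coe_tN q ht) hj)
    (hrel1 hb A hnA L (tN q ht) jL (coe_tN q ht) hj)
    (hE1 hb A hnA L (tN q ht) jL (coe_tN q ht) hj)
    (hsep0 hb A hnA L (tN q ht) (coe_tN q ht) hcop hchar (hnM.mul_right q))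
    (hsep1 hb A hnA L (tN q ht) (coe_tN q ht) hcop hchar (hnM.mul_right q))

/-- **`hrep` of `Old/T4MainRep60`**: every class of `Cart 0` has a level-`0` representative in good
position. -/
theorem exists_goodModel_rep
    (Nd : NodalNumData ↥(AK A L) ↥L ↥(FK (M' * q) L) π (tN q ht) (B0 A q ht) (B1 A q ht)
      (O1 M' q hπ hE) (O2 M' q hπ hE))
    [Finite (↥(AK A L) ⧸ (Ideal.span {π} : Ideal ↥(AK A L)))]
    (hne : O1 M' q hπ hE ≠ O2 M' q hπ hE)
    {hπ1 : algebraMap ↥(AK A L) (FK (M' * q) L) π ∈ O1 M' q hπ hE}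
    {hπ2 : algebraMap ↥(AK A L) (FK (M' * q) L) π ∈ O2 M' q hπ hE}
    {x : Pic0 L (FK (M' * q) L)}
    (hx : x ∈ Cart π (B0 A q ht) (B1 A q ht) (O1 M' q hπ hE) (O2 M' q hπ hE) hπ1 hπ2 0) :
    ∃ D : Divisor.degZero (K := L) (F := FK (M' * q) L), Pic0.mk D = x ∧
      HasLevel π (B0 A q ht) (B1 A q ht) (O1 M' q hπ hE) (O2 M' q hπ hE) 0
        (D : Divisor L (FK (M' * q) L)) ∧
      GoodModel hb hnA Nd (D : Divisor L (FK (M' * q) L)) := by
  have hI : (Ideal.span {π} : Ideal ↥(AK A L)) ≠ ⊤ := by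
    rw [Ne, Ideal.span_singleton_eq_top]
    exact Fermat.Agent.M1.Car.ResidueFin53.not_isUnit_pi Nd
  exact exists_good_rep Nd hne (map_denR_ne_zero hb A hnA L hI) (map_denInfR_ne_zero hb A hnA L hI)
    hx

/-- **`hnode` of `Old/T4MainRep60`** for a divisor in good position with `T_l [D] = a [D]`,
`q ∤ l + 1 - a`. -/
theorem hnode_goodModel (hnM : n ∣ M') (hcop : Nat.Coprime n q)
    (Nd : NodalNumData ↥(AK A L) ↥L ↥(FK (M' * q) L) π (tN q ht) (B0 A q ht) (B1 A q ht)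
      (O1 M' q hπ hE) (O2 M' q hπ hE))
    (hac1 : ResidueAlgClosed π (O1 M' q hπ hE)) (hac2 : ResidueAlgClosed π (O2 M' q hπ hE))
    {e : ℕ} (hth : ThickNodes π (B0 A q ht) (B1 A q ht) (O1 M' q hπ hE) (O2 M' q hπ hE) e)
    {Bn : Subalgebra ↥(AK A L) ↥(FK (M' * q) L)} {𝔪₀ : Ideal Bn}
    (hs : IsNode π (B0 A q ht) (B1 A q ht) (O1 M' q hπ hE) (O2 M' q hπ hE) Bn 𝔪₀)
    (l : Nat.Primes) (hlN : ¬ (l : ℕ) ∣ M' * q) (hq : q.Prime) (hlq : (l : ℕ) ≠ q)
    (hA : A.LiesOverPrime q) (hchar : π ∣ (q : ↥(AK A L)))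
    (a : ℤ) (ha : ¬ (q : ℤ) ∣ ((l : ℕ) : ℤ) + 1 - a)
    {jL : FK (M' * q) L} (hj : (jL : LaurentSeries L) = jqModC (↥L))
    (D : Divisor.degZero (K := L) (F := FK (M' * q) L))
    (heig : heckeOperatorBar (M' * q) l (bcPic0 (M' * q) L (Pic0.mk D)) =
      a • bcPic0 (M' * q) L (Pic0.mk D))
    (hG : GoodModel hb hnA Nd (D : Divisor L (FK (M' * q) L))) :
    ∀ f : FK (M' * q) L, f ≠ 0 →
      (∀ P : Place L (FK (M' * q) L), (q • (D : Divisor L (FK (M' * q) L))) P = P.ord f) →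
      (O1 M' q hπ hE).valuation f = 1 →
      ∃ b' : ℤ, (O2 M' q hπ hE).valuation f =
        (O2 M' q hπ hE).valuation (algebraMap ↥(AK A L) ↥(FK (M' * q) L) π) ^
          ((e : ℤ) * q * b') :=
  hnode_of_good hπ hE Nd hac1 hac2 hth hs l hlN hq hlq hA hchar a ha hj
    (hsep_model hb hnA hnM hcop hchar Nd.model.t_mem Nd.model.tinv_mem hj)
    (hrel0 hb A hnA L (tN q ht) jL (coe_tN q ht) hj)
    (hrel1 hb A hnA L (tN q ht) jL (coe_tN q ht) hj) D heig hG

end Fermat.Agent.M1.NRM.SideAvoidFinal18
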